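/-
Area Pic (towards S25): invertible sheaves glued from cocycles, and the description of maps out of
them by families of sections.
-/
import Mathlib
import Fermat.Prelude.Def_AlgebraicGeometry_RelativePicardFunctor

set_option autoImplicit false

noncomputable section

universe u

open CategoryTheory CategoryTheory.Limits AlgebraicGeometry TopologicalSpace Opposite

namespace FLTAgent.RelPic

variable {X : Scheme.{u}}

/-- Restriction of functions. -/
abbrev rs {U V : X.Opens} (h : V ≤ U) : Γ(X, U) →+* Γ(X, V) :=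
  (X.presheaf.map (homOfLE h).op).hom

lemma rs_rs {U V W : X.Opens} (h : V ≤ U) (h' : W ≤ V) (a : Γ(X, U)) :
    rs h' (rs h a) = rs (h'.trans h) a := by
  show (X.presheaf.map (homOfLE h).op ≫ X.presheaf.map (homOfLE h').op).hom a = _
  rw [← X.presheaf.map_comp]
  rfl

lemma rs_self {U : X.Opens} (a : Γ(X, U)) : rs (le_refl U) a = a := by
  show (X.presheaf.map (homOfLE (le_refl U)).op).hom a = a
  simp

lemma rs_ext {U : X.Opens} {ι : Type*} (V : ι → X.Opens) (hV : ∀ i, V i ≤ U)
    (hcov : ∀ x ∈ U, ∃ i, x ∈ V i) (a b : Γ(X, U)) (h : ∀ i, rs (hV i) a = rs (hV i) b) : a = b :=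
  X.sheaf.eq_of_locally_eq' V U (fun i => homOfLE (hV i))
    (fun x hx => Opens.mem_iSup.mpr (hcov x hx)) a b h

lemma rs_glue {U : X.Opens} {ι : Type u} (V : ι → X.Opens) (hV : ∀ i, V i ≤ U)
    (hcov : ∀ x ∈ U, ∃ i, x ∈ V i) (s : ∀ i, Γ(X, V i))
    (h : ∀ i j, rs (U := V i) inf_le_left (s i) = rs (U := V j) inf_le_right (s j)) :
    ∃ a : Γ(X, U), ∀ i, rs (hV i) a = s i := by
  obtain ⟨a, ha, -⟩ := X.sheaf.existsUnique_gluing' V U (fun i => homOfLE (hV i))
    (fun x hx => Opens.mem_iSup.mpr (hcov x hx)) s h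
  exact ⟨a, ha⟩

/-- Functions on an intersection as an algebra over functions on the first open. -/
instance algRes (V U : X.Opens) : Algebra Γ(X, V) Γ(X, V ⊓ U) :=
  (rs (inf_le_left : V ⊓ U ≤ V)).toAlgebra

/-- A cocycle of units on an open cover. -/
structure Cocycle (X : Scheme.{u}) : Type (u + 1) where
  /-- The index type. -/
  ι : Type u
  /-- The cover. -/
  U : ι → X.Opens
  cover : ∀ x : X, ∃ i, x ∈ U i
  /-- The transition functions. -/
  g : ∀ i j, Γ(X, U i ⊓ U j)
  isUnit : ∀ i j, IsUnit (g i j)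
  mul_eq : ∀ i j k (W : X.Opens) (hi : W ≤ U i) (hj : W ≤ U j) (hk : W ≤ U k),
    rs (le_inf hi hj) (g i j) * rs (le_inf hj hk) (g j k) = rs (le_inf hi hk) (g i k)

namespace Cocycle

variable (c : Cocycle X)

lemma self_eq_one (i : c.ι) (W : X.Opens) (hi : W ≤ c.U i) :
    rs (le_inf hi hi) (c.g i i) = 1 := by
  have h := c.mul_eq i i i W hi hi hi
  exact ((c.isUnit i i).map (rs (le_inf hi hi))).mul_left_cancel (h.trans (mul_one _).symm)

lemma symm_mul (i j : c.ι) (W : X.Opens) (hi : W ≤ c.U i) (hj : W ≤ c.U j) :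
    rs (le_inf hi hj) (c.g i j) * rs (le_inf hj hi) (c.g j i) = 1 :=
  (c.mul_eq i j i W hi hj hi).trans (c.self_eq_one i W hi)

/-- The sections of the glued sheaf. -/
def secs (V : X.Opens) : Submodule Γ(X, V) (∀ i, Γ(X, V ⊓ c.U i)) :=
  { carrier := {s | ∀ i j (W : X.Opens) (hV : W ≤ V) (hi : W ≤ c.U i) (hj : W ≤ c.U j),
      rs (le_inf hV hi) (s i) = rs (le_inf hi hj) (c.g i j) * rs (le_inf hV hj) (s j)}
    add_mem' := fun {s t} hs ht i j W hV hi hj => by
      simp only [Pi.add_apply, map_add, hs i j W hV hi hj, ht i j W hV hi hj, mul_add]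
    zero_mem' := fun i j W hV hi hj => by simp
    smul_mem' := fun a s hs i j W hV hi hj => by
      simp only [Pi.smul_apply, Algebra.smul_def, RingHom.algebraMap_toAlgebra, map_mul, rs_rs,
        hs i j W hV hi hj]
      ring }

lemma mem_secs {V : X.Opens} {s : ∀ i, Γ(X, V ⊓ c.U i)} :
    s ∈ c.secs V ↔ ∀ i j (W : X.Opens) (hV : W ≤ V) (hi : W ≤ c.U i) (hj : W ≤ c.U j),
      rs (le_inf hV hi) (s i) = rs (le_inf hi hj) (c.g i j) * rs (le_inf hV hj) (s j) :=
  Iff.rfl

lemma smul_secs_apply {V : X.Opens} (a : Γ(X, V)) (s : c.secs V) (i : c.ι) :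
    (a • s).1 i = rs inf_le_left a * s.1 i := rfl

/-- Restriction of sections. -/
def secsMap {V V' : X.Opens} (h : V' ≤ V) : c.secs V →+ c.secs V' where
  toFun s := ⟨fun i => rs (inf_le_inf_right _ h) (s.1 i), fun i j W hV hi hj => by
    simp only [rs_rs]
    exact s.2 i j W (hV.trans h) hi hj⟩
  map_zero' := Subtype.ext (funext fun i => map_zero _)
  map_add' s t := Subtype.ext (funext fun i => map_add _ _ _)

lemma secsMap_smul {V V' : X.Opens} (h : V' ≤ V) (a : Γ(X, V)) (s : c.secs V) :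
    c.secsMap h (a • s) = rs h a • c.secsMap h s := by
  refine Subtype.ext (funext fun i => ?_)
  show rs _ ((a • s).1 i) = _
  rw [smul_secs_apply, smul_secs_apply, map_mul, rs_rs, rs_rs]
  rfl

/-- The underlying presheaf of abelian groups. -/
def abPresheaf : (Opens X)ᵒᵖ ⥤ Ab.{u} where
  obj V := AddCommGrpCat.of (c.secs V.unop)
  map f := AddCommGrpCat.ofHom (c.secsMap f.unop.le)
  map_id V := by
    ext s i
    exact rs_self (s.1 i)
  map_comp f g := by
    ext s i
    exact (rs_rs (inf_le_inf_right _ f.unop.le) (inf_le_inf_right _ g.unop.le) (s.1 i)).symm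

instance moduleSecs (V : (Opens X)ᵒᵖ) :
    Module (X.ringCatSheaf.obj.obj V) (c.abPresheaf.obj V) :=
  inferInstanceAs (Module Γ(X, V.unop) (c.secs V.unop))

/-- The glued presheaf of modules. -/
def presheafOfModules : PresheafOfModules.{u} X.ringCatSheaf.obj :=
  PresheafOfModules.ofPresheaf c.abPresheaf fun _ _ f a s => c.secsMap_smul f.unop.le a s

lemma isSheaf_abPresheaf : TopCat.Presheaf.IsSheaf (C := Ab.{u}) c.abPresheaf := by
  rw [TopCat.Presheaf.isSheaf_iff_isSheafUniqueGluing]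
  intro κ V s hs
  have hsI : ∀ i, ∃ a : Γ(X, iSup V ⊓ c.U i),
      ∀ k, rs (inf_le_inf_right _ (le_iSup V k)) a = (s k).1 i := by
    intro i
    refine rs_glue (fun k => V k ⊓ c.U i) _ (fun x hx => ?_) _ fun k l => ?_
    · obtain ⟨k, hk⟩ := Opens.mem_iSup.mp hx.1
      exact ⟨k, hk, hx.2⟩
    · have h := congrArg (fun t : c.secs (V k ⊓ V l) => t.1 i) (hs k l)
      have h' := congrArg (rs (le_inf (le_inf (inf_le_left.trans inf_le_left)
        (inf_le_right.trans inf_le_left)) (inf_le_left.trans inf_le_right) :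
          (V k ⊓ c.U i) ⊓ (V l ⊓ c.U i) ≤ (V k ⊓ V l) ⊓ c.U i)) h
      exact ((rs_rs _ _ _).symm.trans h').trans (rs_rs _ _ _)
  choose a ha using hsI
  refine ⟨⟨a, fun i j W hW hi hj => ?_⟩, fun k => Subtype.ext (funext fun i => ha i k),
    fun b hb => Subtype.ext (funext fun i => ?_)⟩
  · refine rs_ext (fun k => W ⊓ V k) (fun k => inf_le_left) (fun x hx => ?_) _ _ fun k => ?_
    · obtain ⟨k, hk⟩ := Opens.mem_iSup.mp (hW hx)
      exact ⟨k, hx, hk⟩
    · have h := (s k).2 i j (W ⊓ V k) inf_le_right (inf_le_left.trans hi) (inf_le_left.trans hj)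
      rw [← ha, ← ha, rs_rs, rs_rs] at h
      simp only [map_mul, rs_rs]
      exact h
  · refine rs_ext (fun k => V k ⊓ c.U i) (fun k => inf_le_inf_right _ (le_iSup V k))
      (fun x hx => ?_) _ _ fun k => ?_
    · obtain ⟨k, hk⟩ := Opens.mem_iSup.mp hx.1
      exact ⟨k, hk, hx.2⟩
    · exact (congrFun (congrArg Subtype.val (hb k)) i).trans (ha i k).symm

/-- The sheaf glued from a cocycle. -/
def module : X.Modules where
  val := c.presheafOfModules
  isSheaf := c.isSheaf_abPresheaf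

/-- The frame of the glued sheaf on a member of the cover. -/
def frame (i : c.ι) : c.secs (c.U i) :=
  ⟨fun j => rs (le_inf inf_le_right inf_le_left) (c.g j i), fun j k W hV hj hk => by
    simp only [rs_rs]
    exact (c.mul_eq j k i W hj hk hV).symm⟩

lemma eq_smul_frame {V : X.Opens} (i : c.ι) (h : V ≤ c.U i) (s : c.secs V) :
    s = rs (le_inf le_rfl h) (s.1 i) • c.secsMap h (c.frame i) := by
  refine Subtype.ext (funext fun j => ?_)
  rw [smul_secs_apply]
  show s.1 j = _ * rs _ (rs _ (c.g j i))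
  rw [rs_rs, rs_rs, mul_comm, ← s.2 j i (V ⊓ c.U j) inf_le_left inf_le_right
    (inf_le_left.trans h), rs_self]

lemma frame_transition (i j : c.ι) (W : X.Opens) (hi : W ≤ c.U i) (hj : W ≤ c.U j) :
    c.secsMap hj (c.frame j) = rs (le_inf hi hj) (c.g i j) • c.secsMap hi (c.frame i) := by
  refine Subtype.ext (funext fun k => ?_)
  rw [smul_secs_apply]
  show rs _ (rs _ (c.g k j)) = rs _ (rs _ (c.g i j)) * rs _ (rs _ (c.g k i))
  simp only [rs_rs]
  rw [mul_comm]
  exact (c.mul_eq k i j (W ⊓ c.U k) inf_le_right (inf_le_left.trans hi)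
    (inf_le_left.trans hj)).symm

end Cocycle

/-- Restriction of sections of a module. -/
abbrev mrs (M : X.Modules) {U V : X.Opens} (h : V ≤ U) : Γ(M, U) →+ Γ(M, V) :=
  (M.presheaf.map (homOfLE h).op).hom

lemma mrs_mrs (M : X.Modules) {U V W : X.Opens} (h : V ≤ U) (h' : W ≤ V) (a : Γ(M, U)) :
    mrs M h' (mrs M h a) = mrs M (h'.trans h) a := by
  show (M.presheaf.map (homOfLE h).op ≫ M.presheaf.map (homOfLE h').op).hom a = _
  rw [← M.presheaf.map_comp]
  rfl

lemma mrs_self (M : X.Modules) {U : X.Opens} (a : Γ(M, U)) : mrs M (le_refl U) a = a := by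
  show (M.presheaf.map (homOfLE (le_refl U)).op).hom a = a
  simp

lemma mrs_smul (M : X.Modules) {U V : X.Opens} (h : V ≤ U) (r : Γ(X, U)) (a : Γ(M, U)) :
    mrs M h (r • a) = rs h r • mrs M h a :=
  M.map_smul (homOfLE h) r a

lemma mrs_ext (M : X.Modules) {U : X.Opens} {ι : Type*} (V : ι → X.Opens) (hV : ∀ i, V i ≤ U)
    (hcov : ∀ x ∈ U, ∃ i, x ∈ V i) (a b : Γ(M, U)) (h : ∀ i, mrs M (hV i) a = mrs M (hV i) b) :
    a = b :=
  TopCat.Sheaf.eq_of_locally_eq' ⟨M.presheaf, M.isSheaf⟩ V U (fun i => homOfLE (hV i))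
    (fun x hx => Opens.mem_iSup.mpr (hcov x hx)) a b h

lemma mrs_glue (M : X.Modules) {U : X.Opens} {ι : Type u} (V : ι → X.Opens) (hV : ∀ i, V i ≤ U)
    (hcov : ∀ x ∈ U, ∃ i, x ∈ V i) (s : ∀ i, Γ(M, V i))
    (h : ∀ i j, mrs M (U := V i) inf_le_left (s i) = mrs M (U := V j) inf_le_right (s j)) :
    ∃ a : Γ(M, U), ∀ i, mrs M (hV i) a = s i := by
  obtain ⟨a, ha, -⟩ := TopCat.Sheaf.existsUnique_gluing' ⟨M.presheaf, M.isSheaf⟩ V U
    (fun i => homOfLE (hV i)) (fun x hx => Opens.mem_iSup.mpr (hcov x hx)) s h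
  exact ⟨a, ha⟩

namespace Cocycle

variable (c : Cocycle X) {N : X.Modules}

/-- Families of sections compatible with a cocycle. -/
def Compat (N : X.Modules) : Type u :=
  {n : ∀ i, Γ(N, c.U i) // ∀ i j (W : X.Opens) (hi : W ≤ c.U i) (hj : W ≤ c.U j),
    mrs N hj (n j) = rs (le_inf hi hj) (c.g i j) • mrs N hi (n i)}

/-- A section of the glued sheaf, as a section of the module. -/
def toSec {V : X.Opens} (s : c.secs V) : Γ(c.module, V) := s

lemma frame_compat (i j : c.ι) (W : X.Opens) (hi : W ≤ c.U i) (hj : W ≤ c.U j) :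
    mrs c.module hj (c.toSec (c.frame j)) =
      rs (le_inf hi hj) (c.g i j) • mrs c.module hi (c.toSec (c.frame i)) :=
  c.frame_transition i j W hi hj

lemma exists_lift (n : c.Compat N) (V : X.Opens) (s : c.secs V) :
    ∃! a : Γ(N, V), ∀ i, mrs N (inf_le_left : V ⊓ c.U i ≤ V) a =
      s.1 i • mrs N inf_le_right (n.1 i) := by
  obtain ⟨a, ha⟩ := mrs_glue N (fun i => V ⊓ c.U i) (fun i => inf_le_left)
    (fun x hx => (c.cover x).imp fun i hi => ⟨hx, hi⟩)
    (fun i => s.1 i • mrs N inf_le_right (n.1 i)) fun i j => by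
      simp only [mrs_smul, mrs_mrs]
      rw [s.2 i j _ (inf_le_left.trans inf_le_left) (inf_le_left.trans inf_le_right)
        (inf_le_right.trans inf_le_right),
        n.2 i j _ (inf_le_left.trans inf_le_right) (inf_le_right.trans inf_le_right), smul_smul,
        mul_comm]
  exact ⟨a, ha, fun b hb => mrs_ext N _ (fun i => inf_le_left)
    (fun x hx => (c.cover x).imp fun i hi => ⟨hx, hi⟩) b a fun i => (hb i).trans (ha i).symm⟩

/-- The section attached to a compatible family. -/
def lift (n : c.Compat N) (V : X.Opens) (s : c.secs V) : Γ(N, V) :=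
  (c.exists_lift n V s).choose

lemma lift_spec (n : c.Compat N) (V : X.Opens) (s : c.secs V) (i : c.ι) :
    mrs N (inf_le_left : V ⊓ c.U i ≤ V) (c.lift n V s) = s.1 i • mrs N inf_le_right (n.1 i) :=
  (c.exists_lift n V s).choose_spec.1 i

lemma lift_eq (n : c.Compat N) {V : X.Opens} {s : c.secs V} {a : Γ(N, V)}
    (h : ∀ i, mrs N (inf_le_left : V ⊓ c.U i ≤ V) a = s.1 i • mrs N inf_le_right (n.1 i)) :
    c.lift n V s = a :=
  ((c.exists_lift n V s).choose_spec.2 a h).symm

lemma lift_add (n : c.Compat N) (V : X.Opens) (s t : c.secs V) :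
    c.lift n V (s + t) = c.lift n V s + c.lift n V t :=
  c.lift_eq n fun i => by
    rw [map_add, c.lift_spec, c.lift_spec]
    exact (add_smul (s.1 i) (t.1 i) _).symm

lemma lift_smul (n : c.Compat N) (V : X.Opens) (a : Γ(X, V)) (s : c.secs V) :
    c.lift n V (a • s) = a • c.lift n V s :=
  c.lift_eq n fun i => by
    rw [smul_secs_apply, mrs_smul, c.lift_spec, smul_smul]

lemma lift_map (n : c.Compat N) {V V' : X.Opens} (h : V' ≤ V) (s : c.secs V) :
    c.lift n V' (c.secsMap h s) = mrs N h (c.lift n V s) :=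
  c.lift_eq n fun i => by
    rw [mrs_mrs, ← mrs_mrs N (inf_le_left : V ⊓ c.U i ≤ V) (inf_le_inf_right _ h), c.lift_spec,
      mrs_smul, mrs_mrs]
    rfl

/-- The map out of the glued sheaf given by a compatible family. -/
def desc (n : c.Compat N) : c.module ⟶ N :=
  ⟨PresheafOfModules.homMk (M₁ := c.presheafOfModules) (M₂ := N.val)
    { app := fun V => AddCommGrpCat.ofHom
        (AddMonoidHom.mk' (fun s : c.secs V.unop => c.lift n V.unop s) (c.lift_add n V.unop))
      naturality := fun V V' f => by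
        ext s
        exact c.lift_map n f.unop.le s }
    fun V a s => c.lift_smul n V.unop a s⟩

/-- The family attached to a map out of the glued sheaf. -/
def family (φ : c.module ⟶ N) : c.Compat N :=
  ⟨fun i => φ.app (c.U i) (c.toSec (c.frame i)), fun i j W hi hj => by
    have hn : ∀ (k : c.ι) (h : W ≤ c.U k), mrs N h (φ.app (c.U k) (c.toSec (c.frame k))) =
        φ.app W (mrs c.module h (c.toSec (c.frame k))) := fun k h =>
      (congr($(φ.mapPresheaf.naturality (homOfLE h).op) (c.toSec (c.frame k)))).symm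
    rw [hn, hn, c.frame_compat i j W hi hj, Scheme.Modules.Hom.app_smul]⟩

lemma desc_app_frame (n : c.Compat N) (i : c.ι) :
    (c.desc n).app (c.U i) (c.toSec (c.frame i)) = n.1 i := by
  refine c.lift_eq n fun j => ?_
  show _ = rs _ (c.g j i) • _
  exact n.2 j i _ inf_le_right inf_le_left

lemma hom_ext' {φ ψ : c.module ⟶ N}
    (h : ∀ i, φ.app (c.U i) (c.toSec (c.frame i)) = ψ.app (c.U i) (c.toSec (c.frame i))) :
    φ = ψ := by
  refine Scheme.Modules.hom_ext φ ψ fun V => ?_
  ext s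
  refine mrs_ext N (fun i => V ⊓ c.U i) (fun i => inf_le_left)
    (fun x hx => (c.cover x).imp fun i hi => ⟨hx, hi⟩) _ _ fun i => ?_
  have hn : ∀ (χ : c.module ⟶ N) {A B : X.Opens} (hAB : B ≤ A) (t : Γ(c.module, A)),
      mrs N hAB (χ.app A t) = χ.app B (mrs c.module hAB t) := fun χ A B hAB t =>
    (congr($(χ.mapPresheaf.naturality (homOfLE hAB).op) t)).symm
  rw [hn, hn]
  rw [show mrs c.module (inf_le_left : V ⊓ c.U i ≤ V) s =
    rs (le_inf le_rfl inf_le_right) ((c.secsMap inf_le_left s).1 i) •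
      mrs c.module inf_le_right (c.toSec (c.frame i)) from
    c.eq_smul_frame i inf_le_right (c.secsMap inf_le_left s)]
  rw [Scheme.Modules.Hom.app_smul, Scheme.Modules.Hom.app_smul, ← hn, ← hn, h i]

/-- Maps out of the glued sheaf are compatible families of sections. -/
def homEquiv (N : X.Modules) : (c.module ⟶ N) ≃ c.Compat N where
  toFun := c.family
  invFun := c.desc
  left_inv φ := c.hom_ext' fun i => c.desc_app_frame _ i
  right_inv n := Subtype.ext (funext fun i => c.desc_app_frame n i)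

end Cocycle

end FLTAgent.RelPic
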