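/-
Area Pic (towards S25): frames of invertible sheaves and the dictionary with cocycles.
-/
import Fermat.Agent.RelPic.Glue

set_option autoImplicit false

noncomputable section

universe u

open CategoryTheory CategoryTheory.Limits AlgebraicGeometry TopologicalSpace Opposite

namespace FLTAgent.RelPic

variable {X : Scheme.{u}} {M N : X.Modules}

lemma app_mrs (φ : M ⟶ N) {U V : X.Opens} (h : V ≤ U) (a : Γ(M, U)) :
    mrs N h (φ.app U a) = φ.app V (mrs M h a) :=
  (congr($(φ.mapPresheaf.naturality (homOfLE h).op) a)).symm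

/-- The structure sheaf, as a module. -/
abbrev unitM (X : Scheme.{u}) : X.Modules := SheafOfModules.unit X.ringCatSheaf

/-- A section generating a module freely over every smaller open. -/
def IsFrame (M : X.Modules) {U : X.Opens} (e : Γ(M, U)) : Prop :=
  ∀ (W : X.Opens) (h : W ≤ U), Function.Bijective fun a : Γ(X, W) => a • mrs M h e

namespace IsFrame

variable {U : X.Opens} {e : Γ(M, U)}

lemma ext (he : IsFrame M e) {W : X.Opens} (h : W ≤ U) {a b : Γ(X, W)}
    (hab : a • mrs M h e = b • mrs M h e) : a = b :=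
  (he W h).1 hab

lemma exists_smul (he : IsFrame M e) {W : X.Opens} (h : W ≤ U) (m : Γ(M, W)) :
    ∃ a : Γ(X, W), a • mrs M h e = m :=
  (he W h).2 m

lemma restrict (he : IsFrame M e) {V : X.Opens} (h : V ≤ U) : IsFrame M (mrs M h e) :=
  fun W hW => by simpa only [mrs_mrs] using he W (hW.trans h)

lemma map (he : IsFrame M e) (φ : M ≅ N) : IsFrame N (φ.hom.app U e) := by
  intro W h
  have : (fun a : Γ(X, W) => a • mrs N h (φ.hom.app U e)) =
      (fun m => φ.hom.app W m) ∘ fun a : Γ(X, W) => a • mrs M h e := by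
    funext a
    rw [Function.comp_apply, Scheme.Modules.Hom.app_smul, app_mrs]
  rw [this]
  exact (ConcreteCategory.bijective_of_isIso (φ.hom.app W)).comp (he W h)

end IsFrame

lemma isFrame_unit (U : X.Opens) :
    IsFrame (unitM X) (U := U) (1 : Γ(X, U)) := by
  intro W h
  have : ∀ a : Γ(X, W), (a • mrs (unitM X) h
      (1 : Γ(X, U)) : Γ(X, W)) = a := fun a => by
    show a * rs h 1 = a
    rw [map_one, mul_one]
  exact ⟨fun a b hab => (this a).symm.trans (hab.trans (this b)), fun a => ⟨a, this a⟩⟩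

namespace Cocycle

variable (c : Cocycle X)

lemma isFrame (i : c.ι) : IsFrame c.module (c.toSec (c.frame i)) := by
  intro W h
  refine ⟨fun a b hab => ?_, fun s => ⟨_, (c.eq_smul_frame i h s).symm⟩⟩
  have := congrArg (fun s : c.secs W => rs (le_inf le_rfl h) (s.1 i)) hab
  change rs _ (rs _ a * rs _ (rs _ (c.g i i))) = rs _ (rs _ b * rs _ (rs _ (c.g i i))) at this
  simpa only [map_mul, rs_rs, rs_self, c.self_eq_one i W h, mul_one] using this

/-- Sections are compatible with the frames being free generators: the map out is bijective. -/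
lemma bijective_lift (n : c.Compat N) (hn : ∀ i, IsFrame N (n.1 i)) (V : X.Opens) :
    Function.Bijective (c.lift n V) := by
  refine ⟨fun s t hst => Subtype.ext (funext fun i => (hn i).ext inf_le_right ?_), fun a => ?_⟩
  · rw [← c.lift_spec, ← c.lift_spec, hst]
  choose s hs using fun i => (hn i).exists_smul (inf_le_right : V ⊓ c.U i ≤ c.U i)
    (mrs N inf_le_left a)
  refine ⟨⟨s, fun i j W hV hi hj => (hn i).ext hi ?_⟩, c.lift_eq n fun i => (hs i).symm⟩
  have h1 := congrArg (mrs N (le_inf hV hi)) (hs i)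
  have h2 := congrArg (mrs N (le_inf hV hj)) (hs j)
  simp only [mrs_smul, mrs_mrs] at h1 h2
  rw [h1, mul_comm, ← smul_smul, ← n.2 i j W hi hj, h2]

/-- The glued sheaf is isomorphic to any sheaf with frames having the same transition functions. -/
def isoOfFrames (n : c.Compat N) (hn : ∀ i, IsFrame N (n.1 i)) : c.module ≅ N :=
  haveI : IsIso (c.desc n) := Scheme.Modules.Hom.isIso_iff_isIso_app.mpr fun V =>
    (ConcreteCategory.isIso_iff_bijective _).mpr (c.bijective_lift n hn V)
  asIso (c.desc n)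

end Cocycle

/-- A module with frames on a cover is the sheaf glued from its transition functions. -/
theorem exists_cocycle_of_frames {ι : Type u} (U : ι → X.Opens)
    (e : ∀ i, Γ(M, U i)) (he : ∀ i, IsFrame M (e i)) :
    ∃ g : ∀ i j, Γ(X, U i ⊓ U j), ∃ (hg : ∀ i j, IsUnit (g i j))
      (hm : ∀ i j k (W : X.Opens) (hi : W ≤ U i) (hj : W ≤ U j) (hk : W ≤ U k),
        rs (le_inf hi hj) (g i j) * rs (le_inf hj hk) (g j k) = rs (le_inf hi hk) (g i k)),
      ∀ i j (W : X.Opens) (hi : W ≤ U i) (hj : W ≤ U j),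
        mrs M hj (e j) = rs (le_inf hi hj) (g i j) • mrs M hi (e i) := by
  choose g hg using fun i j => (he i).exists_smul (inf_le_left : U i ⊓ U j ≤ U i)
    (mrs M inf_le_right (e j))
  have key : ∀ i j (W : X.Opens) (hi : W ≤ U i) (hj : W ≤ U j),
      mrs M hj (e j) = rs (le_inf hi hj) (g i j) • mrs M hi (e i) := fun i j W hi hj => by
    have := congrArg (mrs M (le_inf hi hj)) (hg i j)
    simpa only [mrs_smul, mrs_mrs] using this.symm
  have hm : ∀ i j k (W : X.Opens) (hi : W ≤ U i) (hj : W ≤ U j) (hk : W ≤ U k),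
      rs (le_inf hi hj) (g i j) * rs (le_inf hj hk) (g j k) = rs (le_inf hi hk) (g i k) :=
    fun i j k W hi hj hk => (he i).ext hi <| by
      rw [mul_comm, ← smul_smul, ← key i j W hi hj, ← key j k W hj hk, ← key i k W hi hk]
  have hone : ∀ i (W : X.Opens) (hi : W ≤ U i), rs (le_inf hi hi) (g i i) = 1 :=
    fun i W hi => (he i).ext hi <| by rw [← key i i W hi hi, one_smul]
  refine ⟨g, fun i j => ?_, hm, key⟩
  exact IsUnit.of_mul_eq_one (rs (le_inf inf_le_right inf_le_left) (g j i)) <| by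
    have := (hm i j i _ inf_le_left inf_le_right inf_le_left).trans
      (hone i (U i ⊓ U j) inf_le_left)
    rwa [rs_self] at this

/-- An invertible module has a frame around every point. -/
theorem exists_frame (hM : Scheme.Modules.IsInvertible M) (x : X) :
    ∃ (U : X.Opens) (e : Γ(M, U)), x ∈ U ∧ IsFrame M e := by
  obtain ⟨U, hx, ⟨E⟩⟩ := hM.1 x
  let E' : M.restrict U.ι ≅ unitM U.toScheme :=
    (Scheme.Modules.restrictFunctorIsoPullback U.ι).app M ≪≫ E
  refine ⟨U.ι ''ᵁ ⊤, (M.restrictAppIso U.ι ⊤).hom (E'.inv.app ⊤ (1 : Γ(U.toScheme, ⊤))), ?_, ?_⟩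
  · rw [Scheme.Hom.image_top_eq_opensRange, Scheme.Opens.opensRange_ι]
    exact hx
  intro W h
  obtain ⟨W', rfl⟩ : ∃ W' : U.toScheme.Opens, U.ι ''ᵁ W' = W := by
    refine ⟨U.ι ⁻¹ᵁ W, ?_⟩
    rw [Scheme.Hom.image_preimage_eq_opensRange_inf, inf_eq_right,
      ← Scheme.Hom.image_top_eq_opensRange]
    exact h
  have h1 : Function.Bijective fun r : Γ(U.toScheme, W') =>
      (U.ι.appIso W').inv r • mrs M h
        ((M.restrictAppIso U.ι ⊤).hom (E'.inv.app ⊤ (1 : Γ(U.toScheme, ⊤)))) := by
    have h2 := ((isFrame_unit (X := U.toScheme) ⊤).map E'.symm) W' le_top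
    exact h2
  exact (Function.Bijective.of_comp_iff _
    (ConcreteCategory.bijective_of_isIso (U.ι.appIso W').inv)).mp h1

/-- A frame trivialises the module. -/
theorem isInvertible_of_frames
    (h : ∀ x : X, ∃ (U : X.Opens) (e : Γ(M, U)), x ∈ U ∧ IsFrame M e) :
    Scheme.Modules.IsInvertible M := by
  refine ⟨fun x => ?_⟩
  obtain ⟨U, e, hx, he⟩ := h x
  refine ⟨U, hx, ⟨((Scheme.Modules.restrictFunctorIsoPullback U.ι).app M).symm ≪≫ ?_⟩⟩
  have hr : U.ι ''ᵁ ⊤ ≤ U := by
    rw [Scheme.Hom.image_top_eq_opensRange, Scheme.Opens.opensRange_ι]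
  let e' : Γ(M.restrict U.ι, ⊤) := (M.restrictAppIso U.ι ⊤).inv (mrs M hr e)
  have he' : IsFrame (M.restrict U.ι) e' := by
    intro W hW
    have h1 : Function.Bijective fun r : Γ(U.toScheme, W) =>
        (U.ι.appIso W).inv r • mrs M ((U.ι.image_mono hW).trans hr) e :=
      (he (U.ι ''ᵁ W) _).comp (ConcreteCategory.bijective_of_isIso (U.ι.appIso W).inv)
    have h2 : mrs M (U.ι.image_mono hW) (mrs M hr e) =
        mrs M ((U.ι.image_mono hW).trans hr) e := mrs_mrs M _ _ _
    rw [← h2] at h1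
    exact h1
  let c : Cocycle U.toScheme :=
    { ι := PUnit
      U := fun _ => ⊤
      cover := fun _ => ⟨PUnit.unit, trivial⟩
      g := fun _ _ => 1
      isUnit := fun _ _ => isUnit_one
      mul_eq := fun i j k W hi hj hk => by simp only [map_one, mul_one] }
  exact (c.isoOfFrames ⟨fun _ => e', fun i j W hi hj => by simp only [c, map_one, one_smul]⟩
      fun _ => he').symm ≪≫
    c.isoOfFrames (N := unitM U.toScheme)
      ⟨fun _ => (1 : Γ(U.toScheme, ⊤)), fun i j W hi hj => by simp only [c, map_one, one_smul]⟩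
      fun _ => isFrame_unit _

theorem Cocycle.isInvertible_module (c : Cocycle X) :
    Scheme.Modules.IsInvertible c.module :=
  isInvertible_of_frames fun x => by
    obtain ⟨i, hi⟩ := c.cover x
    exact ⟨c.U i, _, hi, c.isFrame i⟩

/-- Every invertible module is glued from a cocycle indexed by the points. -/
theorem exists_cocycle (hM : Scheme.Modules.IsInvertible M) :
    ∃ c : Cocycle X, c.ι = X ∧ Nonempty (c.module ≅ M) := by
  choose U e hx he using exists_frame hM
  obtain ⟨g, hg, hm, hk⟩ := exists_cocycle_of_frames U e he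
  exact ⟨⟨X, U, fun x => ⟨x, hx x⟩, g, hg, hm⟩, rfl,
    ⟨Cocycle.isoOfFrames _ ⟨e, hk⟩ he⟩⟩

end FLTAgent.RelPic
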