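/-
Area Pic (towards S25): pullback of glued sheaves, comparison of cocycles.
-/
import Fermat.Agent.RelPic.Frame

set_option autoImplicit false

noncomputable section

universe u

open CategoryTheory CategoryTheory.Limits AlgebraicGeometry TopologicalSpace Opposite

namespace FLTAgent.RelPic

variable {X Y : Scheme.{u}}

/-- Pullback of functions. -/
abbrev pb (f : Y ⟶ X) {U : X.Opens} {W : Y.Opens} (h : W ≤ f ⁻¹ᵁ U) : Γ(X, U) →+* Γ(Y, W) :=
  (f.appLE U W h).hom

lemma rs_pb (f : Y ⟶ X) {U : X.Opens} {W W' : Y.Opens} (h : W ≤ f ⁻¹ᵁ U) (h' : W' ≤ W)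
    (a : Γ(X, U)) : rs h' (pb f h a) = pb f (h'.trans h) a := by
  show (f.appLE U W h ≫ Y.presheaf.map (homOfLE h').op).hom a = _
  rw [Scheme.Hom.appLE_map]

lemma pb_rs (f : Y ⟶ X) {U U' : X.Opens} {W : Y.Opens} (h : W ≤ f ⁻¹ᵁ U') (h' : U' ≤ U)
    (a : Γ(X, U)) : pb f h (rs h' a) = pb f (h.trans (f.preimage_mono h')) a := by
  show (X.presheaf.map (homOfLE h').op ≫ f.appLE U' W h).hom a = _
  rw [Scheme.Hom.map_appLE]

lemma pushforward_smul (f : Y ⟶ X) (N : Y.Modules) (U : X.Opens) (a : Γ(X, U))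
    (m : Γ((Scheme.Modules.pushforward f).obj N, U)) :
    @Eq Γ(N, f ⁻¹ᵁ U) (a • m) (pb f (le_refl (f ⁻¹ᵁ U)) a • (id m : Γ(N, f ⁻¹ᵁ U))) := by
  show (f.app U).hom a • (id m : Γ(N, f ⁻¹ᵁ U)) = _
  rw [Scheme.Hom.app_eq_appLE]

namespace Cocycle

variable (c : Cocycle X)

/-- The pullback of a cocycle. -/
abbrev comap (f : Y ⟶ X) : Cocycle Y where
  ι := c.ι
  U i := f ⁻¹ᵁ c.U i
  cover y := c.cover (f y)
  g i j := pb f (U := c.U i ⊓ c.U j) (W := f ⁻¹ᵁ c.U i ⊓ f ⁻¹ᵁ c.U j) le_rfl (c.g i j)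
  isUnit i j := (c.isUnit i j).map _
  mul_eq i j k W hi hj hk := by
    have hW : W ≤ f ⁻¹ᵁ (c.U i ⊓ c.U j ⊓ c.U k) := le_inf (le_inf hi hj) hk
    have h := congrArg (pb f hW)
      (c.mul_eq i j k (c.U i ⊓ c.U j ⊓ c.U k) (inf_le_left.trans inf_le_left)
        (inf_le_left.trans inf_le_right) inf_le_right)
    rw [map_mul] at h
    exact (congr_arg₂ (· * ·) ((rs_pb f _ _ _).trans (pb_rs f hW _ _).symm)
      ((rs_pb f _ _ _).trans (pb_rs f hW _ _).symm)).trans
      (h.trans ((rs_pb f _ _ _).trans (pb_rs f hW _ _).symm).symm)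

/-- Compatible families in a pushforward are compatible families for the pulled back cocycle. -/
def compatEquiv (f : Y ⟶ X) (N : Y.Modules) :
    c.Compat ((Scheme.Modules.pushforward f).obj N) ≃ (c.comap f).Compat N where
  toFun n := ⟨fun i => n.1 i, fun i j W hi hj => by
    have h0 := n.2 i j (c.U i ⊓ c.U j) inf_le_left inf_le_right
    rw [show rs (le_inf inf_le_left inf_le_right : c.U i ⊓ c.U j ≤ c.U i ⊓ c.U j) (c.g i j) =
      c.g i j from rs_self _] at h0
    have hW : W ≤ f ⁻¹ᵁ (c.U i ⊓ c.U j) := le_inf hi hj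
    have h1 : (
      mrs N (U := f ⁻¹ᵁ c.U j) (V := f ⁻¹ᵁ (c.U i ⊓ c.U j)) (f.preimage_mono inf_le_right) (n.1 j) =
        (f.appLE (c.U i ⊓ c.U j) (f ⁻¹ᵁ (c.U i ⊓ c.U j)) le_rfl).hom (c.g i j) •
          mrs N (U := f ⁻¹ᵁ c.U i) (V := f ⁻¹ᵁ (c.U i ⊓ c.U j)) (f.preimage_mono inf_le_left) (n.1 i)) :=
      h0.trans (pushforward_smul f N _ _ _)
    have h := congrArg (mrs N hW) h1
    exact ((mrs_mrs N _ hW _).symm.trans (h.trans (mrs_smul N hW _ _))).trans
      (congr_arg₂ (· • ·) ((rs_pb f _ _ _).trans (rs_pb f _ _ _).symm) (mrs_mrs N _ hW _))⟩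
  invFun n := ⟨fun i => n.1 i, fun i j W hi hj => by
    have h := n.2 i j (f ⁻¹ᵁ W) (f.preimage_mono hi) (f.preimage_mono hj)
    show mrs N (f.preimage_mono hj) (n.1 j) =
      (f.app W).hom (rs _ (c.g i j)) • mrs N (f.preimage_mono hi) (n.1 i)
    rw [Scheme.Hom.app_eq_appLE]
    refine h.trans ?_
    congr 1
    exact (rs_pb f _ _ _).trans (pb_rs f _ _ _).symm⟩
  left_inv _ := rfl
  right_inv _ := rfl

/-- Maps out of the pullback of a glued sheaf. -/
def pullbackHomEquiv (f : Y ⟶ X) (N : Y.Modules) :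
    ((Scheme.Modules.pullback f).obj c.module ⟶ N) ≃ ((c.comap f).module ⟶ N) :=
  (((Scheme.Modules.pullbackPushforwardAdjunction f).homEquiv c.module N).trans
    (c.homEquiv _)).trans ((c.compatEquiv f N).trans ((c.comap f).homEquiv N).symm)

lemma pullbackHomEquiv_comp (f : Y ⟶ X) {N N' : Y.Modules}
    (φ : (Scheme.Modules.pullback f).obj c.module ⟶ N) (ψ : N ⟶ N') :
    c.pullbackHomEquiv f N' (φ ≫ ψ) = c.pullbackHomEquiv f N φ ≫ ψ := by
  refine (c.comap f).hom_ext' fun i => ?_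
  rw [Scheme.Modules.Hom.comp_app, ConcreteCategory.comp_apply]
  show ((c.comap f).desc _).app _ _ = ψ.app _ (((c.comap f).desc _).app _ _)
  rw [desc_app_frame, desc_app_frame]
  show ((Scheme.Modules.pullbackPushforwardAdjunction f).homEquiv _ _ (φ ≫ ψ)).app _ _ = _
  rw [Adjunction.homEquiv_naturality_right]
  rfl

/-- Pullback commutes with gluing. -/
def pullbackIso (f : Y ⟶ X) :
    (Scheme.Modules.pullback f).obj c.module ≅ (c.comap f).module where
  hom := (c.pullbackHomEquiv f _).symm (𝟙 _)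
  inv := c.pullbackHomEquiv f _ (𝟙 _)
  hom_inv_id := (c.pullbackHomEquiv f _).injective <| by
    rw [pullbackHomEquiv_comp, Equiv.apply_symm_apply, Category.id_comp]
  inv_hom_id := by
    rw [← pullbackHomEquiv_comp, Category.id_comp, Equiv.apply_symm_apply]

/-- Two cocycles on one cover give isomorphic sheaves exactly when they are cohomologous. -/
theorem nonempty_iso_iff (g' : ∀ i j, Γ(X, c.U i ⊓ c.U j)) (hu : ∀ i j, IsUnit (g' i j))
    (hm : ∀ i j k (W : X.Opens) (hi : W ≤ c.U i) (hj : W ≤ c.U j) (hk : W ≤ c.U k),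
      rs (le_inf hi hj) (g' i j) * rs (le_inf hj hk) (g' j k) = rs (le_inf hi hk) (g' i k)) :
    Nonempty (c.module ≅ Cocycle.module ⟨c.ι, c.U, c.cover, g', hu, hm⟩) ↔
      ∃ h : ∀ i, Γ(X, c.U i), (∀ i, IsUnit (h i)) ∧
        ∀ i j (W : X.Opens) (hi : W ≤ c.U i) (hj : W ≤ c.U j),
          rs hj (h j) * rs (le_inf hi hj) (g' i j) = rs (le_inf hi hj) (c.g i j) * rs hi (h i) := by
  let d : Cocycle X := ⟨c.ι, c.U, c.cover, g', hu, hm⟩
  constructor
  · rintro ⟨φ⟩
    let n : c.Compat d.module := c.family φ.hom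
    have hn : ∀ i, IsFrame d.module (n.1 i) := fun i => (c.isFrame i).map φ
    choose h hh using fun i => (d.isFrame i).exists_smul (le_refl (c.U i)) (n.1 i)
    simp only [mrs_self] at hh
    refine ⟨h, fun i => ?_, fun i j W hi hj => (d.isFrame i).ext hi ?_⟩
    · obtain ⟨a, ha⟩ := (hn i).exists_smul (le_refl _) (d.toSec (d.frame i))
      rw [mrs_self, ← hh i, smul_smul] at ha
      refine IsUnit.of_mul_eq_one a ((d.isFrame i).ext (le_refl _) ?_)
      rw [one_smul, mul_comm, mrs_self]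
      exact ha
    · have h1 := n.2 i j W hi hj
      rw [← hh i, ← hh j, mrs_smul, mrs_smul, d.frame_compat i j W hi hj, smul_smul, smul_smul] at h1
      exact h1
  · rintro ⟨h, hhu, hh⟩
    refine ⟨c.isoOfFrames ⟨fun i => h i • d.toSec (d.frame i), fun i j W hi hj => ?_⟩ fun i => ?_⟩
    · rw [mrs_smul, mrs_smul, d.frame_compat i j W hi hj, smul_smul, smul_smul, hh i j W hi hj]
    · intro W hW
      have hb := ((hhu i).map (rs hW)).unit.mulRight.bijective
      have := ((d.isFrame i) W hW).comp hb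
      simpa only [Function.comp_def, Units.mulRight_apply, IsUnit.unit_spec, mrs_smul,
        smul_smul] using this

end Cocycle

end FLTAgent.RelPic
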