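/-
Area RelPic (S25): inverse cocycles, pairing of sections, enough sections on affine opens.
-/
import Fermat.Agent.RelPic.Comap

set_option autoImplicit false

noncomputable section

universe u

open CategoryTheory CategoryTheory.Limits AlgebraicGeometry TopologicalSpace Opposite

namespace FLTAgent.RelPic

variable {X : Scheme.{u}}

namespace Cocycle

variable (c : Cocycle X)

/-- The inverse cocycle. -/
abbrev inv : Cocycle X where
  ι := c.ι
  U := c.U
  cover := c.cover
  g i j := ↑(c.isUnit i j).unit⁻¹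
  isUnit _ _ := Units.isUnit _
  mul_eq i j k W hi hj hk := by
    refine ((c.isUnit i k).map (rs (le_inf hi hk))).mul_left_cancel ?_
    rw [← map_mul _ (c.g i k), IsUnit.mul_val_inv, map_one]
    conv_lhs => rw [← c.mul_eq i j k W hi hj hk]
    rw [mul_mul_mul_comm, ← map_mul, ← map_mul, IsUnit.mul_val_inv, IsUnit.mul_val_inv, map_one,
      map_one, one_mul]

lemma g_mul_inv_g (i j : c.ι) (W : X.Opens) (h : W ≤ c.U i ⊓ c.U j) :
    rs h (c.g i j) * rs h (c.inv.g i j) = 1 := by
  rw [← map_mul]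
  show rs h (c.g i j * ↑(c.isUnit i j).unit⁻¹) = 1
  rw [IsUnit.mul_val_inv, map_one]

lemma exists_dot {V : X.Opens} (s : c.secs V) (t : c.inv.secs V) :
    ∃ a : Γ(X, V), ∀ i, rs (inf_le_left : V ⊓ c.U i ≤ V) a = s.1 i * t.1 i := by
  refine rs_glue (fun i => V ⊓ c.U i) (fun i => inf_le_left) (fun x hx => (c.cover x).imp fun i hi => ⟨hx, hi⟩) _ fun i j => ?_
  have hij : (V ⊓ c.U i) ⊓ (V ⊓ c.U j) ≤ V := inf_le_left.trans inf_le_left
  have hi : (V ⊓ c.U i) ⊓ (V ⊓ c.U j) ≤ c.U i := inf_le_left.trans inf_le_right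
  have hj : (V ⊓ c.U i) ⊓ (V ⊓ c.U j) ≤ c.U j := inf_le_right.trans inf_le_right
  rw [map_mul, map_mul, s.2 i j _ hij hi hj]
  exact (congrArg₂ (· * ·) rfl (t.2 i j _ hij hi hj)).trans
    ((mul_mul_mul_comm _ _ _ _).trans
      ((congrArg (· * _) (c.g_mul_inv_g i j _ (le_inf hi hj))).trans (one_mul _)))

/-- The pairing of a section with a section of the inverse. -/
def dot {V : X.Opens} (s : c.secs V) (t : c.inv.secs V) : Γ(X, V) :=
  (c.exists_dot s t).choose

lemma dot_spec {V : X.Opens} (s : c.secs V) (t : c.inv.secs V) (i : c.ι) :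
    rs (inf_le_left : V ⊓ c.U i ≤ V) (c.dot s t) = s.1 i * t.1 i :=
  (c.exists_dot s t).choose_spec i

lemma dot_eq {V : X.Opens} {s : c.secs V} {t : c.inv.secs V} {a : Γ(X, V)}
    (h : ∀ i, rs (inf_le_left : V ⊓ c.U i ≤ V) a = s.1 i * t.1 i) : c.dot s t = a :=
  rs_ext (fun i => V ⊓ c.U i) (fun i => inf_le_left) (fun x hx => (c.cover x).imp fun i hi => ⟨hx, hi⟩) _ _
    fun i => (c.dot_spec s t i).trans (h i).symm

lemma dot_smul_left {V : X.Opens} (a : Γ(X, V)) (s : c.secs V) (t : c.inv.secs V) :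
    c.dot (a • s) t = a * c.dot s t :=
  c.dot_eq fun i => by rw [map_mul, c.dot_spec, smul_secs_apply]; ring

lemma dot_smul_right {V : X.Opens} (a : Γ(X, V)) (s : c.secs V) (t : c.inv.secs V) :
    c.dot s (a • t) = a * c.dot s t :=
  c.dot_eq fun i => by
    show rs _ (a * c.dot s t) = s.1 i * (rs _ a * t.1 i)
    rw [map_mul, c.dot_spec]
    ring

lemma dot_add_left {V : X.Opens} (s s' : c.secs V) (t : c.inv.secs V) :
    c.dot (s + s') t = c.dot s t + c.dot s' t :=
  c.dot_eq fun i => by rw [map_add, c.dot_spec, c.dot_spec]; exact (add_mul _ _ _).symm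

lemma rs_dot {V V' : X.Opens} (h : V' ≤ V) (s : c.secs V) (t : c.inv.secs V) :
    rs h (c.dot s t) = c.dot (c.secsMap h s) (c.inv.secsMap h t) :=
  (c.dot_eq fun i => by
    have h' := congrArg (rs (inf_le_inf_right (c.U i) h)) (c.dot_spec s t i)
    rw [rs_rs, map_mul] at h'
    rw [rs_rs]
    exact h').symm

lemma dot_frame (i : c.ι) : c.dot (c.frame i) (c.inv.frame i) = 1 :=
  c.dot_eq fun j => by
    rw [map_one]
    exact (c.g_mul_inv_g j i _ _).symm

/-- A section is determined by the pairing with sections of the inverse and a section pairing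
to one with one of them. -/
lemma smul_dot {V : X.Opens} (s s' : c.secs V) (t : c.inv.secs V) :
    c.dot s t • s' = c.dot s' t • s := by
  refine Subtype.ext (funext fun i => ?_)
  rw [smul_secs_apply, smul_secs_apply, c.dot_spec, c.dot_spec]
  ring

end Cocycle

/-- On an affine open, a power of a function times a frame over its non-vanishing locus extends. -/
theorem exists_pow_smul_extend (M : X.Modules) {W : X.Opens} (hW : IsAffineOpen W) {β : Type u}
    [Finite β] (f : β → Γ(X, W)) (hf : ∀ x ∈ W, ∃ b, x ∈ X.basicOpen (f b))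
    (e : ∀ b, Γ(M, X.basicOpen (f b))) (he : ∀ b, IsFrame M (e b)) (a : β) :
    ∃ (N : ℕ) (s : Γ(M, W)), mrs M (X.basicOpen_le (f a)) s =
      rs (X.basicOpen_le (f a)) (f a) ^ N • e a := by
  have := Fintype.ofFinite β
  -- on each piece
  have h1 : ∀ b, ∃ (N : ℕ) (G : Γ(X, X.basicOpen (f b))),
      mrs M (inf_le_left : X.basicOpen (f b) ⊓ X.basicOpen (f a) ≤ X.basicOpen (f b)) (G • e b) =
        rs (U := W) (V := X.basicOpen (f b) ⊓ X.basicOpen (f a))
          (inf_le_right.trans (X.basicOpen_le (f a))) (f a) ^ N •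
          mrs M (U := X.basicOpen (f a)) (V := X.basicOpen (f b) ⊓ X.basicOpen (f a))
            inf_le_right (e a) := by
    intro b
    obtain ⟨g, hg⟩ := (he b).exists_smul
      (inf_le_left : X.basicOpen (f b) ⊓ X.basicOpen (f a) ≤ X.basicOpen (f b))
      (mrs M inf_le_right (e a))
    let φ : Γ(X, X.basicOpen (f b)) := rs (X.basicOpen_le (f b)) (f a)
    have hD : X.basicOpen φ = X.basicOpen (f b) ⊓ X.basicOpen (f a) :=
      Scheme.basicOpen_res X (f a) (homOfLE (X.basicOpen_le (f b))).op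
    obtain ⟨N, G, hG⟩ := exists_eq_pow_mul_of_isCompact_of_isQuasiSeparated X (X.basicOpen (f b))
      (hW.basicOpen (f b)).isCompact (hW.basicOpen (f b)).isQuasiSeparated φ (rs hD.le g)
    refine ⟨N, G, ?_⟩
    change rs (X.basicOpen_le φ) G = rs (X.basicOpen_le φ) φ ^ N * rs hD.le g at hG
    have h2 := congrArg (rs hD.ge) hG
    simp only [φ, map_mul, map_pow, rs_rs, rs_self] at h2
    rw [mrs_smul, h2, ← smul_smul, hg]
  choose N G hG using h1
  let n := Finset.univ.sup N
  let t : ∀ b, Γ(M, X.basicOpen (f b)) := fun b =>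
    (rs (X.basicOpen_le (f b)) (f a) ^ (n - N b) * G b) • e b
  have ht : ∀ b, mrs M (inf_le_left : X.basicOpen (f b) ⊓ X.basicOpen (f a) ≤ X.basicOpen (f b)) (t b)
      = rs (U := W) (V := X.basicOpen (f b) ⊓ X.basicOpen (f a))
          (inf_le_right.trans (X.basicOpen_le (f a))) (f a) ^ n •
          mrs M (U := X.basicOpen (f a)) (V := X.basicOpen (f b) ⊓ X.basicOpen (f a))
            inf_le_right (e a) := by
    intro b
    have hn : n - N b + N b = n := Nat.sub_add_cancel (Finset.le_sup (Finset.mem_univ b))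
    show mrs M _ ((rs _ (f a) ^ (n - N b) * G b) • e b) = _
    rw [← smul_smul, mrs_smul, hG b, smul_smul, map_pow, rs_rs, ← pow_add, hn]
  -- agreement on overlaps after one more power
  have h3 : ∀ p : β × β, ∃ m : ℕ,
      rs (U := W) (V := X.basicOpen (f p.1) ⊓ X.basicOpen (f p.2))
          (inf_le_left.trans (X.basicOpen_le (f p.1))) (f a) ^ m •
          mrs M (inf_le_left : X.basicOpen (f p.1) ⊓ X.basicOpen (f p.2) ≤ _) (t p.1) =
        rs (U := W) (V := X.basicOpen (f p.1) ⊓ X.basicOpen (f p.2))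
          (inf_le_left.trans (X.basicOpen_le (f p.1))) (f a) ^ m •
          mrs M (inf_le_right : X.basicOpen (f p.1) ⊓ X.basicOpen (f p.2) ≤ _) (t p.2) := by
    intro ⟨b, b'⟩
    let O := X.basicOpen (f b) ⊓ X.basicOpen (f b')
    let φ : Γ(X, O) := rs (inf_le_left.trans (X.basicOpen_le (f b))) (f a)
    obtain ⟨d, hd⟩ := (he b).exists_smul (inf_le_left : O ≤ X.basicOpen (f b))
      (mrs M inf_le_left (t b) - mrs M inf_le_right (t b'))
    have hO : IsAffineOpen O := by
      show IsAffineOpen (X.basicOpen (f b) ⊓ X.basicOpen (f b'))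
      rw [← X.basicOpen_mul]
      exact hW.basicOpen _
    have hD : X.basicOpen φ ≤ O ⊓ X.basicOpen (f a) := by
      show X.basicOpen ((X.presheaf.map (homOfLE _).op).hom (f a)) ≤ _
      rw [Scheme.basicOpen_res]
    have hz : rs (hD.trans inf_le_left) d = 0 := by
      refine (he b).ext (hD.trans (inf_le_left.trans inf_le_left)) ?_
      have h4 := congrArg (mrs M (hD.trans inf_le_left)) hd
      rw [mrs_smul, mrs_mrs, map_sub, mrs_mrs, mrs_mrs] at h4
      rw [h4, zero_smul, sub_eq_zero]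
      have hb := congrArg (mrs M (le_inf (hD.trans (inf_le_left.trans inf_le_left))
        (hD.trans inf_le_right) : X.basicOpen φ ≤ X.basicOpen (f b) ⊓ X.basicOpen (f a))) (ht b)
      have hb' := congrArg (mrs M (le_inf (hD.trans (inf_le_left.trans inf_le_right))
        (hD.trans inf_le_right) : X.basicOpen φ ≤ X.basicOpen (f b') ⊓ X.basicOpen (f a))) (ht b')
      simp only [mrs_smul, mrs_mrs, map_pow, rs_rs] at hb hb'
      exact hb.trans hb'.symm
    obtain ⟨m, hm⟩ := exists_pow_mul_eq_zero_of_res_basicOpen_eq_zero_of_isCompact X hO.isCompact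
      d φ hz
    refine ⟨m, ?_⟩
    rw [← sub_eq_zero, ← smul_sub, ← hd, smul_smul]
    exact (congrArg (· • mrs M inf_le_left (e b)) hm).trans (zero_smul _ _)
  choose m hm using h3
  let k := Finset.univ.sup m
  obtain ⟨s, hs⟩ := mrs_glue M (fun b => X.basicOpen (f b)) (fun b => X.basicOpen_le (f b)) hf
    (fun b => rs (X.basicOpen_le (f b)) (f a) ^ k • t b) fun b b' => by
      have hk : k - m (b, b') + m (b, b') = k :=
        Nat.sub_add_cancel (Finset.le_sup (Finset.mem_univ _))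
      rw [mrs_smul M _ _ (t b), mrs_smul M _ _ (t b'), map_pow, map_pow, rs_rs, rs_rs, ← hk,
        pow_add, ← smul_smul, ← smul_smul, hm (b, b')]
  refine ⟨k + n, s, ?_⟩
  refine mrs_ext M (fun _ : Unit => X.basicOpen (f a)) (fun _ => le_rfl) (fun x hx => ⟨(), hx⟩) _ _
    fun _ => ?_
  have h5 := congrArg (mrs M (le_inf le_rfl le_rfl :
    X.basicOpen (f a) ≤ X.basicOpen (f a) ⊓ X.basicOpen (f a))) (ht a)
  simp only [mrs_smul, mrs_mrs, map_pow, rs_rs, mrs_self] at h5
  rw [mrs_self, mrs_self, hs a, h5, smul_smul, ← pow_add]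

lemma span_range_pow_top {ι A : Type*} [CommRing A] (f : ι → A)
    (h : Ideal.span (Set.range f) = ⊤) (P : ι → ℕ) :
    Ideal.span (Set.range fun a => f a ^ P a) = ⊤ := by
  by_contra hne
  obtain ⟨m, hm, hle⟩ := Ideal.exists_le_maximal _ hne
  refine hm.ne_top (eq_top_iff.mpr (h ▸ Ideal.span_le.mpr ?_))
  rintro _ ⟨a, rfl⟩
  exact hm.isPrime.mem_of_pow_mem _ (hle (Ideal.subset_span ⟨a, rfl⟩))

/-- Over an affine open a cocycle has sections with pairings generating the unit ideal. -/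
theorem Cocycle.exists_sum_dot_eq_one (c : Cocycle X) {W : X.Opens} (hW : IsAffineOpen W) :
    ∃ (n : ℕ) (s : Fin n → c.secs W) (t : Fin n → c.inv.secs W),
      ∑ a, c.dot (s a) (t a) = 1 := by
  have hx : ∀ x : W, ∃ (f : Γ(X, W)) (i : c.ι), x.1 ∈ X.basicOpen f ∧ X.basicOpen f ≤ c.U i := by
    intro x
    obtain ⟨i, hi⟩ := c.cover x.1
    obtain ⟨f, hf, hxf⟩ := hW.exists_basicOpen_le ⟨x.1, hi⟩ x.2
    exact ⟨f, i, hxf, hf⟩
  choose f i hxf hfi using hx
  obtain ⟨S, hS⟩ := hW.isCompact.elim_finite_subcover (fun x : W => (X.basicOpen (f x) : Set X))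
    (fun x => (X.basicOpen (f x)).isOpen) fun x hx => Set.mem_iUnion.mpr ⟨⟨x, hx⟩, hxf ⟨x, hx⟩⟩
  have hcov : ∀ x ∈ W, ∃ b : S, x ∈ X.basicOpen (f b.1) := fun x hx => by
    obtain ⟨b, hb⟩ := Set.mem_iUnion.mp (hS hx)
    obtain ⟨hbS, hb⟩ := Set.mem_iUnion.mp hb
    exact ⟨⟨b, hbS⟩, hb⟩
  choose N₁ s0 hs using fun a => exists_pow_smul_extend c.module hW (fun b : S => f b.1) hcov
    (fun b => mrs c.module (hfi b.1) (c.toSec (c.frame (i b.1))))
    (fun b => (c.isFrame _).restrict _) a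
  choose N₂ t0 ht using fun a => exists_pow_smul_extend c.inv.module hW (fun b : S => f b.1) hcov
    (fun b => mrs c.inv.module (hfi b.1) (c.inv.toSec (c.inv.frame (i b.1))))
    (fun b => (c.inv.isFrame _).restrict _) a
  let s : S → c.secs W := fun a => s0 a
  let t : S → c.inv.secs W := fun a => t0 a
  have key : ∀ a : S, ∃ M : ℕ, f a.1 ^ M • c.dot (s a) (t a) = f a.1 ^ (M + (N₁ a + N₂ a)) := by
    intro a
    have h1 : rs (X.basicOpen_le (f a.1)) (c.dot (s a) (t a) - f a.1 ^ (N₁ a + N₂ a)) = 0 := by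
      rw [map_sub, sub_eq_zero, c.rs_dot, map_pow]
      refine (congrArg₂ c.dot (hs a) (ht a)).trans ?_
      show c.dot (rs _ (f a.1) ^ N₁ a • c.secsMap (hfi a.1) (c.frame (i a.1)))
        (rs _ (f a.1) ^ N₂ a • c.inv.secsMap (hfi a.1) (c.inv.frame (i a.1))) = _
      refine ((c.dot_smul_left _ _ _).trans (congrArg (_ * ·) (c.dot_smul_right _ _ _))).trans ?_
      rw [← c.rs_dot, c.dot_frame, map_one, mul_one, ← pow_add]
    obtain ⟨M, hM⟩ := exists_pow_mul_eq_zero_of_res_basicOpen_eq_zero_of_isCompact X hW.isCompact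
      _ (f a.1) h1
    refine ⟨M, ?_⟩
    rw [mul_sub, sub_eq_zero, ← pow_add] at hM
    exact hM
  choose M hM using key
  let P : S → ℕ := fun a => M a + (N₁ a + N₂ a)
  have hspan : Ideal.span (Set.range fun a : S => f a.1) = ⊤ := by
    rw [← hW.iSup_basicOpen_eq_self_iff]
    refine le_antisymm (iSup_le fun g => X.basicOpen_le _) fun x hx => ?_
    obtain ⟨b, hb⟩ := hcov x hx
    exact Opens.mem_iSup.mpr ⟨⟨f b.1, b, rfl⟩, hb⟩
  obtain ⟨r, hr⟩ := Finsupp.mem_ideal_span_range_iff_exists_finsupp.mp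
    (show (1 : Γ(X, W)) ∈ Ideal.span (Set.range fun a : S => f a.1 ^ P a) by
      rw [span_range_pow_top (fun a : S => f a.1) hspan P]; trivial)
  let e : Fin (Fintype.card S) ≃ S := (Fintype.equivFin S).symm
  refine ⟨_, fun j => (r (e j) * f (e j).1 ^ M (e j)) • s (e j), fun j => t (e j), ?_⟩
  rw [e.sum_comp (fun a => c.dot ((r a * f a.1 ^ M a) • s a) (t a))]
  rw [← hr]
  refine Eq.trans ?_ (Finsupp.sum_fintype r (fun i x => x * f i.1 ^ P i) (fun a => zero_mul _)).symm
  refine Finset.sum_congr rfl fun a _ => ?_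
  rw [dot_smul_left, mul_assoc, ← smul_eq_mul (f a.1 ^ M a), hM a]

end FLTAgent.RelPic
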