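/-
Area RelPic (S25): products of cocycles, refinement, pullback of sections.
-/
import Fermat.Agent.RelPic.Sections

set_option autoImplicit false

noncomputable section

universe u

open CategoryTheory CategoryTheory.Limits AlgebraicGeometry TopologicalSpace Opposite

namespace FLTAgent.RelPic

variable {X Y : Scheme.{u}}

lemma inv_mul_eq_of_eqs {A : Type*} [CommRing A] (gc gd di zq wp wq : A) (h2 : gd * di = 1)
    (h3 : gc * gd * zq * wp = 1) (h4 : zq * wq = 1) : wq * di = gc * wp := by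
  linear_combination -(wq * di) * h3 + gc * wp * h4 + (gc * wp * zq * wq) * h2

namespace Cocycle

variable (c d : Cocycle X)

/-- The product of two cocycles. -/
abbrev mul : Cocycle X where
  ι := c.ι × d.ι
  U p := c.U p.1 ⊓ d.U p.2
  cover x := by
    obtain ⟨i, hi⟩ := c.cover x
    obtain ⟨j, hj⟩ := d.cover x
    exact ⟨(i, j), hi, hj⟩
  g p q := rs (inf_le_inf inf_le_left inf_le_left) (c.g p.1 q.1) *
    rs (inf_le_inf inf_le_right inf_le_right) (d.g p.2 q.2)
  isUnit p q := ((c.isUnit p.1 q.1).map _).mul ((d.isUnit p.2 q.2).map _)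
  mul_eq p q r W hp hq hr := by
    simp only [map_mul, rs_rs]
    rw [mul_mul_mul_comm,
      c.mul_eq p.1 q.1 r.1 W (hp.trans inf_le_left) (hq.trans inf_le_left) (hr.trans inf_le_left),
      d.mul_eq p.2 q.2 r.2 W (hp.trans inf_le_right) (hq.trans inf_le_right)
        (hr.trans inf_le_right)]

/-- The product of sections. -/
def secsMul {V : X.Opens} (s : c.secs V) (t : d.secs V) : (c.mul d).secs V :=
  ⟨fun p => rs (inf_le_inf_left V inf_le_left) (s.1 p.1) *
      rs (inf_le_inf_left V inf_le_right) (t.1 p.2),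
    fun p q W hV hp hq => by
      simp only [map_mul, rs_rs]
      rw [s.2 p.1 q.1 W hV (hp.trans inf_le_left) (hq.trans inf_le_left),
        t.2 p.2 q.2 W hV (hp.trans inf_le_right) (hq.trans inf_le_right)]
      exact mul_mul_mul_comm _ _ _ _⟩

/-- The product of sections of inverses. -/
def secsMulInv {V : X.Opens} (s : c.inv.secs V) (t : d.inv.secs V) : (c.mul d).inv.secs V :=
  ⟨fun p => rs (inf_le_inf_left V inf_le_left) (s.1 p.1) *
      rs (inf_le_inf_left V inf_le_right) (t.1 p.2),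
    fun p q W hV hp hq => by
      simp only [map_mul, rs_rs]
      have h : rs (le_inf hp hq) ((c.mul d).inv.g p q) =
          rs (le_inf (hp.trans inf_le_left) (hq.trans inf_le_left)) (c.inv.g p.1 q.1) *
            rs (le_inf (hp.trans inf_le_right) (hq.trans inf_le_right)) (d.inv.g p.2 q.2) := by
        refine (((c.mul d).isUnit p q).map (rs (le_inf hp hq))).mul_left_cancel ?_
        rw [(c.mul d).g_mul_inv_g]
        simp only [map_mul, rs_rs]
        rw [mul_mul_mul_comm, c.g_mul_inv_g, d.g_mul_inv_g, one_mul]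
      rw [s.2 p.1 q.1 W hV (hp.trans inf_le_left) (hq.trans inf_le_left),
        t.2 p.2 q.2 W hV (hp.trans inf_le_right) (hq.trans inf_le_right)]
      exact (mul_mul_mul_comm _ _ _ _).trans (congrArg (· * _) h.symm)⟩

lemma dot_mul {V : X.Opens} (s : c.secs V) (t : d.secs V) (s' : c.inv.secs V) (t' : d.inv.secs V) :
    (c.mul d).dot (c.secsMul d s t) (c.secsMulInv d s' t') = c.dot s s' * d.dot t t' :=
  (c.mul d).dot_eq fun p => by
    have h1 := congrArg (rs (inf_le_inf_left V inf_le_left : V ⊓ (c.mul d).U p ≤ V ⊓ c.U p.1))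
      (c.dot_spec s s' p.1)
    have h2 := congrArg (rs (inf_le_inf_left V inf_le_right : V ⊓ (c.mul d).U p ≤ V ⊓ d.U p.2))
      (d.dot_spec t t' p.2)
    rw [rs_rs, map_mul] at h1 h2
    rw [map_mul, h1, h2]
    exact mul_mul_mul_comm _ _ _ _

lemma inv_inv_g (i j : c.ι) : c.inv.inv.g i j = c.g i j := by
  refine (c.inv.isUnit i j).mul_left_cancel ?_
  have h1 := c.inv.g_mul_inv_g i j _ le_rfl
  have h2 := c.g_mul_inv_g i j _ le_rfl
  simp only [rs_self] at h1 h2
  rw [h1, mul_comm, h2]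

/-- A section, as a section of the double inverse. -/
def toInvInv {V : X.Opens} (s : c.secs V) : c.inv.inv.secs V :=
  ⟨s.1, fun i j W hV hi hj => by rw [c.inv_inv_g]; exact s.2 i j W hV hi hj⟩

lemma dot_toInvInv {V : X.Opens} (s : c.secs V) (t : c.inv.secs V) :
    c.inv.dot t (c.toInvInv s) = c.dot s t :=
  c.inv.dot_eq fun i => (c.dot_spec s t i).trans (mul_comm _ _)

/-- A refinement of a cocycle. -/
abbrev refine' : Cocycle X where
  ι := c.ι × d.ι
  U p := c.U p.1 ⊓ d.U p.2
  cover := (c.mul d).cover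
  g p q := rs (inf_le_inf inf_le_left inf_le_left) (c.g p.1 q.1)
  isUnit p q := (c.isUnit p.1 q.1).map _
  mul_eq p q r W hp hq hr := by
    simp only [rs_rs]
    exact c.mul_eq p.1 q.1 r.1 W (hp.trans inf_le_left) (hq.trans inf_le_left)
      (hr.trans inf_le_left)

/-- A refinement gives the same sheaf. -/
def refineIso : (c.refine' d).module ≅ c.module :=
  (c.refine' d).isoOfFrames
    ⟨fun p => mrs c.module (inf_le_left : c.U p.1 ⊓ d.U p.2 ≤ c.U p.1) (c.toSec (c.frame p.1)),
      fun p q W hp hq => by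
        rw [mrs_mrs, mrs_mrs, rs_rs]
        exact c.frame_compat p.1 q.1 W (hp.trans inf_le_left) (hq.trans inf_le_left)⟩
    fun p => (c.isFrame p.1).restrict _

/-- A nowhere vanishing section of a product identifies a factor with the inverse of the other. -/
theorem nonempty_iso_inv (z : (c.mul d).secs ⊤) (hz : ∀ p, IsUnit (z.1 p)) :
    Nonempty (c.module ≅ d.inv.module) := by
  let w : ∀ p : c.ι × d.ι, Γ(X, c.U p.1 ⊓ d.U p.2) := fun p =>
    rs (le_inf le_top le_rfl) (↑(hz p).unit⁻¹)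
  have hw : ∀ p, IsUnit (w p) := fun p => (Units.isUnit _).map _
  refine ⟨(c.refineIso d).symm ≪≫ (c.refine' d).isoOfFrames
    ⟨fun p => w p • mrs d.inv.module inf_le_right (d.inv.toSec (d.inv.frame p.2)),
      fun p q W hp hq => ?_⟩ fun p W hW => ?_⟩
  · simp only [mrs_smul, mrs_mrs]
    rw [d.inv.frame_compat p.2 q.2 W (hp.trans inf_le_right) (hq.trans inf_le_right), smul_smul,
      smul_smul]
    refine congrArg (· • _) ?_
    have hzq := z.2 p q W le_top hp hq
    simp only [map_mul, rs_rs] at hzq ⊢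
    have e1 : ∀ p (h : W ≤ c.U p.1 ⊓ d.U p.2),
        rs (le_inf le_top h : W ≤ ⊤ ⊓ (c.U p.1 ⊓ d.U p.2)) (z.1 p) * rs h (w p) = 1 := fun p h => by
      rw [rs_rs, ← map_mul, IsUnit.mul_val_inv, map_one]
    have e2 := d.g_mul_inv_g p.2 q.2 W (le_inf (hp.trans inf_le_right) (hq.trans inf_le_right))
    have e3 := e1 p hp
    rw [hzq] at e3
    have e4 := e1 q hq
    exact inv_mul_eq_of_eqs _ _ _ _ _ _ e2 e3 e4
  · have hb := ((hw p).map (rs hW)).unit.mulRight.bijective
    have := ((d.inv.isFrame p.2).restrict (inf_le_right : c.U p.1 ⊓ d.U p.2 ≤ d.U p.2) W hW).comp hb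
    simpa only [Function.comp_def, Units.mulRight_apply, IsUnit.unit_spec, mrs_smul,
      smul_smul] using this

/-- Pullback of sections. -/
def secsPb (f : Y ⟶ X) {V : X.Opens} {W : Y.Opens} (h : W ≤ f ⁻¹ᵁ V) (s : c.secs V) :
    (c.comap f).secs W :=
  ⟨fun i => pb f (U := V ⊓ c.U i) (le_inf (inf_le_left.trans h) inf_le_right) (s.1 i),
    fun i j W' hW hi hj => by
      have h' : W' ≤ f ⁻¹ᵁ (V ⊓ c.U i ⊓ c.U j) := le_inf (le_inf (hW.trans h) hi) hj
      have e := congrArg (pb f h') (s.2 i j (V ⊓ c.U i ⊓ c.U j) (inf_le_left.trans inf_le_left)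
        (inf_le_left.trans inf_le_right) inf_le_right)
      rw [map_mul, pb_rs, pb_rs, pb_rs] at e
      exact (rs_pb f _ _ _).trans
        (e.trans (congrArg₂ (· * ·) (rs_pb f _ _ _).symm (rs_pb f _ _ _).symm))⟩

lemma secsPb_inv_g (f : Y ⟶ X) (i j : c.ι) :
    (c.inv.comap f).g i j = (c.comap f).inv.g i j := by
  refine ((c.comap f).isUnit i j).mul_left_cancel ?_
  have h := (c.comap f).g_mul_inv_g i j _ le_rfl
  simp only [rs_self] at h
  rw [h]
  show pb f _ (c.g i j) * pb f _ (c.inv.g i j) = 1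
  rw [← map_mul]
  have h2 := c.g_mul_inv_g i j _ le_rfl
  simp only [rs_self] at h2
  rw [h2, map_one]

/-- Pullback of sections of the inverse. -/
def secsPbInv (f : Y ⟶ X) {V : X.Opens} {W : Y.Opens} (h : W ≤ f ⁻¹ᵁ V) (t : c.inv.secs V) :
    (c.comap f).inv.secs W :=
  ⟨(c.inv.secsPb f h t).1, fun i j W' hW hi hj => by
    rw [← c.secsPb_inv_g]
    exact (c.inv.secsPb f h t).2 i j W' hW hi hj⟩

lemma pb_dot (f : Y ⟶ X) {V : X.Opens} {W : Y.Opens} (h : W ≤ f ⁻¹ᵁ V) (s : c.secs V)
    (t : c.inv.secs V) :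
    (c.comap f).dot (c.secsPb f h s) (c.secsPbInv f h t) = pb f h (c.dot s t) :=
  (c.comap f).dot_eq fun i => by
    refine (rs_pb f _ _ _).trans ?_
    have e := congrArg (pb f (U := V ⊓ c.U i) (W := W ⊓ f ⁻¹ᵁ c.U i)
      (le_inf (inf_le_left.trans h) inf_le_right)) (c.dot_spec s t i)
    exact (pb_rs f _ _ _).symm.trans (e.trans (map_mul _ _ _))

end Cocycle

end FLTAgent.RelPic
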