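/-
Area RelPic (S25): Zariski descent of rigidified line bundles for a map with a section, from the
fact that units trivial along the section are trivial.
-/
import Fermat.Agent.RelPic.Product

set_option autoImplicit false

noncomputable section

universe u

open CategoryTheory CategoryTheory.Limits AlgebraicGeometry TopologicalSpace Opposite

namespace FLTAgent.RelPic

variable {X Y T : Scheme.{u}}

lemma bijective_pb (f : Y ⟶ X) [IsOpenImmersion f] {U : X.Opens} (hU : U ≤ f.opensRange)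
    {W : Y.Opens} (h : W ≤ f ⁻¹ᵁ U) (h' : f ⁻¹ᵁ U ≤ W) : Function.Bijective (pb f h) := by
  obtain rfl : W = f ⁻¹ᵁ U := le_antisymm h h'
  have := f.isIso_app U hU
  show Function.Bijective (f.appLE U (f ⁻¹ᵁ U) h).hom
  rw [← Scheme.Hom.app_eq_appLE]
  exact ConcreteCategory.bijective_of_isIso (f.app U)

lemma pb_comp {Z : Scheme.{u}} (f : Z ⟶ Y) (g : Y ⟶ X) {U : X.Opens} {V : Y.Opens} {W : Z.Opens}
    (h : V ≤ g ⁻¹ᵁ U) (h' : W ≤ f ⁻¹ᵁ V) (a : Γ(X, U)) :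
    pb f h' (pb g h a) = pb (f ≫ g) (h'.trans (f.preimage_mono h)) a := by
  show (g.appLE U V h ≫ f.appLE V W h').hom a = _
  rw [Scheme.Hom.appLE_comp_appLE]

lemma pb_id {U W : X.Opens} (h : W ≤ U) (a : Γ(X, U)) :
    pb (𝟙 X) (U := U) (W := W) h a = rs h a := by
  show (Scheme.Hom.appLE (𝟙 X) U W h).hom a = _
  simp [Scheme.Hom.appLE, rs]
  rfl

lemma pb_congr {f g : Y ⟶ X} (e : f = g) {U : X.Opens} {W : Y.Opens} (h : W ≤ f ⁻¹ᵁ U)
    (a : Γ(X, U)) : pb f h a = pb g (e ▸ h) a := by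
  subst e
  rfl

lemma preInf {f : Y ⟶ X} {W : Y.Opens} {A B : X.Opens} (h : W ≤ f ⁻¹ᵁ A) (h' : W ≤ f ⁻¹ᵁ B) :
    W ≤ f ⁻¹ᵁ (A ⊓ B) :=
  le_inf h h'

variable (p : X ⟶ T) (σ : T ⟶ X)

/-- Units trivial along the section are trivial. -/
def RigidUnits : Prop :=
  ∀ (O : T.Opens) (u : Γ(X, p ⁻¹ᵁ O)), IsUnit u →
    ∀ h : O ≤ σ ⁻¹ᵁ (p ⁻¹ᵁ O), pb σ h u = 1 → u = 1

/-- A rigidified sheaf over the preimage of an open, as transition functions and values at the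
section. -/
structure Piece : Type (u + 1) where
  /-- the open of the base -/
  O : T.Opens
  /-- the index type -/
  ι : Type u
  /-- the cover -/
  U : ι → X.Opens
  le : ∀ i, U i ≤ p ⁻¹ᵁ O
  cover : ∀ x ∈ p ⁻¹ᵁ O, ∃ i, x ∈ U i
  /-- the transition functions -/
  g : ∀ i j, Γ(X, U i ⊓ U j)
  isUnit : ∀ i j, IsUnit (g i j)
  mul_eq : ∀ i j k (W : X.Opens) (hi : W ≤ U i) (hj : W ≤ U j) (hk : W ≤ U k),
    rs (le_inf hi hj) (g i j) * rs (le_inf hj hk) (g j k) = rs (le_inf hi hk) (g i k)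
  /-- the trivialisation at the section -/
  a : ∀ i, Γ(T, σ ⁻¹ᵁ U i)
  isUnit_a : ∀ i, IsUnit (a i)
  a_eq : ∀ i j (W : T.Opens) (hi : W ≤ σ ⁻¹ᵁ U i) (hj : W ≤ σ ⁻¹ᵁ U j),
    rs hj (a j) = pb σ (U := U i ⊓ U j) (preInf hi hj) (g i j) * rs hi (a i)

namespace Piece

variable {p σ} (P Q R : Piece p σ)

lemma self_eq_one (i : P.ι) (W : X.Opens) (hi : W ≤ P.U i) :
    rs (le_inf hi hi) (P.g i i) = 1 :=
  ((P.isUnit i i).map (rs (le_inf hi hi))).mul_left_cancel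
    ((P.mul_eq i i i W hi hi hi).trans (mul_one _).symm)

/-- The coordinates of a rigidified isomorphism over an open. -/
structure Iso (O : T.Opens) where
  /-- the coordinates -/
  z : ∀ i l, Γ(X, p ⁻¹ᵁ O ⊓ (P.U i ⊓ Q.U l))
  isUnit : ∀ i l, IsUnit (z i l)
  rel : ∀ i i' l l' (W : X.Opens) (hO : W ≤ p ⁻¹ᵁ O) (hi : W ≤ P.U i) (hi' : W ≤ P.U i')
    (hl : W ≤ Q.U l) (hl' : W ≤ Q.U l'),
    rs (le_inf hi hi') (P.g i i') * rs (le_inf hO (le_inf hi' hl')) (z i' l') =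
      rs (le_inf hl hl') (Q.g l l') * rs (le_inf hO (le_inf hi hl)) (z i l)
  normal : ∀ i l (W : T.Opens) (hO : W ≤ σ ⁻¹ᵁ (p ⁻¹ᵁ O)) (hi : W ≤ σ ⁻¹ᵁ P.U i)
    (hl : W ≤ σ ⁻¹ᵁ Q.U l),
    rs hl (Q.a l) =
      pb σ (U := p ⁻¹ᵁ O ⊓ (P.U i ⊓ Q.U l)) (preInf hO (preInf hi hl)) (z i l) * rs hi (P.a i)

namespace Iso

variable {P Q R} {O O' : T.Opens}

/-- Restriction. -/
def restrict (φ : Iso P Q O) (h : O' ≤ O) : Iso P Q O' where
  z i l := rs (inf_le_inf_right _ (p.preimage_mono h)) (φ.z i l)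
  isUnit i l := (φ.isUnit i l).map _
  rel i i' l l' W hO hi hi' hl hl' := by
    simp only [rs_rs]
    exact φ.rel i i' l l' W (hO.trans (p.preimage_mono h)) hi hi' hl hl'
  normal i l W hO hi hl := by
    rw [pb_rs]
    exact φ.normal i l W (hO.trans (σ.preimage_mono (p.preimage_mono h))) hi hl

variable (hσ : σ ≫ p = 𝟙 T)

include hσ in
lemma le_preimage_preimage (O : T.Opens) : O ≤ σ ⁻¹ᵁ (p ⁻¹ᵁ O) := by
  rw [← Scheme.Hom.comp_preimage, hσ, Scheme.Hom.id_preimage]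

variable (hr : RigidUnits p σ)

include hσ hr in
/-- A rigidified isomorphism is unique. -/
theorem eq (φ ψ : Iso P Q O) (hP : O ≤ P.O) (hQ : O ≤ Q.O) (i : P.ι) (l : Q.ι) :
    φ.z i l = ψ.z i l := by
  let V : P.ι × Q.ι → X.Opens := fun q => p ⁻¹ᵁ O ⊓ (P.U q.1 ⊓ Q.U q.2)
  have hcov : ∀ x ∈ p ⁻¹ᵁ O, ∃ q, x ∈ V q := fun x hx => by
    obtain ⟨i, hi⟩ := P.cover x (p.preimage_mono hP hx)
    obtain ⟨l, hl⟩ := Q.cover x (p.preimage_mono hQ hx)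
    exact ⟨(i, l), hx, hi, hl⟩
  obtain ⟨u, hu⟩ := rs_glue V (fun _ => inf_le_left) hcov
    (fun q => φ.z q.1 q.2 * ↑(ψ.isUnit q.1 q.2).unit⁻¹) fun q q' => by
      have hO : V q ⊓ V q' ≤ p ⁻¹ᵁ O := inf_le_left.trans inf_le_left
      have hi : V q ⊓ V q' ≤ P.U q.1 := inf_le_left.trans (inf_le_right.trans inf_le_left)
      have hl : V q ⊓ V q' ≤ Q.U q.2 := inf_le_left.trans (inf_le_right.trans inf_le_right)
      have hi' : V q ⊓ V q' ≤ P.U q'.1 := inf_le_right.trans (inf_le_right.trans inf_le_left)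
      have hl' : V q ⊓ V q' ≤ Q.U q'.2 := inf_le_right.trans (inf_le_right.trans inf_le_right)
      have h1 := φ.rel q.1 q'.1 q.2 q'.2 _ hO hi hi' hl hl'
      have h2 := ψ.rel q.1 q'.1 q.2 q'.2 _ hO hi hi' hl hl'
      have e1 : ∀ (a : P.ι) (b : Q.ι) (h : V q ⊓ V q' ≤ p ⁻¹ᵁ O ⊓ (P.U a ⊓ Q.U b)),
          rs h (ψ.z a b) * rs h (↑(ψ.isUnit a b).unit⁻¹) = 1 := fun a b h => by
        rw [← map_mul, IsUnit.mul_val_inv, map_one]
      rw [map_mul, map_mul]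
      exact ratio_eq _ _ _ _ _ _ _ _ h1 h2 (e1 _ _ _) (e1 _ _ _)
        ((P.isUnit q.1 q'.1).map (rs (le_inf hi hi')))
  have hu1 : u = 1 := by
    refine hr O u ?_ (le_preimage_preimage hσ O) ?_
    · refine RingedSpace.isUnit_of_isUnit_germ X.toRingedSpace (p ⁻¹ᵁ O) u fun x hx => ?_
      obtain ⟨q, hq⟩ := hcov x hx
      have h : IsUnit (rs (inf_le_left : V q ≤ p ⁻¹ᵁ O) u) := by
        rw [hu q]
        exact (φ.isUnit _ _).mul (Units.isUnit _)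
      have h' := h.map (X.presheaf.germ (V q) x hq).hom
      exact (congrArg IsUnit (X.presheaf.germ_res_apply (homOfLE (inf_le_left : V q ≤ p ⁻¹ᵁ O)) x hq u)).mp h'
    · refine rs_ext (fun q : P.ι × Q.ι => O ⊓ σ ⁻¹ᵁ (V q)) (fun _ => inf_le_left) (fun t ht => ?_)
        _ _ fun q => ?_
      · obtain ⟨q, hq⟩ := hcov (σ t) (le_preimage_preimage hσ O ht)
        exact ⟨q, ht, hq⟩
      have hi : O ⊓ σ ⁻¹ᵁ (V q) ≤ σ ⁻¹ᵁ P.U q.1 :=
        inf_le_right.trans (σ.preimage_mono (inf_le_right.trans inf_le_left))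
      have hl : O ⊓ σ ⁻¹ᵁ (V q) ≤ σ ⁻¹ᵁ Q.U q.2 :=
        inf_le_right.trans (σ.preimage_mono (inf_le_right.trans inf_le_right))
      have hO : O ⊓ σ ⁻¹ᵁ (V q) ≤ σ ⁻¹ᵁ (p ⁻¹ᵁ O) :=
        inf_le_right.trans (σ.preimage_mono inf_le_left)
      rw [rs_pb, map_one, show pb σ _ u = pb σ (inf_le_right : O ⊓ σ ⁻¹ᵁ (V q) ≤ σ ⁻¹ᵁ (V q))
        (rs (inf_le_left : V q ≤ p ⁻¹ᵁ O) u) from (pb_rs _ _ _ _).symm, hu q, map_mul]
      have h1 := φ.normal q.1 q.2 _ hO hi hl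
      have h2 := ψ.normal q.1 q.2 _ hO hi hl
      have h3 : pb σ (inf_le_right : O ⊓ σ ⁻¹ᵁ (V q) ≤ σ ⁻¹ᵁ (V q)) (ψ.z q.1 q.2) *
          pb σ inf_le_right (↑(ψ.isUnit q.1 q.2).unit⁻¹) = 1 := by
        rw [← map_mul, IsUnit.mul_val_inv, map_one]
      exact normal_eq _ _ _ _ ((P.isUnit_a q.1).map (rs hi)) (h1.symm.trans h2) h3
  have h := hu (i, l)
  rw [hu1, map_one] at h
  calc φ.z i l = φ.z i l * ↑(ψ.isUnit i l).unit⁻¹ * ψ.z i l := by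
        rw [mul_assoc, IsUnit.val_inv_mul, mul_one]
    _ = ψ.z i l := by rw [← h, one_mul]
where
  ratio_eq {A : Type u} [CommRing A] (g h z z' w w' zi wi : A) (h1 : g * z' = h * z)
      (h2 : g * w' = h * w) (e : w * zi = 1) (e' : w' * wi = 1) (hg : IsUnit g) :
      z * zi = z' * wi := by
    refine hg.mul_left_cancel ?_
    linear_combination -wi * h1 - (z * zi) * g * e' + (z * zi * wi) * h2 + h * z * wi * e
  normal_eq {A : Type u} [CommRing A] (x y yi b : A) (hb : IsUnit b) (h : x * b = y * b)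
      (e : y * yi = 1) : x * yi = 1 := by
    rw [hb.mul_right_cancel h, e]

/-- The identity. -/
def refl (P : Piece p σ) (O : T.Opens) : Iso P P O where
  z i l := rs inf_le_right (P.g i l)
  isUnit i l := (P.isUnit i l).map _
  rel i i' l l' W hO hi hi' hl hl' := by
    simp only [rs_rs]
    rw [P.mul_eq i i' l' W hi hi' hl', mul_comm, P.mul_eq i l l' W hi hl hl']
  normal i l W hO hi hl := by
    rw [pb_rs]
    exact P.a_eq i l W hi hl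

variable (φ : Iso P Q O) (ψ : Iso Q R O)

lemma exists_comp (hQ : O ≤ Q.O) (i : P.ι) (m : R.ι) :
    ∃ w : Γ(X, p ⁻¹ᵁ O ⊓ (P.U i ⊓ R.U m)), ∀ l (W : X.Opens) (hO : W ≤ p ⁻¹ᵁ O) (hi : W ≤ P.U i)
      (hl : W ≤ Q.U l) (hm : W ≤ R.U m), rs (le_inf hO (le_inf hi hm)) w =
        rs (le_inf hO (le_inf hi hl)) (φ.z i l) * rs (le_inf hO (le_inf hl hm)) (ψ.z l m) := by
  let W₀ := p ⁻¹ᵁ O ⊓ (P.U i ⊓ R.U m)
  obtain ⟨w, hw⟩ := rs_glue (U := W₀) (fun l => W₀ ⊓ Q.U l) (fun _ => inf_le_left)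
    (fun x hx => (Q.cover x (p.preimage_mono hQ hx.1)).imp fun l hl => ⟨hx, hl⟩)
    (fun l => rs (le_inf (inf_le_left.trans inf_le_left)
        (le_inf (inf_le_left.trans (inf_le_right.trans inf_le_left)) inf_le_right)) (φ.z i l) *
      rs (le_inf (inf_le_left.trans inf_le_left)
        (le_inf inf_le_right (inf_le_left.trans (inf_le_right.trans inf_le_right)))) (ψ.z l m))
    fun l l' => by
      have hO : (W₀ ⊓ Q.U l) ⊓ (W₀ ⊓ Q.U l') ≤ p ⁻¹ᵁ O :=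
        inf_le_left.trans (inf_le_left.trans inf_le_left)
      have hi : (W₀ ⊓ Q.U l) ⊓ (W₀ ⊓ Q.U l') ≤ P.U i :=
        inf_le_left.trans (inf_le_left.trans (inf_le_right.trans inf_le_left))
      have hm : (W₀ ⊓ Q.U l) ⊓ (W₀ ⊓ Q.U l') ≤ R.U m :=
        inf_le_left.trans (inf_le_left.trans (inf_le_right.trans inf_le_right))
      have hl : (W₀ ⊓ Q.U l) ⊓ (W₀ ⊓ Q.U l') ≤ Q.U l := inf_le_left.trans inf_le_right
      have hl' : (W₀ ⊓ Q.U l) ⊓ (W₀ ⊓ Q.U l') ≤ Q.U l' := inf_le_right.trans inf_le_right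
      have h1 := φ.rel i i l l' _ hO hi hi hl hl'
      have h2 := ψ.rel l l' m m _ hO hl hl' hm hm
      rw [P.self_eq_one i _ hi, one_mul] at h1
      rw [R.self_eq_one m _ hm, one_mul] at h2
      simp only [map_mul, rs_rs]
      rw [h1, ← h2]
      exact (mul_left_comm _ _ _).trans (mul_assoc _ _ _).symm
  refine ⟨w, fun l W hO hi hl hm => ?_⟩
  have h := congrArg (rs (le_inf (le_inf hO (le_inf hi hm)) hl : W ≤ W₀ ⊓ Q.U l)) (hw l)
  simp only [map_mul, rs_rs] at h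
  exact h

/-- Composition. -/
def comp (hQ : O ≤ Q.O) : Iso P R O where
  z i m := (exists_comp φ ψ hQ i m).choose
  isUnit i m := by
    refine RingedSpace.isUnit_of_isUnit_germ X.toRingedSpace _ _ fun x hx => ?_
    obtain ⟨l, hl⟩ := Q.cover x (p.preimage_mono hQ hx.1)
    have hW : p ⁻¹ᵁ O ⊓ (P.U i ⊓ R.U m) ⊓ Q.U l ≤ p ⁻¹ᵁ O ⊓ (P.U i ⊓ R.U m) := inf_le_left
    have h := (exists_comp φ ψ hQ i m).choose_spec l _ (hW.trans inf_le_left)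
      (hW.trans (inf_le_right.trans inf_le_left)) inf_le_right
      (hW.trans (inf_le_right.trans inf_le_right))
    have h' : IsUnit (rs hW (exists_comp φ ψ hQ i m).choose) := by
      rw [h]; exact ((φ.isUnit i l).map _).mul ((ψ.isUnit l m).map _)
    have h'' := h'.map (X.presheaf.germ (p ⁻¹ᵁ O ⊓ (P.U i ⊓ R.U m) ⊓ Q.U l) x ⟨hx, hl⟩).hom
    exact (congrArg IsUnit (X.presheaf.germ_res_apply (homOfLE hW) x ⟨hx, hl⟩ _)).mp h''
  rel i i' m m' W hO hi hi' hm hm' := by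
    refine rs_ext (fun l => W ⊓ Q.U l) (fun _ => inf_le_left)
      (fun x hx => (Q.cover x (p.preimage_mono hQ (hO hx))).imp fun l hl => ⟨hx, hl⟩) _ _ fun l => ?_
    simp only [map_mul, rs_rs]
    rw [(exists_comp φ ψ hQ i m).choose_spec l _ (inf_le_left.trans hO) (inf_le_left.trans hi)
        inf_le_right (inf_le_left.trans hm),
      (exists_comp φ ψ hQ i' m').choose_spec l _ (inf_le_left.trans hO) (inf_le_left.trans hi')
        inf_le_right (inf_le_left.trans hm')]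
    have h1 := φ.rel i i' l l _ (inf_le_left.trans hO) (inf_le_left.trans hi) (inf_le_left.trans hi')
      inf_le_right inf_le_right
    have h2 := ψ.rel l l m m' _ (inf_le_left.trans hO) inf_le_right inf_le_right
      (inf_le_left.trans hm) (inf_le_left.trans hm')
    rw [Q.self_eq_one l _ inf_le_right, one_mul] at h1 h2
    rw [h2, ← mul_assoc, h1]
    exact mul_left_comm _ _ _
  normal i m W hO hi hm := by
    refine rs_ext (fun l => W ⊓ σ ⁻¹ᵁ Q.U l) (fun _ => inf_le_left)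
      (fun x hx => (Q.cover (σ x) (p.preimage_mono hQ (hO hx))).imp fun l hl => ⟨hx, hl⟩)
      _ _ fun l : Q.ι => ?_
    have hO' : W ⊓ σ ⁻¹ᵁ Q.U l ≤ σ ⁻¹ᵁ (p ⁻¹ᵁ O) := inf_le_left.trans hO
    have hi' : W ⊓ σ ⁻¹ᵁ Q.U l ≤ σ ⁻¹ᵁ P.U i := inf_le_left.trans hi
    have hm' : W ⊓ σ ⁻¹ᵁ Q.U l ≤ σ ⁻¹ᵁ R.U m := inf_le_left.trans hm
    have hV : W ⊓ σ ⁻¹ᵁ Q.U l ≤ σ ⁻¹ᵁ (p ⁻¹ᵁ O ⊓ (P.U i ⊓ Q.U l ⊓ R.U m)) :=
      preInf hO' (preInf (preInf hi' inf_le_right) hm')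
    have h := congrArg (pb σ hV) ((exists_comp φ ψ hQ i m).choose_spec l
      (p ⁻¹ᵁ O ⊓ (P.U i ⊓ Q.U l ⊓ R.U m)) inf_le_left
      (inf_le_right.trans (inf_le_left.trans inf_le_left))
      (inf_le_right.trans (inf_le_left.trans inf_le_right)) (inf_le_right.trans inf_le_right))
    rw [map_mul, pb_rs, pb_rs, pb_rs] at h
    simp only [map_mul, rs_rs, rs_pb]
    rw [h, ψ.normal l m _ hO' inf_le_right hm', φ.normal i l _ hO' hi' inf_le_right]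
    exact (mul_left_comm _ _ _).trans (mul_assoc _ _ _).symm

lemma comp_spec (hQ : O ≤ Q.O) (i : P.ι) (l : Q.ι) (m : R.ι) (W : X.Opens) (hO : W ≤ p ⁻¹ᵁ O)
    (hi : W ≤ P.U i) (hl : W ≤ Q.U l) (hm : W ≤ R.U m) :
    rs (le_inf hO (le_inf hi hm)) ((comp φ ψ hQ).z i m) =
      rs (le_inf hO (le_inf hi hl)) (φ.z i l) * rs (le_inf hO (le_inf hl hm)) (ψ.z l m) :=
  (exists_comp φ ψ hQ i m).choose_spec l W hO hi hl hm

include hσ hr in
/-- Rigidified isomorphisms glue. -/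
theorem exists_glue {α : Type u} (V : α → T.Opens) (hV : ∀ s, V s ≤ O)
    (hcov : ∀ t ∈ O, ∃ s, t ∈ V s) (hP : O ≤ P.O) (hQ : O ≤ Q.O) (φ : ∀ s, Iso P Q (V s)) :
    Nonempty (Iso P Q O) := by
  have hz : ∀ i l, ∃ w : Γ(X, p ⁻¹ᵁ O ⊓ (P.U i ⊓ Q.U l)),
      ∀ s, rs (inf_le_inf_right _ (p.preimage_mono (hV s))) w = (φ s).z i l := by
    intro i l
    refine rs_glue (U := p ⁻¹ᵁ O ⊓ (P.U i ⊓ Q.U l)) (fun s => p ⁻¹ᵁ V s ⊓ (P.U i ⊓ Q.U l)) (fun s => inf_le_inf_right _ (p.preimage_mono (hV s)))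
      (fun x hx => (hcov (p x) hx.1).imp fun s hs => ⟨hs, hx.2⟩) _ fun s s' => ?_
    have e := eq hσ hr ((φ s).restrict (inf_le_left : V s ⊓ V s' ≤ V s))
      ((φ s').restrict (inf_le_right : V s ⊓ V s' ≤ V s'))
      ((inf_le_left.trans (hV s)).trans hP) ((inf_le_left.trans (hV s)).trans hQ) i l
    have e' := congrArg (rs (le_inf (le_inf (inf_le_left.trans inf_le_left)
      (inf_le_right.trans inf_le_left)) (inf_le_left.trans inf_le_right) :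
        (p ⁻¹ᵁ V s ⊓ (P.U i ⊓ Q.U l)) ⊓ (p ⁻¹ᵁ V s' ⊓ (P.U i ⊓ Q.U l)) ≤
          p ⁻¹ᵁ (V s ⊓ V s') ⊓ (P.U i ⊓ Q.U l))) e
    simp only [restrict, rs_rs] at e'
    exact e'
  choose z hz using hz
  refine ⟨⟨z, fun i l => ?_, fun i i' l l' W hO hi hi' hl hl' => ?_,
    fun i l W hO hi hl => ?_⟩⟩
  · refine RingedSpace.isUnit_of_isUnit_germ X.toRingedSpace _ _ fun x hx => ?_
    obtain ⟨s, hs⟩ := hcov (p x) hx.1
    have h := ((φ s).isUnit i l).map (X.presheaf.germ (p ⁻¹ᵁ V s ⊓ (P.U i ⊓ Q.U l)) x ⟨hs, hx.2⟩).hom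
    rw [← hz i l s] at h
    exact (congrArg IsUnit (X.presheaf.germ_res_apply
      (homOfLE (inf_le_inf_right (P.U i ⊓ Q.U l) (p.preimage_mono (hV s)))) x ⟨hs, hx.2⟩ _)).mp h
  · refine rs_ext (fun s => W ⊓ p ⁻¹ᵁ V s) (fun _ => inf_le_left)
      (fun x hx => (hcov (p x) (hO hx)).imp fun s hs => ⟨hx, hs⟩) _ _ fun s => ?_
    simp only [map_mul, rs_rs]
    have h := (φ s).rel i i' l l' (W ⊓ p ⁻¹ᵁ V s) inf_le_right (inf_le_left.trans hi)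
      (inf_le_left.trans hi') (inf_le_left.trans hl) (inf_le_left.trans hl')
    rw [← hz i l s, ← hz i' l' s, rs_rs, rs_rs] at h
    exact h
  · refine rs_ext (fun s => W ⊓ σ ⁻¹ᵁ (p ⁻¹ᵁ V s)) (fun _ => inf_le_left)
      (fun t ht => (hcov (p (σ t)) (hO ht)).imp fun s hs => ⟨ht, hs⟩) _ _ fun s => ?_
    have h := (φ s).normal i l (W ⊓ σ ⁻¹ᵁ (p ⁻¹ᵁ V s)) inf_le_right (inf_le_left.trans hi)
      (inf_le_left.trans hl)
    rw [← hz i l s, pb_rs] at h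
    simp only [map_mul, rs_rs, rs_pb]
    exact h

end Iso

end Piece

/-- A family of pieces covering the base, with rigidified isomorphisms on overlaps. -/
structure Datum : Type (u + 1) where
  /-- the index type -/
  α : Type u
  /-- the pieces -/
  P : α → Piece p σ
  cover : ∀ t : T, ∃ a, t ∈ (P a).O
  overlap : ∀ a b, Nonempty (Piece.Iso (P a) (P b) ((P a).O ⊓ (P b).O))

namespace Datum

variable {p σ} (𝒟 : Datum p σ) (hσ : σ ≫ p = 𝟙 T) (hr : RigidUnits p σ)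

/-- The transition functions of the glued bundle. -/
def g (x y : Σ a, (𝒟.P a).ι) : Γ(X, (𝒟.P x.1).U x.2 ⊓ (𝒟.P y.1).U y.2) :=
  rs (le_inf (preInf (inf_le_left.trans ((𝒟.P x.1).le x.2))
      (inf_le_right.trans ((𝒟.P y.1).le y.2))) le_rfl)
    ((𝒟.overlap x.1 y.1).some.z x.2 y.2)

include hσ hr in
lemma rs_g {a b : 𝒟.α} (i : (𝒟.P a).ι) (l : (𝒟.P b).ι) {O : T.Opens}
    (hOa : O ≤ (𝒟.P a).O) (hOb : O ≤ (𝒟.P b).O) (φ : Piece.Iso (𝒟.P a) (𝒟.P b) O) (W : X.Opens)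
    (hO : W ≤ p ⁻¹ᵁ O) (hi : W ≤ (𝒟.P a).U i) (hl : W ≤ (𝒟.P b).U l) :
    rs (le_inf hi hl) (𝒟.g ⟨a, i⟩ ⟨b, l⟩) = rs (le_inf hO (le_inf hi hl)) (φ.z i l) := by
  rw [g, rs_rs]
  have e := congrArg (rs (le_inf hO (le_inf hi hl)))
    (Piece.Iso.eq hσ hr ((𝒟.overlap a b).some.restrict (le_inf hOa hOb)) φ hOa hOb i l)
  simp only [Piece.Iso.restrict, rs_rs] at e
  exact e

include hσ hr in
lemma g_mul (a b e : 𝒟.α) (i : (𝒟.P a).ι) (j : (𝒟.P b).ι) (m : (𝒟.P e).ι) (W : X.Opens)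
    (hi : W ≤ (𝒟.P a).U i) (hj : W ≤ (𝒟.P b).U j) (hm : W ≤ (𝒟.P e).U m) :
    rs (le_inf hi hj) (𝒟.g ⟨a, i⟩ ⟨b, j⟩) * rs (le_inf hj hm) (𝒟.g ⟨b, j⟩ ⟨e, m⟩) =
      rs (le_inf hi hm) (𝒟.g ⟨a, i⟩ ⟨e, m⟩) := by
  let O := (𝒟.P a).O ⊓ (𝒟.P b).O ⊓ (𝒟.P e).O
  have ha : O ≤ (𝒟.P a).O := inf_le_left.trans inf_le_left
  have hb : O ≤ (𝒟.P b).O := inf_le_left.trans inf_le_right
  have he : O ≤ (𝒟.P e).O := inf_le_right
  let φ := (𝒟.overlap a b).some.restrict (le_inf ha hb)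
  let ψ := (𝒟.overlap b e).some.restrict (le_inf hb he)
  have hW : W ≤ p ⁻¹ᵁ O := le_inf (le_inf (hi.trans ((𝒟.P a).le i)) (hj.trans ((𝒟.P b).le j)))
    (hm.trans ((𝒟.P e).le m))
  rw [𝒟.rs_g hσ hr i j ha hb φ W hW hi hj, 𝒟.rs_g hσ hr j m hb he ψ W hW hj hm,
    𝒟.rs_g hσ hr i m ha he (φ.comp ψ hb) W hW hi hm, Piece.Iso.comp_spec φ ψ hb i j m W hW hi hj hm]

include hσ hr in
/-- The glued cocycle. -/
def cocycle : Cocycle X where
  ι := Σ a, (𝒟.P a).ι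
  U x := (𝒟.P x.1).U x.2
  cover x := by
    obtain ⟨a, ha⟩ := 𝒟.cover (p x)
    obtain ⟨i, hi⟩ := (𝒟.P a).cover x ha
    exact ⟨⟨a, i⟩, hi⟩
  g := 𝒟.g
  isUnit x y := ((𝒟.overlap x.1 y.1).some.isUnit x.2 y.2).map _
  mul_eq x y z W hx hy hz := 𝒟.g_mul hσ hr x.1 y.1 z.1 x.2 y.2 z.2 W hx hy hz

include hσ hr in
/-- The glued bundle is trivial along the section. -/
theorem nonempty_section_trivial :
    Nonempty (((𝒟.cocycle hσ hr).comap σ).module ≅ unitM T) := by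
  refine ⟨((𝒟.cocycle hσ hr).comap σ).isoOfFrames (N := unitM T)
    ⟨fun x => (𝒟.P x.1).a x.2, fun x y W hx hy => ?_⟩ fun x W hW => ?_⟩
  · show rs hy ((𝒟.P y.1).a y.2) = _ * rs hx ((𝒟.P x.1).a x.2)
    let O := (𝒟.P x.1).O ⊓ (𝒟.P y.1).O
    have hO : W ≤ σ ⁻¹ᵁ (p ⁻¹ᵁ O) :=
      le_inf (hx.trans (σ.preimage_mono ((𝒟.P x.1).le x.2)))
        (hy.trans (σ.preimage_mono ((𝒟.P y.1).le y.2)))
    have h := (𝒟.overlap x.1 y.1).some.normal x.2 y.2 W hO hx hy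
    refine h.trans (congrArg (· * _) ?_)
    exact ((rs_pb σ _ _ _).trans (pb_rs σ _ _ _)).symm
  · have hb := (((𝒟.P x.1).isUnit_a x.2).map (rs hW)).unit.mulRight.bijective
    simpa only [Units.mulRight_apply, IsUnit.unit_spec] using! hb

end Datum

end FLTAgent.RelPic
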