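import Mathlib
import Fermat.Prelude.Def_ModularCurve_LaurentCoeff
import Fermat.Prelude.Def_ModularCurve_X0ModL

/-!
The big cell: `A`-stable complements of `t R[[t]]` in `R((t))` containing `1`, represented by a ring
of finite type.
-/

set_option autoImplicit false
set_option linter.unusedSectionVars false

noncomputable section

open ModularCurve

universe u v w

namespace FLTAgent.RelPic

/-- functions on a punctured curve through their expansions, with the finite set of gaps -/
structure CellData (k : Type u) [Field k] where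
  /-- the expansions -/
  A : Subalgebra k (LaurentSeries k)
  /-- the gaps -/
  G : Finset ℕ
  /-- no function is regular at infinity and zero there -/
  indep : ∀ x ∈ A, (∀ n : ℕ, n ∉ G → x.coeff (-(n : ℤ)) = 0) → x = 0
  exists_pol : ∀ n : ℕ, n ∉ G → ∃ x ∈ A, ∀ m : ℕ, m ∉ G →
    x.coeff (-(m : ℤ)) = if m = n then 1 else 0

/-! ### principal parts -/

section Pol

variable {R : Type v} [CommRing R] {S : Type w} [CommRing S]

theorem finite_pol (x : LaurentSeries R) :
    (Function.support fun n : ℕ => x.coeff (-(n : ℤ))).Finite := by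
  refine (Set.finite_le_nat ((-x.order).toNat)).subset fun n hn => ?_
  have h := HahnSeries.order_le_of_coeff_ne_zero (x := x) hn
  show n ≤ (-x.order).toNat
  omega

/-- the coefficients in degrees `≤ 0` -/
def pol : LaurentSeries R →ₗ[R] (ℕ →₀ R) where
  toFun x := Finsupp.ofSupportFinite _ (finite_pol x)
  map_add' x y := Finsupp.ext fun n => by simp [Finsupp.ofSupportFinite_coe]
  map_smul' r x := Finsupp.ext fun n => by simp [Finsupp.ofSupportFinite_coe]

theorem pol_apply (x : LaurentSeries R) (n : ℕ) : pol x n = x.coeff (-(n : ℤ)) := rfl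

theorem pol_eq_zero_iff {x : LaurentSeries R} :
    pol x = 0 ↔ ∀ k : ℤ, k ≤ 0 → x.coeff k = 0 := by
  refine ⟨fun h k hk => ?_, fun h => Finsupp.ext fun n => h _ (by omega)⟩
  have := DFunLike.congr_fun h (-k).toNat
  rwa [pol_apply, show (-((-k).toNat : ℤ)) = k by omega] at this

theorem mul_C_smul (r : R) (x y : LaurentSeries R) : x * (r • y) = r • (x * y) := by
  rw [← HahnSeries.C_mul_eq_smul, ← HahnSeries.C_mul_eq_smul, mul_left_comm]

theorem C_mem {k : Type u} [Field k] (A : Subalgebra k (LaurentSeries k)) (r : k) :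
    (HahnSeries.C r : LaurentSeries k) ∈ A := by
  have h := A.algebraMap_mem r
  rwa [algebraMap_laurentSeries_eq_single, ← HahnSeries.C_apply] at h

/-- `t R[[t]]` -/
def tPow (R : Type v) [CommRing R] : Submodule R (LaurentSeries R) := LinearMap.ker pol

theorem coeffMap_smul (f : R →+* S) (r : R) (x : LaurentSeries R) :
    coeffMap f (r • x) = f r • coeffMap f x := by
  ext n
  simp

theorem pol_coeffMap (f : R →+* S) (x : LaurentSeries R) :
    pol (coeffMap f x) = (pol x).mapRange f (map_zero f) := by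
  ext n
  simp [pol_apply]

end Pol

namespace CellData

variable {k : Type u} [Field k] (D : CellData k)

section Base

variable (R : Type v) [CommRing R] [Algebra k R]

/-- expansions with coefficients in `R` -/
def L : LaurentSeries k →+* LaurentSeries R := coeffMap (algebraMap k R)

variable {R}

theorem coeff_L (x : LaurentSeries k) (n : ℤ) : (L R x).coeff n = algebraMap k R (x.coeff n) := rfl

theorem L_smul (r : k) (x : LaurentSeries k) : L R (r • x) = algebraMap k R r • L R x :=
  coeffMap_smul _ r x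

/-- the function with principal part `t ^ (-n)` up to gaps -/
def an (n : ℕ) (hn : n ∉ D.G) : LaurentSeries k := (D.exists_pol n hn).choose

theorem an_mem (n : ℕ) (hn : n ∉ D.G) : D.an n hn ∈ D.A := (D.exists_pol n hn).choose_spec.1

theorem an_coeff (n : ℕ) (hn : n ∉ D.G) {m : ℕ} (hm : m ∉ D.G) :
    (D.an n hn).coeff (-(m : ℤ)) = if m = n then 1 else 0 :=
  (D.exists_pol n hn).choose_spec.2 m hm

/-- `t ^ (-i) + ∑ c i j t ^ (j + 1)` -/
def mGen (c : D.G → ℕ → R) (i : D.G) : LaurentSeries R :=
  HahnSeries.single (-((i : ℕ) : ℤ)) 1 +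
    HahnSeries.ofPowerSeries ℤ R (PowerSeries.X * PowerSeries.mk (c i))

theorem pol_mGen (c : D.G → ℕ → R) (i : D.G) : pol (D.mGen c i) = Finsupp.single (i : ℕ) 1 := by
  ext n
  rw [pol_apply, mGen, HahnSeries.coeff_add, Finsupp.single_apply]
  have h0 : (HahnSeries.ofPowerSeries ℤ R (PowerSeries.X * PowerSeries.mk (c i))).coeff (-(n : ℤ)) =
      0 := by
    rcases Nat.eq_zero_or_pos n with rfl | hn
    · rw [Nat.cast_zero, neg_zero, show (0 : ℤ) = ((0 : ℕ) : ℤ) from rfl,
        HahnSeries.ofPowerSeries_apply_coeff]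
      simp
    · rw [HahnSeries.ofPowerSeries_apply, HahnSeries.embDomain_of_notMem_range]
      rintro ⟨m, hm⟩
      change (m : ℤ) = -(n : ℤ) at hm
      omega
  rw [h0, add_zero, HahnSeries.coeff_single]
  simp only [neg_inj, Nat.cast_inj, eq_comm]

theorem coeff_mGen (c : D.G → ℕ → R) (i : D.G) (j : ℕ) :
    (D.mGen c i).coeff ((j : ℤ) + 1) = c i j := by
  rw [mGen, HahnSeries.coeff_add, HahnSeries.coeff_single_of_ne (by omega), zero_add,
    show ((j : ℤ) + 1) = ((j + 1 : ℕ) : ℤ) by push_cast; rfl, HahnSeries.ofPowerSeries_apply_coeff,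
    PowerSeries.coeff_succ_X_mul, PowerSeries.coeff_mk]

/-- the element with principal part `t ^ (-n)` -/
def bas (c : D.G → ℕ → R) (n : ℕ) : LaurentSeries R :=
  if hn : n ∈ D.G then D.mGen c ⟨n, hn⟩
  else L R (D.an n hn) -
    ∑ i : D.G, algebraMap k R ((D.an n hn).coeff (-((i : ℕ) : ℤ))) • D.mGen c i

theorem pol_bas (c : D.G → ℕ → R) (n : ℕ) : pol (D.bas c n) = Finsupp.single n 1 := by
  rw [bas]
  split_ifs with hn
  · rw [pol_mGen]
  · rw [map_sub, map_sum]
    refine Finsupp.ext fun m => ?_
    simp only [map_smul, pol_mGen, Finsupp.sub_apply, Finsupp.finsetSum_apply, Finsupp.smul_apply,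
      pol_apply, coeff_L, smul_eq_mul, Finsupp.single_apply, mul_ite, mul_one, mul_zero]
    by_cases hm : m ∈ D.G
    · rw [Finset.sum_eq_single (⟨m, hm⟩ : D.G)
        (fun i _ hi => if_neg fun e => hi (Subtype.ext e)) (by simp), if_pos rfl,
        if_neg (fun e => hn (by rw [e]; exact hm)), sub_self]
    · rw [Finset.sum_eq_zero fun i _ => if_neg fun (e : ((i : D.G) : ℕ) = m) => hm (e ▸ i.2), sub_zero,
        D.an_coeff n hn hm]
      simp only [apply_ite (algebraMap k R), map_one, map_zero, eq_comm]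

/-- all combinations -/
def comb (c : D.G → ℕ → R) : (ℕ →₀ R) →ₗ[R] LaurentSeries R := Finsupp.linearCombination R (D.bas c)

theorem pol_comb (c : D.G → ℕ → R) (f : ℕ →₀ R) : pol (D.comb c f) = f := by
  induction f using Finsupp.induction_linear with
  | zero => simp
  | add f g hf hg => rw [map_add, map_add, hf, hg]
  | single n r =>
    rw [comb, Finsupp.linearCombination_single, map_smul, pol_bas, Finsupp.smul_single,
      smul_eq_mul, mul_one]

/-- the submodule with coordinates `c` -/
def span (c : D.G → ℕ → R) : Submodule R (LaurentSeries R) := LinearMap.range (D.comb c)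

theorem mem_span {c : D.G → ℕ → R} {x : LaurentSeries R} :
    x ∈ D.span c ↔ D.comb c (pol x) = x :=
  ⟨by rintro ⟨f, rfl⟩; rw [pol_comb], fun h => ⟨_, h⟩⟩

theorem bas_mem (c : D.G → ℕ → R) (n : ℕ) : D.bas c n ∈ D.span c :=
  ⟨Finsupp.single n 1, by rw [comb, Finsupp.linearCombination_single, one_smul]⟩

theorem mGen_mem (c : D.G → ℕ → R) (i : D.G) : D.mGen c i ∈ D.span c := by
  have h := D.bas_mem c (i : ℕ)
  rwa [bas, dif_pos i.2] at h

theorem isCompl_span (c : D.G → ℕ → R) : IsCompl (D.span c) (tPow R) := by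
  refine ⟨Submodule.disjoint_def.mpr fun x hx hx' => ?_, codisjoint_iff.mpr (eq_top_iff.mpr
    fun x _ => ?_)⟩
  · rw [← D.mem_span.mp hx, LinearMap.mem_ker.mp hx', map_zero]
  · rw [show x = D.comb c (pol x) + (x - D.comb c (pol x)) by abel]
    exact Submodule.add_mem_sup ⟨_, rfl⟩ (LinearMap.mem_ker.mpr (by rw [map_sub, pol_comb, sub_self]))

theorem L_mem_span (c : D.G → ℕ → R) {a : LaurentSeries k} (ha : a ∈ D.A) : L R a ∈ D.span c := by
  classical
  set s := (pol a).support.filter (· ∉ D.G) with hs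
  have e : a = ∑ n ∈ s.attach, a.coeff (-((n : ℕ) : ℤ)) •
      D.an n (Finset.mem_filter.mp n.2).2 := by
    refine sub_eq_zero.mp (D.indep _ (sub_mem ha (sum_mem fun n _ => by
      rw [← HahnSeries.C_mul_eq_smul]; exact mul_mem (C_mem D.A _) (D.an_mem _ _))) fun m hm => ?_)
    rw [HahnSeries.coeff_sub, HahnSeries.coeff_sum]
    simp only [HahnSeries.coeff_smul, D.an_coeff _ _ hm, smul_eq_mul, mul_ite, mul_one, mul_zero]
    by_cases h : m ∈ s
    · rw [Finset.sum_eq_single (⟨m, h⟩ : s) (fun n _ hne => if_neg fun e => hne (Subtype.ext e.symm))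
        (fun h' => absurd (Finset.mem_attach _ _) h'), if_pos rfl, sub_self]
    · rw [Finset.sum_eq_zero fun n _ => if_neg fun e => h (by rw [e]; exact n.2), sub_zero]
      by_contra h0
      exact h (Finset.mem_filter.mpr ⟨Finsupp.mem_support_iff.mpr h0, hm⟩)
  rw [e, map_sum]
  refine sum_mem fun n _ => ?_
  rw [L_smul]
  refine Submodule.smul_mem _ _ ?_
  have hn := (Finset.mem_filter.mp n.2).2
  have hb := D.bas_mem c (n : ℕ)
  rw [bas, dif_neg hn] at hb
  have h2 : ∑ i : D.G, algebraMap k R ((D.an (n : ℕ) hn).coeff (-((i : ℕ) : ℤ))) • D.mGen c i ∈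
      D.span c := sum_mem fun i _ => Submodule.smul_mem _ _ (D.mGen_mem c i)
  have := add_mem hb h2
  rwa [sub_add_cancel] at this

/-- the equations of stability -/
def IsStable (c : D.G → ℕ → R) : Prop :=
  ∀ a ∈ D.A, ∀ i : D.G, L R a * D.mGen c i ∈ D.span c

theorem mul_mem_span {c : D.G → ℕ → R} (hc : D.IsStable c) {a : LaurentSeries k} (ha : a ∈ D.A)
    {x : LaurentSeries R} (hx : x ∈ D.span c) : L R a * x ∈ D.span c := by
  obtain ⟨f, rfl⟩ := hx
  induction f using Finsupp.induction_linear with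
  | zero => simp
  | add f g hf hg => rw [map_add, mul_add]; exact add_mem hf hg
  | single n r =>
    rw [comb, Finsupp.linearCombination_single, mul_C_smul]
    refine Submodule.smul_mem _ _ ?_
    rw [bas]
    split_ifs with hn
    · exact hc a ha _
    · rw [mul_sub, Finset.mul_sum, ← map_mul]
      refine sub_mem (D.L_mem_span c (mul_mem ha (D.an_mem n hn))) (sum_mem fun i _ => ?_)
      rw [mul_C_smul]
      exact Submodule.smul_mem _ _ (hc a ha i)

/-- a point of the big cell -/
structure Cell (R : Type v) [CommRing R] [Algebra k R] where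
  /-- the submodule -/
  M : Submodule R (LaurentSeries R)
  one_mem : (1 : LaurentSeries R) ∈ M
  mul_mem : ∀ a ∈ D.A, ∀ x ∈ M, L R a * x ∈ M
  compl : IsCompl M (tPow R)

theorem one_mem_span (c : D.G → ℕ → R) : (1 : LaurentSeries R) ∈ D.span c := by
  have := D.L_mem_span c (one_mem D.A)
  rwa [map_one] at this

/-- the cell point of coordinates -/
def ofCoord (c : D.G → ℕ → R) (hc : D.IsStable c) : D.Cell R :=
  ⟨D.span c, D.one_mem_span c, fun _ ha _ hx => D.mul_mem_span hc ha hx, D.isCompl_span c⟩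

theorem Cell.ext' {W W' : D.Cell R} (h : W.M = W'.M) : W = W' := by
  cases W; cases W'; cases h; rfl

theorem Cell.eq_of_pol (W : D.Cell R) {x y : LaurentSeries R} (hx : x ∈ W.M) (hy : y ∈ W.M)
    (h : pol x = pol y) : x = y :=
  sub_eq_zero.mp (Submodule.disjoint_def.mp W.compl.disjoint _ (sub_mem hx hy)
    (LinearMap.mem_ker.mpr (by rw [map_sub, h, sub_self])))

theorem Cell.exists_pol_eq (W : D.Cell R) (f : ℕ →₀ R) : ∃ x ∈ W.M, pol x = f := by
  obtain ⟨x, hx, y, hy, e⟩ := Submodule.mem_sup.mp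
    (W.compl.codisjoint.eq_top ▸ Submodule.mem_top : D.comb (fun _ _ => 0) f ∈ W.M ⊔ tPow R)
  refine ⟨x, hx, ?_⟩
  rw [← D.pol_comb (fun _ _ => 0) f, ← e, map_add, LinearMap.mem_ker.mp hy, add_zero]

/-- the coordinates of a cell point -/
def Cell.coord (W : D.Cell R) (i : D.G) (j : ℕ) : R :=
  (W.exists_pol_eq D (Finsupp.single (i : ℕ) 1)).choose.coeff ((j : ℤ) + 1)

theorem eq_mGen {x : LaurentSeries R} (i : D.G) (h : pol x = Finsupp.single (i : ℕ) 1) :
    x = D.mGen (fun i' j => if i' = i then x.coeff ((j : ℤ) + 1) else 0) i := by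
  ext n
  rcases le_or_gt n 0 with hn | hn
  · have e := DFunLike.congr_fun (h.trans (D.pol_mGen
      (fun i' j => if i' = i then x.coeff ((j : ℤ) + 1) else 0) i).symm) (-n).toNat
    rwa [pol_apply, pol_apply, show (-((-n).toNat : ℤ)) = n by omega] at e
  · obtain ⟨j, rfl⟩ : ∃ j : ℕ, n = (j : ℤ) + 1 := ⟨(n - 1).toNat, by omega⟩
    rw [coeff_mGen, if_pos rfl]

theorem mGen_congr {c c' : D.G → ℕ → R} (i : D.G) (h : c i = c' i) : D.mGen c i = D.mGen c' i := by
  rw [mGen, mGen, h]

theorem Cell.mGen_coord_mem (W : D.Cell R) (i : D.G) : D.mGen (W.coord D) i ∈ W.M := by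
  obtain ⟨hx, hp⟩ := (W.exists_pol_eq D (Finsupp.single (i : ℕ) 1)).choose_spec
  rw [D.mGen_congr i (c' := fun i' j => if i' = i then
    (W.exists_pol_eq D (Finsupp.single (i : ℕ) 1)).choose.coeff ((j : ℤ) + 1) else 0)
    (funext fun j => by rw [if_pos rfl]; rfl), ← D.eq_mGen i hp]
  exact hx

theorem Cell.span_coord (W : D.Cell R) : D.span (W.coord D) = W.M := by
  have hle : D.span (W.coord D) ≤ W.M := by
    rintro x ⟨f, rfl⟩
    induction f using Finsupp.induction_linear with
    | zero => simp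
    | add f g hf hg => rw [map_add]; exact add_mem hf hg
    | single n r =>
      rw [comb, Finsupp.linearCombination_single]
      refine Submodule.smul_mem _ _ ?_
      rw [bas]
      split_ifs with hn
      · exact W.mGen_coord_mem D _
      · refine sub_mem ?_ (sum_mem fun i _ => Submodule.smul_mem _ _ (W.mGen_coord_mem D i))
        have := W.mul_mem _ (D.an_mem n hn) 1 W.one_mem
        rwa [mul_one] at this
  refine le_antisymm hle fun x hx => ?_
  exact ⟨pol x, W.eq_of_pol D (hle ⟨_, rfl⟩) hx (D.pol_comb _ _)⟩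

theorem Cell.isStable_coord (W : D.Cell R) : D.IsStable (W.coord D) := fun a ha i => by
  rw [W.span_coord]
  exact W.mul_mem a ha _ (W.mGen_coord_mem D i)

/-- cell points are the stable coordinates -/
def cellEquiv : {c : D.G → ℕ → R // D.IsStable c} ≃ D.Cell R where
  toFun c := D.ofCoord c.1 c.2
  invFun W := ⟨W.coord D, W.isStable_coord D⟩
  left_inv c := Subtype.ext <| funext fun i => funext fun j => by
    obtain ⟨hx, hp⟩ := ((D.ofCoord c.1 c.2).exists_pol_eq D (Finsupp.single (i : ℕ) 1)).choose_spec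
    show (((D.ofCoord c.1 c.2).exists_pol_eq D _).choose).coeff _ = _
    rw [(D.ofCoord c.1 c.2).eq_of_pol D hx (D.mGen_mem c.1 i) (hp.trans (D.pol_mGen _ _).symm),
      coeff_mGen]
  right_inv W := Cell.ext' D (W.span_coord D)

end Base

/-! ### functoriality and the universal ring -/

section Map

variable {R : Type v} [CommRing R] [Algebra k R] {S : Type w} [CommRing S] [Algebra k S]
  (φ : R →ₐ[k] S)

theorem coeffMap_L (x : LaurentSeries k) : coeffMap (φ : R →+* S) (L R x) = L S x := by
  ext n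
  simp [coeff_L]

theorem coeffMap_mGen (c : D.G → ℕ → R) (i : D.G) :
    coeffMap (φ : R →+* S) (D.mGen c i) = D.mGen (fun i j => φ (c i j)) i := by
  rw [mGen, mGen, map_add, coeffMap_single, map_one, coeffMap_ofPowerSeries, map_mul,
    PowerSeries.map_X]
  congr 2

theorem coeffMap_bas (c : D.G → ℕ → R) (n : ℕ) :
    coeffMap (φ : R →+* S) (D.bas c n) = D.bas (fun i j => φ (c i j)) n := by
  rw [bas, bas]
  split_ifs with hn
  · exact D.coeffMap_mGen φ c _
  · rw [map_sub, coeffMap_L, map_sum]
    refine congrArg _ (Finset.sum_congr rfl fun i _ => ?_)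
    rw [coeffMap_smul, coeffMap_mGen]
    exact congrArg (· • _) (φ.commutes _)

theorem coeffMap_comb (c : D.G → ℕ → R) (f : ℕ →₀ R) :
    coeffMap (φ : R →+* S) (D.comb c f) =
      D.comb (fun i j => φ (c i j)) (f.mapRange φ (map_zero φ)) := by
  induction f using Finsupp.induction_linear with
  | zero => simp
  | add f g hf hg => rw [map_add, map_add, hf, hg, Finsupp.mapRange_add (map_add φ), map_add]
  | single n r =>
    rw [Finsupp.mapRange_single, comb, comb, Finsupp.linearCombination_single,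
      Finsupp.linearCombination_single, coeffMap_smul, coeffMap_bas]
    rfl

end Map

/-- the polynomial ring of coordinates -/
abbrev Poly : Type u := MvPolynomial (D.G × ℕ) k

/-- the universal coordinates -/
def cX : D.G → ℕ → D.Poly := fun i j => MvPolynomial.X (i, j)

/-- the obstruction to stability -/
def defect (a : LaurentSeries k) (i : D.G) : LaurentSeries D.Poly :=
  L D.Poly a * D.mGen D.cX i - D.comb D.cX (pol (L D.Poly a * D.mGen D.cX i))

/-- the equations of the cell -/
def relIdeal : Ideal D.Poly :=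
  Ideal.span {r | ∃ a ∈ D.A, ∃ (i : D.G) (n : ℤ), r = (D.defect a i).coeff n}

/-- the coordinate ring of the cell -/
abbrev Ring : Type u := D.Poly ⧸ D.relIdeal

variable {R : Type v} [CommRing R] [Algebra k R]

theorem isStable_iff (φ : D.Poly →ₐ[k] R) :
    D.IsStable (fun i j => φ (D.cX i j)) ↔ D.relIdeal ≤ RingHom.ker φ := by
  have key : ∀ a i, coeffMap (φ : D.Poly →+* R) (D.defect a i) =
      L R a * D.mGen (fun i j => φ (D.cX i j)) i - D.comb (fun i j => φ (D.cX i j))
        (pol (L R a * D.mGen (fun i j => φ (D.cX i j)) i)) := fun a i => by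
    rw [defect, map_sub, coeffMap_comb, map_mul, coeffMap_L, coeffMap_mGen,
      ← D.coeffMap_mGen φ, ← coeffMap_L φ a, ← map_mul, pol_coeffMap]
    rfl
  rw [relIdeal, Ideal.span_le]
  constructor
  · rintro h r ⟨a, ha, i, n, rfl⟩
    have h0 : coeffMap (φ : D.Poly →+* R) (D.defect a i) = 0 := by
      rw [key, D.mem_span.mp (h a ha i), sub_self]
    exact RingHom.mem_ker.mpr (congrArg (fun s : LaurentSeries R => s.coeff n) h0)
  · intro h a ha i
    refine D.mem_span.mpr (sub_eq_zero.mp ?_).symm
    rw [← key]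
    ext n
    exact RingHom.mem_ker.mp (h ⟨a, ha, i, n, rfl⟩)

/-- the universal property -/
def homEquiv : (D.Ring →ₐ[k] R) ≃ D.Cell R :=
  (show (D.Ring →ₐ[k] R) ≃ {c : D.G → ℕ → R // D.IsStable c} from
  { toFun := fun f => ⟨fun i j => f (Ideal.Quotient.mkₐ k D.relIdeal (D.cX i j)),
      (D.isStable_iff (f.comp (Ideal.Quotient.mkₐ k D.relIdeal))).mpr fun r hr =>
        RingHom.mem_ker.mpr (by
          show f (Ideal.Quotient.mkₐ k D.relIdeal r) = 0
          rw [Ideal.Quotient.mkₐ_eq_mk, Ideal.Quotient.eq_zero_iff_mem.mpr hr, map_zero])⟩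
    invFun := fun c => Ideal.Quotient.liftₐ D.relIdeal (MvPolynomial.aeval fun x => c.1 x.1 x.2)
      fun r hr => (D.isStable_iff (MvPolynomial.aeval fun x => c.1 x.1 x.2)).mp
        (by simpa [cX] using c.2) hr
    left_inv := fun f => Ideal.Quotient.algHom_ext _ (MvPolynomial.algHom_ext fun x =>
      MvPolynomial.aeval_X _ x)
    right_inv := fun c => Subtype.ext (funext fun i => funext fun j =>
      MvPolynomial.aeval_X _ (i, j)) }).trans D.cellEquiv

theorem homEquiv_M (f : D.Ring →ₐ[k] R) :
    (D.homEquiv f).M = D.span fun i j => f (Ideal.Quotient.mkₐ k D.relIdeal (D.cX i j)) := rfl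

end CellData

end FLTAgent.RelPic

end
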