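/-
Interface of area RelPic (S25): lattices in Laurent series over the functions on the punctured
curve (Krichever correspondence). Rigidified line bundle classes over an affine base `Spec R` are
lattices modulo units of `R[[t]]`.
-/
import Fermat.Agent.RelPic.CellAlg

set_option autoImplicit false

noncomputable section

universe u

open HahnSeries ModularCurve

namespace FLTAgent.RelPic

namespace CellData

variable {k : Type u} [Field k] (D : CellData k)
variable (R : Type u) [CommRing R] [Algebra k R]

/-- The functions on the base change of the punctured curve, inside Laurent series. -/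
def AR : Subring (LaurentSeries R) :=
  Subring.closure (Set.range (HahnSeries.C : R →+* LaurentSeries R) ∪
    ⇑(L (k := k) R) '' (D.A : Set (LaurentSeries k)))

variable {R}

lemma C_mem_AR (r : R) : (HahnSeries.C r : LaurentSeries R) ∈ D.AR R :=
  Subring.subset_closure (Or.inl ⟨r, rfl⟩)

lemma L_mem_AR {a : LaurentSeries k} (ha : a ∈ D.A) : L R a ∈ D.AR R :=
  Subring.subset_closure (Or.inr ⟨a, ha, rfl⟩)

lemma AR_induction {P : LaurentSeries R → Prop} (hC : ∀ r : R, P (HahnSeries.C r))
    (hA : ∀ a ∈ D.A, P (L R a)) (hadd : ∀ x y, P x → P y → P (x + y))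
    (hneg : ∀ x, P x → P (-x)) (hmul : ∀ x y, P x → P y → P (x * y)) {x : LaurentSeries R}
    (hx : x ∈ D.AR R) : P x := by
  induction hx using Subring.closure_induction with
  | mem y hy =>
    rcases hy with ⟨r, rfl⟩ | ⟨a, ha, rfl⟩
    exacts [hC r, hA a ha]
  | zero => simpa using hC 0
  | one => simpa using hC 1
  | add x y _ _ hx hy => exact hadd x y hx hy
  | neg x _ hx => exact hneg x hx
  | mul x y _ _ hx hy => exact hmul x y hx hy

variable {R' : Type u} [CommRing R'] [Algebra k R']

lemma coeffMap_mem_AR (f : R →ₐ[k] R') {x : LaurentSeries R} (hx : x ∈ D.AR R) :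
    coeffMap (f : R →+* R') x ∈ D.AR R' := by
  refine D.AR_induction (P := fun y => coeffMap (f : R →+* R') y ∈ D.AR R') (fun r => ?_)
    (fun a ha => ?_) (fun a b ha hb => by rw [map_add]; exact add_mem ha hb)
    (fun a ha => by rw [map_neg]; exact neg_mem ha)
    (fun a b ha hb => by rw [map_mul]; exact mul_mem ha hb) hx
  · rw [show coeffMap (f : R →+* R') (HahnSeries.C r) = HahnSeries.C (f r) from coeffMap_single _ _ r]
    exact D.C_mem_AR _
  · rw [coeffMap_L]
    exact D.L_mem_AR ha

variable (R)

/-- The lattices over `R`: invertible modules over the functions, inside Laurent series. -/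
abbrev Lattice : Type u := (Submodule (D.AR R) (LaurentSeries R))ˣ

variable {R}

/-- A module over the functions, as a module over the base. -/
def toR (M : Submodule (D.AR R) (LaurentSeries R)) : Submodule R (LaurentSeries R) where
  carrier := M
  add_mem' := M.add_mem
  zero_mem' := M.zero_mem
  smul_mem' r x hx := by
    rw [← HahnSeries.C_mul_eq_smul]
    exact M.smul_mem ⟨_, D.C_mem_AR r⟩ hx

@[simp]
lemma mem_toR {M : Submodule (D.AR R) (LaurentSeries R)} {x : LaurentSeries R} :
    x ∈ D.toR M ↔ x ∈ M := Iff.rfl

/-- Base change of modules inside Laurent series. -/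
def mapSub (f : R →ₐ[k] R') :
    Submodule (D.AR R) (LaurentSeries R) →* Submodule (D.AR R') (LaurentSeries R') where
  toFun M := Submodule.span (D.AR R') (coeffMap (f : R →+* R') '' M)
  map_one' := by
    refine le_antisymm (Submodule.span_le.mpr ?_) ?_
    · rintro _ ⟨x, hx, rfl⟩
      obtain ⟨a, rfl⟩ := Submodule.mem_one.mp hx
      exact Submodule.mem_one.mpr ⟨⟨_, D.coeffMap_mem_AR f a.2⟩, rfl⟩
    · rw [Submodule.one_eq_span]
      exact Submodule.span_mono (Set.singleton_subset_iff.mpr
        ⟨1, Submodule.one_le.mp le_rfl, map_one _⟩)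
  map_mul' M N := by
    rw [Submodule.span_mul_span]
    refine le_antisymm (Submodule.span_le.mpr ?_) (Submodule.span_mono ?_)
    · rintro _ ⟨x, hx, rfl⟩
      refine Submodule.mul_induction_on hx (fun m hm n hn => ?_) (fun y z hy hz => ?_)
      · rw [map_mul]
        exact Submodule.subset_span (Set.mul_mem_mul ⟨m, hm, rfl⟩ ⟨n, hn, rfl⟩)
      · rw [map_add]
        exact Submodule.add_mem _ hy hz
    · rintro _ ⟨_, ⟨m, hm, rfl⟩, _, ⟨n, hn, rfl⟩, rfl⟩
      exact ⟨m * n, Submodule.mul_mem_mul hm hn, map_mul _ _ _⟩

/-- Base change of lattices. -/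
def mapLat (f : R →ₐ[k] R') : D.Lattice R →* D.Lattice R' :=
  Units.map (D.mapSub f)

variable (R)

/-- A change of formal trivialisation. -/
def ofSeries : (PowerSeries R)ˣ →* D.Lattice R :=
  Units.map <| (Submodule.spanSingleton (D.AR R) (A := LaurentSeries R)).toMonoidHom.comp
    (HahnSeries.ofPowerSeries ℤ R).toMonoidHom

/-- Rigidified line bundle classes over an affine base, algebraically. -/
abbrev Class : Type u := D.Lattice R ⧸ (D.ofSeries R).range

lemma lattice_comm (a b : D.Lattice R) : a * b = b * a :=
  Units.ext ((Units.val_mul a b).trans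
    ((mul_comm (a : Submodule (D.AR R) (LaurentSeries R)) b).trans (Units.val_mul b a).symm))

instance classNormal : ((D.ofSeries R).range).Normal :=
  ⟨fun n hn g => by rw [D.lattice_comm R g n, mul_inv_cancel_right]; exact hn⟩

noncomputable instance instCommGroupClass : CommGroup (D.Class R) :=
  { QuotientGroup.Quotient.group (D.ofSeries R).range with
    mul_comm := by
      intro a b
      induction a using QuotientGroup.induction_on with | _ a =>
      induction b using QuotientGroup.induction_on with | _ b =>
      exact congrArg _ (D.lattice_comm R a b) }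

/-- A change of formal trivialisation allowing a twist at the point. -/
def ofLaurent : (LaurentSeries R)ˣ →* D.Lattice R :=
  Units.map (Submodule.spanSingleton (D.AR R) (A := LaurentSeries R)).toMonoidHom

variable {R}

/-- A point of the cell, as a module over the functions. -/
def Cell.sub (W : D.Cell R) : Submodule (D.AR R) (LaurentSeries R) where
  carrier := W.M
  add_mem' := W.M.add_mem
  zero_mem' := W.M.zero_mem
  smul_mem' a x hx := by
    obtain ⟨a, ha⟩ := a
    refine D.AR_induction (P := fun y => ∀ z ∈ W.M, y * z ∈ W.M) (fun r z hz => ?_)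
      (fun b hb z hz => W.mul_mem b hb z hz)
      (fun b b' hb hb' z hz => by rw [add_mul]; exact add_mem (hb z hz) (hb' z hz))
      (fun b hb z hz => by rw [neg_mul]; exact neg_mem (hb z hz))
      (fun b b' hb hb' z hz => by rw [mul_assoc]; exact hb _ (hb' z hz)) ha x hx
    rw [HahnSeries.C_mul_eq_smul]
    exact W.M.smul_mem r hz

@[simp]
lemma toR_sub (W : D.Cell R) : D.toR (W.sub D) = W.M := rfl

section Tail

variable (R)

/-- The series in `t ^ n R[[t]]`. -/
def tailAt (n : ℤ) : Submodule R (LaurentSeries R) where
  carrier := {x | ∀ j < n, x.coeff j = 0}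
  add_mem' hx hy j hj := by simp [hx j hj, hy j hj]
  zero_mem' j _ := by simp
  smul_mem' r x hx j hj := by simp [hx j hj]

lemma mem_tailAt {n : ℤ} {x : LaurentSeries R} :
    x ∈ tailAt R n ↔ ∀ j < n, x.coeff j = 0 := Iff.rfl

lemma tPow_eq_tailAt : tPow R = tailAt R 1 := by
  ext x
  rw [tPow, LinearMap.mem_ker, pol_eq_zero_iff, mem_tailAt]
  exact ⟨fun h j hj => h j (by omega), fun h j hj => h j (by omega)⟩

end Tail

section Euler

variable (K : Type u) [Field K] [Algebra k K]

/-- `h⁰` of a lattice over a field, twisted by `n` times the point. -/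
def h0 (L : D.Lattice K) (n : ℤ) : ℕ :=
  Module.finrank K ↥(D.toR L.1 ⊓ tailAt K (-n))

/-- `h¹` of a lattice over a field, twisted by `n` times the point. -/
def h1 (L : D.Lattice K) (n : ℤ) : ℕ :=
  Module.finrank K (LaurentSeries K ⧸ (D.toR L.1 ⊔ tailAt K (-n)))

/-- A lattice over a field has degree zero. -/
def IsDegZero (L : D.Lattice K) : Prop :=
  (h0 D K L (-1) : ℤ) - h1 D K L (-1) = -(D.G.card : ℤ)

end Euler

end CellData

end FLTAgent.RelPic
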