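import Fermat.Agent.RelPic.CellProj
import Fermat.Agent.RelPic.Lattice

/-!
The big cell as a functor, and the normalised representative of a lattice in the cell.
-/

set_option autoImplicit false
set_option linter.unusedSectionVars false

noncomputable section

open ModularCurve

universe u

namespace FLTAgent.RelPic

namespace CellData

variable {k : Type u} [Field k] (D : CellData k)
variable {R R' R'' : Type u} [CommRing R] [Algebra k R] [CommRing R'] [Algebra k R']
  [CommRing R''] [Algebra k R'']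

/-- change of base of a cell point -/
def mapCell (f : R →ₐ[k] R') (W : D.Cell R) : D.Cell R' :=
  D.cellEquiv ⟨fun i j => f (W.coord D i j), IsStable.map D (W.isStable_coord D) f⟩

theorem mapCell_M (f : R →ₐ[k] R') (W : D.Cell R) :
    (D.mapCell f W).M = D.span fun i j => f (W.coord D i j) := rfl

theorem coord_ofCoord (c : D.G → ℕ → R) (hc : D.IsStable c) :
    (D.ofCoord c hc).coord D = c :=
  congrArg Subtype.val (D.cellEquiv.left_inv ⟨c, hc⟩)

theorem homEquiv_comp (f : R →ₐ[k] R') (g : D.Ring →ₐ[k] R) :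
    D.homEquiv (f.comp g) = D.mapCell f (D.homEquiv g) := by
  refine Cell.ext' D ?_
  rw [mapCell_M, homEquiv_M]
  have h : (D.homEquiv g).coord D = fun i j => g (Ideal.Quotient.mkₐ k D.relIdeal (D.cX i j)) :=
    D.coord_ofCoord (fun i j => g (Ideal.Quotient.mkₐ k D.relIdeal (D.cX i j)))
      ((D.isStable_iff (g.comp (Ideal.Quotient.mkₐ k D.relIdeal))).mpr fun r hr =>
        RingHom.mem_ker.mpr (by
          show g (Ideal.Quotient.mkₐ k D.relIdeal r) = 0
          rw [Ideal.Quotient.mkₐ_eq_mk, Ideal.Quotient.eq_zero_iff_mem.mpr hr, map_zero]))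
  rw [h]
  rfl

/-- the universal cell point -/
def univCell : D.Cell D.Ring := D.homEquiv (AlgHom.id k D.Ring)

theorem mapCell_univ (f : D.Ring →ₐ[k] R) : D.mapCell f D.univCell = D.homEquiv f := by
  rw [univCell, ← homEquiv_comp, AlgHom.comp_id]

theorem exists_map_univ (W : D.Cell R) : ∃ f : D.Ring →ₐ[k] R, D.mapCell f D.univCell = W :=
  ⟨D.homEquiv.symm W, by rw [mapCell_univ, Equiv.apply_symm_apply]⟩

theorem coeffMap_mem_mapCell (f : R →ₐ[k] R') (W : D.Cell R) {x : LaurentSeries R} (hx : x ∈ W.M) :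
    coeffMap (f : R →+* R') x ∈ (D.mapCell f W).M := by
  rw [← W.span_coord] at hx
  obtain ⟨g, rfl⟩ := hx
  rw [coeffMap_comb, mapCell_M]
  exact ⟨_, rfl⟩

theorem mapCell_unique (f : R →ₐ[k] R') (W : D.Cell R) (W' : D.Cell R')
    (h : ∀ x ∈ W.M, coeffMap (f : R →+* R') x ∈ W'.M) : D.mapCell f W = W' := by
  have hle : ∀ i, D.mGen (fun i j => f (W.coord D i j)) i ∈ W'.M := fun i => by
    rw [← coeffMap_mGen]
    exact h _ (W.mGen_coord_mem D i)
  have he : (fun i j => f (W.coord D i j)) = W'.coord D := funext fun i => funext fun j => by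
    have e := W'.eq_of_pol D (hle i) (W'.mGen_coord_mem D i)
      ((D.pol_mGen _ i).trans (D.pol_mGen _ i).symm)
    have e' := congrArg (fun s : LaurentSeries R' => s.coeff ((j : ℤ) + 1)) e
    simpa only [coeff_mGen] using e'
  refine Cell.ext' D ?_
  rw [mapCell_M, he, W'.span_coord]

theorem mapSub_sub (f : R →ₐ[k] R') (W : D.Cell R) :
    D.mapSub f (W.sub D) = (D.mapCell f W).sub D := by
  refine le_antisymm (Submodule.span_le.mpr ?_) fun x hx => ?_
  · rintro _ ⟨x, hx, rfl⟩
    exact D.coeffMap_mem_mapCell f W hx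
  · obtain ⟨g, rfl⟩ := (show x ∈ D.span fun i j => f (W.coord D i j) from hx)
    induction g using Finsupp.induction_linear with
    | zero => rw [map_zero]; exact zero_mem _
    | add a b ha hb =>
      rw [map_add]
      exact add_mem (ha ⟨a, rfl⟩) (hb ⟨b, rfl⟩)
    | single n r =>
      rw [comb, Finsupp.linearCombination_single, ← HahnSeries.C_mul_eq_smul, ← coeffMap_bas]
      refine Submodule.smul_mem _ (⟨_, D.C_mem_AR r⟩ : D.AR R') (Submodule.subset_span ⟨_, ?_, rfl⟩)
      show D.bas (W.coord D) n ∈ W.M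
      exact (W.span_coord D).le (D.bas_mem _ n)

/-! ### normalisation -/

theorem isUnit_ofPowerSeries (u : (PowerSeries R)ˣ) :
    IsUnit (HahnSeries.ofPowerSeries ℤ R (u : PowerSeries R)) :=
  u.isUnit.map _

theorem ofPowerSeries_mul_mem_tPow (y : PowerSeries R) {x : LaurentSeries R} (hx : x ∈ tPow R) :
    HahnSeries.ofPowerSeries ℤ R y * x ∈ tPow R := by
  rw [tPow_eq_tailAt, mem_tailAt] at hx ⊢
  refine fun j hj => (coeff_mul_lead (p := 0) (q := 1) (fun l hl => ?_) hx).1 j (by omega)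
  rw [HahnSeries.ofPowerSeries_apply, HahnSeries.embDomain_of_notMem_range]
  rintro ⟨m, hm⟩
  change (m : ℤ) = l at hm
  omega

theorem exists_series_of_pol {x : LaurentSeries R} (hx : pol x = Finsupp.single 0 1) :
    ∃ u : (PowerSeries R)ˣ, HahnSeries.ofPowerSeries ℤ R (u : PowerSeries R) = x := by
  have h0 : x.coeff 0 = 1 := by
    have := DFunLike.congr_fun hx 0
    simpa [pol_apply] using this
  have hy : IsUnit (PowerSeries.mk fun n : ℕ => x.coeff n) := by
    rw [PowerSeries.isUnit_iff_constantCoeff, ← PowerSeries.coeff_zero_eq_constantCoeff_apply,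
      PowerSeries.coeff_mk, Nat.cast_zero, h0]
    exact isUnit_one
  refine ⟨hy.unit, ?_⟩
  ext l
  rcases le_or_gt 0 l with hl | hl
  · obtain ⟨n, rfl⟩ := Int.eq_ofNat_of_zero_le hl
    rw [IsUnit.unit_spec, HahnSeries.ofPowerSeries_apply_coeff, PowerSeries.coeff_mk]
  · rw [HahnSeries.ofPowerSeries_apply, HahnSeries.embDomain_of_notMem_range]
    · have h := DFunLike.congr_fun hx (-l).toNat
      rw [pol_apply, show (-((-l).toNat : ℤ)) = l by omega, Finsupp.single_eq_of_ne (by omega)] at h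
      exact h.symm
    · rintro ⟨m, hm⟩
      change (m : ℤ) = l at hm
      omega

theorem mem_ofSeries_mul {u : (PowerSeries R)ˣ} {L : D.Lattice R} {x : LaurentSeries R} :
    x ∈ (D.ofSeries R u * L).1 ↔
      ∃ y ∈ L.1, HahnSeries.ofPowerSeries ℤ R (u : PowerSeries R) * y = x := by
  rw [Units.val_mul]
  exact Submodule.mem_span_singleton_mul

theorem isCompl_ofSeries_mul (u : (PowerSeries R)ˣ) (L : D.Lattice R)
    (hL : IsCompl (D.toR L.1) (tPow R)) : IsCompl (D.toR (D.ofSeries R u * L).1) (tPow R) := by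
  have hone : HahnSeries.ofPowerSeries ℤ R ((u⁻¹ : (PowerSeries R)ˣ) : PowerSeries R) *
      HahnSeries.ofPowerSeries ℤ R (u : PowerSeries R) = 1 := by
    rw [← map_mul, Units.inv_mul, map_one]
  refine ⟨Submodule.disjoint_def.mpr fun x hx hx' => ?_, codisjoint_iff.mpr (eq_top_iff.mpr
    fun x _ => ?_)⟩
  · obtain ⟨y, hy, rfl⟩ := (D.mem_ofSeries_mul).mp hx
    have h := ofPowerSeries_mul_mem_tPow ((u⁻¹ : (PowerSeries R)ˣ) : PowerSeries R) hx'
    rw [← mul_assoc, hone, one_mul] at h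
    rw [Submodule.disjoint_def.mp hL.disjoint y hy h, mul_zero]
  · obtain ⟨y, hy, z, hz, e⟩ := Submodule.mem_sup.mp (hL.codisjoint.eq_top ▸ Submodule.mem_top :
      HahnSeries.ofPowerSeries ℤ R ((u⁻¹ : (PowerSeries R)ˣ) : PowerSeries R) * x ∈
        D.toR L.1 ⊔ tPow R)
    refine Submodule.mem_sup.mpr ⟨_, (D.mem_ofSeries_mul).mpr ⟨y, hy, rfl⟩, _,
      ofPowerSeries_mul_mem_tPow (u : PowerSeries R) hz, ?_⟩
    rw [← mul_add, e, ← mul_assoc, mul_comm (HahnSeries.ofPowerSeries ℤ R (u : PowerSeries R)),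
      hone, one_mul]

/-- a lattice complementary to `t R[[t]]` is, modulo changes of series, a cell point -/
theorem exists_cell (L : D.Lattice R) (hL : IsCompl (D.toR L.1) (tPow R)) :
    ∃ (W : D.Cell R) (u : (PowerSeries R)ˣ), W.sub D = (D.ofSeries R u * L).1 := by
  obtain ⟨x, hx, y, hy, e⟩ := Submodule.mem_sup.mp
    (hL.codisjoint.eq_top ▸ Submodule.mem_top : (1 : LaurentSeries R) ∈ D.toR L.1 ⊔ tPow R)
  have hp : pol x = Finsupp.single 0 1 := by
    have h := congrArg pol e
    rw [map_add, LinearMap.mem_ker.mp hy, add_zero] at h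
    rw [h]
    ext n
    rw [pol_apply, HahnSeries.coeff_one, Finsupp.single_apply]
    simp only [neg_eq_zero, Nat.cast_eq_zero, eq_comm]
  obtain ⟨u, hu⟩ := exists_series_of_pol hp
  have h1 : (1 : LaurentSeries R) ∈ (D.ofSeries R u⁻¹ * L).1 :=
    (D.mem_ofSeries_mul).mpr ⟨x, hx, by rw [← hu, ← map_mul, Units.inv_mul, map_one]⟩
  refine ⟨⟨D.toR (D.ofSeries R u⁻¹ * L).1, h1, fun a ha z hz => ?_,
    D.isCompl_ofSeries_mul _ L hL⟩, u⁻¹, ?_⟩
  · exact (D.ofSeries R u⁻¹ * L).1.smul_mem ⟨_, D.L_mem_AR ha⟩ hz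
  · ext z
    rfl

/-- cell points with lattices in one class are equal -/
theorem cell_eq (W W' : D.Cell R) (u : (PowerSeries R)ˣ)
    (h : ∀ x, x ∈ W'.M ↔ ∃ y ∈ W.M, HahnSeries.ofPowerSeries ℤ R (u : PowerSeries R) * y = x) :
    W' = W := by
  set U := HahnSeries.ofPowerSeries ℤ R (u : PowerSeries R) with hU'
  have hU : U ∈ W'.M := (h U).mpr ⟨1, W.one_mem, mul_one U⟩
  set r := PowerSeries.constantCoeff (u : PowerSeries R) with hr
  have hC : HahnSeries.C r ∈ W'.M := by
    rw [← mul_one (HahnSeries.C r), HahnSeries.C_mul_eq_smul]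
    exact W'.M.smul_mem r W'.one_mem
  have e : U = HahnSeries.C r := W'.eq_of_pol D hU hC (Finsupp.ext fun n => by
    rw [pol_apply, pol_apply]
    rcases Nat.eq_zero_or_pos n with rfl | hn
    · rw [Nat.cast_zero, neg_zero, show (0 : ℤ) = ((0 : ℕ) : ℤ) from rfl, hU',
        HahnSeries.ofPowerSeries_apply_coeff, hr, PowerSeries.coeff_zero_eq_constantCoeff_apply]
      simp
    · rw [hU', HahnSeries.C_apply, HahnSeries.coeff_single_of_ne (by omega),
        HahnSeries.ofPowerSeries_apply, HahnSeries.embDomain_of_notMem_range]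
      rintro ⟨m, hm⟩
      change (m : ℤ) = -(n : ℤ) at hm
      omega)
  have hr' : IsUnit r := u.isUnit.map PowerSeries.constantCoeff
  refine Cell.ext' D (le_antisymm (fun x hx => ?_) fun x hx => ?_)
  · obtain ⟨y, hy, rfl⟩ := (h x).mp hx
    rw [e, HahnSeries.C_mul_eq_smul]
    exact W.M.smul_mem r hy
  · refine (h x).mpr ⟨HahnSeries.C (↑hr'.unit⁻¹ : R) * x, ?_, ?_⟩
    · rw [HahnSeries.C_mul_eq_smul]
      exact W.M.smul_mem _ hx
    · rw [e, ← mul_assoc, ← map_mul, IsUnit.mul_val_inv, map_one, one_mul]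

end CellData

end FLTAgent.RelPic

end
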