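import Fermat.Agent.RelPic.Lattice

/-!
Area S25, parcel E: the shape of a lattice. In low degrees it has monic elements, and the rest is a
retract of a free module of finite rank in a way that commutes with change of base.
-/

set_option autoImplicit false
set_option linter.unusedSectionVars false

noncomputable section

universe u

open ModularCurve

namespace FLTAgent.RelPic

open CellData

section Tails

variable {R : Type u} [CommRing R]

theorem tailAt_mono {m n : ℤ} (h : m ≤ n) : tailAt R n ≤ tailAt R m :=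
  fun _ hx j hj => hx j (by omega)

theorem exists_mem_tailAt (x : LaurentSeries R) : ∃ m, x ∈ tailAt R m :=
  ⟨x.order, fun j hj => by
    by_contra h
    exact absurd (HahnSeries.order_le_of_coeff_ne_zero h) (not_le.mpr hj)⟩

theorem mul_mem_tailAt {m n : ℤ} {x y : LaurentSeries R} (hx : x ∈ tailAt R m)
    (hy : y ∈ tailAt R n) : x * y ∈ tailAt R (m + n) := by
  intro l hl
  rw [HahnSeries.coeff_mul]
  refine Finset.sum_eq_zero fun ij hij => ?_
  obtain ⟨-, -, h⟩ := Finset.mem_antidiagonal.mp hij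
  rcases lt_or_ge ij.1 m with h1 | h1
  · rw [hx _ h1, zero_mul]
  · rw [hy _ (by omega), mul_zero]

/-- coefficients, linearly -/
def coeffL (R : Type u) [CommRing R] (j : ℤ) : LaurentSeries R →ₗ[R] R where
  toFun x := x.coeff j
  map_add' x y := HahnSeries.coeff_add
  map_smul' r x := by simp

/-- monic in degree `j` -/
def IsMonic (x : LaurentSeries R) (j : ℤ) : Prop :=
  x ∈ tailAt R j ∧ x.coeff j = 1

/-- reduction by monic elements -/
theorem exists_reduce {P : Submodule R (LaurentSeries R)} {m : ℤ}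
    (hP : ∀ j < m, ∃ x ∈ P, IsMonic x j) (y : LaurentSeries R) :
    ∃ x ∈ P, y - x ∈ tailAt R m := by
  obtain ⟨d, hd⟩ : ∃ d : ℕ, y ∈ tailAt R (m - d) := by
    obtain ⟨n, hn⟩ := exists_mem_tailAt y
    exact ⟨(m - n).toNat, tailAt_mono (by omega) hn⟩
  induction d generalizing y with
  | zero => exact ⟨0, zero_mem _, by simpa using hd⟩
  | succ d ih =>
    obtain ⟨x, hx, hxl, hxc⟩ := hP (m - (d + 1 : ℕ)) (by omega)
    obtain ⟨x', hx', h'⟩ := ih (y - y.coeff (m - (d + 1 : ℕ)) • x) fun j hj => by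
      rcases eq_or_ne j (m - (d + 1 : ℕ)) with rfl | hne
      · rw [HahnSeries.coeff_sub, HahnSeries.coeff_smul, hxc, smul_eq_mul, mul_one, sub_self]
      · rw [HahnSeries.coeff_sub, HahnSeries.coeff_smul, hd j (by omega), hxl j (by omega),
          smul_zero, sub_zero]
    exact ⟨y.coeff (m - (d + 1 : ℕ)) • x + x', add_mem (Submodule.smul_mem _ _ hx) hx', by
      rwa [← sub_sub]⟩

theorem sup_tailAt_eq_top_iff {P : Submodule R (LaurentSeries R)} {m : ℤ} :
    P ⊔ tailAt R m = ⊤ ↔ ∀ j < m, ∃ x ∈ P, IsMonic x j := by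
  refine ⟨fun h j hj => ?_, fun h => eq_top_iff.mpr fun y _ => ?_⟩
  · have ht : HahnSeries.single j (1 : R) ∈ P ⊔ tailAt R m := by rw [h]; trivial
    obtain ⟨x, hx, z, hz, e⟩ := Submodule.mem_sup.mp ht
    refine ⟨x, hx, fun l hl => ?_, ?_⟩
    · have := congrArg (fun s : LaurentSeries R => s.coeff l) e
      simp only [HahnSeries.coeff_add, HahnSeries.coeff_single_of_ne (show l ≠ j by omega),
        hz l (by omega), add_zero] at this
      exact this
    · have := congrArg (fun s : LaurentSeries R => s.coeff j) e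
      simp only [HahnSeries.coeff_add, HahnSeries.coeff_single_same, hz j hj, add_zero] at this
      exact this
  · obtain ⟨x, hx, hxy⟩ := exists_reduce h y
    exact Submodule.mem_sup.mpr ⟨x, hx, y - x, hxy, add_sub_cancel x y⟩

/-- the span of monic elements below `m` meets the tail trivially -/
theorem eq_zero_of_mem_span {m : ℤ} {x : {j : ℤ // j < m} → LaurentSeries R}
    (hx : ∀ j, IsMonic (x j) j.1) {y : LaurentSeries R}
    (hy : y ∈ Submodule.span R (Set.range x)) (h : y ∈ tailAt R m) : y = 0 := by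
  classical
  obtain ⟨f, rfl⟩ := Finsupp.mem_span_range_iff_exists_finsupp.mp hy
  by_contra hne
  have hsupp : f.support.Nonempty := Finsupp.support_nonempty_iff.mpr fun h0 => hne (by simp [h0])
  obtain ⟨j, hj, hmin⟩ := Finset.exists_min_image f.support (fun j => j.1) hsupp
  refine Finsupp.mem_support_iff.mp hj ?_
  have h0 := h j.1 j.2
  rw [Finsupp.sum, HahnSeries.coeff_sum, Finset.sum_eq_single j] at h0
  · rwa [HahnSeries.coeff_smul, (hx j).2, smul_eq_mul, mul_one] at h0
  · intro i hi hne'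
    have hlt : j.1 < i.1 := lt_of_le_of_ne (hmin i hi) fun e => hne' (Subtype.ext e.symm)
    rw [HahnSeries.coeff_smul, (hx i).1 _ hlt, smul_zero]
  · exact fun h' => absurd hj h'

end Tails

namespace CellData

variable {k : Type u} [Field k] (D : CellData k) {R : Type u} [CommRing R] [Algebra k R]

/-- the largest gap -/
def top : ℕ := D.G.sup id

theorem le_top_of_mem {n : ℕ} (hn : n ∈ D.G) : n ≤ D.top := Finset.le_sup (f := id) hn

theorem an_tail (n : ℕ) (hn : n ∉ D.G) :
    L R (D.an n hn) ∈ tailAt R (-((max n D.top : ℕ) : ℤ)) := by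
  intro l hl
  have hm : (-l).toNat ∉ D.G := fun h => by
    have := D.le_top_of_mem h
    omega
  have := D.an_coeff n hn hm
  rw [show (-((-l).toNat : ℤ)) = l by omega] at this
  rw [coeff_L, this, if_neg (by omega), map_zero]

theorem an_isMonic (n : ℕ) (hn : n ∉ D.G) (h : D.top ≤ n) :
    IsMonic (L R (D.an n hn)) (-(n : ℤ)) := by
  refine ⟨?_, by rw [coeff_L, D.an_coeff n hn hn, if_pos rfl, map_one]⟩
  have := D.an_tail (R := R) n hn
  rwa [max_eq_left h] at this

theorem L_single_zero (r : k) :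
    L R (HahnSeries.single (0 : ℤ) r) = HahnSeries.C (algebraMap k R r) :=
  coeffMap_single _ _ _

theorem mem_A_eq_sum {a : LaurentSeries k} (ha : a ∈ D.A) :
    L R a ∈ Submodule.span R (Set.range fun n : {n // n ∉ D.G} => L R (D.an n.1 n.2)) := by
  classical
  have h : a = ∑ n ∈ (pol a).support.attach, if h : (n : ℕ) ∈ D.G then 0
      else HahnSeries.single 0 (a.coeff (-((n : ℕ) : ℤ))) * D.an n h := by
    refine sub_eq_zero.mp (D.indep _ (sub_mem ha (sum_mem fun n _ => ?_)) fun m hm => ?_)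
    · split
      · exact zero_mem _
      · exact mul_mem (C_mem D.A _) (D.an_mem _ _)
    · rw [HahnSeries.coeff_sub, HahnSeries.coeff_sum]
      by_cases h : m ∈ (pol a).support
      · rw [Finset.sum_eq_single (⟨m, h⟩ : (pol a).support), dif_neg hm,
          HahnSeries.coeff_single_zero_mul, D.an_coeff m hm hm, if_pos rfl, mul_one, sub_self]
        · intro n _ hne
          split
          · rfl
          · rw [HahnSeries.coeff_single_zero_mul, D.an_coeff _ _ hm,
              if_neg fun e => hne (Subtype.ext e.symm), mul_zero]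
        · exact fun h' => absurd (Finset.mem_attach _ _) h'
      · rw [Finset.sum_eq_zero fun n _ => ?_, sub_zero]
        · by_contra h0
          exact h (Finsupp.mem_support_iff.mpr h0)
        · split
          · rfl
          · rw [HahnSeries.coeff_single_zero_mul, D.an_coeff _ _ hm,
              if_neg fun e => h (by rw [e]; exact n.2), mul_zero]
  rw [h, map_sum]
  refine Submodule.sum_mem _ fun n _ => ?_
  split
  · rw [map_zero]; exact zero_mem _
  · next hn =>
    rw [map_mul, L_single_zero, HahnSeries.C_mul_eq_smul]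
    exact Submodule.smul_mem _ _ (Submodule.subset_span ⟨⟨n, hn⟩, rfl⟩)

/-- functions are combinations of the normalised ones -/
theorem AR_mem_span {x : LaurentSeries R} (hx : x ∈ D.AR R) :
    x ∈ Submodule.span R (Set.range fun n : {n // n ∉ D.G} => L R (D.an n.1 n.2)) := by
  set P := Submodule.span R (Set.range fun n : {n // n ∉ D.G} => L R (D.an n.1 n.2)) with hP
  have hC : ∀ r : R, (HahnSeries.C r : LaurentSeries R) ∈ P := fun r => by
    have h1 := Submodule.smul_mem P r (D.mem_A_eq_sum (R := R) (one_mem _))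
    rwa [map_one, ← HahnSeries.C_mul_eq_smul, mul_one] at h1
  refine D.AR_induction (P := fun y => y ∈ P) hC (fun a ha => D.mem_A_eq_sum ha)
    (fun a b => add_mem) (fun a => neg_mem) ?_ hx
  intro a b ha hb
  refine Submodule.span_induction ?_ ?_ ?_ ?_ ha
  · rintro _ ⟨n, rfl⟩
    refine Submodule.span_induction ?_ ?_ ?_ ?_ hb
    · rintro _ ⟨m, rfl⟩
      rw [← map_mul]
      exact D.mem_A_eq_sum (mul_mem (D.an_mem _ _) (D.an_mem _ _))
    · rw [mul_zero]; exact zero_mem _
    · intro y z _ _ hy hz; rw [mul_add]; exact add_mem hy hz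
    · intro r y _ hy; rw [mul_C_smul]; exact Submodule.smul_mem _ _ hy
  · rw [zero_mul]; exact zero_mem _
  · intro y z _ _ hy hz; rw [add_mul]; exact add_mem hy hz
  · intro r y _ hy
    rw [mul_comm, mul_C_smul, mul_comm]
    exact Submodule.smul_mem _ _ hy

instance (d : ℕ) : Fintype {n // n ≤ d ∧ n ∉ D.G} :=
  Fintype.subtype ((Finset.range (d + 1)).filter (· ∉ D.G)) (by simp)

/-- a function of bounded pole order is the sum of its coordinates -/
theorem AR_eq_sum {x : LaurentSeries R} (hx : x ∈ D.AR R) {d : ℕ}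
    (hd : x ∈ tailAt R (-(d : ℤ))) :
    x = ∑ n : {n // n ≤ d ∧ n ∉ D.G}, x.coeff (-(n.1 : ℤ)) • L R (D.an n.1 n.2.2) := by
  classical
  obtain ⟨f, hf⟩ := Finsupp.mem_span_range_iff_exists_finsupp.mp (D.AR_mem_span hx)
  have hcoef : ∀ n : {n // n ∉ D.G}, x.coeff (-(n.1 : ℤ)) = f n := fun n => by
    rw [← hf, Finsupp.sum, HahnSeries.coeff_sum, Finset.sum_eq_single n]
    · rw [HahnSeries.coeff_smul, coeff_L, D.an_coeff _ _ n.2, if_pos rfl, map_one, smul_eq_mul,
        mul_one]
    · intro m _ hm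
      rw [HahnSeries.coeff_smul, coeff_L, D.an_coeff _ _ n.2,
        if_neg fun e => hm (Subtype.ext e.symm), map_zero, smul_zero]
    · intro hn
      rw [Finsupp.notMem_support_iff.mp hn, zero_smul]
      rfl
  let e : {n // n ≤ d ∧ n ∉ D.G} ↪ {n // n ∉ D.G} :=
    ⟨fun n => ⟨n.1, n.2.2⟩, fun a b h => Subtype.ext (congrArg (fun z : {n // n ∉ D.G} => z.1) h)⟩
  have hsub : f.support ⊆ Finset.univ.map e := fun n hn => by
    refine Finset.mem_map.mpr ⟨⟨n.1, ?_, n.2⟩, Finset.mem_univ _, rfl⟩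
    by_contra hlt
    exact Finsupp.mem_support_iff.mp hn ((hcoef n).symm.trans (hd _ (by omega)))
  conv_lhs => rw [← hf, Finsupp.sum_of_support_subset f hsub _ (fun n _ => by rw [zero_smul]),
    Finset.sum_map]
  exact Finset.sum_congr rfl fun n _ => by rw [← hcoef]; rfl

/-! ### lattices -/

theorem exists_pairs (Lt : D.Lattice R) :
    ∃ (ι : Type u) (_ : Fintype ι) (p q : ι → LaurentSeries R),
      (∀ i, p i ∈ Lt.1) ∧ (∀ i, ∀ x ∈ Lt.1, x * q i ∈ D.AR R) ∧ ∑ i, p i * q i = 1 := by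
  classical
  let I := (Lt⁻¹ : D.Lattice R).1
  have h1 : (1 : LaurentSeries R) ∈ Lt.1 * I := by
    rw [Units.mul_inv]
    exact Submodule.one_le.mp le_rfl
  have key : ∀ z ∈ Lt.1 * I, ∃ (ι : Type u) (_ : Fintype ι) (p q : ι → LaurentSeries R),
      (∀ i, p i ∈ Lt.1) ∧ (∀ i, q i ∈ I) ∧ ∑ i, p i * q i = z := by
    intro z hz
    refine Submodule.mul_induction_on hz (fun a ha b hb => ?_) fun a b ha hb => ?_
    · exact ⟨PUnit, inferInstance, fun _ => a, fun _ => b, fun _ => ha, fun _ => hb, by simp⟩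
    · obtain ⟨ι, hι, p, q, hp, hq, rfl⟩ := ha
      obtain ⟨κ, hκ, p', q', hp', hq', rfl⟩ := hb
      exact ⟨ι ⊕ κ, inferInstance, Sum.elim p p', Sum.elim q q', Sum.rec hp hp', Sum.rec hq hq',
        by simp [Fintype.sum_sum_type]⟩
  obtain ⟨ι, hι, p, q, hp, hq, he⟩ := key 1 h1
  refine ⟨ι, hι, p, q, hp, fun i x hx => ?_, he⟩
  have h := Submodule.mul_mem_mul hx (hq i)
  rw [Units.mul_inv] at h
  obtain ⟨a, ha⟩ := Submodule.mem_one.mp h
  rw [← ha]
  exact a.2

/-- every lattice has monic elements in all low degrees -/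
theorem exists_sup_eq_top (Lt : D.Lattice R) :
    ∃ m : ℤ, ∀ n ≤ m, D.toR Lt.1 ⊔ tailAt R n = ⊤ := by
  classical
  obtain ⟨ι, hι, p, q, hp, hq, he⟩ := D.exists_pairs Lt
  choose mp hmp using fun i => exists_mem_tailAt (p i)
  choose mq hmq using fun i => exists_mem_tailAt (q i)
  refine ⟨-(D.top : ℤ) - 1 - ∑ i, ((mp i).natAbs : ℤ), fun n hn => sup_tailAt_eq_top_iff.mpr
    fun j hj => ?_⟩
  have hsum : ∀ i, ((mp i).natAbs : ℤ) ≤ ∑ i, ((mp i).natAbs : ℤ) := fun i =>
    Finset.single_le_sum (f := fun i => ((mp i).natAbs : ℤ)) (fun _ _ => by positivity)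
      (Finset.mem_univ i)
  have hpos : (0 : ℤ) ≤ ∑ i, ((mp i).natAbs : ℤ) := Finset.sum_nonneg fun _ _ => by positivity
  obtain ⟨e, rfl⟩ : ∃ e : ℕ, j = -(e : ℤ) := ⟨(-j).toNat, by omega⟩
  have he' : e ∉ D.G := fun h => by have := D.le_top_of_mem h; omega
  set a := L R (D.an e he')
  have hamon : IsMonic a (-(e : ℤ)) := D.an_isMonic e he' (by omega)
  -- approximate the coordinates of `a` by functions
  have happ : ∀ i, ∃ c ∈ D.AR R, a * q i - c ∈ tailAt R (-(D.top : ℤ)) := fun i => by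
    have hmon : ∀ l < -(D.top : ℤ), ∃ x ∈ D.toR (1 : Submodule (D.AR R) (LaurentSeries R)),
        IsMonic x l := fun l hl => by
      obtain ⟨e', rfl⟩ : ∃ e' : ℕ, l = -(e' : ℤ) := ⟨(-l).toNat, by omega⟩
      have hne : e' ∉ D.G := fun h => by have := D.le_top_of_mem h; omega
      exact ⟨_, Submodule.mem_one.mpr ⟨⟨_, D.L_mem_AR (D.an_mem e' hne)⟩, rfl⟩,
        D.an_isMonic e' hne (by omega)⟩
    obtain ⟨x, hx, hx'⟩ := exists_reduce hmon (a * q i)
    obtain ⟨c, hc⟩ := Submodule.mem_one.mp (D.mem_toR.mp hx)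
    exact ⟨x, hc ▸ c.2, hx'⟩
  choose c hc hcd using happ
  refine ⟨∑ i, c i * p i, sum_mem fun i _ => Lt.1.smul_mem ⟨_, hc i⟩ (hp i), ?_⟩
  have e1 : ∑ i, c i * p i = a - ∑ i, (a * q i - c i) * p i := by
    calc ∑ i, c i * p i = a * (∑ i, p i * q i) - ∑ i, (a * q i - c i) * p i := by
          rw [Finset.mul_sum, ← Finset.sum_sub_distrib]
          exact Finset.sum_congr rfl fun i _ => by ring
      _ = _ := by rw [he, mul_one]
  have herr : ∑ i, (a * q i - c i) * p i ∈ tailAt R (-(e : ℤ) + 1) := sum_mem fun i _ => by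
    refine tailAt_mono ?_ (mul_mem_tailAt (hcd i) (hmp i))
    have := hsum i
    omega
  rw [e1]
  refine ⟨fun l hl => ?_, ?_⟩
  · rw [HahnSeries.coeff_sub, hamon.1 l hl, herr l (by omega), sub_zero]
  · rw [HahnSeries.coeff_sub, hamon.2, herr _ (by omega), sub_zero]

/-- finitely many generators of a piece of a lattice, with coordinates that are coefficients -/
structure Piece (M : Submodule (D.AR R) (LaurentSeries R)) (m : ℤ) where
  I : Type u
  [fintype : Fintype I]
  b : I → LaurentSeries R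
  q : I → LaurentSeries R
  deg : I → ℤ
  b_mem : ∀ a, b a ∈ D.toR M ⊓ tailAt R m
  repr : ∀ x ∈ D.toR M ⊓ tailAt R m, x = ∑ a, (x * q a).coeff (deg a) • b a

attribute [instance] Piece.fintype

theorem nonempty_piece (Lt : D.Lattice R) {m : ℤ} (h : D.toR Lt.1 ⊔ tailAt R m = ⊤) :
    Nonempty (D.Piece Lt.1 m) := by
  classical
  obtain ⟨ι, hι, p, q, hp, hq, he⟩ := D.exists_pairs Lt
  choose mq hmq using fun i => exists_mem_tailAt (q i)
  choose xx hxx hxxm using fun j : {j : ℤ // j < m} => (sup_tailAt_eq_top_iff.mp h) j.1 j.2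
  let X := Submodule.span R (Set.range xx)
  have hXmon : ∀ j < m, ∃ x ∈ X, IsMonic x j := fun j hj =>
    ⟨_, Submodule.subset_span ⟨⟨j, hj⟩, rfl⟩, hxxm ⟨j, hj⟩⟩
  have hXle : X ≤ D.toR Lt.1 := Submodule.span_le.mpr (Set.range_subset_iff.mpr hxx)
  let d : ι → ℕ := fun i => (-(m + mq i)).toNat
  let I := Σ i : ι, {n // n ≤ d i ∧ n ∉ D.G}
  choose xr hxr hxr' using fun a : I =>
    exists_reduce hXmon (L R (D.an a.2.1 a.2.2.2) * p a.1)
  refine ⟨{ I := I, b := fun a => L R (D.an a.2.1 a.2.2.2) * p a.1 - xr a, q := fun a => q a.1,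
            deg := fun a => -(a.2.1 : ℤ),
            b_mem := fun a => ⟨sub_mem
              (Lt.1.smul_mem ⟨_, D.L_mem_AR (D.an_mem a.2.1 a.2.2.2)⟩ (hp a.1)) (hXle (hxr a)),
              hxr' a⟩
            repr := fun x hx => ?_ }⟩
  have e1 : x = ∑ a : I, (x * q a.1).coeff (-(a.2.1 : ℤ)) •
      (L R (D.an a.2.1 a.2.2.2) * p a.1) := by
    rw [Fintype.sum_sigma]
    conv_lhs => rw [← mul_one x, ← he, Finset.mul_sum]
    refine Finset.sum_congr rfl fun i _ => ?_
    have hd : x * q i ∈ tailAt R (-(d i : ℤ)) := by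
      refine tailAt_mono ?_ (mul_mem_tailAt hx.2 (hmq i))
      simp only [d]
      omega
    rw [show x * (p i * q i) = x * q i * p i by ring]
    conv_lhs => rw [D.AR_eq_sum (hq i x hx.1) hd, Finset.sum_mul]
    refine Finset.sum_congr rfl fun n _ => ?_
    rw [mul_comm _ (p i), mul_C_smul, mul_comm (p i)]
  have e2 : x - ∑ a : I, (x * q a.1).coeff (-(a.2.1 : ℤ)) •
      (L R (D.an a.2.1 a.2.2.2) * p a.1 - xr a) =
      ∑ a : I, (x * q a.1).coeff (-(a.2.1 : ℤ)) • xr a := by
    conv_lhs => arg 1; rw [e1]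
    rw [← Finset.sum_sub_distrib]
    refine Finset.sum_congr rfl fun a _ => ?_
    rw [← smul_sub, sub_sub_cancel]
  refine sub_eq_zero.mp (e2.trans (eq_zero_of_mem_span hxxm
    (Submodule.sum_mem X fun a _ => Submodule.smul_mem _ _ (hxr a)) ?_))
  rw [← e2]
  exact sub_mem hx.2 (Submodule.sum_mem _ fun a _ => Submodule.smul_mem _ _ (hxr' a))

variable {S : Type u} [CommRing S] [Algebra k S] (f : R →ₐ[k] S)

theorem toR_mapSub (M : Submodule (D.AR R) (LaurentSeries R)) :
    D.toR (D.mapSub f M) = Submodule.span S (coeffMap (f : R →+* S) '' M) := by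
  refine le_antisymm (fun x hx => ?_) (Submodule.span_le.mpr fun x hx => Submodule.subset_span hx)
  refine Submodule.span_induction (fun y hy => Submodule.subset_span hy) (zero_mem _)
    (fun y z _ _ hy hz => add_mem hy hz) (fun a y _ hy => ?_) (D.mem_toR.mp hx)
  rw [Subring.smul_def, smul_eq_mul]
  refine Submodule.span_induction (p := fun z _ => z * y ∈ Submodule.span S _) ?_ ?_ ?_ ?_
    (D.AR_mem_span a.2)
  · rintro _ ⟨n, rfl⟩
    refine Submodule.span_induction ?_ ?_ ?_ ?_ hy
    · rintro _ ⟨z, hz, rfl⟩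
      show L S (D.an n.1 n.2) * _ ∈ _
      rw [← coeffMap_L f, ← map_mul]
      exact Submodule.subset_span
        ⟨_, M.smul_mem ⟨_, D.L_mem_AR (D.an_mem n.1 n.2)⟩ hz, rfl⟩
    · rw [mul_zero]; exact zero_mem _
    · intro z w _ _ hz hw; rw [mul_add]; exact add_mem hz hw
    · intro r z _ hz; rw [mul_C_smul]; exact Submodule.smul_mem _ _ hz
  · rw [zero_mul]; exact zero_mem _
  · intro z w _ _ hz hw; rw [add_mul]; exact add_mem hz hw
  · intro r z _ hz
    rw [mul_comm, mul_C_smul, mul_comm]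
    exact Submodule.smul_mem _ _ hz

theorem coeffMap_mem_tailAt {m : ℤ} {x : LaurentSeries R} (hx : x ∈ tailAt R m) :
    coeffMap (f : R →+* S) x ∈ tailAt S m := fun j hj => by
  rw [coeffMap_coeff, hx j hj, map_zero]

theorem isMonic_coeffMap {j : ℤ} {x : LaurentSeries R} (hx : IsMonic x j) :
    IsMonic (coeffMap (f : R →+* S) x) j :=
  ⟨coeffMap_mem_tailAt f hx.1, by rw [coeffMap_coeff, hx.2, map_one]⟩

/-- surjectivity onto the principal parts is stable under change of base -/
theorem sup_mapSub {M : Submodule (D.AR R) (LaurentSeries R)} {m : ℤ}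
    (h : D.toR M ⊔ tailAt R m = ⊤) : D.toR (D.mapSub f M) ⊔ tailAt S m = ⊤ := by
  rw [sup_tailAt_eq_top_iff] at h ⊢
  intro j hj
  obtain ⟨x, hx, hxm⟩ := h j hj
  exact ⟨_, Submodule.subset_span ⟨x, hx, rfl⟩, isMonic_coeffMap f hxm⟩

/-- below the surjective range, change of base commutes with cutting by a tail -/
theorem inf_mapSub {M : Submodule (D.AR R) (LaurentSeries R)} {m : ℤ}
    (h : D.toR M ⊔ tailAt R m = ⊤) : D.toR (D.mapSub f M) ⊓ tailAt S m =
      Submodule.span S (coeffMap (f : R →+* S) '' ↑(D.toR M ⊓ tailAt R m)) := by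
  classical
  refine le_antisymm (fun x hx => ?_) (Submodule.span_le.mpr ?_)
  · choose xx hxx hxxm using fun j : {j : ℤ // j < m} => (sup_tailAt_eq_top_iff.mp h) j.1 j.2
    let X := Submodule.span R (Set.range xx)
    let X' := Submodule.span S (Set.range fun j => coeffMap (f : R →+* S) (xx j))
    have hXmon : ∀ j < m, ∃ x ∈ X, IsMonic x j := fun j hj =>
      ⟨_, Submodule.subset_span ⟨⟨j, hj⟩, rfl⟩, hxxm ⟨j, hj⟩⟩
    have hXle : X ≤ D.toR M := Submodule.span_le.mpr (Set.range_subset_iff.mpr hxx)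
    have hX' : ∀ z ∈ X, coeffMap (f : R →+* S) z ∈ X' := fun z hz => by
      refine Submodule.span_induction ?_ ?_ ?_ ?_ hz
      · rintro _ ⟨j, rfl⟩; exact Submodule.subset_span ⟨j, rfl⟩
      · rw [map_zero]; exact zero_mem _
      · intro z w _ _ hz hw; rw [map_add]; exact add_mem hz hw
      · intro r z _ hz; rw [coeffMap_smul]; exact Submodule.smul_mem _ _ hz
    set W := Submodule.span S (coeffMap (f : R →+* S) '' ↑(D.toR M ⊓ tailAt R m))
    have hdec : x ∈ W ⊔ X' := by
      have hx1 := hx.1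
      rw [SetLike.mem_coe, D.toR_mapSub f] at hx1
      refine Submodule.span_induction ?_ (zero_mem _) (fun z w _ _ => add_mem)
        (fun r z _ hz => Submodule.smul_mem _ _ hz) hx1
      rintro _ ⟨z, hz, rfl⟩
      obtain ⟨z', hz', hzm⟩ := exists_reduce hXmon z
      exact Submodule.mem_sup.mpr ⟨_, Submodule.subset_span
        ⟨z - z', ⟨sub_mem (D.mem_toR.mpr hz) (hXle hz'), hzm⟩, rfl⟩, _, hX' z' hz', by
          rw [map_sub, sub_add_cancel]⟩
    obtain ⟨w, hw, z, hz, rfl⟩ := Submodule.mem_sup.mp hdec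
    have hwm : w ∈ tailAt S m :=
      (Submodule.span_le.mpr (by rintro _ ⟨y, hy, rfl⟩; exact coeffMap_mem_tailAt f hy.2)) hw
    rw [eq_zero_of_mem_span (fun j => isMonic_coeffMap f (hxxm j)) hz
      (by simpa using sub_mem hx.2 hwm), add_zero]
    exact hw
  · rintro _ ⟨y, hy, rfl⟩
    exact ⟨Submodule.subset_span ⟨y, hy.1, rfl⟩, coeffMap_mem_tailAt f hy.2⟩

/-- change of base of the generators -/
def Piece.map {M : Submodule (D.AR R) (LaurentSeries R)} {m : ℤ} (P : D.Piece M m)
    (h : D.toR M ⊔ tailAt R m = ⊤) : D.Piece (D.mapSub f M) m where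
  I := P.I
  b a := coeffMap (f : R →+* S) (P.b a)
  q a := coeffMap (f : R →+* S) (P.q a)
  deg := P.deg
  b_mem a := by
    rw [D.inf_mapSub f h]
    exact Submodule.subset_span ⟨_, P.b_mem a, rfl⟩
  repr x hx := by
    rw [D.inf_mapSub f h] at hx
    refine Submodule.span_induction ?_ ?_ ?_ ?_ hx
    · rintro _ ⟨y, hy, rfl⟩
      conv_lhs => rw [P.repr y hy]
      rw [map_sum]
      refine Finset.sum_congr rfl fun a _ => ?_
      rw [coeffMap_smul, ← map_mul, coeffMap_coeff]
    · simp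
    · intro y z _ _ hy hz
      conv_lhs => rw [hy, hz]
      simp only [add_mul, HahnSeries.coeff_add, add_smul, Finset.sum_add_distrib]
    · intro r y _ hy
      conv_lhs => rw [hy]
      rw [Finset.smul_sum]
      refine Finset.sum_congr rfl fun a _ => ?_
      rw [mul_comm (r • y), mul_C_smul, HahnSeries.coeff_smul, mul_comm, smul_assoc]

/-- a complement of `t R[[t]]` stays one after change of base -/
theorem isCompl_mapLat (Lt : D.Lattice R) (h : IsCompl (D.toR Lt.1) (tPow R)) :
    IsCompl (D.toR (D.mapLat f Lt).1) (tPow S) := by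
  rw [tPow_eq_tailAt] at h ⊢
  refine ⟨disjoint_iff.mpr ?_, codisjoint_iff.mpr (D.sup_mapSub f h.codisjoint.eq_top)⟩
  show D.toR (D.mapSub f Lt.1) ⊓ _ = ⊥
  rw [D.inf_mapSub f h.codisjoint.eq_top, h.disjoint.eq_bot]
  simp

end CellData

end FLTAgent.RelPic

end
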