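/-
Interface of area RelPic (S25): the curve near a rational point and away from it, with the
expansion maps on every affine base change.
-/
import Fermat.Agent.RelPic.Lattice
import Fermat.Agent.RelPic.Comap

set_option autoImplicit false

noncomputable section

universe u

open CategoryTheory CategoryTheory.Limits AlgebraicGeometry TopologicalSpace ModularCurve
open AlgebraicGeometry.RelPicard NeronModelInfra

namespace FLTAgent.RelPic

variable {k : Type u} [Field k] {C : Scheme.{u}} (c : C ⟶ Spec (CommRingCat.of k))
variable (R : Type u) [CommRing R] [Algebra k R]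

/-- The structure morphism of an affine base. -/
abbrev base : Spec (CommRingCat.of R) ⟶ Spec (CommRingCat.of k) :=
  Spec.map (CommRingCat.ofHom (algebraMap k R))

/-- The curve over an affine base. -/
abbrev XR : Scheme.{u} := Limits.pullback c (base (k := k) R)

variable {R}

/-- A map of affine bases. -/
def baseHom {R' : Type u} [CommRing R'] [Algebra k R'] (f : R →ₐ[k] R') :
    SchemeHomOver (base (k := k) R') (base R) :=
  ⟨Spec.map (CommRingCat.ofHom f.toRingHom), by
    rw [base, base, ← Spec.map_comp, ← CommRingCat.ofHom_comp, AlgHom.toRingHom_eq_coe,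
      f.comp_algebraMap]⟩

/-- The induced map of curves. -/
abbrev xMap {R' : Type u} [CommRing R'] [Algebra k R'] (f : R →ₐ[k] R') :
    XR c R' ⟶ XR c R :=
  baseChangeSnd c (baseHom f)

variable (R)

/-- A function of the base, as a function on an open of the curve. -/
def ofBase (W : (XR c R).Opens) : R →+* Γ(XR c R, W) :=
  (pb (pullback.snd c (base R)) (U := ⊤) (W := W) le_top).comp
    (Scheme.ΓSpecIso (CommRingCat.of R)).inv.hom

variable (ε : SchemeHomOver (𝟙 (Spec (CommRingCat.of k))) c)

/-- The rational point underlying the section. -/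
def x0 : C := ε.1 (IsLocalRing.closedPoint k)

/-- The two affine opens of the curve, with expansion maps at the rational point on every affine
base change. -/
structure Chart (D : CellData k) where
  /-- the complement of the point -/
  U : C.Opens
  /-- a neighbourhood of the point -/
  V : C.Opens
  hU : IsAffineOpen U
  hV : IsAffineOpen V
  coe_U : (U : Set C) = {x0 c ε}ᶜ
  mem : x0 c ε ∈ V
  /-- a parameter, vanishing only at the point -/
  τ : Γ(C, V)
  basic : C.basicOpen τ = U ⊓ V
  /-- expansions of functions near the point -/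
  expV : ∀ (R : Type u) [CommRing R] [Algebra k R],
    Γ(XR c R, pullback.fst c (base R) ⁻¹ᵁ V) →+* PowerSeries R
  /-- expansions of functions on the punctured neighbourhood -/
  expW : ∀ (R : Type u) [CommRing R] [Algebra k R],
    Γ(XR c R, pullback.fst c (base R) ⁻¹ᵁ (U ⊓ V)) →+* LaurentSeries R
  /-- expansions of functions away from the point -/
  expU : ∀ (R : Type u) [CommRing R] [Algebra k R],
    Γ(XR c R, pullback.fst c (base R) ⁻¹ᵁ U) →+* LaurentSeries R
  expW_rsU : ∀ (R : Type u) [CommRing R] [Algebra k R] (f : Γ(XR c R, pullback.fst c (base R) ⁻¹ᵁ U)),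
    expW R (rs ((pullback.fst c (base R)).preimage_mono inf_le_left) f) = expU R f
  expW_rsV : ∀ (R : Type u) [CommRing R] [Algebra k R] (f : Γ(XR c R, pullback.fst c (base R) ⁻¹ᵁ V)),
    expW R (rs ((pullback.fst c (base R)).preimage_mono inf_le_right) f) =
      HahnSeries.ofPowerSeries ℤ R (expV R f)
  expU_injective : ∀ (R : Type u) [CommRing R] [Algebra k R], Function.Injective (expU R)
  expW_injective : ∀ (R : Type u) [CommRing R] [Algebra k R], Function.Injective (expW R)
  expV_injective : ∀ (R : Type u) [CommRing R] [Algebra k R], Function.Injective (expV R)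
  range_expU : ∀ (R : Type u) [CommRing R] [Algebra k R], (expU R).range = D.AR R
  expV_τ : ∀ (R : Type u) [CommRing R] [Algebra k R],
    expV R (pb (pullback.fst c (base R)) le_rfl τ) = PowerSeries.X
  expV_ofBase : ∀ (R : Type u) [CommRing R] [Algebra k R] (r : R),
    expV R (ofBase c R _ r) = PowerSeries.C r
  /-- the constant coefficient is the value at the section -/
  constantCoeff_expV : ∀ (R : Type u) [CommRing R] [Algebra k R]
    (h : ⊤ ≤ rigSection c (base R) ε ⁻¹ᵁ (pullback.fst c (base R) ⁻¹ᵁ V))
    (f : Γ(XR c R, pullback.fst c (base R) ⁻¹ᵁ V)),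
    PowerSeries.constantCoeff (expV R f) =
      (Scheme.ΓSpecIso (CommRingCat.of R)).hom (pb (rigSection c (base R) ε) h f)
  /-- functions with integral expansion extend over the section -/
  exists_extend : ∀ (R : Type u) [CommRing R] [Algebra k R]
    (f : Γ(XR c R, pullback.fst c (base R) ⁻¹ᵁ (U ⊓ V))) (g : PowerSeries R),
    expW R f = HahnSeries.ofPowerSeries ℤ R g →
      ∃ f' : Γ(XR c R, pullback.fst c (base R) ⁻¹ᵁ V),
        rs ((pullback.fst c (base R)).preimage_mono inf_le_right) f' = f
  expW_natural : ∀ (R R' : Type u) [CommRing R] [Algebra k R] [CommRing R'] [Algebra k R']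
    (φ : R →ₐ[k] R') (h : pullback.fst c (base R') ⁻¹ᵁ (U ⊓ V) ≤
      xMap c φ ⁻¹ᵁ (pullback.fst c (base R) ⁻¹ᵁ (U ⊓ V)))
    (f : Γ(XR c R, pullback.fst c (base R) ⁻¹ᵁ (U ⊓ V))),
    expW R' (pb (xMap c φ) h f) = coeffMap (φ : R →+* R') (expW R f)

end FLTAgent.RelPic
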