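/-
Area RelPic (S25): from line bundles on the curve over an affine base to lattices.
-/
import Fermat.Agent.RelPic.Chart
import Fermat.Agent.RelPic.Product

set_option autoImplicit false

noncomputable section

universe u

open CategoryTheory CategoryTheory.Limits AlgebraicGeometry TopologicalSpace ModularCurve
open AlgebraicGeometry.RelPicard NeronModelInfra

namespace FLTAgent.RelPic

namespace Cocycle

variable {X : Scheme.{u}} (d : Cocycle X)

lemma dot_mul_dot {V : X.Opens} (s s' : d.secs V) (t t' : d.inv.secs V) :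
    d.dot s t * d.dot s' t' = d.dot s t' * d.dot s' t :=
  rs_ext (fun i => V ⊓ d.U i) (fun _ => inf_le_left)
    (fun _ hx => (d.cover _).imp fun _ hi => ⟨hx, hi⟩) _ _ fun i => by
      simp only [map_mul, d.dot_spec]
      ring

lemma dot_add_right {V : X.Opens} (s : d.secs V) (t t' : d.inv.secs V) :
    d.dot s (t + t') = d.dot s t + d.dot s t' :=
  d.dot_eq fun i => by rw [map_add, d.dot_spec, d.dot_spec]; exact (mul_add _ _ _).symm

lemma dot_sum_left {V : X.Opens} {α : Type*} (S : Finset α) (s : α → d.secs V)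
    (t : d.inv.secs V) : d.dot (∑ a ∈ S, s a) t = ∑ a ∈ S, d.dot (s a) t :=
  map_sum (AddMonoidHom.mk' (fun s => d.dot s t) fun s s' => d.dot_add_left s s' t) _ _

lemma dot_sum_right {V : X.Opens} {α : Type*} (S : Finset α) (s : d.secs V)
    (t : α → d.inv.secs V) : d.dot s (∑ a ∈ S, t a) = ∑ a ∈ S, d.dot s (t a) :=
  map_sum (AddMonoidHom.mk' (fun t => d.dot s t) fun t t' => d.dot_add_right s t t') _ _

end Cocycle

namespace CellData

variable {k : Type u} [Field k] (D : CellData k) {R : Type u} [CommRing R] [Algebra k R]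

lemma Lattice.eq_of_le {a L : D.Lattice R} (h : a.1 ≤ L.1)
    (h' : (a⁻¹ : D.Lattice R).1 ≤ (L⁻¹ : D.Lattice R).1) : a = L := by
  refine Units.ext (le_antisymm h ?_)
  calc L.1 = L.1 * (a⁻¹ : D.Lattice R).1 * a.1 := by rw [mul_assoc, Units.inv_mul, mul_one]
    _ ≤ L.1 * (L⁻¹ : D.Lattice R).1 * a.1 :=
        mul_le_mul' (mul_le_mul' le_rfl h') le_rfl
    _ = a.1 := by rw [Units.mul_inv, one_mul]

end CellData

variable {k : Type u} [Field k] {C : Scheme.{u}} {c : C ⟶ Spec (CommRingCat.of k)}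
variable {ε : SchemeHomOver (𝟙 (Spec (CommRingCat.of k))) c} {D : CellData k}

namespace Chart

variable (ch : Chart c ε D) (R : Type u) [CommRing R] [Algebra k R]

/-- The complement of the section. -/
abbrev XU : (XR c R).Opens := pullback.fst c (base R) ⁻¹ᵁ ch.U

/-- The neighbourhood of the section. -/
abbrev XV : (XR c R).Opens := pullback.fst c (base R) ⁻¹ᵁ ch.V

/-- The punctured neighbourhood of the section. -/
abbrev XW : (XR c R).Opens := pullback.fst c (base R) ⁻¹ᵁ (ch.U ⊓ ch.V)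

lemma XW_le_XU : ch.XW R ≤ ch.XU R := (pullback.fst c (base R)).preimage_mono inf_le_left

lemma XW_le_XV : ch.XW R ≤ ch.XV R := (pullback.fst c (base R)).preimage_mono inf_le_right

lemma expW_rsU' (f : Γ(XR c R, ch.XU R)) : ch.expW R (rs (ch.XW_le_XU R) f) = ch.expU R f :=
  ch.expW_rsU R f

lemma expW_rsV' (f : Γ(XR c R, ch.XV R)) :
    ch.expW R (rs (ch.XW_le_XV R) f) = HahnSeries.ofPowerSeries ℤ R (ch.expV R f) :=
  ch.expW_rsV R f

lemma expU_mem (f : Γ(XR c R, ch.XU R)) : ch.expU R f ∈ D.AR R :=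
  (ch.range_expU R).le ⟨f, rfl⟩

end Chart

/-- A frame of a cocycle near the section, with a dual frame. -/
structure NearFrame (ch : Chart c ε D) (R : Type u) [CommRing R] [Algebra k R]
    (d : Cocycle (XR c R)) where
  /-- the frame -/
  e : d.secs (ch.XV R)
  /-- the dual frame -/
  σ : d.inv.secs (ch.XV R)
  isUnit : IsUnit (ch.expV R (d.dot e σ))

namespace NearFrame

variable {ch : Chart c ε D} {R : Type u} [CommRing R] [Algebra k R]
variable {d d' : Cocycle (XR c R)} (F : NearFrame ch R d) (F' : NearFrame ch R d')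

/-- The dual near frame. -/
def dual : NearFrame ch R d.inv :=
  ⟨F.σ, d.toInvInv F.e, by rw [d.dot_toInvInv]; exact F.isUnit⟩

/-- The value of the frame on its dual. -/
def unit : (PowerSeries R)ˣ := F.isUnit.unit

/-- The formal trivialisation. -/
def triv (s : d.secs (ch.XW R)) : LaurentSeries R :=
  ch.expW R (d.dot s (d.inv.secsMap (ch.XW_le_XV R) F.σ))

/-- The dual formal trivialisation. -/
def cotriv (t : d.inv.secs (ch.XW R)) : LaurentSeries R :=
  ch.expW R (d.dot (d.secsMap (ch.XW_le_XV R) F.e) t)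

lemma triv_smul (f : Γ(XR c R, ch.XW R)) (s : d.secs (ch.XW R)) :
    F.triv (f • s) = ch.expW R f * F.triv s := by
  rw [triv, triv, d.dot_smul_left, map_mul]

lemma triv_add (s s' : d.secs (ch.XW R)) : F.triv (s + s') = F.triv s + F.triv s' := by
  rw [triv, triv, triv, d.dot_add_left, map_add]

lemma dual_triv (t : d.inv.secs (ch.XW R)) : F.dual.triv t = F.cotriv t := by
  show ch.expW R (d.inv.dot t _) = ch.expW R _
  congr 1
  exact d.dot_toInvInv (d.secsMap (ch.XW_le_XV R) F.e) t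

lemma triv_e : F.triv (d.secsMap (ch.XW_le_XV R) F.e) =
    HahnSeries.ofPowerSeries ℤ R (F.unit : PowerSeries R) := by
  rw [triv, ← d.rs_dot, ch.expW_rsV']
  rfl

lemma triv_mul_cotriv (s : d.secs (ch.XW R)) (t : d.inv.secs (ch.XW R)) :
    F.triv s * F.cotriv t =
      ch.expW R (d.dot s t) * HahnSeries.ofPowerSeries ℤ R (F.unit : PowerSeries R) := by
  rw [← F.triv_e, triv, triv, cotriv, ← map_mul, ← map_mul, d.dot_mul_dot, mul_comm]

/-- The sections away from the point, inside Laurent series. -/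
def sub : Submodule (D.AR R) (LaurentSeries R) where
  carrier := Set.range fun s : d.secs (ch.XU R) => F.triv (d.secsMap (ch.XW_le_XU R) s)
  add_mem' := by
    rintro _ _ ⟨s, rfl⟩ ⟨t, rfl⟩
    refine ⟨s + t, ?_⟩
    show F.triv _ = _
    rw [map_add, F.triv_add]
  zero_mem' := ⟨0, by
    show F.triv _ = 0
    rw [map_zero, ← zero_smul Γ(XR c R, ch.XW R) (d.secsMap (ch.XW_le_XV R) F.e), F.triv_smul,
      map_zero, zero_mul]⟩
  smul_mem' := by
    rintro ⟨a, ha⟩ _ ⟨s, rfl⟩
    obtain ⟨f, rfl⟩ := (ch.range_expU R).ge ha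
    refine ⟨f • s, ?_⟩
    show F.triv _ = ch.expU R f * F.triv _
    rw [d.secsMap_smul, F.triv_smul, ch.expW_rsU']

lemma mem_sub {x : LaurentSeries R} :
    x ∈ F.sub ↔ ∃ s : d.secs (ch.XU R), F.triv (d.secsMap (ch.XW_le_XU R) s) = x := Iff.rfl

lemma triv_mem (s : d.secs (ch.XU R)) : F.triv (d.secsMap (ch.XW_le_XU R) s) ∈ F.sub := ⟨s, rfl⟩

lemma cotriv_mem (t : d.inv.secs (ch.XU R)) :
    F.cotriv (d.inv.secsMap (ch.XW_le_XU R) t) ∈ F.dual.sub :=
  ⟨t, F.dual_triv _⟩

lemma sub_mul_dual (hU : IsAffineOpen (ch.XU R)) :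
    F.sub * F.dual.sub = (D.ofSeries R F.unit).1 := by
  show _ = Submodule.span (D.AR R) {HahnSeries.ofPowerSeries ℤ R (F.unit : PowerSeries R)}
  refine le_antisymm (Submodule.mul_le.mpr ?_) (Submodule.span_le.mpr ?_)
  · rintro _ ⟨s, rfl⟩ _ ⟨t, rfl⟩
    refine Submodule.mem_span_singleton.mpr
      ⟨⟨_, ch.expU_mem R (d.dot s t)⟩, ?_⟩
    show ch.expU R _ * _ = F.triv _ * F.dual.triv _
    rw [F.dual_triv, F.triv_mul_cotriv, ← ch.expW_rsU', d.rs_dot]
  · obtain ⟨n, s, t, hst⟩ := d.exists_sum_dot_eq_one hU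
    rw [Set.singleton_subset_iff, SetLike.mem_coe]
    have h : HahnSeries.ofPowerSeries ℤ R (F.unit : PowerSeries R) =
        ∑ a, F.triv (d.secsMap (ch.XW_le_XU R) (s a)) *
          F.cotriv (d.inv.secsMap (ch.XW_le_XU R) (t a)) := by
      simp only [F.triv_mul_cotriv, ← d.rs_dot, ← Finset.sum_mul]
      rw [← map_sum, ← map_sum, hst, map_one, map_one, one_mul]
    rw [h]
    exact Submodule.sum_mem _ fun a _ =>
      Submodule.mul_mem_mul (F.triv_mem _) (F.cotriv_mem _)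

variable (hU : IsAffineOpen (ch.XU R))

/-- The lattice of a near frame. -/
def lattice : D.Lattice R where
  val := F.sub
  inv := F.dual.sub * ((D.ofSeries R F.unit)⁻¹ : D.Lattice R).1
  val_inv := by rw [← mul_assoc, F.sub_mul_dual hU, Units.mul_inv]
  inv_val := by rw [mul_comm, ← mul_assoc, F.sub_mul_dual hU, Units.mul_inv]

/-- The class of a near frame. -/
def cls : D.Class R := QuotientGroup.mk (F.lattice hU)

lemma lattice_inv :
    ((F.lattice hU)⁻¹ : D.Lattice R).1 = F.dual.sub * ((D.ofSeries R F.unit)⁻¹ : D.Lattice R).1 :=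
  rfl

/-- An isomorphism changes the formal trivialisation by a power series. -/
lemma triv_iso (φ : d.module ≅ d'.module) (s : d.secs (ch.XW R)) :
    HahnSeries.ofPowerSeries ℤ R (F.unit : PowerSeries R) * F'.triv (φ.hom.app (ch.XW R) s) =
      F.triv s * F'.triv (φ.hom.app (ch.XW R) (d.secsMap (ch.XW_le_XV R) F.e)) := by
  have h := d.smul_dot (d.secsMap (ch.XW_le_XV R) F.e) s (d.inv.secsMap (ch.XW_le_XV R) F.σ)
  have h' := congrArg (fun x : Γ(d.module, ch.XW R) => φ.hom.app (ch.XW R) x) h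
  have h'' := ((Scheme.Modules.Hom.app_smul φ.hom _ _).symm.trans h').trans
    (Scheme.Modules.Hom.app_smul φ.hom _ _)
  have h3 := congrArg (fun x : d'.secs (ch.XW R) => F'.triv x) h''
  rw [← F.triv_e]
  exact ((F'.triv_smul _ _).symm.trans h3).trans (F'.triv_smul _ _)

/-- Isomorphic sheaves have the same class. -/
theorem cls_eq_of_iso (φ : d.module ≅ d'.module) : F.cls hU = F'.cls hU := by
  let r₁ : PowerSeries R := ch.expV R (d'.dot (φ.hom.app (ch.XV R) F.e) F'.σ)
  let r₂ : PowerSeries R := ch.expV R (d.dot (φ.inv.app (ch.XV R) F'.e) F.σ)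
  have hr₁ : F'.triv (φ.hom.app (ch.XW R) (d.secsMap (ch.XW_le_XV R) F.e)) =
      HahnSeries.ofPowerSeries ℤ R r₁ := by
    exact (congrArg F'.triv (app_mrs φ.hom (ch.XW_le_XV R) (d.toSec F.e)).symm).trans
      ((congrArg (ch.expW R) (d'.rs_dot (ch.XW_le_XV R) (φ.hom.app (ch.XV R) F.e) F'.σ)).symm.trans
        (ch.expW_rsV' R _))
  have hr₂ : F.triv (φ.inv.app (ch.XW R) (d'.secsMap (ch.XW_le_XV R) F'.e)) =
      HahnSeries.ofPowerSeries ℤ R r₂ := by
    exact (congrArg F.triv (app_mrs φ.inv (ch.XW_le_XV R) (d'.toSec F'.e)).symm).trans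
      ((congrArg (ch.expW R) (d.rs_dot (ch.XW_le_XV R) (φ.inv.app (ch.XV R) F'.e) F.σ)).symm.trans
        (ch.expW_rsV' R _))
  have hunit : IsUnit r₁ := by
    have h := F.triv_iso F' φ (φ.inv.app (ch.XW R) (d'.secsMap (ch.XW_le_XV R) F'.e))
    rw [hr₂, hr₁] at h
    have hid : φ.hom.app (ch.XW R) (φ.inv.app (ch.XW R) (d'.secsMap (ch.XW_le_XV R) F'.e)) =
        d'.secsMap (ch.XW_le_XV R) F'.e :=
      congr((Scheme.Modules.Hom.app $(φ.inv_hom_id) (ch.XW R))
        (d'.toSec (d'.secsMap (ch.XW_le_XV R) F'.e)))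
    rw [hid, F'.triv_e, ← map_mul, ← map_mul] at h
    exact isUnit_of_mul_isUnit_right
      (HahnSeries.ofPowerSeries_injective h ▸ (F.unit.isUnit.mul F'.unit.isUnit))
  let v : (PowerSeries R)ˣ := F.unit⁻¹ * hunit.unit
  have key : ∀ s : d.secs (ch.XW R), F'.triv (φ.hom.app (ch.XW R) s) =
      F.triv s * HahnSeries.ofPowerSeries ℤ R (v : PowerSeries R) := by
    intro s
    have h := congrArg (HahnSeries.ofPowerSeries ℤ R (↑F.unit⁻¹ : PowerSeries R) * ·)
      (F.triv_iso F' φ s)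
    simp only [← mul_assoc, ← map_mul, Units.inv_mul, map_one, one_mul] at h
    rw [h, hr₁, Units.val_mul, IsUnit.unit_spec, map_mul]
    ring
  refine QuotientGroup.eq.mpr ⟨v, ?_⟩
  rw [eq_inv_mul_iff_mul_eq]
  refine Units.ext ?_
  rw [Units.val_mul]
  show F.sub * Submodule.span (D.AR R) {HahnSeries.ofPowerSeries ℤ R (v : PowerSeries R)} = F'.sub
  refine le_antisymm (Submodule.mul_le.mpr ?_) fun x hx => ?_
  · rintro _ ⟨s, rfl⟩ y hy
    obtain ⟨⟨a, ha⟩, rfl⟩ := Submodule.mem_span_singleton.mp hy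
    show F.triv _ * (a * _) ∈ _
    rw [mul_left_comm, ← key]
    refine F'.sub.smul_mem ⟨a, ha⟩ ⟨φ.hom.app (ch.XU R) s, ?_⟩
    exact congrArg F'.triv (app_mrs φ.hom (ch.XW_le_XU R) (d.toSec s))
  · obtain ⟨s, rfl⟩ := F'.mem_sub.mp hx
    have hs : φ.hom.app (ch.XW R) (φ.inv.app (ch.XW R) (d'.secsMap (ch.XW_le_XU R) s)) =
        d'.secsMap (ch.XW_le_XU R) s :=
      congr((Scheme.Modules.Hom.app $(φ.inv_hom_id) (ch.XW R))
        (d'.toSec (d'.secsMap (ch.XW_le_XU R) s)))
    refine (congrArg (· ∈ _) ((congrArg F'.triv hs).symm.trans (key _))).mpr ?_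
    refine Submodule.mul_mem_mul ⟨φ.inv.app (ch.XU R) s, ?_⟩ (Submodule.subset_span rfl)
    exact congrArg F.triv (app_mrs φ.inv (ch.XW_le_XU R) (d'.toSec s))

/-- The product of near frames. -/
def mul : NearFrame ch R (d.mul d') :=
  ⟨d.secsMul d' F.e F'.e, d.secsMulInv d' F.σ F'.σ, by
    rw [d.dot_mul, map_mul]; exact F.isUnit.mul F'.isUnit⟩

lemma mul_unit : (F.mul F').unit = F.unit * F'.unit := by
  refine Units.ext ?_
  show ch.expV R ((d.mul d').dot (d.secsMul d' F.e F'.e) (d.secsMulInv d' F.σ F'.σ)) = _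
  rw [d.dot_mul, map_mul]
  rfl

/-- The class is multiplicative. -/
theorem cls_mul : (F.mul F').cls hU = F.cls hU * F'.cls hU := by
  have hm : ∀ (s : d.secs (ch.XW R)) (s' : d'.secs (ch.XW R)),
      (F.mul F').triv (d.secsMul d' s s') = F.triv s * F'.triv s' := by
    intro s s'
    rw [triv, triv, triv, ← map_mul, ← d.dot_mul]
    congr 2
    refine Subtype.ext (funext fun p => ?_)
    show rs _ (rs _ (F.σ.1 p.1) * rs _ (F'.σ.1 p.2)) = rs _ (rs _ (F.σ.1 p.1)) * rs _ (rs _ (F'.σ.1 p.2))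
    simp only [map_mul, rs_rs]
  have hm' : ∀ (t : d.inv.secs (ch.XW R)) (t' : d'.inv.secs (ch.XW R)),
      (F.mul F').cotriv (d.secsMulInv d' t t') = F.cotriv t * F'.cotriv t' := by
    intro t t'
    rw [cotriv, cotriv, cotriv, ← map_mul, ← d.dot_mul]
    congr 2
    refine Subtype.ext (funext fun p => ?_)
    show rs _ (rs _ (F.e.1 p.1) * rs _ (F'.e.1 p.2)) = rs _ (rs _ (F.e.1 p.1)) * rs _ (rs _ (F'.e.1 p.2))
    simp only [map_mul, rs_rs]
  rw [cls, cls, cls, ← QuotientGroup.mk_mul]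
  refine congrArg _ (CellData.Lattice.eq_of_le D ?_ ?_).symm
  · rw [Units.val_mul]
    refine Submodule.mul_le.mpr ?_
    rintro _ ⟨s, rfl⟩ _ ⟨s', rfl⟩
    refine ⟨d.secsMul d' s s', ?_⟩
    show (F.mul F').triv ((d.mul d').secsMap _ _) = _
    rw [← hm]
    congr 1
    refine Subtype.ext (funext fun p => ?_)
    show rs _ (rs _ (s.1 p.1) * rs _ (s'.1 p.2)) = rs _ (rs _ (s.1 p.1)) * rs _ (rs _ (s'.1 p.2))
    simp only [map_mul, rs_rs]
  · rw [mul_inv_rev, Units.val_mul, lattice_inv, lattice_inv, lattice_inv, mul_unit, map_mul,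
      mul_inv_rev, Units.val_mul, mul_mul_mul_comm]
    refine mul_le_mul' ?_ le_rfl
    rw [mul_comm]
    refine Submodule.mul_le.mpr ?_
    rintro _ ⟨t, rfl⟩ _ ⟨t', rfl⟩
    refine ⟨d.secsMulInv d' t t', ?_⟩
    show (F.mul F').dual.triv ((d.mul d').inv.secsMap _ _) = F.dual.triv _ * F'.dual.triv _
    rw [dual_triv, dual_triv, dual_triv, ← hm']
    congr 1
    refine Subtype.ext (funext fun p => ?_)
    show rs _ (rs _ (t.1 p.1) * rs _ (t'.1 p.2)) = rs _ (rs _ (t.1 p.1)) * rs _ (rs _ (t'.1 p.2))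
    simp only [map_mul, rs_rs]

end NearFrame

end FLTAgent.RelPic
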