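/-
Area RelPic (S25): a rigidified sheaf has a frame near the section; base change of near frames.
-/
import Fermat.Agent.RelPic.Dictionary

set_option autoImplicit false

noncomputable section

universe u

open CategoryTheory CategoryTheory.Limits AlgebraicGeometry TopologicalSpace ModularCurve
open AlgebraicGeometry.RelPicard NeronModelInfra

namespace FLTAgent.RelPic

variable {k : Type u} [Field k] {C : Scheme.{u}} {c : C ⟶ Spec (CommRingCat.of k)}
variable {ε : SchemeHomOver (𝟙 (Spec (CommRingCat.of k))) c} {D : CellData k}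
variable (ch : Chart c ε D) (R : Type u) [CommRing R] [Algebra k R]

/-- The section of the curve over an affine base. -/
abbrev secR (c : C ⟶ Spec (CommRingCat.of k)) (ε : SchemeHomOver (𝟙 (Spec (CommRingCat.of k))) c) :
    Spec (CommRingCat.of R) ⟶ XR c R :=
  rigSection c (base R) ε

lemma secR_fst : secR R c ε ≫ pullback.fst c (base R) = base R ≫ ε.1 :=
  pullback.lift_fst _ _ _

namespace Chart

lemma top_le_preimage : (⊤ : (Spec (CommRingCat.of R)).Opens) ≤ secR R c ε ⁻¹ᵁ ch.XV R := by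
  intro p _
  show pullback.fst c (base R) (secR R c ε p) ∈ ch.V
  rw [← Scheme.Hom.comp_apply, secR_fst, Scheme.Hom.comp_apply]
  have : base (k := k) R p = IsLocalRing.closedPoint k := Subsingleton.elim (α := PrimeSpectrum k) _ _
  rw [this]
  exact ch.mem

/-- The value at the section. -/
def value : Γ(XR c R, ch.XV R) →+* R :=
  (PowerSeries.constantCoeff).comp (ch.expV R)

lemma value_eq (f : Γ(XR c R, ch.XV R)) :
    ch.value R f =
      (Scheme.ΓSpecIso (CommRingCat.of R)).hom (pb (secR R c ε) (ch.top_le_preimage R) f) :=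
  ch.constantCoeff_expV R _ f

lemma value_ofBase (r : R) : ch.value R (ofBase c R _ r) = r := by
  show PowerSeries.constantCoeff (ch.expV R (ofBase c R _ r)) = r
  rw [ch.expV_ofBase, PowerSeries.constantCoeff_C]

/-- Lift of a function at the section. -/
def liftVal (a : Γ(Spec (CommRingCat.of R), ⊤)) : Γ(XR c R, ch.XV R) :=
  ofBase c R _ ((Scheme.ΓSpecIso (CommRingCat.of R)).hom a)

lemma pb_liftVal (a : Γ(Spec (CommRingCat.of R), ⊤)) :
    pb (secR R c ε) (ch.top_le_preimage R) (ch.liftVal R a) = a := by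
  have h := ch.value_eq R (ch.liftVal R a)
  rw [liftVal, value_ofBase] at h
  exact ((ConcreteCategory.bijective_of_isIso (Scheme.ΓSpecIso (CommRingCat.of R)).hom).1 h).symm

end Chart

/-- A trivialisation along the section. -/
theorem exists_section_frame {Y : Scheme.{u}} (d : Cocycle Y)
    (h : Nonempty (d.module ≅ SheafOfModules.unit Y.ringCatSheaf)) :
    ∃ (a : d.secs ⊤) (b : d.inv.secs ⊤), d.dot a b = 1 := by
  obtain ⟨φ⟩ := h
  let a : Γ(d.module, ⊤) := φ.inv.app ⊤ ((1 : Γ(Y, ⊤)) : Γ(unitM Y, ⊤))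
  have ha : IsFrame d.module a := (isFrame_unit (X := Y) ⊤).map φ.symm
  let a' : d.secs ⊤ := a
  have hu : ∀ i, IsUnit (a'.1 i) := by
    intro i
    obtain ⟨r, hr⟩ := ha.exists_smul (le_top : (⊤ : Y.Opens) ⊓ d.U i ≤ ⊤)
      (mrs d.module inf_le_right (d.toSec (d.frame i)))
    have h1 := congrArg (fun s : d.secs (⊤ ⊓ d.U i) =>
      rs (le_inf le_rfl inf_le_right : ⊤ ⊓ d.U i ≤ (⊤ ⊓ d.U i) ⊓ d.U i) (s.1 i)) hr
    change rs _ (rs _ r * rs _ (a'.1 i)) = rs _ (rs _ (rs _ (d.g i i))) at h1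
    rw [map_mul, rs_rs, rs_rs, rs_rs, rs_rs, rs_self, rs_self,
      d.self_eq_one i _ (inf_le_right : ⊤ ⊓ d.U i ≤ d.U i)] at h1
    exact IsUnit.of_mul_eq_one r (mul_comm (a'.1 i) r ▸ h1)
  let b : d.inv.secs ⊤ := ⟨fun i => ↑(hu i).unit⁻¹, fun i j W hV hi hj => by
    refine (((hu i).map (rs (le_inf hV hi))).mul_left_cancel ?_)
    have h1 := a'.2 i j W hV hi hj
    have h2 := d.g_mul_inv_g i j W (le_inf hi hj)
    have h3 : rs (le_inf hV hj) (a'.1 j) * rs (le_inf hV hj) (↑(hu j).unit⁻¹) = 1 := by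
      rw [← map_mul, IsUnit.mul_val_inv, map_one]
    rw [← map_mul, IsUnit.mul_val_inv, map_one, h1]
    exact (eq_one_of_eqs _ _ _ _ h2 h3).symm⟩
  exact ⟨a', b, d.dot_eq fun i => by rw [map_one]; exact (IsUnit.mul_val_inv (hu i)).symm⟩
where
  eq_one_of_eqs {A : Type u} [CommRing A] (g gi x y : A) (h2 : g * gi = 1) (h3 : x * y = 1) :
      g * x * (gi * y) = 1 := by linear_combination h3 + x * y * h2

/-- A cocycle trivial along the section has a near frame. -/
theorem exists_nearFrame (d : Cocycle (XR c R)) (hV : IsAffineOpen (ch.XV R))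
    (h : Nonempty ((Scheme.Modules.pullback (secR R c ε)).obj d.module ≅
      SheafOfModules.unit (Spec (CommRingCat.of R)).ringCatSheaf)) :
    Nonempty (NearFrame ch R d) := by
  obtain ⟨φ⟩ := h
  obtain ⟨a, b, hab⟩ := exists_section_frame _ ⟨(d.pullbackIso (secR R c ε)).symm ≪≫ φ⟩
  obtain ⟨n, s, t, hst⟩ := d.exists_sum_dot_eq_one hV
  let f := secR R c ε
  let hle := ch.top_le_preimage R
  let s' := fun α => d.secsPb f hle (s α)
  let t' := fun α => d.secsPbInv f hle (t α)
  let A := fun α => (d.comap f).dot a (t' α)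
  let B := fun β => (d.comap f).dot (s' β) b
  refine ⟨⟨∑ α, ch.liftVal R (A α) • s α, ∑ β, ch.liftVal R (B β) • t β, ?_⟩⟩
  rw [PowerSeries.isUnit_iff_constantCoeff]
  have hdot : d.dot (∑ α, ch.liftVal R (A α) • s α) (∑ β, ch.liftVal R (B β) • t β) =
      ∑ α, ∑ β, ch.liftVal R (A α) * (ch.liftVal R (B β) * d.dot (s α) (t β)) := by
    rw [d.dot_sum_left]
    refine Finset.sum_congr rfl fun α _ => ?_
    rw [d.dot_sum_right]
    exact Finset.sum_congr rfl fun β _ => by rw [d.dot_smul_left, d.dot_smul_right]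
  have hone : ∑ α, (d.comap f).dot (s' α) (t' α) = 1 := by
    simp only [s', t', d.pb_dot]
    rw [← map_sum, hst, map_one]
  have hval : pb f hle (d.dot (∑ α, ch.liftVal R (A α) • s α) (∑ β, ch.liftVal R (B β) • t β)) =
      1 := by
    rw [hdot]
    simp only [map_sum, map_mul, ch.pb_liftVal, f, ← d.pb_dot]
    show ∑ α, ∑ β, A α * (B β * (d.comap f).dot (s' α) (t' β)) = 1
    rw [Finset.sum_comm]
    have h1 : ∀ β, ∑ α, A α * (B β * (d.comap f).dot (s' α) (t' β)) =
        B β * (d.comap f).dot a (t' β) := by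
      intro β
      have : ∀ α, A α * (B β * (d.comap f).dot (s' α) (t' β)) =
          B β * (d.comap f).dot a (t' β) * (d.comap f).dot (s' α) (t' α) := by
        intro α
        rw [mul_left_comm, mul_assoc, (d.comap f).dot_mul_dot a (s' α) (t' α) (t' β)]
      simp only [this, ← Finset.mul_sum, hone, mul_one]
    simp only [h1]
    have h2 : ∀ β, B β * (d.comap f).dot a (t' β) =
        (d.comap f).dot (s' β) (t' β) := by
      intro β
      rw [(d.comap f).dot_mul_dot (s' β) a b (t' β), hab, mul_one]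
    simp only [h2, hone]
  show IsUnit (ch.value R _)
  rw [ch.value_eq, hval, map_one]
  exact isUnit_one

namespace NearFrame

variable {ch R} {R' : Type u} [CommRing R'] [Algebra k R']
variable {d : Cocycle (XR c R)} (F : NearFrame ch R d) (φ : R →ₐ[k] R')

lemma xMap_fst : xMap c φ ≫ pullback.fst c (base R) = pullback.fst c (base R') := by
  rw [xMap, baseChangeSnd, pullback.lift_fst, Category.comp_id]

lemma preimage_fst (O : C.Opens) : pullback.fst c (base R') ⁻¹ᵁ O ≤
    xMap c φ ⁻¹ᵁ (pullback.fst c (base R) ⁻¹ᵁ O) := by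
  rw [← Scheme.Hom.comp_preimage, xMap_fst]

lemma expW_pb (f : Γ(XR c R, ch.XW R)) :
    ch.expW R' (pb (xMap c φ) (preimage_fst φ _) f) = coeffMap (φ : R →+* R') (ch.expW R f) :=
  ch.expW_natural R R' φ _ f

lemma expV_pb (f : Γ(XR c R, ch.XV R)) :
    ch.expV R' (pb (xMap c φ) (preimage_fst φ _) f) = PowerSeries.map (φ : R →+* R') (ch.expV R f) := by
  refine HahnSeries.ofPowerSeries_injective (Γ := ℤ) ?_
  rw [← ch.expW_rsV', rs_pb, ← coeffMap_ofPowerSeries, ← ch.expW_rsV', ← expW_pb, pb_rs]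

/-- Base change of a near frame. -/
def pullback : NearFrame ch R' (d.comap (xMap c φ)) :=
  ⟨d.secsPb (xMap c φ) (preimage_fst φ _) F.e, d.secsPbInv (xMap c φ) (preimage_fst φ _) F.σ, by
    rw [d.pb_dot, expV_pb]
    exact F.isUnit.map _⟩

lemma pullback_unit : (F.pullback φ).unit = Units.map (PowerSeries.map (φ : R →+* R')).toMonoidHom F.unit := by
  refine Units.ext ?_
  show ch.expV R' ((d.comap (xMap c φ)).dot (d.secsPb (xMap c φ) (preimage_fst φ ch.V) F.e)
    (d.secsPbInv (xMap c φ) (preimage_fst φ ch.V) F.σ)) = _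
  rw [d.pb_dot, expV_pb]
  rfl

lemma pullback_triv (s : d.secs (ch.XW R)) :
    (F.pullback φ).triv (d.secsPb (xMap c φ) (preimage_fst φ _) s) =
      coeffMap (φ : R →+* R') (F.triv s) := by
  rw [triv, triv, ← expW_pb, ← d.pb_dot]
  congr 2
  refine Subtype.ext (funext fun i => ?_)
  exact (rs_pb _ _ _ _).trans (pb_rs _ _ _ _).symm

lemma pullback_cotriv (t : d.inv.secs (ch.XW R)) :
    (F.pullback φ).cotriv (d.secsPbInv (xMap c φ) (preimage_fst φ _) t) =
      coeffMap (φ : R →+* R') (F.cotriv t) := by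
  rw [cotriv, cotriv, ← expW_pb, ← d.pb_dot]
  congr 2
  refine Subtype.ext (funext fun i => ?_)
  exact (rs_pb _ _ _ _).trans (pb_rs _ _ _ _).symm

variable (hU : IsAffineOpen (ch.XU R)) (hU' : IsAffineOpen (ch.XU R'))

/-- The class commutes with base change. -/
theorem mapLat_lattice : D.mapLat φ (F.lattice hU) = (F.pullback φ).lattice hU' := by
  have hspan : ∀ u : (PowerSeries R)ˣ, D.mapSub φ (D.ofSeries R u).1 =
      (D.ofSeries R' (Units.map (PowerSeries.map (φ : R →+* R')).toMonoidHom u)).1 := by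
    intro u
    show Submodule.span _ (coeffMap (φ : R →+* R') '' (Submodule.span (D.AR R)
      {HahnSeries.ofPowerSeries ℤ R (u : PowerSeries R)} : Set (LaurentSeries R))) =
      Submodule.span _ {HahnSeries.ofPowerSeries ℤ R' (PowerSeries.map (φ : R →+* R') u)}
    refine le_antisymm (Submodule.span_le.mpr ?_) (Submodule.span_mono ?_)
    · rintro _ ⟨x, hx, rfl⟩
      obtain ⟨a, rfl⟩ := Submodule.mem_span_singleton.mp hx
      exact Submodule.mem_span_singleton.mpr ⟨⟨_, D.coeffMap_mem_AR φ a.2⟩, by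
        rw [Subring.smul_def, Subring.smul_def, smul_eq_mul, smul_eq_mul, map_mul,
          coeffMap_ofPowerSeries]⟩
    · exact Set.singleton_subset_iff.mpr
        ⟨_, Submodule.subset_span rfl, coeffMap_ofPowerSeries _ _⟩
  refine CellData.Lattice.eq_of_le D ?_ ?_
  · refine Submodule.span_le.mpr ?_
    rintro _ ⟨_, ⟨s, rfl⟩, rfl⟩
    refine ⟨d.secsPb (xMap c φ) (preimage_fst φ _) s, ?_⟩
    show (F.pullback φ).triv _ = _
    rw [← pullback_triv]
    congr 1
    refine Subtype.ext (funext fun i => ?_)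
    exact (rs_pb _ _ _ _).trans (pb_rs _ _ _ _).symm
  · rw [← map_inv]
    show D.mapSub φ ((F.lattice hU)⁻¹ : D.Lattice R).1 ≤ _
    rw [lattice_inv, lattice_inv, map_mul, pullback_unit, ← map_inv, ← map_inv, hspan]
    refine mul_le_mul' (Submodule.span_le.mpr ?_) le_rfl
    rintro _ ⟨_, ⟨t, rfl⟩, rfl⟩
    refine ⟨d.secsPbInv (xMap c φ) (preimage_fst φ _) t, ?_⟩
    show (F.pullback φ).dual.triv _ = coeffMap _ (F.dual.triv _)
    rw [dual_triv, dual_triv, ← pullback_cotriv]
    congr 1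
    refine Subtype.ext (funext fun i => ?_)
    exact (rs_pb _ _ _ _).trans (pb_rs _ _ _ _).symm

end NearFrame

end FLTAgent.RelPic
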