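/-
Area RelPic (S25): the lattice determines the line bundle.
-/
import Fermat.Agent.RelPic.Rig

set_option autoImplicit false

noncomputable section

universe u

open CategoryTheory CategoryTheory.Limits AlgebraicGeometry TopologicalSpace ModularCurve
open AlgebraicGeometry.RelPicard NeronModelInfra

namespace FLTAgent.RelPic

variable {k : Type u} [Field k] {C : Scheme.{u}} {c : C ⟶ Spec (CommRingCat.of k)}
variable {ε : SchemeHomOver (𝟙 (Spec (CommRingCat.of k))) c} {D : CellData k}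
variable {ch : Chart c ε D} {R : Type u} [CommRing R] [Algebra k R]

namespace Chart

lemma XU_sup_XV : ch.XU R ⊔ ch.XV R = ⊤ := by
  rw [eq_top_iff]
  intro x _
  by_cases h : pullback.fst c (base R) x = x0 c ε
  · exact Or.inr (show pullback.fst c (base R) x ∈ ch.V from h ▸ ch.mem)
  · refine Or.inl (show pullback.fst c (base R) x ∈ ch.U from ?_)
    rw [← SetLike.mem_coe, ch.coe_U]
    exact h

lemma XU_inf_XV : ch.XU R ⊓ ch.XV R ≤ ch.XW R := le_rfl

end Chart

namespace NearFrame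

variable {d d' : Cocycle (XR c R)} (F : NearFrame ch R d) (F' : NearFrame ch R d')
variable (hU : IsAffineOpen (ch.XU R)) (hV : IsAffineOpen (ch.XV R))

lemma dual_unit : F.dual.unit = F.unit := by
  refine Units.ext ?_
  show ch.expV R (d.inv.dot F.σ (d.toInvInv F.e)) = _
  rw [d.dot_toInvInv]
  rfl

/-- The dual has the inverse class. -/
theorem cls_dual : F.dual.cls hU = (F.cls hU)⁻¹ := by
  rw [eq_inv_iff_mul_eq_one, cls, cls, ← QuotientGroup.mk_mul, QuotientGroup.eq_one_iff]
  refine ⟨F.unit, Units.ext ?_⟩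
  rw [Units.val_mul, mul_comm]
  exact (F.sub_mul_dual hU).symm

include hV in
/-- A section whose formal trivialisation is integral extends over the section. -/
theorem exists_extend (s : d.secs (ch.XW R)) (g : PowerSeries R)
    (hg : F.triv s = HahnSeries.ofPowerSeries ℤ R g) :
    ∃ s' : d.secs (ch.XV R), d.secsMap (ch.XW_le_XV R) s' = s := by
  obtain ⟨n, sa, ta, hst⟩ := d.exists_sum_dot_eq_one hV
  have h : ∀ a, ∃ f : Γ(XR c R, ch.XV R),
      rs (ch.XW_le_XV R) f = d.dot s (d.inv.secsMap (ch.XW_le_XV R) (ta a)) := by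
    intro a
    refine ch.exists_extend R _ (g * ch.expV R (d.dot F.e (ta a)) * ↑F.unit⁻¹) ?_
    have h1 := F.triv_mul_cotriv s (d.inv.secsMap (ch.XW_le_XV R) (ta a))
    rw [hg, show F.cotriv (d.inv.secsMap (ch.XW_le_XV R) (ta a)) =
      HahnSeries.ofPowerSeries ℤ R (ch.expV R (d.dot F.e (ta a))) by
        rw [cotriv, ← d.rs_dot, ch.expW_rsV']] at h1
    have h2 := congrArg (· * HahnSeries.ofPowerSeries ℤ R (↑F.unit⁻¹ : PowerSeries R)) h1
    simp only [mul_assoc, ← map_mul, Units.mul_inv, map_one, mul_one] at h2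
    rw [← mul_assoc] at h2
    exact h2.symm
  choose f hf using h
  refine ⟨∑ a, f a • sa a, ?_⟩
  rw [map_sum]
  simp only [d.secsMap_smul, hf]
  have h3 : ∀ a, d.dot s (d.inv.secsMap (ch.XW_le_XV R) (ta a)) •
      d.secsMap (ch.XW_le_XV R) (sa a) =
        rs (ch.XW_le_XV R) (d.dot (sa a) (ta a)) • s := fun a => by
    rw [d.rs_dot, d.smul_dot]
  simp only [h3, ← Finset.sum_smul, ← map_sum, hst, map_one, one_smul]

end NearFrame

/-- Glue sections on the two opens. -/
lemma exists_secs_top {d : Cocycle (XR c R)} (s : d.secs (ch.XU R)) (s' : d.secs (ch.XV R))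
    (h : d.secsMap (ch.XW_le_XU R) s = d.secsMap (ch.XW_le_XV R) s') :
    ∃ z : d.secs ⊤, d.secsMap (le_top (a := ch.XU R)) z = s ∧
      d.secsMap (le_top (a := ch.XV R)) z = s' := by
  let O : ULift.{u} Bool → (XR c R).Opens := fun b => cond b.down (ch.XU R) (ch.XV R)
  let t : ∀ b, Γ(d.module, O b) := fun b => match b with
    | ⟨true⟩ => d.toSec s
    | ⟨false⟩ => d.toSec s'
  obtain ⟨z, hz⟩ := mrs_glue d.module (U := ⊤) O (fun _ => le_top) (fun x _ => by
      have hx : x ∈ ch.XU R ⊔ ch.XV R := (Chart.XU_sup_XV (ch := ch) (R := R)).symm ▸ trivial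
      rcases hx with hx | hx
      · exact ⟨⟨true⟩, hx⟩
      · exact ⟨⟨false⟩, hx⟩) t fun a b => by
      rcases a with ⟨_ | _⟩ <;> rcases b with ⟨_ | _⟩
      · rfl
      · refine Subtype.ext (funext fun i => ?_)
        have h' := congrArg (fun x : d.secs (ch.XW R) => rs (le_inf
          (le_inf (inf_le_left.trans inf_le_right) (inf_le_left.trans inf_le_left)) inf_le_right :
          (ch.XV R ⊓ ch.XU R) ⊓ d.U i ≤ ch.XW R ⊓ d.U i) (x.1 i)) h
        change rs _ (rs _ (s.1 i)) = rs _ (rs _ (s'.1 i)) at h'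
        show rs _ (s'.1 i) = rs _ (s.1 i)
        rw [rs_rs, rs_rs] at h'
        exact h'.symm
      · refine Subtype.ext (funext fun i => ?_)
        have h' := congrArg (fun x : d.secs (ch.XW R) => rs (le_inf
          (le_inf (inf_le_left.trans inf_le_left) (inf_le_left.trans inf_le_right)) inf_le_right :
          (ch.XU R ⊓ ch.XV R) ⊓ d.U i ≤ ch.XW R ⊓ d.U i) (x.1 i)) h
        change rs _ (rs _ (s.1 i)) = rs _ (rs _ (s'.1 i)) at h'
        show rs _ (s.1 i) = rs _ (s'.1 i)
        rw [rs_rs, rs_rs] at h'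
        exact h'
      · rfl
  exact ⟨z, hz ⟨true⟩, hz ⟨false⟩⟩

namespace NearFrame

variable {d d' : Cocycle (XR c R)} (F : NearFrame ch R d) (F' : NearFrame ch R d')
variable (hU : IsAffineOpen (ch.XU R)) (hV : IsAffineOpen (ch.XV R))

include hV in
/-- A cocycle of trivial class has a nowhere vanishing section. -/
theorem exists_unit_section (h : F.cls hU = 1) : ∃ z : d.secs ⊤, ∀ i, IsUnit (z.1 i) := by
  rw [cls, QuotientGroup.eq_one_iff] at h
  obtain ⟨r, hr⟩ := h
  have hr' : HahnSeries.ofPowerSeries ℤ R (r : PowerSeries R) ∈ F.sub := by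
    have := congrArg (fun L : D.Lattice R => HahnSeries.ofPowerSeries ℤ R (r : PowerSeries R) ∈ L.1) hr
    exact this.mp (Submodule.subset_span rfl)
  obtain ⟨s, hs⟩ := hr'
  have hw : HahnSeries.ofPowerSeries ℤ R (↑(r⁻¹ * F.unit) : PowerSeries R) ∈ F.dual.sub := by
    have h1 : F.dual.sub = (((F.lattice hU)⁻¹ * D.ofSeries R F.unit : D.Lattice R)).1 := by
      rw [Units.val_mul, lattice_inv, mul_assoc, Units.inv_mul, mul_one]
    rw [h1, ← hr, ← map_inv, ← map_mul]
    exact Submodule.subset_span rfl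
  obtain ⟨t, ht⟩ := hw
  change F.dual.triv _ = _ at ht
  rw [F.dual_triv] at ht
  change F.triv _ = _ at hs
  obtain ⟨s', hs'⟩ := F.exists_extend hV _ _ hs
  obtain ⟨t', ht'⟩ := F.dual.exists_extend hV (d.inv.secsMap (ch.XW_le_XU R) t)
    (↑(r⁻¹ * F.unit) : PowerSeries R) (by rw [F.dual_triv]; exact ht)
  obtain ⟨z, hzU, hzV⟩ := exists_secs_top (ch := ch) s s' hs'.symm
  obtain ⟨w, hwU, hwV⟩ := exists_secs_top (ch := ch) t t' ht'.symm
  have hW : ch.expW R (d.dot (d.secsMap (ch.XW_le_XU R) s) (d.inv.secsMap (ch.XW_le_XU R) t)) = 1 := by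
    have h1 := F.triv_mul_cotriv (d.secsMap (ch.XW_le_XU R) s) (d.inv.secsMap (ch.XW_le_XU R) t)
    rw [hs, ht, ← map_mul, ← Units.val_mul, mul_inv_cancel_left] at h1
    exact ((F.unit.map (HahnSeries.ofPowerSeries ℤ R).toMonoidHom).isUnit.mul_eq_right).mp h1.symm
  have hone : d.dot z w = 1 := by
    refine rs_ext (fun b : Bool => cond b (ch.XU R) (ch.XV R)) (fun _ => le_top) (fun x _ => ?_) _ _
      fun b => ?_
    · rcases ((Chart.XU_sup_XV (ch := ch) (R := R)).symm ▸ trivial : x ∈ ch.XU R ⊔ ch.XV R) with hx | hx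
      · exact ⟨true, hx⟩
      · exact ⟨false, hx⟩
    cases b
    · show rs (le_top (a := ch.XV R)) (d.dot z w) = rs _ 1
      rw [d.rs_dot, hzV, hwV, map_one]
      refine ch.expV_injective R (HahnSeries.ofPowerSeries_injective (Γ := ℤ) ?_)
      rw [← ch.expW_rsV', d.rs_dot, hs', ht', hW, map_one, map_one]
    · show rs (le_top (a := ch.XU R)) (d.dot z w) = rs _ 1
      rw [d.rs_dot, hzU, hwU, map_one]
      refine ch.expU_injective R ?_
      rw [← ch.expW_rsU', d.rs_dot, hW, map_one]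
  refine ⟨z, fun i => IsUnit.of_mul_eq_one (w.1 i) ?_⟩
  rw [← d.dot_spec, hone, map_one]

include hV in
/-- The class is injective. -/
theorem nonempty_iso_of_cls_eq (h : F.cls hU = F'.cls hU) :
    Nonempty (d.module ≅ d'.module) := by
  obtain ⟨z, hz⟩ := (F.mul F'.dual).exists_unit_section hU hV
    (by rw [cls_mul, cls_dual, h, mul_inv_cancel])
  obtain ⟨e⟩ := d.nonempty_iso_inv d'.inv z hz
  refine ⟨e ≪≫ d'.inv.inv.isoOfFrames ⟨fun i => d'.toSec (d'.frame i), fun i j W hi hj => ?_⟩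
    fun i => d'.isFrame i⟩
  rw [d'.inv_inv_g]
  exact d'.frame_compat i j W hi hj

end NearFrame

end FLTAgent.RelPic
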