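/-
Area RelPic (S25): rigidified classes over an affine base and their lattice classes.
-/
import Fermat.Agent.RelPic.Injective

set_option autoImplicit false

noncomputable section

universe u

open CategoryTheory CategoryTheory.Limits AlgebraicGeometry TopologicalSpace ModularCurve
open AlgebraicGeometry.RelPicard NeronModelInfra

namespace FLTAgent.RelPic

variable {k : Type u} [Field k] {C : Scheme.{u}} {c : C ⟶ Spec (CommRingCat.of k)}
variable {ε : SchemeHomOver (𝟙 (Spec (CommRingCat.of k))) c} {D : CellData k}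

/-- The trivial cocycle. -/
abbrev oneCocycle (X : Scheme.{u}) : Cocycle X where
  ι := PUnit
  U _ := ⊤
  cover _ := ⟨PUnit.unit, trivial⟩
  g _ _ := 1
  isUnit _ _ := isUnit_one
  mul_eq i j k W hi hj hk := by simp only [map_one, mul_one]

/-- The trivial cocycle gives the structure sheaf. -/
def oneCocycleIso (X : Scheme.{u}) : (oneCocycle X).module ≅ unitM X :=
  (oneCocycle X).isoOfFrames ⟨fun _ => (1 : Γ(X, ⊤)), fun i j W hi hj => by
    simp only [map_one, one_smul]⟩ fun _ => isFrame_unit _

instance isAffineHom_fst (R : Type u) [CommRing R] [Algebra k R] :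
    IsAffineHom (pullback.fst c (base (k := k) R)) :=
  haveI : IsAffineHom (base (k := k) R) := isAffineHom_of_isAffine _
  haveI _hs : MorphismProperty.IsStableUnderBaseChange @IsAffineHom.{u} := isAffineHom_isStableUnderBaseChange
  MorphismProperty.IsStableUnderBaseChange.of_isPullback (IsPullback.of_hasPullback c (base R)).flip this

namespace Chart

variable (ch : Chart c ε D) {R : Type u} [CommRing R] [Algebra k R]

lemma hXU : IsAffineOpen (ch.XU R) := ch.hU.preimage _

lemma hXV : IsAffineOpen (ch.XV R) := ch.hV.preimage _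

lemma exists_frame_of (M : RigidifiedLineBundle c ε (base R)) :
    ∃ (d : Cocycle (XR c R)) (_ : d.module ≅ M.L), Nonempty (NearFrame ch R d) := by
  obtain ⟨d, -, ⟨φ⟩⟩ := exists_cocycle M.isInvertible
  refine ⟨d, φ, exists_nearFrame ch R d ch.hXV ⟨?_⟩⟩
  exact (Scheme.Modules.pullback (secR R c ε)).mapIso φ ≪≫ M.rigidified.some

/-- The lattice class of a rigidified bundle. -/
def latClass (M : RigidifiedLineBundle c ε (base R)) : D.Class R :=
  (ch.exists_frame_of M).choose_spec.choose_spec.some.cls ch.hXU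

lemma latClass_eq (M : RigidifiedLineBundle c ε (base R)) {d : Cocycle (XR c R)}
    (φ : d.module ≅ M.L) (F : NearFrame ch R d) : ch.latClass M = F.cls ch.hXU :=
  NearFrame.cls_eq_of_iso _ F ch.hXU ((ch.exists_frame_of M).choose_spec.choose ≪≫ φ.symm)

lemma latClass_congr {M M' : RigidifiedLineBundle c ε (base R)} (h : Nonempty (M.L ≅ M'.L)) :
    ch.latClass M = ch.latClass M' :=
  ch.latClass_eq M ((ch.exists_frame_of M').choose_spec.choose ≪≫ h.some.symm)
    (ch.exists_frame_of M').choose_spec.choose_spec.some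

/-- The lattice class of a rigidified class. -/
def toClass : RigidifiedLineBundle.Classes c ε (base (k := k) R) → D.Class R :=
  Quotient.lift (fun M => ch.latClass M) fun _ _ h => ch.latClass_congr h

lemma toClass_mk (M : RigidifiedLineBundle c ε (base R)) :
    ch.toClass (Quotient.mk _ M) = ch.latClass M := rfl

/-- The lattice class determines the rigidified class. -/
theorem toClass_injective : Function.Injective (ch.toClass (R := R)) := by
  intro x y h
  induction x using Quotient.ind with | _ M =>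
  induction y using Quotient.ind with | _ M' =>
  obtain ⟨d, φ, ⟨F⟩⟩ := ch.exists_frame_of M
  obtain ⟨d', φ', ⟨F'⟩⟩ := ch.exists_frame_of M'
  rw [toClass_mk, toClass_mk, ch.latClass_eq M φ F, ch.latClass_eq M' φ' F'] at h
  obtain ⟨e⟩ := F.nonempty_iso_of_cls_eq F' ch.hXU ch.hXV h
  exact Quotient.sound ⟨φ.symm ≪≫ e ≪≫ φ'⟩

/-- Base change of classes of lattices. -/
def _root_.FLTAgent.RelPic.CellData.mapClass (D : CellData k) {R' : Type u} [CommRing R']
    [Algebra k R'] (f : R →ₐ[k] R') : D.Class R →* D.Class R' :=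
  QuotientGroup.lift _ ((QuotientGroup.mk' _).comp (D.mapLat f)) fun L hL => by
    obtain ⟨v, rfl⟩ := hL
    refine (QuotientGroup.eq_one_iff _).mpr
      ⟨Units.map (PowerSeries.map (f : R →+* R')).toMonoidHom v, Units.ext ?_⟩
    show Submodule.span _ {HahnSeries.ofPowerSeries ℤ R' (PowerSeries.map (f : R →+* R') v)} =
      Submodule.span _ (coeffMap (f : R →+* R') '' (Submodule.span (D.AR R)
        {HahnSeries.ofPowerSeries ℤ R (v : PowerSeries R)} : Set (LaurentSeries R)))
    refine le_antisymm (Submodule.span_mono ?_) (Submodule.span_le.mpr ?_)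
    · exact Set.singleton_subset_iff.mpr
        ⟨_, Submodule.subset_span rfl, coeffMap_ofPowerSeries _ _⟩
    · rintro _ ⟨x, hx, rfl⟩
      obtain ⟨a, rfl⟩ := Submodule.mem_span_singleton.mp hx
      exact Submodule.mem_span_singleton.mpr ⟨⟨_, D.coeffMap_mem_AR f a.2⟩, by
        rw [Subring.smul_def, Subring.smul_def, smul_eq_mul, smul_eq_mul, map_mul,
          coeffMap_ofPowerSeries]⟩

lemma _root_.FLTAgent.RelPic.CellData.mapClass_mk (D : CellData k) {R' : Type u} [CommRing R']
    [Algebra k R'] (f : R →ₐ[k] R') (L : D.Lattice R) :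
    D.mapClass f (QuotientGroup.mk L) = QuotientGroup.mk (D.mapLat f L) := rfl

/-- The dictionary is natural. -/
theorem toClass_natural {R' : Type u} [CommRing R'] [Algebra k R'] (f : R →ₐ[k] R')
    (x : RigidifiedLineBundle.Classes c ε (base (k := k) R)) :
    ch.toClass (RigidifiedLineBundle.classesMap (baseHom f) x) = D.mapClass f (ch.toClass x) := by
  induction x using Quotient.ind with | _ M =>
  obtain ⟨d, φ, ⟨F⟩⟩ := ch.exists_frame_of M
  show ch.latClass (M.pullbackAlong (baseHom f)) = _
  rw [toClass_mk, ch.latClass_eq M φ F, ch.latClass_eq (M.pullbackAlong (baseHom f))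
    ((d.pullbackIso (xMap c f)).symm ≪≫ (Scheme.Modules.pullback (xMap c f)).mapIso φ)
    (F.pullback f), NearFrame.cls, NearFrame.cls, CellData.mapClass_mk,
    NearFrame.mapLat_lattice F f ch.hXU ch.hXU]

/-- The dictionary respects the unit. -/
theorem toClass_unit :
    ch.toClass (Quotient.mk _ (RigidifiedLineBundle.unit (c := c) (ε := ε) (base (k := k) R))) = 1 := by
  let d := oneCocycle (XR c R)
  let e : d.secs (ch.XV R) := ⟨fun _ => 1, fun i j W hV hi hj => by
    show rs _ 1 = rs _ (1 : Γ(XR c R, _)) * rs _ 1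
    simp only [map_one, mul_one]⟩
  let σ : d.inv.secs (ch.XV R) :=
    ⟨fun _ => 1, fun i j W hV hi hj => by simp only [map_one, inv_one, Units.val_one, IsUnit.unit_one, mul_one]⟩
  have hdot : d.dot e σ = 1 := d.dot_eq fun i => by rw [map_one]; exact (mul_one 1).symm
  let F : NearFrame ch R d := ⟨e, σ, by rw [hdot, map_one]; exact isUnit_one⟩
  rw [toClass_mk, ch.latClass_eq _ (oneCocycleIso _) F, NearFrame.cls, QuotientGroup.eq_one_iff]
  refine ⟨1, ?_⟩
  rw [map_one]
  refine Units.ext (le_antisymm ?_ ?_)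
  · show (1 : Submodule (D.AR R) (LaurentSeries R)) ≤ F.sub
    rw [Submodule.one_le]
    refine ⟨⟨fun _ => 1, fun i j W hV hi hj => by
    show rs _ 1 = rs _ (1 : Γ(XR c R, _)) * rs _ 1
    simp only [map_one, mul_one]⟩, ?_⟩
    show ch.expW R (d.dot _ _) = 1
    rw [show d.dot _ _ = 1 from d.dot_eq fun i => by
      show rs _ (1 : Γ(XR c R, ch.XW R)) = rs _ 1 * rs _ 1
      rw [map_one, map_one, map_one, mul_one], map_one]
  · rintro _ ⟨s, rfl⟩
    have hle : ch.XU R ≤ ch.XU R ⊓ d.U PUnit.unit := le_inf le_rfl le_top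
    refine Submodule.mem_one.mpr ⟨⟨_, ch.expU_mem R (rs hle (s.1 PUnit.unit))⟩, ?_⟩
    show ch.expU R _ = ch.expW R (d.dot _ _)
    rw [← ch.expW_rsU']
    refine congrArg (ch.expW R) (d.dot_eq fun i => ?_).symm
    show rs _ (rs _ (rs hle (s.1 PUnit.unit))) = rs _ (s.1 i) * rs _ 1
    rw [map_one, mul_one, rs_rs, rs_rs]

end Chart

end FLTAgent.RelPic
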