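/-
Area RelPic (S25): the bundle of an invertible ideal away from the section, twisted at the section.
-/
import Fermat.Agent.RelPic.Classes

set_option autoImplicit false

noncomputable section

universe u

open CategoryTheory CategoryTheory.Limits AlgebraicGeometry TopologicalSpace ModularCurve
open AlgebraicGeometry.RelPicard NeronModelInfra

namespace FLTAgent.RelPic

lemma isUnit_rs {X : Scheme.{u}} {U W : X.Opens} (f : Γ(X, U)) (h : W ≤ U)
    (hW : W ≤ X.basicOpen f) : IsUnit (rs h f) := by
  have h1 : rs h f = rs hW (rs (X.basicOpen_le f) f) := (rs_rs _ _ _).symm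
  rw [h1]
  exact (X.toRingedSpace.isUnit_res_basicOpen f).map _

variable {k : Type u} [Field k] {C : Scheme.{u}} {c : C ⟶ Spec (CommRingCat.of k)}
variable {ε : SchemeHomOver (𝟙 (Spec (CommRingCat.of k))) c} {D : CellData k}

namespace Chart

variable (ch : Chart c ε D) (R : Type u) [CommRing R] [Algebra k R]

/-- The parameter, on the base change. -/
abbrev τR : Γ(XR c R, ch.XV R) := pb (pullback.fst c (base R)) le_rfl ch.τ

lemma basicOpen_τR : (XR c R).basicOpen (ch.τR R) = ch.XW R := by
  show _ = pullback.fst c (base R) ⁻¹ᵁ (ch.U ⊓ ch.V)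
  rw [← ch.basic, Scheme.preimage_basicOpen, τR, pb, Scheme.Hom.app_eq_appLE]

lemma expW_τR : ch.expW R (rs (ch.XW_le_XV R) (ch.τR R)) = HahnSeries.single 1 1 := by
  rw [ch.expW_rsV', ch.expV_τ, HahnSeries.ofPowerSeries_X]

/-- A function vanishing at the section is divisible by the parameter. -/
theorem exists_eq_τR_mul (f : Γ(XR c R, ch.XV R)) (hf : ch.value R f = 0) :
    ∃ g, f = ch.τR R * g := by
  obtain ⟨q, hq⟩ : ∃ q, ch.expV R f = PowerSeries.X * q :=
    PowerSeries.X_dvd_iff.mpr (show PowerSeries.constantCoeff (ch.expV R f) = 0 from hf)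
  have hτ : IsUnit (rs (ch.XW_le_XV R) (ch.τR R)) :=
    isUnit_rs _ _ (ch.basicOpen_τR R).ge
  obtain ⟨g, hg⟩ := ch.exists_extend R (rs (ch.XW_le_XV R) f * ↑hτ.unit⁻¹) q (by
    have h1 : HahnSeries.ofPowerSeries ℤ R PowerSeries.X *
        ch.expW R (↑hτ.unit⁻¹ : Γ(XR c R, ch.XW R)) = 1 := by
      rw [← ch.expV_τ, ← ch.expW_rsV', ← map_mul, IsUnit.mul_val_inv, map_one]
    rw [map_mul, ch.expW_rsV', hq, map_mul, mul_right_comm, h1, one_mul])
  refine ⟨g, ch.expV_injective R (HahnSeries.ofPowerSeries_injective (Γ := ℤ) ?_)⟩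
  rw [← ch.expW_rsV', ← ch.expW_rsV', map_mul (rs _), hg, mul_left_comm, IsUnit.mul_val_inv, mul_one]

lemma mem_basicOpen_of_isUnit_value {f : Γ(XR c R, ch.XV R)} (hf : IsUnit (ch.value R f))
    {x : XR c R} (hxV : x ∈ ch.XV R) (hxW : x ∉ ch.XW R) : x ∈ (XR c R).basicOpen f := by
  obtain ⟨g, hg⟩ := ch.exists_eq_τR_mul R (f - ofBase c R _ (ch.value R f))
    (by rw [map_sub, ch.value_ofBase, sub_self])
  rw [sub_eq_iff_eq_add] at hg
  rw [(XR c R).mem_basicOpen _ _ hxV, hg, map_add]
  have h1 : ¬ IsUnit ((XR c R).presheaf.germ _ x hxV (ch.τR R * g)) := by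
    rw [map_mul, IsUnit.mul_iff, not_and_or]
    left
    rw [← (XR c R).mem_basicOpen _ _ hxV, ch.basicOpen_τR]
    exact hxW
  have h2 : IsUnit ((XR c R).presheaf.germ _ x hxV (ofBase c R _ (ch.value R f))) :=
    ((hf.map (ofBase c R (ch.XV R))).map _)
  have : IsLocalRing ((XR c R).presheaf.stalk x) := inferInstance
  by_contra hne
  refine (IsLocalRing.mem_maximalIdeal _).mp ?_ h2
  have := Ideal.sub_mem _ ((IsLocalRing.mem_maximalIdeal _).mpr hne)
    ((IsLocalRing.mem_maximalIdeal _).mpr h1)
  simpa using this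

end Chart

/-- Generators of an invertible ideal of the functions, one of them with unit expansion up to a
pole at the section. -/
structure IdealData (ch : Chart c ε D) (R : Type u) [CommRing R] [Algebra k R]
    (J : D.Lattice R) where
  /-- the number of generators -/
  n : ℕ
  /-- the generators -/
  gen : Option (Fin n) → J.1
  /-- the generators of the inverse -/
  cogen : Option (Fin n) → (J⁻¹ : D.Lattice R).1
  cogen_none : (cogen none : LaurentSeries R) = 1
  sum_eq : ∑ i, (gen (some i) : LaurentSeries R) * (cogen (some i) : LaurentSeries R) = 1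
  /-- the pole order of the special generator -/
  ord : ℕ
  /-- its expansion -/
  u : (PowerSeries R)ˣ
  gen_none : (gen none : LaurentSeries R) * HahnSeries.single (ord : ℤ) 1 =
    HahnSeries.ofPowerSeries ℤ R (u : PowerSeries R)

namespace IdealData

variable {ch : Chart c ε D} {R : Type u} [CommRing R] [Algebra k R] {J : D.Lattice R}

lemma mul_mem_AR (y : J.1) (y' : (J⁻¹ : D.Lattice R).1) :
    (y : LaurentSeries R) * (y' : LaurentSeries R) ∈ D.AR R := by
  have h := Submodule.mul_mem_mul y.2 y'.2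
  rw [Units.mul_inv] at h
  obtain ⟨a, ha⟩ := Submodule.mem_one.mp h
  exact ha ▸ a.2

/-- The function attached to an element and an element of the inverse. -/
def pair (ch : Chart c ε D) (y : J.1) (y' : (J⁻¹ : D.Lattice R).1) : Γ(XR c R, ch.XU R) :=
  ((ch.range_expU R).ge (mul_mem_AR y y')).choose

lemma expU_pair (y : J.1) (y' : (J⁻¹ : D.Lattice R).1) :
    ch.expU R (pair ch y y') = (y : LaurentSeries R) * (y' : LaurentSeries R) :=
  ((ch.range_expU R).ge (mul_mem_AR y y')).choose_spec

lemma pair_mul_pair (y z : J.1) (y' z' : (J⁻¹ : D.Lattice R).1) :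
    pair ch y y' * pair ch z z' = pair ch y z' * pair ch z y' := by
  refine ch.expU_injective R ?_
  simp only [map_mul, expU_pair]
  ring

variable (I : IdealData ch R J) (m : ℕ)

/-- The product function at an index. -/
abbrev fn (x : Option (Fin I.n)) : Γ(XR c R, ch.XU R) := pair ch (I.gen x) (I.cogen x)

lemma exists_near : ∃ f : Γ(XR c R, ch.XV R), ch.expV R f = (I.u : PowerSeries R) ∧
    rs (ch.XW_le_XV R) f =
      rs (ch.XW_le_XV R) (ch.τR R) ^ I.ord * rs (ch.XW_le_XU R) (I.fn none) := by
  have h1 : ch.expW R (rs (ch.XW_le_XV R) (ch.τR R) ^ I.ord * rs (ch.XW_le_XU R) (I.fn none)) =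
      HahnSeries.ofPowerSeries ℤ R (I.u : PowerSeries R) := by
    rw [map_mul, map_pow, ch.expW_τR, ch.expW_rsU', expU_pair, I.cogen_none, mul_one, mul_comm,
      ← I.gen_none, HahnSeries.single_pow]
    simp
  obtain ⟨f, hf⟩ := ch.exists_extend R _ _ h1
  refine ⟨f, HahnSeries.ofPowerSeries_injective (Γ := ℤ) ?_, hf⟩
  rw [← ch.expW_rsV', hf, h1]

/-- The function cutting out the neighbourhood of the section. -/
def near : Γ(XR c R, ch.XV R) := I.exists_near.choose

lemma expV_near : ch.expV R I.near = (I.u : PowerSeries R) := I.exists_near.choose_spec.1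

lemma rs_near : rs (ch.XW_le_XV R) I.near =
    rs (ch.XW_le_XV R) (ch.τR R) ^ I.ord * rs (ch.XW_le_XU R) (I.fn none) :=
  I.exists_near.choose_spec.2

/-- The cover. -/
def O : Option (Fin I.n) → (XR c R).Opens
  | some i => (XR c R).basicOpen (I.fn (some i))
  | none => (XR c R).basicOpen I.near

lemma O_none_le : I.O none ≤ ch.XV R := (XR c R).basicOpen_le _

lemma sec_mem (p : Spec (CommRingCat.of R)) : secR R c ε p ∈ I.O none := by
  show secR R c ε p ∈ (XR c R).basicOpen I.near
  have hp : secR R c ε p ∈ ch.XV R := ch.top_le_preimage R (Opens.mem_top p)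
  refine ch.mem_basicOpen_of_isUnit_value R ?_ hp ?_
  · show IsUnit (PowerSeries.constantCoeff (ch.expV R I.near))
    rw [I.expV_near]
    exact I.u.isUnit.map _
  · intro h
    have h' : pullback.fst c (base R) (secR R c ε p) ∈ ch.U := h.1
    rw [← Scheme.Hom.comp_apply, secR_fst, Scheme.Hom.comp_apply, ← SetLike.mem_coe, ch.coe_U] at h'
    refine h' ?_
    show ε.1 (base R p) = ε.1 (IsLocalRing.closedPoint k)
    exact congrArg ε.1 (Subsingleton.elim (α := PrimeSpectrum k) _ _)

lemma cover (x : XR c R) : ∃ i, x ∈ I.O i := by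
  by_cases hU : x ∈ ch.XU R
  · by_contra hne
    have h0 : ∀ i, ¬ IsUnit ((XR c R).presheaf.germ _ x hU (I.fn (some i))) := fun i hu =>
      hne ⟨some i, ((XR c R).mem_basicOpen _ _ hU).mpr hu⟩
    have h1 : ∑ i, I.fn (some i) = 1 := ch.expU_injective R <| by
      simp only [map_sum, expU_pair, I.sum_eq, map_one]
    have h2 : (1 : (XR c R).presheaf.stalk x) ∈ IsLocalRing.maximalIdeal _ := by
      rw [← map_one ((XR c R).presheaf.germ _ x hU).hom, ← h1, map_sum]
      exact Ideal.sum_mem _ fun i _ => (IsLocalRing.mem_maximalIdeal _).mpr (h0 i)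
    exact (IsLocalRing.mem_maximalIdeal _).mp h2 isUnit_one
  · have hV : x ∈ ch.XV R := by
      have : x ∈ ch.XU R ⊔ ch.XV R := (Chart.XU_sup_XV (ch := ch) (R := R)).symm ▸ trivial
      exact this.resolve_left hU
    refine ⟨none, ch.mem_basicOpen_of_isUnit_value R ?_ hV fun h => hU (ch.XW_le_XU R h)⟩
    show IsUnit (PowerSeries.constantCoeff (ch.expV R I.near))
    rw [I.expV_near]
    exact I.u.isUnit.map _

/-- The cover, away from the section. -/
abbrev OU (x : Option (Fin I.n)) : (XR c R).Opens := I.O x ⊓ ch.XU R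

lemma OU_none_le : I.OU none ≤ ch.XW R := le_inf inf_le_right (inf_le_left.trans I.O_none_le)

lemma isUnit_fn (x : Option (Fin I.n)) :
    IsUnit (rs (inf_le_right : I.OU x ≤ ch.XU R) (I.fn x)) := by
  rcases x with _ | i
  · have hu : IsUnit (rs (inf_le_left.trans I.O_none_le : I.OU none ≤ ch.XV R) I.near) :=
      isUnit_rs _ _ inf_le_left
    rw [← rs_rs (ch.XW_le_XV R) I.OU_none_le, I.rs_near, map_mul, rs_rs] at hu
    exact isUnit_of_mul_isUnit_right hu
  · exact isUnit_rs _ _ inf_le_left

/-- The inverse of the product function. -/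
def fnInv (x : Option (Fin I.n)) : Γ(XR c R, I.OU x) := ↑(I.isUnit_fn x).unit⁻¹

lemma fn_mul_fnInv (x : Option (Fin I.n)) :
    rs (inf_le_right : I.OU x ≤ ch.XU R) (I.fn x) * I.fnInv x = 1 :=
  IsUnit.mul_val_inv _

/-- The change to the frame at the section. -/
def chg : ∀ x : Option (Fin I.n), Γ(XR c R, I.OU x)
  | some _ => 1
  | none => rs (inf_le_left.trans I.O_none_le) (ch.τR R) ^ m *
      rs (inf_le_right : I.OU none ≤ ch.XU R) (I.fn none)

lemma isUnit_chg (x : Option (Fin I.n)) : IsUnit (I.chg m x) := by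
  rcases x with _ | i
  · refine (IsUnit.pow m (isUnit_rs _ _ ?_)).mul (I.isUnit_fn none)
    rw [ch.basicOpen_τR]
    exact I.OU_none_le
  · exact isUnit_one

/-- Its inverse. -/
def chgInv (x : Option (Fin I.n)) : Γ(XR c R, I.OU x) := ↑(I.isUnit_chg m x).unit⁻¹

lemma chg_mul_chgInv (x : Option (Fin I.n)) : I.chg m x * I.chgInv m x = 1 :=
  IsUnit.mul_val_inv _

/-- The transition away from the section. -/
def trans (x y : Option (Fin I.n)) (W : (XR c R).Opens) (hx : W ≤ I.OU x) (hy : W ≤ I.OU y) :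
    Γ(XR c R, W) :=
  rs hx (I.chg m x) * rs (hx.trans inf_le_right) (pair ch (I.gen y) (I.cogen x)) *
    rs hx (I.fnInv x) * rs hy (I.chgInv m y)

lemma trans_self (x : Option (Fin I.n)) (W : (XR c R).Opens) (hx : W ≤ I.OU x) :
    I.trans m x x W hx hx = 1 := by
  have h1 : rs hx (I.chg m x) * rs hx (I.chgInv m x) = 1 := by
    rw [← map_mul, chg_mul_chgInv, map_one]
  have h2 : rs (hx.trans inf_le_right) (I.fn x) * rs hx (I.fnInv x) = 1 := by
    rw [← rs_rs (inf_le_right : I.OU x ≤ ch.XU R) hx, ← map_mul, fn_mul_fnInv, map_one]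
  show rs hx (I.chg m x) * rs (hx.trans inf_le_right) (I.fn x) * rs hx (I.fnInv x) *
    rs hx (I.chgInv m x) = 1
  rw [mul_assoc (rs hx (I.chg m x)), h2, mul_one, h1]

lemma trans_mul (x y z : Option (Fin I.n)) (W : (XR c R).Opens) (hx : W ≤ I.OU x) (hy : W ≤ I.OU y)
    (hz : W ≤ I.OU z) :
    I.trans m x y W hx hy * I.trans m y z W hy hz = I.trans m x z W hx hz := by
  have h1 : rs hy (I.chg m y) * rs hy (I.chgInv m y) = 1 := by
    rw [← map_mul, chg_mul_chgInv, map_one]
  have h2 : rs (hy.trans inf_le_right) (I.fn y) * rs hy (I.fnInv y) = 1 := by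
    rw [← rs_rs (inf_le_right : I.OU y ≤ ch.XU R) hy, ← map_mul, fn_mul_fnInv, map_one]
  have h3 : rs (hx.trans inf_le_right) (pair ch (I.gen y) (I.cogen x)) *
      rs (hy.trans inf_le_right) (pair ch (I.gen z) (I.cogen y)) =
      rs (hy.trans inf_le_right) (I.fn y) *
        rs (hx.trans inf_le_right) (pair ch (I.gen z) (I.cogen x)) := by
    rw [← map_mul, ← map_mul, pair_mul_pair (I.gen y) (I.gen z) (I.cogen x) (I.cogen y)]
  exact trans_ring _ _ _ _ _ _ _ _ _ _ h1 h2 h3
where
  trans_ring {A : Type u} [CommRing A] (μx fix μiy μy fiy μiz p q fy r : A) (h1 : μy * μiy = 1)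
      (h2 : fy * fiy = 1) (h3 : p * q = fy * r) :
      μx * p * fix * μiy * (μy * q * fiy * μiz) = μx * r * fix * μiz := by
    linear_combination (μx * fix * μiz * fiy * μy * μiy) * h3 + (μx * fix * μiz * r * fy * fiy) * h1 +
      (μx * fix * μiz * r) * h2

lemma rs_trans (x y : Option (Fin I.n)) {W W' : (XR c R).Opens} (hx : W ≤ I.OU x) (hy : W ≤ I.OU y)
    (h : W' ≤ W) : rs h (I.trans m x y W hx hy) = I.trans m x y W' (h.trans hx) (h.trans hy) := by
  simp only [trans, map_mul, rs_rs]

open Classical in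
/-- The transition functions. -/
def tfun (x y : Option (Fin I.n)) : Γ(XR c R, I.O x ⊓ I.O y) :=
  if h : I.O x ⊓ I.O y ≤ ch.XU R then
    I.trans m x y _ (le_inf inf_le_left h) (le_inf inf_le_right h)
  else 1

lemma rs_tfun (x y : Option (Fin I.n)) (W : (XR c R).Opens) (hx : W ≤ I.O x) (hy : W ≤ I.O y)
    (hU : W ≤ ch.XU R) :
    rs (le_inf hx hy) (I.tfun m x y) = I.trans m x y W (le_inf hx hU) (le_inf hy hU) := by
  unfold tfun
  split_ifs with h
  · rw [rs_trans]
  · have hxy : x = none ∧ y = none := by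
      refine ⟨?_, ?_⟩
      · rcases x with _ | i
        · rfl
        · exact absurd (inf_le_left.trans ((XR c R).basicOpen_le _)) h
      · rcases y with _ | i
        · rfl
        · exact absurd (inf_le_right.trans ((XR c R).basicOpen_le _)) h
    obtain ⟨rfl, rfl⟩ := hxy
    rw [map_one, trans_self]

lemma tfun_none : I.tfun m none none = 1 := by
  unfold tfun
  split_ifs with h
  · exact I.trans_self m none _ _
  · rfl

lemma some_le (i : Fin I.n) : I.O (some i) ≤ ch.XU R := (XR c R).basicOpen_le _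

/-- The bundle. -/
abbrev cocycle : Cocycle (XR c R) where
  ι := ULift (Option (Fin I.n))
  U x := I.O x.down
  cover x := (I.cover x).elim fun i hi => ⟨⟨i⟩, hi⟩
  g x y := I.tfun m x.down y.down
  isUnit x y := by
    rcases x with ⟨_ | i⟩ <;> rcases y with ⟨_ | j⟩
    · rw [I.tfun_none]; exact isUnit_one
    all_goals
      refine IsUnit.of_mul_eq_one
        (I.trans m _ _ _ (le_inf inf_le_right ?_) (le_inf inf_le_left ?_)) ((congrArg (· * _)
          ((rs_self _).symm.trans (I.rs_tfun m _ _ _ inf_le_left inf_le_right ?_))).trans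
          ((I.trans_mul m _ _ _ _ _ _ _).trans (I.trans_self m _ _ _)))
    all_goals
      first
        | exact inf_le_left.trans (I.some_le _)
        | exact inf_le_right.trans (I.some_le _)
  mul_eq x y z W hx hy hz := by
    by_cases hU : W ≤ ch.XU R
    · rw [I.rs_tfun m x.down y.down W hx hy hU, I.rs_tfun m y.down z.down W hy hz hU,
        I.rs_tfun m x.down z.down W hx hz hU, trans_mul]
    · rcases x with ⟨_ | i⟩
      · rcases y with ⟨_ | j⟩
        · rcases z with ⟨_ | l⟩
          · rw [I.tfun_none]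
            simp only [map_one, mul_one]
          · exact absurd (hz.trans (I.some_le l)) hU
        · exact absurd (hy.trans (I.some_le j)) hU
      · exact absurd (hx.trans (I.some_le i)) hU

lemma rs_g (x y : (I.cocycle m).ι) (W : (XR c R).Opens) (hx : W ≤ I.O x.down) (hy : W ≤ I.O y.down)
    (hU : W ≤ ch.XU R) :
    rs (le_inf hx hy) ((I.cocycle m).g x y) =
      I.trans m x.down y.down W (le_inf hx hU) (le_inf hy hU) :=
  I.rs_tfun m x.down y.down W hx hy hU

/-- The section of the bundle of an element of the lattice. -/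
def sec (y : J.1) : (I.cocycle m).secs (ch.XU R) :=
  ⟨fun x => rs (le_inf inf_le_right inf_le_left) (I.chg m x.down) *
      rs inf_le_left (pair ch y (I.cogen x.down)) *
      rs (le_inf inf_le_right inf_le_left) (I.fnInv x.down),
    fun x z W hU hx hz => by
      rw [I.rs_g m x z W hx hz hU]
      simp only [map_mul, rs_rs, trans]
      have h1 : rs (le_inf hz hU) (I.chg m z.down) * rs (le_inf hz hU) (I.chgInv m z.down) = 1 := by
        rw [← map_mul, chg_mul_chgInv, map_one]
      have h2 : rs hU (I.fn z.down) * rs (le_inf hz hU) (I.fnInv z.down) = 1 := by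
        rw [← rs_rs (inf_le_right : I.OU z.down ≤ ch.XU R) (le_inf hz hU), ← map_mul, fn_mul_fnInv,
          map_one]
      have h3 : rs hU (pair ch (I.gen z.down) (I.cogen x.down)) *
          rs hU (pair ch y (I.cogen z.down)) = rs hU (I.fn z.down) *
            rs hU (pair ch y (I.cogen x.down)) := by
        rw [← map_mul, ← map_mul, pair_mul_pair (I.gen z.down) y (I.cogen x.down) (I.cogen z.down)]
      exact (sec_ring _ _ _ _ _ _ _ _ _ h1 h2 h3).symm⟩
where
  sec_ring {A : Type u} [CommRing A] (μx fix μiz μz fiz p q fz r : A) (h1 : μz * μiz = 1)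
      (h2 : fz * fiz = 1) (h3 : p * q = fz * r) :
      μx * p * fix * μiz * (μz * q * fiz) = μx * r * fix := by
    linear_combination (μx * fix * fiz * μz * μiz) * h3 + (μx * fix * r * fz * fiz) * h1 +
      (μx * fix * r) * h2

/-- The section of the inverse bundle of an element of the inverse lattice. -/
def cosec (y' : (J⁻¹ : D.Lattice R).1) : (I.cocycle m).inv.secs (ch.XU R) :=
  ⟨fun x => rs (le_inf inf_le_right inf_le_left) (I.chgInv m x.down) *
      rs inf_le_left (pair ch (I.gen x.down) y'),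
    fun x z W hU hx hz => by
      refine (((I.cocycle m).isUnit x z).map (rs (le_inf hx hz))).mul_left_cancel ?_
      rw [← mul_assoc _ (rs (le_inf hx hz) ((I.cocycle m).inv.g x z)),
        (I.cocycle m).g_mul_inv_g x z W (le_inf hx hz), one_mul, I.rs_g m x z W hx hz hU]
      simp only [map_mul, rs_rs, trans]
      have h1 : rs (le_inf hx hU) (I.chg m x.down) * rs (le_inf hx hU) (I.chgInv m x.down) = 1 := by
        rw [← map_mul, chg_mul_chgInv, map_one]
      have h2 : rs hU (I.fn x.down) * rs (le_inf hx hU) (I.fnInv x.down) = 1 := by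
        rw [← rs_rs (inf_le_right : I.OU x.down ≤ ch.XU R) (le_inf hx hU), ← map_mul, fn_mul_fnInv,
          map_one]
      have h3 : rs hU (pair ch (I.gen z.down) (I.cogen x.down)) *
          rs hU (pair ch (I.gen x.down) y') = rs hU (I.fn x.down) *
            rs hU (pair ch (I.gen z.down) y') := by
        rw [← map_mul, ← map_mul, pair_mul_pair (I.gen z.down) (I.gen x.down) (I.cogen x.down) y',
          mul_comm]
      exact cosec_ring _ _ _ _ _ _ _ _ h1 h2 h3⟩
where
  cosec_ring {A : Type u} [CommRing A] (μx μix fix μiz p q fx r : A) (h1 : μx * μix = 1)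
      (h2 : fx * fix = 1) (h3 : p * q = fx * r) :
      μx * p * fix * μiz * (μix * q) = μiz * r := by
    linear_combination (μiz * fix * μx * μix) * h3 + (μiz * r * fx * fix) * h1 + (μiz * r) * h2

lemma dot_sec (y : J.1) (y' : (J⁻¹ : D.Lattice R).1) :
    (I.cocycle m).dot (I.sec m y) (I.cosec m y') = pair ch y y' :=
  (I.cocycle m).dot_eq fun x => by
    show rs _ (pair ch y y') = _ * _ * _ * (_ * _)
    have hx : ch.XU R ⊓ I.O x.down ≤ I.OU x.down := le_inf inf_le_right inf_le_left
    have h1 : rs hx (I.chg m x.down) * rs hx (I.chgInv m x.down) = 1 := by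
      rw [← map_mul, chg_mul_chgInv, map_one]
    have h2 : rs (inf_le_left : ch.XU R ⊓ I.O x.down ≤ ch.XU R) (I.fn x.down) *
        rs hx (I.fnInv x.down) = 1 := by
      rw [← rs_rs (inf_le_right : I.OU x.down ≤ ch.XU R) hx, ← map_mul, fn_mul_fnInv, map_one]
    have h3 : rs (inf_le_left : ch.XU R ⊓ I.O x.down ≤ ch.XU R) (pair ch y (I.cogen x.down)) *
        rs inf_le_left (pair ch (I.gen x.down) y') =
        rs inf_le_left (I.fn x.down) * rs inf_le_left (pair ch y y') := by
      rw [← map_mul, ← map_mul, pair_mul_pair y (I.gen x.down) (I.cogen x.down) y', mul_comm]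
    exact dot_ring _ _ _ _ _ _ _ h1 h2 h3
where
  dot_ring {A : Type u} [CommRing A] (μx μix fix p q fx r : A) (h1 : μx * μix = 1)
      (h2 : fx * fix = 1) (h3 : p * q = fx * r) :
      r = μx * p * fix * (μix * q) := by
    linear_combination -(fix * μx * μix) * h3 - (r * fx * fix) * h1 - r * h2

end IdealData

end FLTAgent.RelPic
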