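/-
Area RelPic (S25): every lattice class comes from a rigidified bundle.
-/
import Fermat.Agent.RelPic.IdealBundle
import Fermat.Agent.RelPic.Engine
import Fermat.Agent.RelPic.CellMap

set_option autoImplicit false

noncomputable section

universe u

open CategoryTheory CategoryTheory.Limits AlgebraicGeometry TopologicalSpace ModularCurve
open AlgebraicGeometry.RelPicard NeronModelInfra

namespace FLTAgent.RelPic

lemma cotriv_ring {A : Type*} [CommRing A] (uN q t h o y e ui o' : A) (hv : ui * (h * o') = 1)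
    (hk : uN * (q * (t * h)) = h * y * e) (ho : o * uN = 1) : q * t = y * (e * o) := by
  linear_combination (o * ui * o') * hk + (y * e * o - q * t * uN * o) * hv - (q * t) * ho

lemma cls_ring {A : Type*} [CommRing A] (U q t t' y a b : A) (h5 : t * t' = 1) (h : q * t = y * a)
    (h4 : U * a = b) : U * q = b * (t' * y) := by
  linear_combination (U * t') * h + (-(U * q)) * h5 + (y * t') * h4

/-- A cocycle with a member of the cover equal to everything is trivial. -/
theorem Cocycle.trivial_of_top {Y : Scheme.{u}} (d : Cocycle Y) (i₀ : d.ι) (h : ⊤ ≤ d.U i₀) :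
    Nonempty (d.module ≅ unitM Y) := by
  let n : ∀ i, Γ(Y, d.U i) := fun i => rs (le_inf (le_top.trans h) le_rfl) (d.g i₀ i)
  refine ⟨d.isoOfFrames (N := unitM Y) ⟨n, fun i j W hi hj => ?_⟩ fun i W hW => ?_⟩
  · show rs hj (n j) = rs (le_inf hi hj) (d.g i j) * rs hi (n i)
    rw [rs_rs, rs_rs, mul_comm]
    exact (d.mul_eq i₀ i j W (le_top.trans h) hi hj).symm
  · have hu : IsUnit (rs hW (n i)) := ((d.isUnit i₀ i).map _).map _
    have := hu.unit.mulRight.bijective
    simpa only [Units.mulRight_apply, IsUnit.unit_spec] using! this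

/-- A series with given lowest coefficient one is a unit series shifted. -/
lemma exists_unit_of_monic {R : Type u} [CommRing R] {x : LaurentSeries R} {j : ℤ}
    (h0 : ∀ l < j, x.coeff l = 0) (h1 : x.coeff j = 1) :
    ∃ v : (PowerSeries R)ˣ,
      x = HahnSeries.single j 1 * HahnSeries.ofPowerSeries ℤ R (v : PowerSeries R) := by
  let q : PowerSeries R := PowerSeries.mk fun n => x.coeff (j + n)
  have hq : IsUnit q := by
    rw [PowerSeries.isUnit_iff_constantCoeff, ← PowerSeries.coeff_zero_eq_constantCoeff_apply,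
      PowerSeries.coeff_mk, Int.natCast_zero, add_zero, h1]
    exact isUnit_one
  refine ⟨hq.unit, ?_⟩
  ext l
  rw [IsUnit.unit_spec, HahnSeries.coeff_single_mul, one_mul]
  rcases lt_or_ge l j with hl | hl
  · rw [h0 l hl]
    symm
    rw [HahnSeries.ofPowerSeries_apply]
    refine HahnSeries.embDomain_of_notMem_range fun ⟨n, hn⟩ => ?_
    simp at hn
    omega
  · obtain ⟨n, hn⟩ : ∃ n : ℕ, l - j = n := ⟨(l - j).toNat, by omega⟩
    rw [hn, HahnSeries.ofPowerSeries_apply_coeff, PowerSeries.coeff_mk]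
    congr 1
    omega

variable {k : Type u} [Field k] {C : Scheme.{u}} {c : C ⟶ Spec (CommRingCat.of k)}
variable {ε : SchemeHomOver (𝟙 (Spec (CommRingCat.of k))) c} {D : CellData k}
variable {R : Type u} [CommRing R] [Algebra k R]

variable (R) in
/-- A power of the parameter as a unit of Laurent series. -/
def monoUnit (n : ℤ) : (LaurentSeries R)ˣ where
  val := HahnSeries.single n 1
  inv := HahnSeries.single (-n) 1
  val_inv := by simp
  inv_val := by simp

lemma mem_monomial_mul {v : (LaurentSeries R)ˣ} {L : D.Lattice R} {x : LaurentSeries R} :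
    x ∈ (D.ofLaurent R v * L).1 ↔ ∃ y ∈ L.1, (v : LaurentSeries R) * y = x := by
  rw [Units.val_mul]
  exact Submodule.mem_span_singleton_mul

lemma Cocycle.rs_dot_secsMap {X : Scheme.{u}} (d : Cocycle X) {V₁ V₂ V W : X.Opens}
    (h₁ : V ≤ V₁) (h₂ : V ≤ V₂) (s : d.secs V₁) (t : d.inv.secs V₂) (i : d.ι) (hV : W ≤ V)
    (hi : W ≤ d.U i) :
    rs hV (d.dot (d.secsMap h₁ s) (d.inv.secsMap h₂ t)) =
      rs (le_inf (hV.trans h₁) hi) (s.1 i) * rs (le_inf (hV.trans h₂) hi) (t.1 i) := by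
  have h := congrArg (rs (le_inf hV hi : W ≤ V ⊓ d.U i))
    (d.dot_spec (d.secsMap h₁ s) (d.inv.secsMap h₂ t) i)
  rw [map_mul, rs_rs] at h
  exact h.trans (congrArg₂ (· * ·) (rs_rs _ _ _) (rs_rs _ _ _))

namespace IdealData

variable {ch : Chart c ε D} {J : D.Lattice R} (I : IdealData ch R J) (m : ℕ)

lemma expW_near : ch.expW R (rs (ch.XW_le_XV R) I.near) =
    HahnSeries.ofPowerSeries ℤ R (I.u : PowerSeries R) := by
  rw [ch.expW_rsV', expV_near]

/-- An identity near the section, in expansions. -/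
lemma exp_eq_of_near {φ ψ : Γ(XR c R, ch.XW R)} (N : ℕ)
    (h : rs (inf_le_right : I.O none ⊓ ch.XW R ≤ ch.XW R) (rs (ch.XW_le_XV R) I.near ^ N * φ) =
      rs inf_le_right ψ) :
    HahnSeries.ofPowerSeries ℤ R ((I.u : PowerSeries R) ^ N) * ch.expW R φ = ch.expW R ψ := by
  have hW : IsCompact (ch.XW R : Set (XR c R)) := by
    rw [← ch.basicOpen_τR]
    exact (ch.hXV.basicOpen _).isCompact
  have hb : (XR c R).basicOpen (rs (ch.XW_le_XV R) I.near) ≤ I.O none ⊓ ch.XW R := by
    show (XR c R).basicOpen (((XR c R).presheaf.map (homOfLE (ch.XW_le_XV R)).op).hom I.near) ≤ _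
    rw [Scheme.basicOpen_res]
    exact le_inf inf_le_right inf_le_left
  obtain ⟨M, hM⟩ := exists_pow_mul_eq_zero_of_res_basicOpen_eq_zero_of_isCompact (XR c R) hW
    (rs (ch.XW_le_XV R) I.near ^ N * φ - ψ) (rs (ch.XW_le_XV R) I.near) (by
      show rs ((XR c R).basicOpen_le _) _ = 0
      rw [← rs_rs (inf_le_right : I.O none ⊓ ch.XW R ≤ ch.XW R) hb, map_sub (rs _), h, sub_self,
        map_zero])
  have h1 := congrArg (ch.expW R) hM
  rw [map_mul, map_pow, map_sub, map_mul, map_pow, I.expW_near, map_zero] at h1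
  have h2 := congrArg
    (HahnSeries.ofPowerSeries ℤ R (↑(I.u⁻¹) : PowerSeries R) ^ M * ·) h1
  simp only [← mul_assoc, ← mul_pow, ← map_mul, Units.inv_mul, map_one, one_pow, one_mul,
    mul_zero, sub_eq_zero] at h2
  rw [map_pow]
  exact h2

lemma sec_none (y : J.1) (W : (XR c R).Opens) (hO : W ≤ I.O none) (hU : W ≤ ch.XU R) :
    rs (le_inf hU hO) ((I.sec m y).1 ⟨none⟩) =
      rs (hO.trans I.O_none_le) (ch.τR R) ^ m * rs hU (pair ch y (I.cogen none)) := by
  show rs _ (rs _ (I.chg m none) * rs _ _ * rs _ (I.fnInv none)) = _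
  simp only [map_mul, rs_rs, chg, map_pow]
  have h2 : rs hU (I.fn none) * rs (le_inf hO hU) (I.fnInv none) = 1 := by
    rw [← rs_rs (inf_le_right : I.OU none ≤ ch.XU R) (le_inf hO hU), ← map_mul, fn_mul_fnInv,
      map_one]
  linear_combination (rs (hO.trans I.O_none_le) (ch.τR R) ^ m *
    rs hU (pair ch y (I.cogen none))) * h2

lemma cosec_none (y' : (J⁻¹ : D.Lattice R).1) (W : (XR c R).Opens) (hO : W ≤ I.O none)
    (hU : W ≤ ch.XU R) :
    rs (hO.trans I.O_none_le) (ch.τR R) ^ m * rs hU (I.fn none) *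
      rs (le_inf hU hO) ((I.cosec m y').1 ⟨none⟩) = rs hU (pair ch (I.gen none) y') := by
  show _ * rs _ (rs _ (I.chgInv m none) * rs _ _) = _
  simp only [map_mul, rs_rs]
  have h1 : rs (hO.trans I.O_none_le) (ch.τR R) ^ m * rs hU (I.fn none) *
      rs (le_inf hO hU) (I.chgInv m none) = 1 := by
    have h := congrArg (rs (le_inf hO hU)) (I.chg_mul_chgInv m none)
    simp only [map_mul, map_one, chg, map_pow, rs_rs] at h
    exact h
  linear_combination (rs hU (pair ch (I.gen none) y')) * h1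

set_option maxHeartbeats 600000 in
lemma exists_triv (F : NearFrame ch R (I.cocycle m)) :
    ∃ r : PowerSeries R, ∀ y : J.1,
      F.triv ((I.cocycle m).secsMap (ch.XW_le_XU R) (I.sec m y)) =
        HahnSeries.single (m : ℤ) 1 * (y : LaurentSeries R) * HahnSeries.ofPowerSeries ℤ R r := by
  obtain ⟨N, S, hS⟩ := exists_eq_pow_mul_of_isCompact_of_isQuasiSeparated (XR c R) (ch.XV R)
    ch.hXV.isCompact ch.hXV.isQuasiSeparated I.near
    (rs (le_inf ((XR c R).basicOpen_le _) le_rfl : I.O none ≤ ch.XV R ⊓ I.O none) (F.σ.1 ⟨none⟩))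
  have hS0 := hS
  replace hS : rs I.O_none_le S = rs I.O_none_le I.near ^ N *
      rs (U := ch.XV R ⊓ I.O none) (le_inf I.O_none_le le_rfl) (F.σ.1 ⟨none⟩) := hS0
  refine ⟨ch.expV R S * (↑(I.u⁻¹) : PowerSeries R) ^ N, fun y => ?_⟩
  have key := I.exp_eq_of_near N (φ := (I.cocycle m).dot
      ((I.cocycle m).secsMap (ch.XW_le_XU R) (I.sec m y))
      ((I.cocycle m).inv.secsMap (ch.XW_le_XV R) F.σ))
    (ψ := rs (ch.XW_le_XV R) (ch.τR R) ^ m * rs (ch.XW_le_XU R) (pair ch y (I.cogen none)) *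
      rs (ch.XW_le_XV R) S) (by
    have hdot := (I.cocycle m).rs_dot_secsMap (ch.XW_le_XU R) (ch.XW_le_XV R) (I.sec m y) F.σ
      ⟨none⟩ (inf_le_right : I.O none ⊓ ch.XW R ≤ ch.XW R) inf_le_left
    have hs := I.sec_none m y (I.O none ⊓ ch.XW R) inf_le_left (inf_le_right.trans (ch.XW_le_XU R))
    have hS' := congrArg (rs (inf_le_left : I.O none ⊓ ch.XW R ≤ I.O none)) hS
    simp only [map_mul, map_pow, rs_rs] at hdot hs hS' ⊢
    rw [hdot, hs, hS']
    ring)
  simp only [map_mul, map_pow, ch.expW_τR] at key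
  rw [ch.expW_rsU', expU_pair, ch.expW_rsV', I.cogen_none,
    mul_one, HahnSeries.single_pow, one_pow, nsmul_eq_mul, mul_one] at key
  rw [NearFrame.triv, map_mul, ← mul_assoc, ← key]
  rw [map_pow, mul_right_comm, ← mul_pow, ← map_mul, Units.mul_inv, map_one, one_pow, one_mul]

lemma exists_cotriv (F : NearFrame ch R (I.cocycle m)) :
    ∃ r : PowerSeries R, ∀ y' : (J⁻¹ : D.Lattice R).1,
      F.cotriv ((I.cocycle m).inv.secsMap (ch.XW_le_XU R) (I.cosec m y')) *
          HahnSeries.single (m : ℤ) 1 =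
        (y' : LaurentSeries R) * HahnSeries.ofPowerSeries ℤ R r := by
  obtain ⟨N, E, hE⟩ := exists_eq_pow_mul_of_isCompact_of_isQuasiSeparated (XR c R) (ch.XV R)
    ch.hXV.isCompact ch.hXV.isQuasiSeparated I.near
    (rs (le_inf ((XR c R).basicOpen_le _) le_rfl : I.O none ≤ ch.XV R ⊓ I.O none) (F.e.1 ⟨none⟩))
  have hE0 := hE
  replace hE : rs I.O_none_le E = rs I.O_none_le I.near ^ N *
      rs (U := ch.XV R ⊓ I.O none) (le_inf I.O_none_le le_rfl) (F.e.1 ⟨none⟩) := hE0
  refine ⟨ch.expV R E * (↑(I.u⁻¹) : PowerSeries R) ^ N, fun y' => ?_⟩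
  have key := I.exp_eq_of_near N (φ := (I.cocycle m).dot
      ((I.cocycle m).secsMap (ch.XW_le_XV R) F.e)
      ((I.cocycle m).inv.secsMap (ch.XW_le_XU R) (I.cosec m y')) *
        (rs (ch.XW_le_XV R) (ch.τR R) ^ m * rs (ch.XW_le_XU R) (I.fn none)))
    (ψ := rs (ch.XW_le_XU R) (pair ch (I.gen none) y') * rs (ch.XW_le_XV R) E) (by
    have hdot := (I.cocycle m).rs_dot_secsMap (ch.XW_le_XV R) (ch.XW_le_XU R) F.e (I.cosec m y')
      ⟨none⟩ (inf_le_right : I.O none ⊓ ch.XW R ≤ ch.XW R) inf_le_left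
    have hs := I.cosec_none m y' (I.O none ⊓ ch.XW R) inf_le_left
      (inf_le_right.trans (ch.XW_le_XU R))
    have hE' := congrArg (rs (inf_le_left : I.O none ⊓ ch.XW R ≤ I.O none)) hE
    simp only [map_mul, map_pow, rs_rs] at hdot hs hE' ⊢
    rw [hdot, ← hs, hE']
    ring)
  simp only [map_mul, map_pow, ch.expW_τR] at key
  rw [ch.expW_rsU', expU_pair, ch.expW_rsU', expU_pair, ch.expW_rsV', I.cogen_none, mul_one, HahnSeries.single_pow, one_pow, nsmul_eq_mul,
    mul_one] at key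
  have hv : HahnSeries.ofPowerSeries ℤ R (↑(I.u⁻¹) : PowerSeries R) *
      ((I.gen none : LaurentSeries R) * HahnSeries.single (I.ord : ℤ) 1) = 1 := by
    rw [I.gen_none, ← map_mul, Units.inv_mul, map_one]
  rw [map_mul]
  rw [NearFrame.cotriv]
  refine cotriv_ring _ _ _ _ _ _ _ _ _ hv key ?_
  rw [map_pow, ← mul_pow, ← map_mul, Units.inv_mul, map_one, one_pow]

/-- The class of the bundle of an invertible ideal. -/
theorem exists_toClass_eq (I : IdealData ch R J) (m : ℕ) :
    ∃ x : RigidifiedLineBundle.Classes c ε (base (k := k) R),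
      ch.toClass x = QuotientGroup.mk (D.ofLaurent R (monoUnit R (m : ℤ)) * J) := by
  let d := I.cocycle m
  have hrig : Nonempty ((Scheme.Modules.pullback (secR R c ε)).obj d.module ≅
      SheafOfModules.unit (Spec (CommRingCat.of R)).ringCatSheaf) := by
    obtain ⟨φ⟩ := (d.comap (secR R c ε)).trivial_of_top ⟨none⟩ fun p _ => I.sec_mem p
    exact ⟨d.pullbackIso _ ≪≫ φ⟩
  let M : RigidifiedLineBundle c ε (base R) := ⟨d.module, d.isInvertible_module, hrig⟩
  obtain ⟨F⟩ := exists_nearFrame ch R d ch.hXV hrig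
  refine ⟨Quotient.mk _ M, ?_⟩
  rw [Chart.toClass_mk, ch.latClass_eq M (Iso.refl _) F]
  obtain ⟨r, hr⟩ := I.exists_triv m F
  obtain ⟨r', hr'⟩ := I.exists_cotriv m F
  have hrr : r * r' = (F.unit : PowerSeries R) := by
    refine HahnSeries.ofPowerSeries_injective (Γ := ℤ) ?_
    have h : ∀ i, HahnSeries.ofPowerSeries ℤ R (r * r') *
        ((I.gen (some i) : LaurentSeries R) * (I.cogen (some i) : LaurentSeries R)) =
        HahnSeries.ofPowerSeries ℤ R (F.unit : PowerSeries R) *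
          ((I.gen (some i) : LaurentSeries R) * (I.cogen (some i) : LaurentSeries R)) := by
      intro i
      have h1 := F.triv_mul_cotriv (d.secsMap (ch.XW_le_XU R) (I.sec m (I.gen (some i))))
        (d.inv.secsMap (ch.XW_le_XU R) (I.cosec m (I.cogen (some i))))
      rw [hr, ← d.rs_dot, I.dot_sec, ch.expW_rsU', expU_pair] at h1
      rw [map_mul]
      linear_combination h1 - (HahnSeries.ofPowerSeries ℤ R r * (I.gen (some i) : LaurentSeries R)) *
        hr' (I.cogen (some i))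
    have h2 := Finset.sum_congr (s₁ := Finset.univ) rfl fun i _ => h i
    simpa only [← Finset.mul_sum, I.sum_eq, mul_one] using h2
  have hru : IsUnit r := isUnit_of_mul_isUnit_left (hrr ▸ F.unit.isUnit)
  have e : F.lattice ch.hXU = D.ofLaurent R (monoUnit R (m : ℤ)) * J * D.ofSeries R hru.unit := by
    refine (CellData.Lattice.eq_of_le D ?_ ?_).symm
    · intro x hx
      rw [D.lattice_comm R _ (D.ofSeries R hru.unit), CellData.mem_ofSeries_mul] at hx
      obtain ⟨z, hz, rfl⟩ := hx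
      obtain ⟨y, hy, rfl⟩ := mem_monomial_mul.mp hz
      refine ⟨I.sec m ⟨y, hy⟩, ?_⟩
      show F.triv _ = _
      rw [hr, IsUnit.unit_spec]
      show HahnSeries.single (m : ℤ) 1 * y * _ = _ * (HahnSeries.single (m : ℤ) 1 * y)
      ring
    · intro x hx
      rw [mul_inv_rev, mul_inv_rev, ← map_inv, ← map_inv, CellData.mem_ofSeries_mul] at hx
      obtain ⟨z, hz, rfl⟩ := hx
      rw [D.lattice_comm R, mem_monomial_mul] at hz
      obtain ⟨y', hy', rfl⟩ := hz
      rw [NearFrame.lattice_inv, ← map_inv, mul_comm F.dual.sub]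
      refine Submodule.mem_span_singleton_mul.mpr
        ⟨F.cotriv (d.inv.secsMap (ch.XW_le_XU R) (I.cosec m ⟨y', hy'⟩)), F.cotriv_mem _, ?_⟩
      show HahnSeries.ofPowerSeries ℤ R (↑(F.unit⁻¹) : PowerSeries R) * _ =
        HahnSeries.ofPowerSeries ℤ R (↑(hru.unit⁻¹) : PowerSeries R) *
          (HahnSeries.single (-(m : ℤ)) 1 * y')
      have h3 : (↑(F.unit⁻¹) : PowerSeries R) * r' = ↑(hru.unit⁻¹) := by
        refine hru.mul_left_cancel ?_
        rw [mul_left_comm, hrr, Units.inv_mul, IsUnit.mul_val_inv]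
      have h4 := congrArg (HahnSeries.ofPowerSeries ℤ R) h3
      rw [map_mul] at h4
      have h5 : HahnSeries.single (m : ℤ) (1 : R) * HahnSeries.single (-(m : ℤ)) (1 : R) = 1 := by
        simp
      exact cls_ring _ _ _ _ _ _ _ h5 (hr' ⟨y', hy'⟩) h4
  rw [NearFrame.cls, e, QuotientGroup.eq]
  exact ⟨hru.unit⁻¹, by rw [map_inv, mul_inv_rev, inv_mul_cancel_right]⟩

end IdealData

namespace Chart

variable (ch : Chart c ε D)

/-- Every lattice class comes from a rigidified bundle. -/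
theorem toClass_surjective : Function.Surjective (ch.toClass (R := R)) := by
  intro x
  induction x using QuotientGroup.induction_on with | _ L' =>
  let L : D.Lattice R := L'⁻¹
  obtain ⟨e, he⟩ := D.exists_sup_eq_top L
  let m : ℕ := (-(e - 1)).toNat
  have hm : -(m : ℤ) ≤ e - 1 := by omega
  obtain ⟨s, hs, hs0, hs1⟩ := sup_tailAt_eq_top_iff.mp (he (-(m : ℤ) + 1) (by omega))
    (-(m : ℤ)) (by omega)
  obtain ⟨v, hv⟩ := exists_unit_of_monic hs0 hs1
  let L₁ : D.Lattice R := D.ofSeries R v⁻¹ * L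
  have hL₁ : HahnSeries.single (-(m : ℤ)) (1 : R) ∈ L₁.1 := by
    rw [CellData.mem_ofSeries_mul]
    refine ⟨s, hs, ?_⟩
    rw [hv, mul_left_comm, ← map_mul (HahnSeries.ofPowerSeries ℤ R), Units.inv_mul, map_one (HahnSeries.ofPowerSeries ℤ R), mul_one]
  let J : D.Lattice R := D.ofLaurent R (monoUnit R (-(m : ℤ))) * L₁⁻¹
  have hJinv : (1 : LaurentSeries R) ∈ (J⁻¹ : D.Lattice R).1 := by
    rw [mul_inv_rev, inv_inv, D.lattice_comm R, ← map_inv, mem_monomial_mul]
    refine ⟨_, hL₁, ?_⟩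
    show HahnSeries.single (- -(m : ℤ)) 1 * _ = _
    simp
  obtain ⟨e', he'⟩ := D.exists_sup_eq_top J
  let N : ℕ := (-(e' - 1)).toNat
  obtain ⟨h, hh, hh0, hh1⟩ := sup_tailAt_eq_top_iff.mp (he' (-(N : ℤ) + 1) (by omega))
    (-(N : ℤ)) (by omega)
  obtain ⟨u, hu⟩ := exists_unit_of_monic hh0 hh1
  have h1 : (1 : LaurentSeries R) ∈ J.1 * (J⁻¹ : D.Lattice R).1 := by
    rw [Units.mul_inv]
    exact Submodule.one_le.mp le_rfl
  obtain ⟨n, p, q, hpq⟩ : ∃ (n : ℕ) (p : Fin n → J.1) (q : Fin n → (J⁻¹ : D.Lattice R).1),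
      ∑ i, (p i : LaurentSeries R) * (q i : LaurentSeries R) = 1 := by
    suffices H : ∀ z ∈ J.1 * (J⁻¹ : D.Lattice R).1, ∃ (n : ℕ) (p : Fin n → J.1)
        (q : Fin n → (J⁻¹ : D.Lattice R).1),
        ∑ i, (p i : LaurentSeries R) * (q i : LaurentSeries R) = z from H 1 h1
    intro z hz
    refine Submodule.mul_induction_on hz (fun a ha b hb =>
      ⟨1, fun _ => ⟨a, ha⟩, fun _ => ⟨b, hb⟩, by simp⟩) ?_
    rintro a b ⟨n₁, p₁, q₁, rfl⟩ ⟨n₂, p₂, q₂, rfl⟩
    exact ⟨n₁ + n₂, Fin.append p₁ p₂, Fin.append q₁ q₂, by simp [Fin.sum_univ_add]⟩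
  let I : IdealData ch R J :=
    { n := n
      gen := fun o => o.elim ⟨h, hh⟩ p
      cogen := fun o => o.elim ⟨1, hJinv⟩ q
      cogen_none := rfl
      sum_eq := hpq
      ord := N
      u := u
      gen_none := by
        show h * _ = _
        rw [hu, mul_right_comm, HahnSeries.single_mul_single, neg_add_cancel, mul_one]
        simp }
  obtain ⟨x, hx⟩ := I.exists_toClass_eq m
  refine ⟨x, hx.trans ?_⟩
  have htt : D.ofLaurent R (monoUnit R (m : ℤ)) * D.ofLaurent R (monoUnit R (-(m : ℤ))) = 1 := by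
    rw [← map_mul, show monoUnit R (m : ℤ) * monoUnit R (-(m : ℤ)) = 1 from
      Units.ext (by simp [monoUnit]), map_one]
  rw [show D.ofLaurent R (monoUnit R (m : ℤ)) * J = L₁⁻¹ by rw [← mul_assoc, htt, one_mul],
    QuotientGroup.eq, inv_inv]
  exact ⟨v⁻¹, by rw [show L₁ = D.ofSeries R v⁻¹ * L from rfl, mul_assoc, inv_mul_cancel, mul_one]⟩

end Chart

end FLTAgent.RelPic
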