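/-
Area RelPic (S25): affine charts of a base, units trivial along the section are trivial.
-/
import Fermat.Agent.RelPic.Surjective
import Fermat.Agent.RelPic.Descent

set_option autoImplicit false

noncomputable section

universe u

open CategoryTheory CategoryTheory.Limits AlgebraicGeometry TopologicalSpace ModularCurve
open AlgebraicGeometry.RelPicard NeronModelInfra

namespace FLTAgent.RelPic

variable {k : Type u} [Field k] {C : Scheme.{u}} {c : C ⟶ Spec (CommRingCat.of k)}
variable {ε : SchemeHomOver (𝟙 (Spec (CommRingCat.of k))) c} {D : CellData k}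

namespace CellData

variable (D) {R : Type u} [CommRing R] [Algebra k R]

/-- Functions regular at the point are constants. -/
theorem eq_C_of_mem_AR_tail {x : LaurentSeries R} (hx : x ∈ D.AR R) (h : x ∈ tailAt R 0) :
    x = HahnSeries.C (x.coeff 0) := by
  let c₀ : D.G → ℕ → R := fun _ _ => 0
  have hmem : x ∈ D.span c₀ := by
    have key : x ∈ Submodule.span R (⇑(L (k := k) R) '' (D.A : Set (LaurentSeries k))) := by
      refine D.AR_induction (P := fun y =>
        y ∈ Submodule.span R (⇑(L (k := k) R) '' (D.A : Set (LaurentSeries k)))) (fun r => ?_)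
        (fun a ha => Submodule.subset_span ⟨a, ha, rfl⟩) (fun _ _ => add_mem)
        (fun _ => neg_mem) (fun y z hy hz => ?_) hx
      · rw [show (HahnSeries.C r : LaurentSeries R) = r • (1 : LaurentSeries R) by
          rw [← HahnSeries.C_mul_eq_smul, mul_one], ← map_one (L (k := k) R)]
        exact Submodule.smul_mem _ _ (Submodule.subset_span ⟨1, one_mem D.A, rfl⟩)
      · refine Submodule.span_induction ?_ (by simp) ?_ ?_ hy
        · rintro _ ⟨a, ha, rfl⟩
          refine Submodule.span_induction ?_ (by simp) ?_ ?_ hz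
          · rintro _ ⟨b, hb, rfl⟩
            rw [← map_mul]
            exact Submodule.subset_span ⟨a * b, mul_mem ha hb, rfl⟩
          · intro u v _ _ hu hv
            rw [mul_add]
            exact add_mem hu hv
          · intro r u _ hu
            rw [mul_C_smul]
            exact Submodule.smul_mem _ _ hu
        · intro u v _ _ hu hv
          rw [add_mul]
          exact add_mem hu hv
        · intro r u _ hu
          rw [mul_comm (r • u), mul_C_smul, mul_comm z u]
          exact Submodule.smul_mem _ _ hu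
    refine Submodule.span_le.mpr ?_ key
    rintro _ ⟨a, ha, rfl⟩
    exact D.L_mem_span c₀ ha
  have hpol : pol x = x.coeff 0 • pol (1 : LaurentSeries R) := by
    ext n
    rcases Nat.eq_zero_or_pos n with rfl | hn
    · simp [pol_apply]
    · rw [Finsupp.smul_apply, pol_apply, pol_apply, h _ (by omega), HahnSeries.coeff_one,
        if_neg (by omega), smul_zero]
  rw [← D.mem_span.mp hmem, hpol, map_smul, D.mem_span.mp (D.one_mem_span c₀),
    ← HahnSeries.C_mul_eq_smul, mul_one]
  simp

end CellData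

namespace Chart

variable (ch : Chart c ε D) {R : Type u} [CommRing R] [Algebra k R]

include ch in
/-- A unit on the curve over an affine base which is one at the section is one. -/
theorem eq_one_of_value (u : Γ(XR c R, ⊤)) (htop : ⊤ ≤ secR R c ε ⁻¹ᵁ ⊤)
    (h : pb (secR R c ε) htop u = 1) : u = 1 := by
  have hv : ch.value R (rs le_top u) = 1 := by
    rw [ch.value_eq, pb_rs]
    erw [h]
    rw [map_one]
  have hser : ch.expU R (rs le_top u) =
      HahnSeries.ofPowerSeries ℤ R (ch.expV R (rs le_top u)) := by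
    rw [← ch.expW_rsU', ← ch.expW_rsV', rs_rs, rs_rs]
  have htail : ch.expU R (rs le_top u) ∈ CellData.tailAt R 0 := by
    intro j hj
    rw [hser, HahnSeries.ofPowerSeries_apply]
    refine HahnSeries.embDomain_of_notMem_range ?_
    rintro ⟨n, hn⟩
    simp at hn
    omega
  have h0 : (ch.expU R (rs le_top u)).coeff 0 = 1 := by
    rw [hser, show (0 : ℤ) = ((0 : ℕ) : ℤ) from rfl, HahnSeries.ofPowerSeries_apply_coeff,
      PowerSeries.coeff_zero_eq_constantCoeff_apply]
    exact hv
  have hU : ch.expU R (rs le_top u) = 1 := by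
    rw [D.eq_C_of_mem_AR_tail (ch.expU_mem R _) htail, h0, map_one]
  have hV : ch.expV R (rs le_top u) = 1 := by
    refine HahnSeries.ofPowerSeries_injective (Γ := ℤ) ?_
    rw [← hser, hU, map_one]
  refine rs_ext (fun b : Bool => cond b (ch.XU R) (ch.XV R)) (fun _ => le_top) (fun x _ => ?_) _ _
    fun b => ?_
  · rcases ((Chart.XU_sup_XV (ch := ch) (R := R)).symm ▸ trivial : x ∈ ch.XU R ⊔ ch.XV R) with hx | hx
    · exact ⟨true, hx⟩
    · exact ⟨false, hx⟩
  cases b
  · rw [map_one]
    exact ch.expV_injective R (hV.trans (map_one _).symm)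
  · rw [map_one]
    exact ch.expU_injective R (hU.trans (map_one _).symm)

end Chart

/-- An open subscheme of an affine form around every point. -/
theorem exists_affineChart {T : Scheme.{u}} (t : T ⟶ Spec (CommRingCat.of k)) (x : T) (O : T.Opens)
    (hx : x ∈ O) :
    ∃ (R : Type u) (_ : CommRing R) (_ : Algebra k R) (ψ : SchemeHomOver (base (k := k) R) t)
      (_ : IsOpenImmersion ψ.1), x ∈ Set.range ψ.1 ∧ Set.range ψ.1 ⊆ O := by
  obtain ⟨W, hW, hxW, hWO⟩ := Opens.isBasis_iff_nbhd.mp T.isBasis_affineOpens hx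
  let str : CommRingCat.of k ⟶ Γ(T, W) := Spec.preimage (hW.fromSpec ≫ t)
  let : Algebra k Γ(T, W) := str.hom.toAlgebra
  refine ⟨Γ(T, W), inferInstance, str.hom.toAlgebra, ⟨hW.fromSpec, ?_⟩,
    hW.isOpenImmersion_fromSpec, ?_, ?_⟩
  · show hW.fromSpec ≫ t = Spec.map str
    rw [Spec.map_preimage]
  · rw [hW.range_fromSpec]
    exact hxW
  · rw [hW.range_fromSpec]
    exact hWO

variable {T T' : Scheme.{u}} {t : T ⟶ Spec (CommRingCat.of k)} {t' : T' ⟶ Spec (CommRingCat.of k)}

lemma baseChangeSnd_snd (ψ : SchemeHomOver t' t) :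
    baseChangeSnd c ψ ≫ pullback.snd c t = pullback.snd c t' ≫ ψ.1 := by
  simp only [baseChangeSnd, pullback.lift_snd]

lemma isPullback_baseChangeSnd (ψ : SchemeHomOver t' t) :
    IsPullback (baseChangeSnd c ψ) (pullback.snd c t') (pullback.snd c t) ψ.1 := by
  refine IsPullback.of_right (h₁₂ := pullback.fst c t) (v₁₃ := c) (h₂₂ := t) ?_
    (baseChangeSnd_snd ψ) (IsPullback.of_hasPullback c t)
  have h1 : baseChangeSnd c ψ ≫ pullback.fst c t = pullback.fst c t' := by
    simp only [baseChangeSnd, pullback.lift_fst, Category.comp_id]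
  rw [h1, ψ.2]
  exact IsPullback.of_hasPullback c t'

instance isOpenImmersion_baseChangeSnd (ψ : SchemeHomOver t' t) [IsOpenImmersion ψ.1] :
    IsOpenImmersion (baseChangeSnd c ψ) :=
  MorphismProperty.IsStableUnderBaseChange.of_isPullback (P := @IsOpenImmersion.{u})
    (isPullback_baseChangeSnd ψ).flip inferInstance

lemma opensRange_baseChangeSnd (ψ : SchemeHomOver t' t) [IsOpenImmersion ψ.1] :
    (baseChangeSnd c ψ).opensRange = pullback.snd c t ⁻¹ᵁ ψ.1.opensRange := by
  refine Opens.ext (Set.Subset.antisymm ?_ fun x hx => ?_)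
  · rintro _ ⟨y, rfl⟩
    refine ⟨pullback.snd c t' y, ?_⟩
    show ψ.1 (pullback.snd c t' y) = pullback.snd c t (baseChangeSnd c ψ y)
    rw [← Scheme.Hom.comp_apply, ← Scheme.Hom.comp_apply, baseChangeSnd_snd]
  · obtain ⟨y, hy⟩ := hx
    obtain ⟨z, hz, -⟩ := Scheme.Pullback.exists_preimage_pullback (f := pullback.snd c t) (g := ψ.1)
      x y hy.symm
    refine ⟨(isPullback_baseChangeSnd ψ).isoPullback.inv z, ?_⟩
    rw [← Scheme.Hom.comp_apply, IsPullback.isoPullback_inv_fst]
    exact hz

theorem Chart.rigidUnits (ch : Chart c ε D) (t : T ⟶ Spec (CommRingCat.of k)) :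
    RigidUnits (pullback.snd c t) (rigSection c t ε) := by
  intro O u _ hO hu
  let f := pullback.snd c t
  -- cover by affine charts
  refine rs_ext (fun W : {W : T.Opens // W ≤ O ∧ ∃ (R : Type u) (_ : CommRing R) (_ : Algebra k R)
      (ψ : SchemeHomOver (base (k := k) R) t) (_ : IsOpenImmersion ψ.1), ψ.1.opensRange = W} =>
        f ⁻¹ᵁ W.1) (fun W => f.preimage_mono W.2.1) (fun x hx => ?_) _ _ fun W => ?_
  · obtain ⟨R, iR, iA, ψ, hψ, hxψ, hψO⟩ := exists_affineChart t (f x) O hx
    exact ⟨⟨ψ.1.opensRange, fun y hy => hψO hy, R, iR, iA, ψ, hψ, rfl⟩, hxψ⟩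
  obtain ⟨W, hWO, R, iR, iA, ψ, hψ, rfl⟩ := W
  have htop : (⊤ : (XR c R).Opens) ≤ baseChangeSnd c ψ ⁻¹ᵁ (f ⁻¹ᵁ ψ.1.opensRange) := by
    rw [← opensRange_baseChangeSnd, Scheme.Hom.preimage_opensRange]
  have hb := bijective_pb (baseChangeSnd c ψ) (U := f ⁻¹ᵁ ψ.1.opensRange)
    (opensRange_baseChangeSnd ψ).ge htop le_top
  refine hb.1 ?_
  rw [map_one, map_one]
  refine ch.eq_one_of_value _ le_top ?_
  refine (pb_comp _ _ _ _ _).trans ((pb_rs _ _ _ _).trans ?_)
  rw [pb_congr (rigSection_baseChangeSnd c ε ψ)]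
  have hTO : (⊤ : (Spec (CommRingCat.of R)).Opens) ≤ ψ.1 ⁻¹ᵁ O := by
    intro y _
    exact hWO ⟨y, rfl⟩
  rw [← pb_comp ψ.1 (rigSection c t ε) (V := O) hO hTO, hu, map_one]

end FLTAgent.RelPic
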