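import Fermat.Agent.RelPic.RepFibres
import Fermat.Prelude.Def_AlgebraicGeometry_RelPicardAlgEquivZeroCut

/-!
Area S25, parcel G: algebraic equivalence to zero on the fibres is degree zero on the fibres.
-/

set_option autoImplicit false
set_option linter.unusedSectionVars false

noncomputable section

universe u

open CategoryTheory CategoryTheory.Limits AlgebraicGeometry TopologicalSpace ModularCurve
open AlgebraicGeometry.RelPicard NeronModelInfra

namespace FLTAgent.RelPic

section BaseChange

variable {R : Type u} [CommRing R] {X T T' : Scheme.{u}} (x : X ⟶ Spec (CommRingCat.of R))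
  {t : T ⟶ Spec (CommRingCat.of R)} {t' : T' ⟶ Spec (CommRingCat.of R)}

@[reassoc]
theorem bc_fst (u : SchemeHomOver t' t) :
    baseChangeSnd x u ≫ pullback.fst x t = pullback.fst x t' :=
  (pullback.lift_fst _ _ _).trans (Category.comp_id _)

@[reassoc]
theorem bc_snd (u : SchemeHomOver t' t) :
    baseChangeSnd x u ≫ pullback.snd x t = pullback.snd x t' ≫ u.1 :=
  pullback.lift_snd _ _ _

end BaseChange

variable {k : Type u} [Field k] [IsAlgClosed k] {C : Scheme.{u}}
variable {c : C ⟶ Spec (CommRingCat.of k)}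
variable {ε : SchemeHomOver (𝟙 (Spec (CommRingCat.of k))) c} {D : CellData k}
variable [Algebra.FiniteType k D.A] [IsDedekindDomain D.A] (ch : Chart c ε D)
variable {T : Scheme.{u}} {t : T ⟶ Spec (CommRingCat.of k)}

/-- a fibrewise trivial sheaf has degree zero at that fibre -/
theorem degAt_of_iso_unit {N : (pullback c t).Modules} (hN : Scheme.Modules.IsInvertible N)
    {K : Type u} [Field K] [Algebra k K] (s : SchemeHomOver (base (k := k) K) t)
    (e : Nonempty ((Scheme.Modules.pullback (baseChangeSnd c s)).obj N ≅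
      SheafOfModules.unit (XR c K).ringCatSheaf)) : DegAt hN ch s := by
  have e' : (Quotient.mk _ (fieldBundle (ε := ε) hN s) :
      RigidifiedLineBundle.Classes c ε (base (k := k) K)) =
      Quotient.mk _ (RigidifiedLineBundle.unit (base (k := k) K)) := Quotient.sound e
  show D.ClassDegZero K (ch.toClass _)
  rw [congrArg ch.toClass e', ch.toClass_unit]
  exact ⟨1, rfl, D.isDegZero_one⟩

/-- algebraic equivalence to zero at one fibre gives degree zero there -/
theorem degAt_of_isAlgEquivZero (M : RigidifiedLineBundle c ε t) {K : Type u} [Field K] [Algebra k K]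
    (s : SchemeHomOver (base (k := k) K) t)
    (h : IsAlgEquivZero (fibreAt c t s.1)
      ((Scheme.Modules.pullback (pullback.fst (pullback.snd c t) s.1)).obj M.L)) :
    DegAt M.isInvertible ch s := by
  obtain ⟨T', h', hft, hgi, N, hN, t₀, t₁, e₀, e₁⟩ := h
  let a := fibreAt c t s.1
  let t'' : T' ⟶ Spec (CommRingCat.of k) := h' ≫ base (k := k) K
  let e : pullback c t'' ⟶ pullback (pullback.snd c t) s.1 :=
    pullback.lift
      (pullback.lift (pullback.fst c t'') (pullback.snd c t'' ≫ h' ≫ s.1) (by
        rw [Category.assoc, Category.assoc, s.2]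
        exact pullback.condition))
      (pullback.snd c t'' ≫ h') (by rw [pullback.lift_snd, Category.assoc])
  let Φ : pullback c t'' ⟶ pullback a h' :=
    pullback.lift e (pullback.snd c t'') (pullback.lift_snd _ _ _)
  let w₀ : XR c K ⟶ pullback (pullback.snd c t) s.1 :=
    pullback.lift (baseChangeSnd c s) (pullback.snd c _) (pullback.lift_snd _ _ _)
  let w : XR c K ⟶ pullback a (𝟙 (Spec (CommRingCat.of K))) :=
    pullback.lift w₀ (pullback.snd c _) (by
      rw [Category.comp_id]
      exact pullback.lift_snd _ _ _)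
  let σ : SchemeHomOver (𝟙 (Spec (CommRingCat.of K))) h' →
      SchemeHomOver (base (k := k) K) t'' := fun u =>
    ⟨u.1, show u.1 ≫ h' ≫ base (k := k) K = base (k := k) K by
      rw [← Category.assoc, u.2, Category.id_comp]⟩
  have hΦ1 : Φ ≫ pullback.fst a h' = e := pullback.lift_fst _ _ _
  have hΦ2 : Φ ≫ pullback.snd a h' = pullback.snd c t'' := pullback.lift_snd _ _ _
  have he2 : e ≫ pullback.snd (pullback.snd c t) s.1 = pullback.snd c t'' ≫ h' :=
    pullback.lift_snd _ _ _
  have he11 : (e ≫ pullback.fst (pullback.snd c t) s.1) ≫ pullback.fst c t = pullback.fst c t'' := by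
    rw [show e ≫ pullback.fst (pullback.snd c t) s.1 = _ from pullback.lift_fst _ _ _,
      pullback.lift_fst]
  have he12 : (e ≫ pullback.fst (pullback.snd c t) s.1) ≫ pullback.snd c t =
      pullback.snd c t'' ≫ h' ≫ s.1 := by
    rw [show e ≫ pullback.fst (pullback.snd c t) s.1 = _ from pullback.lift_fst _ _ _,
      pullback.lift_snd]
  have hw1 : w ≫ pullback.fst a (𝟙 _) = w₀ := pullback.lift_fst _ _ _
  have hw2 : w ≫ pullback.snd a (𝟙 _) = pullback.snd c (base (k := k) K) := pullback.lift_snd _ _ _
  have hw01 : w₀ ≫ pullback.fst (pullback.snd c t) s.1 = baseChangeSnd c s := pullback.lift_fst _ _ _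
  have hw02 : w₀ ≫ pullback.snd (pullback.snd c t) s.1 = pullback.snd c (base (k := k) K) :=
    pullback.lift_snd _ _ _
  have hsq : ∀ u, baseChangeSnd c (σ u) ≫ Φ = w ≫ baseChangeSnd a u := fun u => by
    have hσ : (σ u).1 = u.1 := rfl
    apply pullback.hom_ext
    · rw [Category.assoc, hΦ1, Category.assoc, bc_fst, hw1]
      apply pullback.hom_ext
      · rw [hw01]
        apply pullback.hom_ext
        · rw [Category.assoc, Category.assoc, ← Category.assoc e, he11, bc_fst, bc_fst]
        · rw [Category.assoc, Category.assoc, ← Category.assoc e, he12, bc_snd_assoc, hσ, bc_snd,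
            reassoc_of% u.2]
      · rw [Category.assoc, he2, hw02, bc_snd_assoc, hσ, u.2, Category.comp_id]
    · rw [Category.assoc, hΦ2, Category.assoc, bc_snd, bc_snd, hσ, reassoc_of% hw2]
  have hN' : Scheme.Modules.IsInvertible ((Scheme.Modules.pullback Φ).obj N) := hN.pullback Φ
  let iso : ∀ u, (Scheme.Modules.pullback (baseChangeSnd c (σ u))).obj
      ((Scheme.Modules.pullback Φ).obj N) ≅
      (Scheme.Modules.pullback w).obj ((Scheme.Modules.pullback (baseChangeSnd a u)).obj N) :=
    fun u => (Scheme.Modules.pullbackComp _ _).app N ≪≫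
      (Scheme.Modules.pullbackCongr (hsq u)).app N ≪≫
      ((Scheme.Modules.pullbackComp _ _).app N).symm
  have : IsIntegral T' := GeometricallyIntegral.isIntegral_of_subsingleton h'
  have h0 : DegAt hN' ch (σ t₀) := degAt_of_iso_unit ch hN' _
    ⟨iso t₀ ≪≫ (Scheme.Modules.pullback w).mapIso e₀.some ≪≫ Scheme.Modules.pullbackUnitIso w⟩
  have h1 := (degAt_iff_of_preconnected hN' ch (σ t₀) (σ t₁)).mp h0
  have hw : w ≫ pullback.fst a (𝟙 _) ≫ pullback.fst (pullback.snd c t) s.1 = baseChangeSnd c s := by
    rw [reassoc_of% hw1, hw01]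
  have eM : (Quotient.mk _ (fieldBundle (ε := ε) hN' (σ t₁)) :
      RigidifiedLineBundle.Classes c ε (base (k := k) K)) =
      Quotient.mk _ (fieldBundle M.isInvertible s) :=
    Quotient.sound ⟨iso t₁ ≪≫ (Scheme.Modules.pullback w).mapIso
      (e₁.some ≪≫ (Scheme.Modules.pullbackComp _ _).app M.L) ≪≫
      (Scheme.Modules.pullbackComp _ _).app M.L ≪≫ (Scheme.Modules.pullbackCongr hw).app M.L⟩
  exact (iff_of_eq (congrArg (fun x => D.ClassDegZero K (ch.toClass x)) eM)).mp h1

/-- algebraic equivalence to zero on the fibres gives degree zero -/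
theorem isDegZeroClass_of_fibrewiseAlgEquivZero (M : RigidifiedLineBundle c ε t)
    (hM : FibrewiseAlgEquivZero M) : IsDegZeroClass ch t (Quotient.mk _ M) := by
  intro K _ _ s
  let f := IsScalarTower.toAlgHom k K (AlgebraicClosure K)
  refine (degAt_bundle ch M s).mp ((degAt_map M.isInvertible ch f s).mp ?_)
  exact degAt_of_isAlgEquivZero ch M _ (hM (AlgebraicClosure K) (overComp (baseHom f) s).1)

variable {ch}

/-- degree zero on the fibres gives algebraic equivalence to zero on the fibres -/
theorem Rep.fibrewiseAlgEquivZero (r : Rep ch) [GeometricallyIntegral r.π]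
    (M : RigidifiedLineBundle c ε t) (hM : IsDegZeroClass ch t (Quotient.mk _ M)) :
    FibrewiseAlgEquivZero M := by
  intro K _ _ s
  let : Algebra k K := (Spec.preimage (s ≫ t)).hom.toAlgebra
  let s' : SchemeHomOver (base (k := k) K) t := ⟨s, (Spec.map_preimage _).symm⟩
  obtain ⟨g₁, hg₁, -⟩ := r.existsUnique (base (k := k) K) _ (hM.classesMap ch s')
  obtain ⟨g₀, hg₀, -⟩ := r.existsUnique (base (k := k) K) _
    (isDegZeroClass_unit ch (base (k := k) K))
  let U := r.univ.out
  have hU : (Quotient.mk _ U : RigidifiedLineBundle.Classes c ε r.π) = r.univ := Quotient.out_eq _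
  let T' : Scheme.{u} := pullback r.π (base (k := k) K)
  let h' : T' ⟶ Spec (CommRingCat.of K) := pullback.snd r.π (base (k := k) K)
  have := r.locallyOfFiniteType
  have hft : LocallyOfFiniteType h' := inferInstance
  have hgi : GeometricallyIntegral h' := inferInstance
  let σ : SchemeHomOver (base (k := k) K) r.π → SchemeHomOver (𝟙 (Spec (CommRingCat.of K))) h' :=
    fun g => ⟨pullback.lift g.1 (𝟙 _) (by rw [g.2, Category.id_comp]), pullback.lift_snd _ _ _⟩
  let a := fibreAt c t s
  let Φ : pullback a h' ⟶ pullback c r.π :=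
    pullback.lift (pullback.fst a h' ≫ pullback.fst _ s ≫ pullback.fst c t)
      (pullback.snd a h' ≫ pullback.fst r.π _) (by
      rw [Category.assoc, Category.assoc, Category.assoc, pullback.condition,
        pullback.condition, pullback.condition_assoc, show s ≫ t = base (k := k) K from s'.2]
      show pullback.fst a h' ≫ a ≫ base (k := k) K = _
      rw [pullback.condition_assoc])
  let w : pullback a (𝟙 (Spec (CommRingCat.of K))) ⟶ XR c K :=
    pullback.lift (pullback.fst a _ ≫ pullback.fst _ s ≫ pullback.fst c t) (pullback.snd a _) (by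
      rw [Category.assoc, Category.assoc, pullback.condition, pullback.condition_assoc,
        show s ≫ t = base (k := k) K from s'.2]
      show pullback.fst a _ ≫ a ≫ base (k := k) K = _
      rw [pullback.condition_assoc, Category.id_comp])
  have hΦ1 : Φ ≫ pullback.fst c r.π =
      pullback.fst a h' ≫ pullback.fst _ s ≫ pullback.fst c t := pullback.lift_fst _ _ _
  have hΦ2 : Φ ≫ pullback.snd c r.π = pullback.snd a h' ≫ pullback.fst r.π _ :=
    pullback.lift_snd _ _ _
  have hw1 : w ≫ pullback.fst c (base (k := k) K) =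
      pullback.fst a _ ≫ pullback.fst _ s ≫ pullback.fst c t := pullback.lift_fst _ _ _
  have hw2 : w ≫ pullback.snd c (base (k := k) K) = pullback.snd a _ := pullback.lift_snd _ _ _
  have hσ : ∀ g, (σ g).1 ≫ pullback.fst r.π _ = g.1 := fun g => pullback.lift_fst _ _ _
  have hsq : ∀ g, baseChangeSnd a (σ g) ≫ Φ = w ≫ baseChangeSnd c g := fun g => by
    apply pullback.hom_ext
    · rw [Category.assoc, hΦ1, Category.assoc, bc_fst, hw1, bc_fst_assoc]
    · rw [Category.assoc, hΦ2, Category.assoc, bc_snd, bc_snd_assoc, hσ, reassoc_of% hw2]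
  let iso : ∀ g, (Scheme.Modules.pullback (baseChangeSnd a (σ g))).obj
      ((Scheme.Modules.pullback Φ).obj U.L) ≅
      (Scheme.Modules.pullback w).obj ((Scheme.Modules.pullback (baseChangeSnd c g)).obj U.L) :=
    fun g => (Scheme.Modules.pullbackComp _ _).app U.L ≪≫
      (Scheme.Modules.pullbackCongr (hsq g)).app U.L ≪≫
      ((Scheme.Modules.pullbackComp _ _).app U.L).symm
  have hrel : ∀ (g : SchemeHomOver (base (k := k) K) r.π)
      (B : RigidifiedLineBundle c ε (base (k := k) K)),
      RigidifiedLineBundle.classesMap g r.univ = Quotient.mk _ B →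
      Nonempty ((Scheme.Modules.pullback (baseChangeSnd c g)).obj U.L ≅ B.L) := fun g B h => by
    rw [← hU] at h
    exact Quotient.exact h
  obtain ⟨b₀⟩ := hrel g₀ _ hg₀
  obtain ⟨b₁⟩ := hrel g₁ (M.pullbackAlong s') hg₁
  have hw : w ≫ baseChangeSnd c s' = pullback.fst a _ ≫ pullback.fst (pullback.snd c t) s := by
    apply pullback.hom_ext
    · rw [Category.assoc, bc_fst, hw1, Category.assoc]
    · rw [Category.assoc, bc_snd, reassoc_of% hw2, Category.assoc, pullback.condition]
      show _ = pullback.fst a _ ≫ a ≫ s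
      rw [pullback.condition_assoc, Category.id_comp]
  exact ⟨T', h', hft, hgi, (Scheme.Modules.pullback Φ).obj U.L, U.isInvertible.pullback Φ,
    σ g₀, σ g₁,
    ⟨iso g₀ ≪≫ (Scheme.Modules.pullback w).mapIso b₀ ≪≫ Scheme.Modules.pullbackUnitIso w⟩,
    ⟨iso g₁ ≪≫ (Scheme.Modules.pullback w).mapIso b₁ ≪≫
      (Scheme.Modules.pullbackComp _ _).app M.L ≪≫ (Scheme.Modules.pullbackCongr hw).app M.L ≪≫
      ((Scheme.Modules.pullbackComp _ _).app M.L).symm⟩⟩

end FLTAgent.RelPic

end
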