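/-
Area RelPic (S25): pieces from bundles on charts, isomorphisms of pieces from isomorphisms of bundles.
-/
import Fermat.Agent.RelPic.Descent

set_option autoImplicit false

noncomputable section

universe u

open CategoryTheory CategoryTheory.Limits AlgebraicGeometry TopologicalSpace Opposite

namespace FLTAgent.RelPic

variable {X Y T : Scheme.{u}}

namespace Cocycle

/-- The coordinates of an isomorphism. -/
theorem exists_coords (d d' : Cocycle Y) (φ : d'.module ≅ d.module) :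
    ∃ z : ∀ i l, Γ(Y, d.U i ⊓ d'.U l), (∀ i l, IsUnit (z i l)) ∧
      ∀ i i' l l' (W : Y.Opens) (hi : W ≤ d.U i) (hi' : W ≤ d.U i') (hl : W ≤ d'.U l)
        (hl' : W ≤ d'.U l'),
        rs (le_inf hi hi') (d.g i i') * rs (le_inf hi' hl') (z i' l') =
          rs (le_inf hl hl') (d'.g l l') * rs (le_inf hi hl) (z i l) := by
  let n : d'.Compat d.module := d'.family φ.hom
  have hn : ∀ l, IsFrame d.module (n.1 l) := fun l => (d'.isFrame l).map φ
  choose z hz using fun i l => (d.isFrame i).exists_smul (inf_le_left : d.U i ⊓ d'.U l ≤ d.U i)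
    (mrs d.module inf_le_right (n.1 l))
  refine ⟨z, fun i l => ?_, fun i i' l l' W hi hi' hl hl' => (d.isFrame i).ext hi ?_⟩
  · obtain ⟨w, hw⟩ := (hn l).exists_smul (inf_le_right : d.U i ⊓ d'.U l ≤ d'.U l)
      (mrs d.module inf_le_left (d.toSec (d.frame i)))
    rw [← hz i l, smul_smul] at hw
    refine IsUnit.of_mul_eq_one w ((d.isFrame i).ext inf_le_left ?_)
    rw [one_smul, mul_comm]
    exact hw
  · have h1 := congrArg (mrs d.module (le_inf hi hl : W ≤ d.U i ⊓ d'.U l)) (hz i l)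
    have h2 := congrArg (mrs d.module (le_inf hi' hl' : W ≤ d.U i' ⊓ d'.U l')) (hz i' l')
    simp only [mrs_smul, mrs_mrs] at h1 h2
    rw [mul_comm, ← smul_smul, ← d.frame_compat i i' W hi hi', h2, ← smul_smul, h1]
    exact n.2 l l' W hl hl'

end Cocycle

lemma isUnit_of_locally {U : X.Opens} {ι : Type*} (V : ι → X.Opens) (hV : ∀ i, V i ≤ U)
    (hcov : ∀ x ∈ U, ∃ i, x ∈ V i) (a : Γ(X, U)) (h : ∀ i, IsUnit (rs (hV i) a)) : IsUnit a := by
  refine RingedSpace.isUnit_of_isUnit_germ X.toRingedSpace _ _ fun x hx => ?_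
  obtain ⟨i, hi⟩ := hcov x hx
  exact (congrArg IsUnit (X.presheaf.germ_res_apply (homOfLE (hV i)) x hi a)).mp
    ((h i).map (X.presheaf.germ (V i) x hi).hom)

variable {p : X ⟶ T} {σ : T ⟶ X}

namespace Piece

variable (P Q : Piece p σ)

/-- A piece as a cocycle on a scheme mapping into its part of the source. -/
abbrev pull (f : Y ⟶ X) (h : ∀ y : Y, f y ∈ p ⁻¹ᵁ P.O) : Cocycle Y where
  ι := P.ι
  U i := f ⁻¹ᵁ P.U i
  cover y := P.cover (f y) (h y)
  g i j := pb f (U := P.U i ⊓ P.U j) (W := f ⁻¹ᵁ P.U i ⊓ f ⁻¹ᵁ P.U j) le_rfl (P.g i j)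
  isUnit i j := (P.isUnit i j).map _
  mul_eq i j l W hi hj hl := by
    have hW : W ≤ f ⁻¹ᵁ (P.U i ⊓ P.U j ⊓ P.U l) := preInf (preInf hi hj) hl
    have h := congrArg (pb f hW)
      (P.mul_eq i j l (P.U i ⊓ P.U j ⊓ P.U l) (inf_le_left.trans inf_le_left)
        (inf_le_left.trans inf_le_right) inf_le_right)
    rw [map_mul] at h
    exact (congr_arg₂ (· * ·) ((rs_pb f _ _ _).trans (pb_rs f hW _ _).symm)
      ((rs_pb f _ _ _).trans (pb_rs f hW _ _).symm)).trans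
      (h.trans ((rs_pb f _ _ _).trans (pb_rs f hW _ _).symm).symm)

variable {P Q} (hσ : σ ≫ p = 𝟙 T)

include hσ in
lemma pb_pb_self {O : T.Opens} {W : T.Opens} {V : X.Opens} (hV : V ≤ p ⁻¹ᵁ O) (hW : W ≤ σ ⁻¹ᵁ V)
    (hWO : W ≤ O) (v : Γ(T, O)) : pb σ hW (pb p hV v) = rs hWO v := by
  exact (pb_comp ..).trans ((pb_congr hσ ..).trans (pb_id ..))

include hσ in
/-- An isomorphism of the pulled back bundles on a chart gives a rigidified isomorphism. -/
theorem exists_iso_of_chart (f : Y ⟶ X) [IsOpenImmersion f] {O : T.Opens}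
    (hO : f.opensRange = p ⁻¹ᵁ O) (hP : ∀ y : Y, f y ∈ p ⁻¹ᵁ P.O) (hQ : ∀ y : Y, f y ∈ p ⁻¹ᵁ Q.O)
    (φ : (Q.pull f hQ).module ≅ (P.pull f hP).module) : Nonempty (Piece.Iso P Q O) := by
  obtain ⟨z₀, hz₀u, hz₀⟩ := (P.pull f hP).exists_coords (Q.pull f hQ) φ
  -- transport
  have hle : ∀ i l, p ⁻¹ᵁ O ⊓ (P.U i ⊓ Q.U l) ≤ f.opensRange := fun i l => hO ▸ inf_le_left
  have hW : ∀ i l, f ⁻¹ᵁ P.U i ⊓ f ⁻¹ᵁ Q.U l ≤ f ⁻¹ᵁ (p ⁻¹ᵁ O ⊓ (P.U i ⊓ Q.U l)) := fun i l =>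
    preInf (hO ▸ (fun y _ => ⟨y, rfl⟩)) (preInf inf_le_left inf_le_right)
  have hb : ∀ i l, Function.Bijective (pb f (hW i l)) := fun i l =>
    bijective_pb f (hle i l) (hW i l)
      (le_inf (f.preimage_mono (inf_le_right.trans inf_le_left))
        (f.preimage_mono (inf_le_right.trans inf_le_right)))
  choose z hz using fun i l => (hb i l).2 (z₀ i l)
  have hzu : ∀ i l, IsUnit (z i l) := by
    intro i l
    obtain ⟨w, hw⟩ := (hb i l).2 ↑(hz₀u i l).unit⁻¹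
    refine IsUnit.of_mul_eq_one w ((hb i l).1 ?_)
    rw [map_mul, hz, hw, IsUnit.mul_val_inv, map_one]
  have hrel : ∀ i i' l l' (W : X.Opens) (hO' : W ≤ p ⁻¹ᵁ O) (hi : W ≤ P.U i) (hi' : W ≤ P.U i')
      (hl : W ≤ Q.U l) (hl' : W ≤ Q.U l'),
      rs (le_inf hi hi') (P.g i i') * rs (le_inf hO' (le_inf hi' hl')) (z i' l') =
        rs (le_inf hl hl') (Q.g l l') * rs (le_inf hO' (le_inf hi hl)) (z i l) := by
    intro i i' l l' W hO' hi hi' hl hl'
    refine (bijective_pb f (hO ▸ hO') (le_refl (f ⁻¹ᵁ W)) le_rfl).1 ?_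
    have h := hz₀ i i' l l' (f ⁻¹ᵁ W) (f.preimage_mono hi) (f.preimage_mono hi')
      (f.preimage_mono hl) (f.preimage_mono hl')
    rw [← hz i l, ← hz i' l'] at h
    rw [map_mul, map_mul, pb_rs, pb_rs, pb_rs, pb_rs]
    refine Eq.trans ?_ (h.trans ?_)
    · exact congr_arg₂ (· * ·) (rs_pb f _ _ _).symm (rs_pb f _ _ _).symm
    · exact congr_arg₂ (· * ·) (rs_pb f _ _ _) (rs_pb f _ _ _)
  -- normalisation
  let V : P.ι × Q.ι → T.Opens := fun q => O ⊓ (σ ⁻¹ᵁ P.U q.1 ⊓ σ ⁻¹ᵁ Q.U q.2)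
  have hVσ : ∀ q, V q ≤ σ ⁻¹ᵁ (p ⁻¹ᵁ O ⊓ (P.U q.1 ⊓ Q.U q.2)) := fun q =>
    preInf (inf_le_left.trans (Iso.le_preimage_preimage hσ O))
      (preInf (inf_le_right.trans inf_le_left) (inf_le_right.trans inf_le_right))
  have hcov : ∀ t ∈ O, ∃ q, t ∈ V q := fun t ht => by
    obtain ⟨y, hy⟩ : σ t ∈ f.opensRange := hO ▸ Iso.le_preimage_preimage hσ O ht
    obtain ⟨i, hi⟩ := P.cover (σ t) (hy ▸ hP y)
    obtain ⟨l, hl⟩ := Q.cover (σ t) (hy ▸ hQ y)
    exact ⟨(i, l), ht, hi, hl⟩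
  obtain ⟨v, hv⟩ := rs_glue V (fun _ => inf_le_left) hcov
    (fun q => pb σ (hVσ q) (z q.1 q.2) * rs (inf_le_right.trans inf_le_left) (P.a q.1) *
      rs (inf_le_right.trans inf_le_right) (↑(Q.isUnit_a q.2).unit⁻¹)) fun q q' => by
    let W := V q ⊓ V q'
    have hi : W ≤ σ ⁻¹ᵁ P.U q.1 := inf_le_left.trans (inf_le_right.trans inf_le_left)
    have hl : W ≤ σ ⁻¹ᵁ Q.U q.2 := inf_le_left.trans (inf_le_right.trans inf_le_right)
    have hi' : W ≤ σ ⁻¹ᵁ P.U q'.1 := inf_le_right.trans (inf_le_right.trans inf_le_left)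
    have hl' : W ≤ σ ⁻¹ᵁ Q.U q'.2 := inf_le_right.trans (inf_le_right.trans inf_le_right)
    have hWO : W ≤ σ ⁻¹ᵁ (p ⁻¹ᵁ O) :=
      inf_le_left.trans (inf_le_left.trans (Iso.le_preimage_preimage hσ O))
    have hA : W ≤ σ ⁻¹ᵁ (p ⁻¹ᵁ O ⊓ ((P.U q.1 ⊓ P.U q'.1) ⊓ (Q.U q.2 ⊓ Q.U q'.2))) :=
      preInf hWO (preInf (preInf hi hi') (preInf hl hl'))
    have h := congrArg (pb σ hA) (hrel q.1 q'.1 q.2 q'.2
      (p ⁻¹ᵁ O ⊓ ((P.U q.1 ⊓ P.U q'.1) ⊓ (Q.U q.2 ⊓ Q.U q'.2))) inf_le_left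
      (inf_le_right.trans (inf_le_left.trans inf_le_left))
      (inf_le_right.trans (inf_le_left.trans inf_le_right))
      (inf_le_right.trans (inf_le_right.trans inf_le_left))
      (inf_le_right.trans (inf_le_right.trans inf_le_right)))
    rw [map_mul, map_mul, pb_rs, pb_rs, pb_rs, pb_rs] at h
    have ea := P.a_eq q.1 q'.1 W hi hi'
    have eb := Q.a_eq q.2 q'.2 W hl hl'
    have e1 : rs hl (Q.a q.2) * rs hl (↑(Q.isUnit_a q.2).unit⁻¹) = 1 := by
      rw [← map_mul, IsUnit.mul_val_inv, map_one]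
    have e2 : rs hl' (Q.a q'.2) * rs hl' (↑(Q.isUnit_a q'.2).unit⁻¹) = 1 := by
      rw [← map_mul, IsUnit.mul_val_inv, map_one]
    simp only [map_mul, rs_rs, rs_pb]
    exact agree_eq _ _ _ _ _ _ _ _ _ _ h ea eb e1 e2
  have hvu : IsUnit v := isUnit_of_locally V (fun _ => inf_le_left) hcov v fun q => by
    rw [hv q]
    exact (((hzu q.1 q.2).map _).mul ((P.isUnit_a q.1).map _)).mul ((Units.isUnit _).map _)
  let w : ∀ i l, Γ(X, p ⁻¹ᵁ O ⊓ (P.U i ⊓ Q.U l)) := fun i l =>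
    z i l * pb p inf_le_left (↑hvu.unit⁻¹ : Γ(T, O))
  refine ⟨⟨w, fun i l => (hzu i l).mul ((Units.isUnit _).map _),
    fun i i' l l' W hO' hi hi' hl hl' => ?_, fun i l W hO' hi hl => ?_⟩⟩
  · simp only [w, map_mul, rs_pb, ← mul_assoc]
    rw [hrel i i' l l' W hO' hi hi' hl hl']
  · have hWO : W ≤ O := by
      rw [← Scheme.Hom.comp_preimage, hσ, Scheme.Hom.id_preimage] at hO'
      exact hO'
    have hWV : W ≤ V (i, l) := le_inf hWO (le_inf hi hl)
    have e := congrArg (rs hWV) (hv (i, l))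
    simp only [map_mul, rs_rs, rs_pb] at e
    have e1 : rs hl (Q.a l) * rs hl (↑(Q.isUnit_a l).unit⁻¹) = 1 := by
      rw [← map_mul, IsUnit.mul_val_inv, map_one]
    have e2 : rs hWO v * rs hWO (↑hvu.unit⁻¹) = 1 := by
      rw [← map_mul, IsUnit.mul_val_inv, map_one]
    simp only [w, map_mul]
    rw [pb_pb_self hσ inf_le_left (preInf hO' (preInf hi hl)) hWO]
    exact normal_eq' _ _ _ _ _ _ e e1 e2
where
  agree_eq {A : Type u} [CommRing A] (g g' z z' a a' b b' bi bi' : A) (h : g * z' = g' * z)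
      (ea : a' = g * a) (eb : b' = g' * b) (e1 : b * bi = 1) (e2 : b' * bi' = 1) :
      z * a * bi = z' * a' * bi' := by
    subst ea eb
    linear_combination -(a * bi') * h - (z * a * bi) * e2 + (z * a * g' * bi') * e1
  normal_eq' {A : Type u} [CommRing A] (z a b bi v vi : A) (e : v = z * a * bi) (e1 : b * bi = 1)
      (e2 : v * vi = 1) : b = z * vi * a := by
    subst e
    linear_combination -b * e2 + (z * a * vi) * e1

/-- Pieces on everything with a rigidified isomorphism give isomorphic bundles. -/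
theorem nonempty_module_iso (hP : ∀ x : X, x ∈ p ⁻¹ᵁ P.O) (hQ : ∀ x : X, x ∈ p ⁻¹ᵁ Q.O)
    {O : T.Opens} (hO : ⊤ ≤ O) (φ : Piece.Iso P Q O) :
    Nonempty ((Q.pull (𝟙 X) hQ).module ≅ (P.pull (𝟙 X) hP).module) := by
  let d := P.pull (𝟙 X) hP
  let d' := Q.pull (𝟙 X) hQ
  have hle : ∀ q : d'.ι × d.ι, d'.U q.1 ⊓ d.U q.2 ≤ p ⁻¹ᵁ O ⊓ (P.U q.2 ⊓ Q.U q.1) :=
    fun q => le_inf (le_top.trans (p.preimage_mono hO)) (le_inf inf_le_right inf_le_left)
  let n : (d'.refine' d).Compat d.module := ⟨fun q =>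
    rs (hle q) (φ.z q.2 q.1) • mrs d.module inf_le_right (d.toSec (d.frame q.2)),
    fun q q' W hq hq' => by
      simp only [mrs_smul, mrs_mrs, rs_rs]
      rw [d.frame_compat q.2 q'.2 W (hq.trans inf_le_right) (hq'.trans inf_le_right), smul_smul,
        smul_smul]
      refine congrArg (· • _) ?_
      have hO' : W ≤ p ⁻¹ᵁ O := le_top.trans (p.preimage_mono hO)
      have e := φ.rel q.2 q'.2 q.1 q'.1 W hO' (hq.trans inf_le_right) (hq'.trans inf_le_right)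
        (hq.trans inf_le_left) (hq'.trans inf_le_left)
      show rs _ (φ.z q'.2 q'.1) * rs _ (pb (𝟙 X) _ (P.g q.2 q'.2)) =
        rs _ (pb (𝟙 X) _ (Q.g q.1 q'.1)) * rs _ (φ.z q.2 q.1)
      refine (congr_arg₂ (fun a b => _ * a = b * _)
        ((congrArg _ (pb_id _ _)).trans (rs_rs _ _ _))
        ((congrArg _ (pb_id _ _)).trans (rs_rs _ _ _))).mpr ?_
      rw [mul_comm]
      exact e⟩
  refine ⟨(d'.refineIso d).symm ≪≫ (d'.refine' d).isoOfFrames n fun q W hW => ?_⟩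
  have hu : IsUnit (rs hW (rs (hle q) (φ.z q.2 q.1))) := ((φ.isUnit q.2 q.1).map _).map _
  have hb := hu.unit.mulRight.bijective
  have := ((d.isFrame q.2).restrict (inf_le_right : d'.U q.1 ⊓ d.U q.2 ≤ d.U q.2) W hW).comp hb
  simpa only [n, Function.comp_def, Units.mulRight_apply, IsUnit.unit_spec, mrs_smul,
    smul_smul] using! this

end Piece

/-- A bundle with a trivialisation along the section, on a chart, gives a piece. -/
theorem exists_piece {S : Scheme.{u}} (f : Y ⟶ X) [IsOpenImmersion f] (j : S ⟶ T) [IsOpenImmersion j]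
    (τ : S ⟶ Y) (hτ : τ ≫ f = j ≫ σ) (hσ : σ ≫ p = 𝟙 T) (hf : f.opensRange = p ⁻¹ᵁ j.opensRange)
    (d : Cocycle Y) (h : Nonempty ((d.comap τ).module ≅ unitM S)) :
    ∃ (P : Piece p σ) (_ : P.O = j.opensRange) (hP : ∀ y : Y, f y ∈ p ⁻¹ᵁ P.O),
      Nonempty ((P.pull f hP).module ≅ d.module) := by
  obtain ⟨φ⟩ := h
  -- values at the section
  have hav : ∃ av : ∀ i, Γ(S, τ ⁻¹ᵁ d.U i), (∀ i, IsUnit (av i)) ∧
      ∀ i l (W : S.Opens) (hi : W ≤ τ ⁻¹ᵁ d.U i) (hl : W ≤ τ ⁻¹ᵁ d.U l),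
        rs hl (av l) = pb τ (preInf hi hl) (d.g i l) * rs hi (av i) := by
    have hfr : ∀ i, IsFrame (unitM S) (((d.comap τ).family φ.hom).1 i) := fun i =>
      ((d.comap τ).isFrame i).map φ
    refine ⟨((d.comap τ).family φ.hom).1, fun i => ?_, fun i l W hi hl => ?_⟩
    · obtain ⟨r, hr⟩ := (hfr i).exists_smul (le_refl _) (1 : Γ(S, τ ⁻¹ᵁ d.U i))
      have h1 : r * rs (le_refl _) (((d.comap τ).family φ.hom).1 i) = 1 := hr
      refine IsUnit.of_mul_eq_one r ((mul_comm _ _).trans ?_)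
      refine Eq.trans ?_ h1
      exact congrArg (fun z : Γ(S, τ ⁻¹ᵁ d.U i) => r * z) (rs_self _).symm
    · refine Eq.trans (((d.comap τ).family φ.hom).2 i l W hi hl) ?_
      exact congrArg (fun z : Γ(S, W) =>
        z * rs hi (show Γ(S, τ ⁻¹ᵁ d.U i) from ((d.comap τ).family φ.hom).1 i)) (rs_pb τ _ _ _)
  obtain ⟨av, havu, hav⟩ := hav
  let V : d.ι → X.Opens := fun i => f ''ᵁ d.U i
  have hVf : ∀ i, f ⁻¹ᵁ V i = d.U i := fun i => f.preimage_image_eq _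
  have hVr : ∀ i, V i ≤ f.opensRange := fun i => f.image_le_opensRange _
  have hW : ∀ i l, d.U i ⊓ d.U l ≤ f ⁻¹ᵁ (V i ⊓ V l) := fun i l =>
    preInf (inf_le_left.trans (hVf i).ge) (inf_le_right.trans (hVf l).ge)
  have hb : ∀ i l, Function.Bijective (pb f (hW i l)) := fun i l =>
    bijective_pb f (inf_le_left.trans (hVr i)) (hW i l)
      (le_inf ((f.preimage_mono inf_le_left).trans (hVf i).le)
        ((f.preimage_mono inf_le_right).trans (hVf l).le))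
  choose g hg using fun i l => (hb i l).2 (d.g i l)
  have hσV : ∀ i, σ ⁻¹ᵁ V i ≤ j.opensRange := fun i t ht => by
    have h' : σ t ∈ p ⁻¹ᵁ j.opensRange := hf ▸ hVr i ht
    have h'' : (σ ≫ p) t ∈ j.opensRange := h'
    rw [hσ] at h''
    exact h''
  have hja : ∀ i, τ ⁻¹ᵁ d.U i = j ⁻¹ᵁ (σ ⁻¹ᵁ V i) := fun i => by
    rw [← hVf i, ← Scheme.Hom.comp_preimage, hτ, Scheme.Hom.comp_preimage]
  choose a ha using fun i => (bijective_pb j (hσV i) (hja i).le (hja i).ge).2 (av i)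
  have hgu : ∀ i l, IsUnit (g i l) := by
    intro i l
    obtain ⟨w, hw⟩ := (hb i l).2 ↑(d.isUnit i l).unit⁻¹
    refine IsUnit.of_mul_eq_one w ((hb i l).1 ?_)
    rw [map_mul, hg, hw, IsUnit.mul_val_inv, map_one]
  have hau : ∀ i, IsUnit (a i) := by
    intro i
    obtain ⟨w, hw⟩ := (bijective_pb j (hσV i) (hja i).le (hja i).ge).2 ↑(havu i).unit⁻¹
    refine IsUnit.of_mul_eq_one w ((bijective_pb j (hσV i) (hja i).le (hja i).ge).1 ?_)
    rw [map_mul, ha, hw, IsUnit.mul_val_inv, map_one]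
  let P : Piece p σ :=
    { O := j.opensRange
      ι := d.ι
      U := V
      le := fun i => hf ▸ hVr i
      cover := fun x hx => by
        obtain ⟨y, rfl⟩ : x ∈ f.opensRange := hf ▸ hx
        obtain ⟨i, hi⟩ := d.cover y
        exact ⟨i, y, hi, rfl⟩
      g := g
      isUnit := hgu
      mul_eq := fun i l m W hi hl hm => by
        refine (bijective_pb f (hi.trans (hVr i)) (le_refl (f ⁻¹ᵁ W)) le_rfl).1 ?_
        have h := d.mul_eq i l m (f ⁻¹ᵁ W) ((f.preimage_mono hi).trans (hVf i).le)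
          ((f.preimage_mono hl).trans (hVf l).le) ((f.preimage_mono hm).trans (hVf m).le)
        rw [← hg i l, ← hg l m, ← hg i m] at h
        rw [map_mul, pb_rs, pb_rs, pb_rs]
        refine Eq.trans ?_ (h.trans (rs_pb f _ _ _))
        exact congr_arg₂ (· * ·) (rs_pb f _ _ _).symm (rs_pb f _ _ _).symm
      a := a
      isUnit_a := hau
      a_eq := fun i l W hi hl => by
        refine (bijective_pb j (hi.trans (hσV i)) (le_refl (j ⁻¹ᵁ W)) le_rfl).1 ?_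
        have hi' : j ⁻¹ᵁ W ≤ τ ⁻¹ᵁ d.U i := (j.preimage_mono hi).trans (hja i).ge
        have hl' : j ⁻¹ᵁ W ≤ τ ⁻¹ᵁ d.U l := (j.preimage_mono hl).trans (hja l).ge
        have h := hav i l (j ⁻¹ᵁ W) hi' hl'
        rw [← hg i l, ← ha i, ← ha l, pb_comp, rs_pb, rs_pb, pb_congr hτ] at h
        rw [map_mul, pb_rs, pb_rs, pb_comp]
        exact h }
  have hP : ∀ y : Y, f y ∈ p ⁻¹ᵁ P.O := fun y => hf ▸ ⟨y, rfl⟩
  refine ⟨P, rfl, hP, ⟨(P.pull f hP).isoOfFrames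
    ⟨fun i => mrs d.module (hVf i).le (d.toSec (d.frame i)), fun i l W hi hl => ?_⟩ fun i =>
      (d.isFrame i).restrict _⟩⟩
  rw [mrs_mrs, mrs_mrs, d.frame_compat i l W (hi.trans (hVf i).le) (hl.trans (hVf l).le)]
  refine congrArg (· • _) ?_
  rw [← hg i l, rs_pb]
  exact (rs_pb f _ _ _).symm

end FLTAgent.RelPic
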