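/-
Area RelPic (S25): classes of rigidified bundles form a sheaf for affine charts of the base.
-/
import Fermat.Agent.RelPic.AffineCharts
import Fermat.Agent.RelPic.Transport

set_option autoImplicit false

noncomputable section

universe u

open CategoryTheory CategoryTheory.Limits AlgebraicGeometry TopologicalSpace ModularCurve
open AlgebraicGeometry.RelPicard NeronModelInfra

namespace FLTAgent.RelPic

namespace Piece

variable {X Y T : Scheme.{u}} {p : X ⟶ T} {σ : T ⟶ X} (P : Piece p σ)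

/-- Pieces pulled along equal maps. -/
def pullCongr {f f' : Y ⟶ X} (e : f = f') (h : ∀ y : Y, f y ∈ p ⁻¹ᵁ P.O) :
    (P.pull f h).module ≅ (P.pull f' (e ▸ h)).module := by
  subst e
  exact CategoryTheory.Iso.refl _

/-- Pullback of a pulled back piece. -/
def pullComp {Z : Scheme.{u}} (g : Z ⟶ Y) (f : Y ⟶ X) (h : ∀ y : Y, f y ∈ p ⁻¹ᵁ P.O)
    (h' : ∀ z : Z, (g ≫ f) z ∈ p ⁻¹ᵁ P.O) :
    (Scheme.Modules.pullback g).obj (P.pull f h).module ≅ (P.pull (g ≫ f) h').module :=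
  (P.pull f h).pullbackIso g ≪≫ ((P.pull (g ≫ f) h').isoOfFrames
    ⟨fun i => ((P.pull f h).comap g).toSec (((P.pull f h).comap g).frame i), fun i l W hi hl => by
      refine (((P.pull f h).comap g).frame_compat i l W hi hl).trans (congrArg (· • _) ?_)
      refine (rs_pb g _ _ _).trans ((pb_comp g f _ _ _).trans ?_)
      exact (rs_pb (g ≫ f) _ _ _).symm⟩
    fun i => ((P.pull f h).comap g).isFrame i).symm

end Piece

namespace Datum

variable {X Y T : Scheme.{u}} {p : X ⟶ T} {σ : T ⟶ X} (𝒟 : Datum p σ) (hσ : σ ≫ p = 𝟙 T)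
  (hr : RigidUnits p σ)

/-- The glued bundle restricts to each piece. -/
def pullIso (f : Y ⟶ X) (a : 𝒟.α) (h : ∀ y : Y, f y ∈ p ⁻¹ᵁ (𝒟.P a).O) :
    (Scheme.Modules.pullback f).obj (𝒟.cocycle hσ hr).module ≅ ((𝒟.P a).pull f h).module :=
  (𝒟.cocycle hσ hr).pullbackIso f ≪≫ (((𝒟.P a).pull f h).isoOfFrames
    ⟨fun i => ((𝒟.cocycle hσ hr).comap f).toSec (((𝒟.cocycle hσ hr).comap f).frame ⟨a, i⟩),
      fun i l W hi hl => by
      refine (((𝒟.cocycle hσ hr).comap f).frame_compat ⟨a, i⟩ ⟨a, l⟩ W hi hl).trans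
        (congrArg (· • _) ?_)
      have hW : W ≤ f ⁻¹ᵁ ((𝒟.P a).U i ⊓ (𝒟.P a).U l) := preInf hi hl
      have hO : (𝒟.P a).U i ⊓ (𝒟.P a).U l ≤ p ⁻¹ᵁ (𝒟.P a).O :=
        inf_le_left.trans ((𝒟.P a).le i)
      have e := congrArg (pb f hW) (𝒟.rs_g hσ hr i l le_rfl le_rfl (Piece.Iso.refl _ _)
        ((𝒟.P a).U i ⊓ (𝒟.P a).U l) hO inf_le_left inf_le_right)
      simp only [Piece.Iso.refl, rs_rs, pb_rs] at e
      refine (rs_pb f _ _ _).trans (e.trans ?_)
      exact (rs_pb f _ _ _).symm⟩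
    fun i => ((𝒟.cocycle hσ hr).comap f).isFrame ⟨a, i⟩).symm

end Datum

variable {k : Type u} [Field k] {C : Scheme.{u}} {c : C ⟶ Spec (CommRingCat.of k)}
variable {ε : SchemeHomOver (𝟙 (Spec (CommRingCat.of k))) c} {D : CellData k}
variable {T T' T'' : Scheme.{u}} {t : T ⟶ Spec (CommRingCat.of k)}
  {t' : T' ⟶ Spec (CommRingCat.of k)} {t'' : T'' ⟶ Spec (CommRingCat.of k)}

lemma classesMap_id (x : RigidifiedLineBundle.Classes c ε t)
    (h : 𝟙 T ≫ t = t) : RigidifiedLineBundle.classesMap ⟨𝟙 T, h⟩ x = x := by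
  induction x using Quotient.ind with | _ M =>
  exact Quotient.sound ⟨(Scheme.Modules.pullbackCongr (baseChangeSnd_id c t)).app M.L ≪≫
    (Scheme.Modules.pullbackId (pullback c t)).app M.L⟩

lemma classesMap_classesMap (φ : SchemeHomOver t' t) (ψ : SchemeHomOver t'' t')
    (x : RigidifiedLineBundle.Classes c ε t) :
    RigidifiedLineBundle.classesMap ψ (RigidifiedLineBundle.classesMap φ x) =
      RigidifiedLineBundle.classesMap (postComp φ ψ) x := by
  induction x using Quotient.ind with | _ M =>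
  exact Quotient.sound ⟨(Scheme.Modules.pullbackComp _ _).app M.L ≪≫
    (Scheme.Modules.pullbackCongr (baseChangeSnd_comp c φ ψ)).app M.L⟩

variable (c ε) in
lemma sec_snd (t : T ⟶ Spec (CommRingCat.of k)) :
    rigSection c t ε ≫ pullback.snd c t = 𝟙 T :=
  pullback.lift_snd _ _ _

/-- A rigidified bundle on an open piece of the base as a piece. -/
theorem exists_piece_of_chart (ψ : SchemeHomOver t' t) [IsOpenImmersion ψ.1]
    (N : RigidifiedLineBundle c ε t') :
    ∃ (P : Piece (pullback.snd c t) (rigSection c t ε)) (_ : P.O = ψ.1.opensRange)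
      (hP : ∀ y : ↥(pullback c t'), baseChangeSnd c ψ y ∈ pullback.snd c t ⁻¹ᵁ P.O),
      Nonempty ((P.pull (baseChangeSnd c ψ) hP).module ≅ N.L) := by
  obtain ⟨d, -, ⟨φ⟩⟩ := exists_cocycle N.isInvertible
  obtain ⟨P, hO, hP, ⟨e⟩⟩ := exists_piece (baseChangeSnd c ψ) ψ.1 (rigSection c t' ε)
    (rigSection_baseChangeSnd c ε ψ) (sec_snd c ε t) (opensRange_baseChangeSnd ψ) d
    ⟨(d.pullbackIso _).symm ≪≫ (Scheme.Modules.pullback _).mapIso φ ≪≫ N.rigidified.some⟩
  exact ⟨P, hO, hP, ⟨e ≪≫ φ⟩⟩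

/-- A rigidified bundle as a piece. -/
theorem exists_piece_of_bundle (M : RigidifiedLineBundle c ε t) :
    ∃ (P : Piece (pullback.snd c t) (rigSection c t ε)) (_ : P.O = ⊤)
      (hP : ∀ x : ↥(pullback c t), x ∈ pullback.snd c t ⁻¹ᵁ P.O),
      Nonempty ((P.pull (𝟙 _) hP).module ≅ M.L) := by
  obtain ⟨d, -, ⟨φ⟩⟩ := exists_cocycle M.isInvertible
  obtain ⟨P, hO, hP, ⟨e⟩⟩ := exists_piece (p := pullback.snd c t) (σ := rigSection c t ε)
    (𝟙 (pullback c t)) (𝟙 T) (rigSection c t ε) (by simp) (sec_snd c ε t) (by rw [Scheme.Hom.opensRange_of_isIso, Scheme.Hom.opensRange_of_isIso]; rfl) d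
    ⟨(d.pullbackIso _).symm ≪≫ (Scheme.Modules.pullback _).mapIso φ ≪≫ M.rigidified.some⟩
  exact ⟨P, hO.trans (Scheme.Hom.opensRange_of_isIso _), hP, ⟨e ≪≫ φ⟩⟩

/-- Bundles isomorphic on a cover of the base are isomorphic. -/
theorem nonempty_iso_of_charts (ch : Chart c ε D) (M M' : RigidifiedLineBundle c ε t)
    (h : ∀ x : T, ∃ (S : Scheme.{u}) (s : S ⟶ Spec (CommRingCat.of k)) (ψ : SchemeHomOver s t)
      (_ : IsOpenImmersion ψ.1), x ∈ Set.range ψ.1 ∧
        Nonempty ((M.pullbackAlong ψ).L ≅ (M'.pullbackAlong ψ).L)) :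
    Nonempty (M.L ≅ M'.L) := by
  obtain ⟨P, hPO, hP, ⟨eP⟩⟩ := exists_piece_of_bundle M
  obtain ⟨Q, hQO, hQ, ⟨eQ⟩⟩ := exists_piece_of_bundle M'
  choose S s ψ hψ hxψ hiso using h
  have hφ : ∀ x : T, Nonempty (Piece.Iso P Q (ψ x).1.opensRange) := fun x => by
    have := hψ x
    let f := baseChangeSnd c (ψ x)
    obtain ⟨φ⟩ := hiso x
    refine Piece.exists_iso_of_chart (sec_snd c ε t) f (opensRange_baseChangeSnd (ψ x))
      (fun y => hP (f y)) (fun y => hQ (f y)) ?_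
    exact (Q.pullCongr (Category.comp_id f) fun y => hQ _).symm ≪≫
      (Q.pullComp f (𝟙 _) hQ fun y => hQ _).symm ≪≫
      (Scheme.Modules.pullback f).mapIso eQ ≪≫ φ.symm ≪≫
      (Scheme.Modules.pullback f).mapIso eP.symm ≪≫
      P.pullComp f (𝟙 _) hP (fun y => hP _) ≪≫ P.pullCongr (Category.comp_id f) fun y => hP _
  obtain ⟨φ⟩ := Piece.Iso.exists_glue (O := ⊤) (sec_snd c ε t) (ch.rigidUnits t)
    (fun x : T => (ψ x).1.opensRange) (fun _ => le_top) (fun x _ => ⟨x, hxψ x⟩)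
    hPO.ge hQO.ge fun x => (hφ x).some
  obtain ⟨e⟩ := Piece.nonempty_module_iso hP hQ le_rfl φ
  exact ⟨eP.symm ≪≫ e.symm ≪≫ eQ⟩

/-- Classes agreeing on a cover of the base are equal. -/
theorem classes_ext (ch : Chart c ε D) (x y : RigidifiedLineBundle.Classes c ε t)
    (h : ∀ p : T, ∃ (S : Scheme.{u}) (s : S ⟶ Spec (CommRingCat.of k)) (ψ : SchemeHomOver s t)
      (_ : IsOpenImmersion ψ.1), p ∈ Set.range ψ.1 ∧
        RigidifiedLineBundle.classesMap ψ x = RigidifiedLineBundle.classesMap ψ y) : x = y := by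
  induction x using Quotient.ind with | _ M =>
  induction y using Quotient.ind with | _ M' =>
  refine Quotient.sound (nonempty_iso_of_charts ch M M' fun p => ?_)
  obtain ⟨S, s, ψ, hψ, hp, e⟩ := h p
  exact ⟨S, s, ψ, hψ, hp, Quotient.exact e⟩

/-- Compatible classes on a cover of the base glue. -/
theorem exists_glue_classes (ch : Chart c ε D) {α : Type u} (S : α → Scheme.{u})
    (s : ∀ a, S a ⟶ Spec (CommRingCat.of k)) (ψ : ∀ a, SchemeHomOver (s a) t)
    [∀ a, IsOpenImmersion (ψ a).1] (hcov : ∀ p : T, ∃ a, p ∈ Set.range (ψ a).1)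
    (x : ∀ a, RigidifiedLineBundle.Classes c ε (s a))
    (hx : ∀ a b (R : Type u) [CommRing R] [Algebra k R] (f : SchemeHomOver (base (k := k) R) (s a))
      (g : SchemeHomOver (base (k := k) R) (s b)), f.1 ≫ (ψ a).1 = g.1 ≫ (ψ b).1 →
        RigidifiedLineBundle.classesMap f (x a) = RigidifiedLineBundle.classesMap g (x b)) :
    ∃ y : RigidifiedLineBundle.Classes c ε t, ∀ a,
      RigidifiedLineBundle.classesMap (ψ a) y = x a := by
  choose N hN using fun a => Quotient.exists_rep (x a)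
  choose P hPO hP eP using fun a => exists_piece_of_chart (ψ a) (N a)
  have hov : ∀ a b, Nonempty (Piece.Iso (P a) (P b) ((P a).O ⊓ (P b).O)) := fun a b => by
    choose R iR iA χ hχ hpχ hχO using fun p : ↥((P a).O ⊓ (P b).O) =>
      exists_affineChart t p.1 ((P a).O ⊓ (P b).O) p.2
    have hφ : ∀ p, Nonempty (Piece.Iso (P a) (P b) (χ p).1.opensRange) := fun p => by
      have := hχ p
      have hle : ∀ y, (χ p).1 y ∈ (P a).O ⊓ (P b).O := fun y => hχO p ⟨y, rfl⟩
      have hra : Set.range (χ p).1 ⊆ Set.range (ψ a).1 := by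
        rintro _ ⟨y, rfl⟩
        exact (hPO a ▸ (hle y).1 : (χ p).1 y ∈ (ψ a).1.opensRange)
      have hrb : Set.range (χ p).1 ⊆ Set.range (ψ b).1 := by
        rintro _ ⟨y, rfl⟩
        exact (hPO b ▸ (hle y).2 : (χ p).1 y ∈ (ψ b).1.opensRange)
      let fa : SchemeHomOver (base (k := k) (R p)) (s a) :=
        ⟨IsOpenImmersion.lift (ψ a).1 (χ p).1 hra,
          (congrArg (IsOpenImmersion.lift (ψ a).1 (χ p).1 hra ≫ ·) (ψ a).2.symm).trans
            ((Category.assoc _ _ _).symm.trans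
              ((congrArg (· ≫ t) (IsOpenImmersion.lift_fac _ _ hra)).trans (χ p).2))⟩
      let fb : SchemeHomOver (base (k := k) (R p)) (s b) :=
        ⟨IsOpenImmersion.lift (ψ b).1 (χ p).1 hrb,
          (congrArg (IsOpenImmersion.lift (ψ b).1 (χ p).1 hrb ≫ ·) (ψ b).2.symm).trans
            ((Category.assoc _ _ _).symm.trans
              ((congrArg (· ≫ t) (IsOpenImmersion.lift_fac _ _ hrb)).trans (χ p).2))⟩
      have he := hx a b (R p) fa fb
        ((IsOpenImmersion.lift_fac _ _ hra).trans (IsOpenImmersion.lift_fac _ _ hrb).symm)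
      rw [← hN a, ← hN b] at he
      obtain ⟨φ⟩ := Quotient.exact he
      have ea : baseChangeSnd c fa ≫ baseChangeSnd c (ψ a) = baseChangeSnd c (χ p) := by
        rw [baseChangeSnd_comp]
        exact congrArg _ (Subtype.ext (IsOpenImmersion.lift_fac _ _ hra))
      have eb : baseChangeSnd c fb ≫ baseChangeSnd c (ψ b) = baseChangeSnd c (χ p) := by
        rw [baseChangeSnd_comp]
        exact congrArg _ (Subtype.ext (IsOpenImmersion.lift_fac _ _ hrb))
      refine Piece.exists_iso_of_chart (sec_snd c ε t) (baseChangeSnd c (χ p))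
        (opensRange_baseChangeSnd (χ p)) (fun y => ea ▸ hP a _) (fun y => eb ▸ hP b _) ?_
      exact ((P b).pullCongr eb fun y => hP b _).symm ≪≫
        ((P b).pullComp (baseChangeSnd c fb) (baseChangeSnd c (ψ b)) (hP b) fun y => hP b _).symm ≪≫
        (Scheme.Modules.pullback _).mapIso (eP b).some ≪≫ φ.symm ≪≫
        (Scheme.Modules.pullback _).mapIso (eP a).some.symm ≪≫
        (P a).pullComp (baseChangeSnd c fa) (baseChangeSnd c (ψ a)) (hP a) (fun y => hP a _) ≪≫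
        (P a).pullCongr ea fun y => hP a _
    exact Piece.Iso.exists_glue (sec_snd c ε t) (ch.rigidUnits t) (fun p => (χ p).1.opensRange)
      (fun p => hχO p) (fun p hp => ⟨⟨p, hp⟩, hpχ ⟨p, hp⟩⟩) inf_le_left inf_le_right
      fun p => (hφ p).some
  let 𝒟 : Datum (pullback.snd c t) (rigSection c t ε) :=
    ⟨α, P, fun p => (hcov p).imp fun a ha => (hPO a).symm ▸ ha, hov⟩
  let d := 𝒟.cocycle (sec_snd c ε t) (ch.rigidUnits t)
  obtain ⟨τ⟩ := 𝒟.nonempty_section_trivial (sec_snd c ε t) (ch.rigidUnits t)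
  let Y : RigidifiedLineBundle c ε t :=
    ⟨d.module, d.isInvertible_module, ⟨d.pullbackIso _ ≪≫ τ⟩⟩
  refine ⟨Quotient.mk _ Y, fun a => ?_⟩
  rw [← hN a]
  exact Quotient.sound ⟨𝒟.pullIso (sec_snd c ε t) (ch.rigidUnits t) (baseChangeSnd c (ψ a)) a
    (hP a) ≪≫ (eP a).some⟩

end FLTAgent.RelPic
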