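import Fermat.Agent.RelPic.EngineWindow

/-!
Area S25, parcel E: being a complement of `t R[[t]]`, and having no sections, are open on the base.
-/

set_option autoImplicit false
set_option linter.unusedSectionVars false

noncomputable section

universe u

open ModularCurve Matrix

namespace FLTAgent.RelPic

open CellData

variable {k : Type u} [Field k]

/-- the value at a point of the base -/
def resHom {R : Type u} [CommRing R] [Algebra k R] (p : PrimeSpectrum R) :
    R →ₐ[k] p.asIdeal.ResidueField :=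
  IsScalarTower.toAlgHom k R p.asIdeal.ResidueField

/-- the restriction to a basic open of the base -/
def awayHom {R : Type u} [CommRing R] [Algebra k R] (r : R) :
    R →ₐ[k] Localization.Away r :=
  IsScalarTower.toAlgHom k R (Localization.Away r)

theorem resHom_eq_zero_iff {R : Type u} [CommRing R] [Algebra k R] {p : PrimeSpectrum R} {x : R} :
    resHom (k := k) p x = 0 ↔ x ∈ p.asIdeal :=
  Ideal.algebraMap_residueField_eq_zero

namespace CellData

variable (D : CellData k) {R : Type u} [CommRing R] [Algebra k R]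

theorem mapSub_mapSub {R' R'' : Type u} [CommRing R'] [Algebra k R'] [CommRing R'']
    [Algebra k R''] (f : R →ₐ[k] R') (g : R' →ₐ[k] R'')
    (M : Submodule (D.AR R) (LaurentSeries R)) :
    D.mapSub g (D.mapSub f M) = D.mapSub (g.comp f) M := by
  have hc : ∀ x : LaurentSeries R, coeffMap ((g.comp f : R →ₐ[k] R'') : R →+* R'') x =
      coeffMap (g : R' →+* R'') (coeffMap (f : R →+* R') x) := fun x => by
    ext n
    simp
  refine le_antisymm (Submodule.span_le.mpr ?_) (Submodule.span_le.mpr ?_)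
  · rintro _ ⟨x, hx, rfl⟩
    refine Submodule.span_induction (p := fun y _ => coeffMap (g : R' →+* R'') y ∈
      D.mapSub (g.comp f) M) ?_ ?_ ?_ ?_ hx
    · rintro _ ⟨z, hz, rfl⟩
      rw [← hc]
      exact Submodule.subset_span ⟨z, hz, rfl⟩
    · rw [map_zero]; exact zero_mem _
    · intro y z _ _ hy hz; rw [map_add]; exact add_mem hy hz
    · intro a y _ hy
      rw [Subring.smul_def, smul_eq_mul, map_mul]
      exact Submodule.smul_mem _ (⟨_, D.coeffMap_mem_AR g a.2⟩ : D.AR R'') hy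
  · rintro _ ⟨z, hz, rfl⟩
    rw [hc]
    exact Submodule.subset_span ⟨_, Submodule.subset_span ⟨z, hz, rfl⟩, rfl⟩

theorem mapLat_mapLat {R' R'' : Type u} [CommRing R'] [Algebra k R'] [CommRing R'']
    [Algebra k R''] (f : R →ₐ[k] R') (g : R' →ₐ[k] R'') (Lt : D.Lattice R) :
    D.mapLat g (D.mapLat f Lt) = D.mapLat (g.comp f) Lt :=
  Units.ext (D.mapSub_mapSub f g Lt.1)

/-- a window below any degree, with its generators -/
theorem exists_piece (Lt : D.Lattice R) (n : ℤ) :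
    ∃ (m : ℤ) (N : ℕ) (_ : D.Piece Lt.1 m), D.toR Lt.1 ⊔ tailAt R m = ⊤ ∧ n = m + N := by
  obtain ⟨m, hm⟩ := D.exists_sup_eq_top Lt
  obtain ⟨P⟩ := D.nonempty_piece Lt (hm (min m n) (min_le_left _ _))
  exact ⟨min m n, (n - min m n).toNat, P, hm _ (min_le_left _ _), by
    have := min_le_right m n; omega⟩

variable {K : Type u} [Field K] [Algebra k K]

/-- having no sections is open -/
theorem exists_inf_eq_bot (Lt : D.Lattice R) (g : R →ₐ[k] K) (n : ℤ)
    (h : D.toR (D.mapLat g Lt).1 ⊓ tailAt K n = ⊥) :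
    ∃ r : R, g r ≠ 0 ∧ ∀ (S : Type u) [CommRing S] [Algebra k S] (φ : R →ₐ[k] S),
      IsUnit (φ r) → D.toR (D.mapLat φ Lt).1 ⊓ tailAt S n = ⊥ := by
  obtain ⟨m, N, P, hP, rfl⟩ := D.exists_piece Lt n
  obtain ⟨r, hr, hr'⟩ := exists_mulVec_injective _ (g : R →+* K)
    ((Piece.inf_map_eq_bot_iff D g P hP N).mp h)
  exact ⟨r, hr, fun S _ _ φ hφ =>
    (Piece.inf_map_eq_bot_iff D φ P hP N).mpr (hr' S (φ : R →+* S) hφ)⟩

/-- reaching every principal part is open -/
theorem exists_sup_eq_top_of_point (Lt : D.Lattice R) (g : R →ₐ[k] K) (n : ℤ)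
    (h : D.toR (D.mapLat g Lt).1 ⊔ tailAt K n = ⊤) :
    ∃ r : R, g r ≠ 0 ∧ ∀ (S : Type u) [CommRing S] [Algebra k S] (φ : R →ₐ[k] S),
      IsUnit (φ r) → D.toR (D.mapLat φ Lt).1 ⊔ tailAt S n = ⊤ := by
  obtain ⟨m, N, P, hP, rfl⟩ := D.exists_piece Lt n
  obtain ⟨r, hr, hr'⟩ := exists_mulVec_surjective _ (g : R →+* K)
    ((Piece.sup_map_eq_top_iff D g P hP N).mp h)
  exact ⟨r, hr, fun S _ _ φ hφ =>
    (Piece.sup_map_eq_top_iff D φ P hP N).mpr (hr' S (φ : R →+* S) hφ)⟩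

/-- being a complement of `t R[[t]]` is open -/
theorem exists_isCompl_of_point (Lt : D.Lattice R) (g : R →ₐ[k] K)
    (h : IsCompl (D.toR (D.mapLat g Lt).1) (tPow K)) :
    ∃ r : R, g r ≠ 0 ∧ ∀ (S : Type u) [CommRing S] [Algebra k S] (φ : R →ₐ[k] S),
      IsUnit (φ r) → IsCompl (D.toR (D.mapLat φ Lt).1) (tPow S) := by
  rw [tPow_eq_tailAt] at h
  obtain ⟨r₁, h₁, h₁'⟩ := D.exists_inf_eq_bot Lt g 1 h.disjoint.eq_bot
  obtain ⟨r₂, h₂, h₂'⟩ := D.exists_sup_eq_top_of_point Lt g 1 h.codisjoint.eq_top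
  refine ⟨r₁ * r₂, by simp [h₁, h₂], fun S _ _ φ hφ => ?_⟩
  rw [map_mul, IsUnit.mul_iff] at hφ
  rw [tPow_eq_tailAt]
  exact ⟨disjoint_iff.mpr (h₁' S φ hφ.1), codisjoint_iff.mpr (h₂' S φ hφ.2)⟩

theorem exists_isCompl_away (Lt : D.Lattice R) (p : PrimeSpectrum R)
    (h : IsCompl (D.toR (D.mapLat (resHom p) Lt).1) (tPow p.asIdeal.ResidueField)) :
    ∃ r ∉ p.asIdeal, IsCompl (D.toR (D.mapLat (awayHom r) Lt).1) (tPow (Localization.Away r)) := by
  obtain ⟨r, hr, hr'⟩ := D.exists_isCompl_of_point Lt (resHom p) h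
  exact ⟨r, fun h0 => hr (resHom_eq_zero_iff.mpr h0),
    hr' _ (awayHom r) (IsLocalization.Away.algebraMap_isUnit r)⟩

/-- the points with sections form a closed set -/
theorem isClosed_inf_ne_bot (Lt : D.Lattice R) (n : ℤ) :
    IsClosed {p : PrimeSpectrum R |
      D.toR (D.mapLat (resHom p) Lt).1 ⊓ tailAt p.asIdeal.ResidueField n ≠ ⊥} := by
  refine ⟨isOpen_iff_forall_mem_open.mpr fun p hp => ?_⟩
  obtain ⟨r, hr, hr'⟩ := D.exists_inf_eq_bot Lt (resHom p) n (not_not.mp hp)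
  refine ⟨PrimeSpectrum.basicOpen r, fun q hq => not_not.mpr (hr' _ (resHom q) ?_),
    PrimeSpectrum.isOpen_basicOpen, fun h0 => hr (resHom_eq_zero_iff.mpr h0)⟩
  exact IsUnit.mk0 _ fun h0 => hq (resHom_eq_zero_iff.mp h0)

end CellData

end FLTAgent.RelPic

end
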