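import Fermat.Agent.RelPic.CellUnit

/-!
The big cell inside the classes of lattices: the classes complementary to `t R[[t]]`.
-/

set_option autoImplicit false
set_option linter.unusedSectionVars false

noncomputable section

open ModularCurve

universe u

namespace FLTAgent.RelPic

namespace CellData

variable {k : Type u} [Field k] (D : CellData k) [IsAlgClosed k] [Algebra.FiniteType k D.A]
  [IsDedekindDomain D.A]
variable {R R' : Type u} [CommRing R] [Algebra k R] [CommRing R'] [Algebra k R']

/-- a cell point as a lattice -/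
def cellLat (W : D.Cell R) : D.Lattice R := (W.isUnit_sub D).unit

theorem cellLat_val (W : D.Cell R) : (D.cellLat W).1 = W.sub D := IsUnit.unit_spec _

theorem isCompl_cellLat (W : D.Cell R) : IsCompl (D.toR (D.cellLat W).1) (tPow R) := by
  rw [cellLat_val, toR_sub]
  exact W.compl

theorem mapLat_cellLat (f : R →ₐ[k] R') (W : D.Cell R) :
    D.mapLat f (D.cellLat W) = D.cellLat (D.mapCell f W) := by
  refine Units.ext ?_
  show D.mapSub f (D.cellLat W).1 = _
  rw [cellLat_val, cellLat_val, mapSub_sub]

/-- a cell point as a class -/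
def cellClass (W : D.Cell R) : D.Class R := QuotientGroup.mk (D.cellLat W)

theorem cellClass_injective : Function.Injective (D.cellClass (R := R)) := by
  intro W W' h
  obtain ⟨u, hu⟩ := MonoidHom.mem_range.mp (QuotientGroup.eq.mp h)
  refine (D.cell_eq W W' u fun x => ?_).symm
  have e : D.cellLat W' = D.ofSeries R u * D.cellLat W := by
    rw [hu]; exact (mul_inv_cancel_left (D.cellLat W) _).symm.trans (mul_comm (D.cellLat W) _)
  rw [show x ∈ W'.M ↔ x ∈ (D.cellLat W').1 by rw [cellLat_val]; rfl, e, mem_ofSeries_mul,
    cellLat_val]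
  rfl

/-- the classes in the cell are those with a complementary representative -/
theorem mem_range_cellClass (L : D.Lattice R) :
    (QuotientGroup.mk L : D.Class R) ∈ Set.range (D.cellClass (R := R)) ↔
      IsCompl (D.toR L.1) (tPow R) := by
  constructor
  · rintro ⟨W, hW⟩
    obtain ⟨u, hu⟩ := MonoidHom.mem_range.mp (QuotientGroup.eq.mp hW)
    rw [show L = D.ofSeries R u * D.cellLat W by
      rw [hu]; exact (mul_inv_cancel_left (D.cellLat W) _).symm.trans (mul_comm (D.cellLat W) _)]
    exact D.isCompl_ofSeries_mul u _ (D.isCompl_cellLat W)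
  · intro hL
    obtain ⟨W, u, hW⟩ := D.exists_cell L hL
    refine ⟨W, QuotientGroup.eq.mpr ⟨u⁻¹, ?_⟩⟩
    rw [show D.cellLat W = D.ofSeries R u * L from Units.ext ((D.cellLat_val W).trans hW),
      mul_inv_rev, mul_comm L⁻¹, mul_assoc, inv_mul_cancel, mul_one, map_inv]

end CellData

end FLTAgent.RelPic

end
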