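import Fermat.Agent.RelPic.PointEuler

/-!
Area S25, parcel G: translates of the cell by classes over `k` cover the classes of degree zero, and
classes of degree zero over `k` are sums of differences of a point and the base point.
-/

set_option autoImplicit false
set_option linter.unusedSectionVars false
set_option synthInstance.maxHeartbeats 200000
set_option maxHeartbeats 800000

noncomputable section

open ModularCurve Module

universe u

namespace FLTAgent.RelPic

namespace CellData

variable {k : Type u} [Field k] (D : CellData k) [IsAlgClosed k] [Algebra.FiniteType k D.A]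
  [IsDedekindDomain D.A]

section Cover

variable {K : Type u} [Field K] [Algebra k K]

theorem euler_of_sup_eq_top {Lt : D.Lattice K} (h : D.toR Lt.1 ⊔ tailAt K 1 = ⊤) :
    D.euler K Lt (-1) = finrank K ↥(D.toR Lt.1 ⊓ tailAt K 1) := by
  have : Subsingleton (LaurentSeries K ⧸ (D.toR Lt.1 ⊔ tailAt K 1)) :=
    Submodule.Quotient.subsingleton_iff.mpr h
  have h0 : finrank K (LaurentSeries K ⧸ (D.toR Lt.1 ⊔ tailAt K 1)) = 0 :=
    finrank_zero_of_subsingleton
  rw [euler_eq_relDim, neg_neg, relDim, h0, Nat.cast_zero, sub_zero]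

theorem exists_drop (d : ℕ) (Lt : D.Lattice K) (htop : D.toR Lt.1 ⊔ tailAt K 1 = ⊤)
    (hd : finrank K ↥(D.toR Lt.1 ⊓ tailAt K 1) = d) :
    ∃ S : Multiset (D.A →ₐ[k] k), Multiset.card S = d ∧
      IsCompl (D.toR (Lt * (S.map (D.ptIdeal K)).prod).1) (tailAt K 1) := by
  induction d generalizing Lt with
  | zero =>
    have := D.finite_h0 Lt 1
    refine ⟨0, rfl, ?_⟩
    rw [Multiset.map_zero, Multiset.prod_zero, mul_one]
    exact ⟨disjoint_iff.mpr (Submodule.finrank_eq_zero.mp hd), codisjoint_iff.mpr htop⟩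
  | succ d ih =>
    obtain ⟨s, hs, hs0⟩ := Submodule.exists_mem_ne_zero_of_ne_bot
      (show D.toR Lt.1 ⊓ tailAt K 1 ≠ ⊥ from fun h => by rw [h, finrank_bot] at hd; omega)
    obtain ⟨θ, hθ⟩ := D.exists_notMem_mul_ptIdeal Lt hs.1 hs0
    have htop' : D.toR (Lt * D.ptIdeal K θ).1 ⊔ tailAt K 1 = ⊤ := by
      refine eq_top_iff.mpr (htop ▸ sup_le (fun x hx => ?_) le_sup_right)
      obtain ⟨μ, hμ⟩ := D.exists_sub_smul_mem θ Lt hs.1 hθ hx
      refine Submodule.mem_sup.mpr ⟨_, hμ, μ • s, (tailAt K 1).smul_mem μ hs.2, ?_⟩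
      exact sub_add_cancel x _
    have h1 := D.euler_mul_ptIdeal θ Lt (-1)
    rw [D.euler_of_sup_eq_top htop', D.euler_of_sup_eq_top htop, hd] at h1
    obtain ⟨S, hS, hc⟩ := ih (Lt * D.ptIdeal K θ) htop' (by omega)
    refine ⟨θ ::ₘ S, by rw [Multiset.card_cons, hS], ?_⟩
    rw [Multiset.map_cons, Multiset.prod_cons, ← mul_assoc]
    exact hc

/-- some translate of a lattice of degree zero by points and the base point is in the cell -/
theorem exists_isCompl_points (Lt : D.Lattice K) (h : D.IsDegZero K Lt) :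
    ∃ S : Multiset (D.A →ₐ[k] k), IsCompl (D.toR (D.twist K ((D.G.card : ℤ) + Multiset.card S) *
      Lt * (S.map (D.ptIdeal K)).prod).1) (tPow K) := by
  obtain ⟨m, hm⟩ := D.exists_sup_eq_top Lt
  set N : ℤ := max (D.G.card : ℤ) (1 - m)
  have htop : D.toR (D.twist K N * Lt).1 ⊔ tailAt K 1 = ⊤ := by
    have := D.sup_eq_top_twist_mul N Lt (1 - N) (hm _ (by omega))
    rwa [show N + (1 - N) = (1 : ℤ) by ring] at this
  obtain ⟨S, hS, hc⟩ := D.exists_drop _ _ htop rfl
  have he := D.euler_twist_mul N Lt (-1)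
  rw [(D.isDegZero_iff Lt _).mp h, D.euler_of_sup_eq_top htop, ← hS] at he
  refine ⟨S, ?_⟩
  rw [show (D.G.card : ℤ) + Multiset.card S = N by omega, tPow_eq_tailAt]
  exact hc

/-- the covering lemma: translates of the cell by degree zero classes over `k` cover -/
theorem exists_isCompl_translate (Lt : D.Lattice K) (h : D.IsDegZero K Lt) :
    ∃ P : D.Lattice k, D.IsDegZero k P ∧
      IsCompl (D.toR (D.twist K (D.G.card : ℤ) * (Lt * D.mapLat (Algebra.ofId k K) P)).1)
        (tPow K) := by
  obtain ⟨S, hS⟩ := D.exists_isCompl_points Lt h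
  refine ⟨D.twist k (Multiset.card S) * (S.map (D.ptIdeal k)).prod, ?_, ?_⟩
  · rw [D.isDegZero_iff _ 0, euler_mul_prod_ptIdeal,
      show D.twist k (Multiset.card S) = D.twist k (Multiset.card S) * 1 from (mul_one _).symm,
      euler_twist_mul, (D.isDegZero_iff (1 : D.Lattice k) _).mp D.isDegZero_one]
    omega
  · have e : D.mapLat (Algebra.ofId k K) (D.twist k (Multiset.card S) *
        (S.map (D.ptIdeal k)).prod) = D.twist K (Multiset.card S) *
          (S.map (D.ptIdeal K)).prod := by
      rw [map_mul, mapLat_twist, map_multiset_prod, Multiset.map_map]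
      congr 2
      exact Multiset.map_congr rfl fun θ _ => D.mapLat_idLat _ _ _ _
    rw [e, show D.twist K (D.G.card : ℤ) * (Lt * (D.twist K (Multiset.card S) *
        (S.map (D.ptIdeal K)).prod)) = D.twist K ((D.G.card : ℤ) + Multiset.card S) * Lt *
          (S.map (D.ptIdeal K)).prod by
          rw [twist_add, mul_assoc, mul_assoc]
          exact congrArg (D.twist K (D.G.card : ℤ) * ·) (mul_left_comm Lt _ _)]
    exact hS

end Cover

theorem exists_tUnit_mul {s : LaurentSeries k} (hs : s ≠ 0) :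
    ∃ u : (PowerSeries k)ˣ,
      (HahnSeries.single s.order 1 : LaurentSeries k) *
        HahnSeries.ofPowerSeries ℤ k (u : PowerSeries k) = s := by
  set f : PowerSeries k := PowerSeries.mk fun n : ℕ => s.coeff (s.order + n)
  have hu : IsUnit f := by
    rw [PowerSeries.isUnit_iff_constantCoeff, ← PowerSeries.coeff_zero_eq_constantCoeff_apply,
      PowerSeries.coeff_mk, Nat.cast_zero, add_zero, isUnit_iff_ne_zero]
    exact HahnSeries.coeff_order_eq_zero.not.mpr hs
  refine ⟨hu.unit, ?_⟩
  rw [IsUnit.unit_spec]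
  ext l
  rw [show l = (l - s.order) + s.order by omega, HahnSeries.coeff_single_mul_add, one_mul,
    show l - s.order + s.order = l by omega]
  rcases le_or_gt s.order l with hl | hl
  · obtain ⟨n, hn⟩ : ∃ n : ℕ, l - s.order = n := ⟨(l - s.order).toNat, by omega⟩
    rw [hn, HahnSeries.ofPowerSeries_apply_coeff, PowerSeries.coeff_mk,
      show s.order + (n : ℤ) = l by omega]
  · rw [HahnSeries.coeff_eq_zero_of_lt_order hl, HahnSeries.ofPowerSeries_apply,
      HahnSeries.embDomain_of_notMem_range]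
    rintro ⟨m, hm⟩
    change (m : ℤ) = l - s.order at hm
    omega

theorem ofSeries_eq_ofLaurent (u : (PowerSeries k)ˣ) :
    D.ofSeries k u = D.ofLaurent k (Units.map (HahnSeries.ofPowerSeries ℤ k).toMonoidHom u) :=
  Units.ext rfl

/-- classes of degree zero over `k` are sums of at most `g` differences `point - base point` -/
theorem exists_eq_points (Lt : D.Lattice k) (h : D.IsDegZero k Lt) :
    ∃ (u : (PowerSeries k)ˣ) (S : Multiset (D.A →ₐ[k] k)), Multiset.card S ≤ D.G.card ∧
      Lt = D.ofSeries k u * (S.map fun θ => D.twist k (-1) * D.ptLat k θ).prod := by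
  set g : ℤ := (D.G.card : ℤ)
  set L₁ := D.twist k g * Lt
  have he : D.euler k L₁ 0 = 1 := by
    rw [euler_twist_mul, (D.isDegZero_iff Lt _).mp h]
    omega
  rw [euler_eq_relDim, relDim, neg_zero] at he
  obtain ⟨s, hs, hs0⟩ := Submodule.exists_mem_ne_zero_of_ne_bot
    (show D.toR L₁.1 ⊓ tailAt k 0 ≠ ⊥ from fun e => by rw [e, finrank_bot] at he; omega)
  have hd : 0 ≤ s.order := by
    by_contra hlt
    exact HahnSeries.coeff_order_eq_zero.not.mpr hs0 (hs.2 _ (by omega))
  obtain ⟨d, hd'⟩ := Int.eq_ofNat_of_zero_le hd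
  obtain ⟨u, hu⟩ := exists_tUnit_mul hs0
  rw [hd'] at hu
  set X := D.twist k d * D.ofSeries k u with hX
  have h1 : (1 : LaurentSeries k) ∈ (X⁻¹ * L₁).1 := by
    rw [hX, twist, ofSeries_eq_ofLaurent, ← map_mul, ← map_inv, mem_ofLaurent_mul]
    refine ⟨s, hs.1, ?_⟩
    conv_lhs => arg 2; rw [← hu]
    exact Units.inv_mul _
  obtain ⟨S, hS⟩ := D.exists_prod_ptLat _ h1
  have hL : L₁ = X * (S.map (D.ptLat k)).prod := by rw [← hS, mul_inv_cancel_left]
  have hcard : (Multiset.card S : ℤ) = g - d := by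
    have e0 : D.euler k L₁ 0 = 1 + Multiset.card S + d - g := by
      rw [hL, euler_mul_prod_ptLat, hX, euler_twist_mul,
        ← mul_one (D.ofSeries k u), (D.isDegZero_iff _ _).mp
          ((D.isDegZero_ofSeries_mul u (1 : D.Lattice k)).mpr D.isDegZero_one)]
      omega
    have e1 : D.euler k L₁ 0 = 1 := by
      rw [euler_twist_mul, (D.isDegZero_iff Lt _).mp h]
      omega
    omega
  refine ⟨u, S, by omega, ?_⟩
  have hprod : ∀ T : Multiset (D.A →ₐ[k] k),
      (T.map fun θ => D.twist k (-1) * D.ptLat k θ).prod =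
        D.twist k (-(Multiset.card T : ℤ)) * (T.map (D.ptLat k)).prod := fun T => by
    induction T using Multiset.induction_on with
    | empty => simp [twist_zero]
    | cons a T ih =>
      rw [Multiset.map_cons, Multiset.prod_cons, ih, Multiset.map_cons, Multiset.prod_cons,
        Multiset.card_cons, Nat.cast_succ, neg_add, twist_add, mul_assoc, mul_assoc]
      exact (congrArg (D.twist k (-1) * ·)
          (mul_left_comm (D.ptLat k a) (D.twist k (-(Multiset.card T : ℤ))) _)).trans
        (mul_left_comm (D.twist k (-1)) (D.twist k (-(Multiset.card T : ℤ))) _)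
  have hLt : Lt = D.twist k (-g) * L₁ := by
    rw [← mul_assoc, ← twist_add, neg_add_cancel, twist_zero, one_mul]
  rw [hprod, hLt, hL, hX, hcard, show -(g - (d : ℤ)) = -g + d by ring, twist_add]
  simp only [mul_assoc]
  exact (congrArg (D.twist k (-g) * ·)
      (mul_left_comm (D.twist k (d : ℤ)) (D.ofSeries k u) _)).trans
    (mul_left_comm (D.twist k (-g)) (D.ofSeries k u) _)

end CellData

end FLTAgent.RelPic

end
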