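/-
Interface of area RelPic (S25): degree zero classes, and a scheme representing them covered by
translates of the cell.
-/
import Fermat.Agent.RelPic.Surjective
import Fermat.Agent.RelPic.Points
import Fermat.Agent.RelPic.CellClass

set_option autoImplicit false

noncomputable section

universe u

open CategoryTheory CategoryTheory.Limits AlgebraicGeometry TopologicalSpace ModularCurve
open AlgebraicGeometry.RelPicard NeronModelInfra

namespace FLTAgent.RelPic

namespace CellData

variable {k : Type u} [Field k] (D : CellData k) (K : Type u) [Field K] [Algebra k K]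

/-- A class over a field has degree zero. -/
def ClassDegZero (x : D.Class K) : Prop :=
  ∃ L : D.Lattice K, QuotientGroup.mk L = x ∧ D.IsDegZero K L

lemma classDegZero_mk {L : D.Lattice K} :
    D.ClassDegZero K (QuotientGroup.mk L) ↔ D.IsDegZero K L := by
  refine ⟨fun ⟨L', h, h'⟩ => ?_, fun h => ⟨L, rfl, h⟩⟩
  obtain ⟨v, hv⟩ := QuotientGroup.eq.mp h
  have e : L = D.ofSeries K v * L' := by rw [hv, D.lattice_comm, mul_inv_cancel_left]
  rw [e, D.isDegZero_ofSeries_mul]
  exact h'

variable {K} in
lemma classDegZero_mapClass {K' : Type u} [Field K'] [Algebra k K'] (f : K →ₐ[k] K')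
    (x : D.Class K) : D.ClassDegZero K' (D.mapClass f x) ↔ D.ClassDegZero K x := by
  induction x using QuotientGroup.induction_on with | _ L =>
  rw [mapClass_mk, classDegZero_mk, classDegZero_mk]
  exact D.isDegZero_mapLat L f

variable (R : Type u) [CommRing R] [Algebra k R]

/-- The translate used by the chart of a class over the ground field. -/
def chartShift (P : D.Lattice k) : D.Class R :=
  QuotientGroup.mk (D.twist R (D.G.card : ℤ) * D.mapLat (Algebra.ofId k R) P)

end CellData

variable {k : Type u} [Field k] {C : Scheme.{u}} {c : C ⟶ Spec (CommRingCat.of k)}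
variable {ε : SchemeHomOver (𝟙 (Spec (CommRingCat.of k))) c} {D : CellData k}
variable (ch : Chart c ε D)

/-- All fibres of a class have degree zero. -/
def IsDegZeroClass {T : Scheme.{u}} (t : T ⟶ Spec (CommRingCat.of k))
    (x : RigidifiedLineBundle.Classes c ε t) : Prop :=
  ∀ (K : Type u) [Field K] [Algebra k K] (s : SchemeHomOver (base (k := k) K) t),
    D.ClassDegZero K (ch.toClass (RigidifiedLineBundle.classesMap s x))

/-- A scheme representing the classes of degree zero, covered by translates of the cell. -/
structure Rep [IsAlgClosed k] [Algebra.FiniteType k D.A] [IsDedekindDomain D.A] : Type (u + 1) where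
  /-- the scheme -/
  J : Scheme.{u}
  /-- its structure morphism -/
  π : J ⟶ Spec (CommRingCat.of k)
  /-- the universal class -/
  univ : RigidifiedLineBundle.Classes c ε π
  isDegZero : IsDegZeroClass ch π univ
  existsUnique : ∀ {T : Scheme.{u}} (t : T ⟶ Spec (CommRingCat.of k))
    (x : RigidifiedLineBundle.Classes c ε t), IsDegZeroClass ch t x →
      ∃! g : SchemeHomOver t π, RigidifiedLineBundle.classesMap g univ = x
  /-- the charts -/
  cell : ∀ (P : D.Lattice k), D.IsDegZero k P → SchemeHomOver (base (k := k) D.Ring) π
  isOpenImmersion_cell : ∀ P hP, IsOpenImmersion (cell P hP).1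
  exists_mem_cell : ∀ y : J, ∃ P hP, y ∈ Set.range (cell P hP).1
  toClass_cell : ∀ P hP, ch.toClass (RigidifiedLineBundle.classesMap (cell P hP) univ) *
    D.chartShift D.Ring P = D.cellClass D.univCell

end FLTAgent.RelPic
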