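/-
Area RelPic (S25): points of a translate of the cell as classes of degree zero.
-/
import Fermat.Agent.RelPic.Rep
import Fermat.Agent.RelPic.Bundles
import Fermat.Agent.RelPic.EngineOpen

set_option autoImplicit false
set_option linter.unusedSectionVars false

noncomputable section

universe u

open CategoryTheory CategoryTheory.Limits AlgebraicGeometry TopologicalSpace ModularCurve
open AlgebraicGeometry.RelPicard NeronModelInfra

namespace FLTAgent.RelPic

namespace CellData

variable {k : Type u} [Field k] (D : CellData k) [IsAlgClosed k] [Algebra.FiniteType k D.A]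
  [IsDedekindDomain D.A]
variable {R R' : Type u} [CommRing R] [Algebra k R] [CommRing R'] [Algebra k R']
variable {K : Type u} [Field K] [Algebra k K]

theorem mapClass_cellClass (f : R →ₐ[k] R') (W : D.Cell R) :
    D.mapClass f (D.cellClass W) = D.cellClass (D.mapCell f W) := by
  rw [cellClass, cellClass, mapClass_mk, mapLat_cellLat]

theorem mapClass_chartShift (f : R →ₐ[k] R') (P : D.Lattice k) :
    D.mapClass f (D.chartShift R P) = D.chartShift R' P := by
  rw [chartShift, chartShift, mapClass_mk, map_mul, mapLat_twist, mapLat_mapLat,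
    Subsingleton.elim (f.comp (Algebra.ofId k R)) (Algebra.ofId k R')]

theorem mapClass_mapClass {R'' : Type u} [CommRing R''] [Algebra k R''] (f : R →ₐ[k] R')
    (g : R' →ₐ[k] R'') (y : D.Class R) :
    D.mapClass g (D.mapClass f y) = D.mapClass (g.comp f) y := by
  induction y using QuotientGroup.induction_on with | _ L =>
  rw [mapClass_mk, mapClass_mk, mapClass_mk, mapLat_mapLat]

/-- Degree zero classes over the ground field do not move the degree. -/
theorem isDegZero_mul_mapLat (P : D.Lattice k) (hP : D.IsDegZero k P) (Lt : D.Lattice K) :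
    D.IsDegZero K (Lt * D.mapLat (Algebra.ofId k K) P) ↔ D.IsDegZero K Lt := by
  obtain ⟨u, S, -, rfl⟩ := D.exists_eq_points P hP
  rw [map_mul, ofSeries_eq_ofLaurent, mapLat_ofLaurent]
  set f : k →+* K := ((Algebra.ofId k K : k →ₐ[k] K) : k →+* K)
  have e : D.ofSeries K (Units.map (PowerSeries.map f).toMonoidHom u) =
      D.ofLaurent K (Units.map (coeffMap f).toMonoidHom
        (Units.map (HahnSeries.ofPowerSeries ℤ k).toMonoidHom u)) := by
    refine Units.ext ?_
    show Submodule.span _ {HahnSeries.ofPowerSeries ℤ K (PowerSeries.map f u)} =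
      Submodule.span _ {coeffMap f (HahnSeries.ofPowerSeries ℤ k u)}
    rw [coeffMap_ofPowerSeries]
  rw [← e, ← mul_assoc, mul_comm Lt, mul_assoc, D.isDegZero_ofSeries_mul]
  clear hP
  induction S using Multiset.induction_on generalizing Lt with
  | empty => simp
  | cons a S ih =>
    rw [Multiset.map_cons, Multiset.prod_cons, map_mul, map_mul, mapLat_twist, mapLat_ptLat,
      ← mul_assoc]
    refine (ih _).trans ?_
    rw [D.isDegZero_iff _ 0, D.isDegZero_iff Lt (-1), ← mul_assoc,
      mul_comm Lt (D.twist K (-1)), euler_mul_ptLat, euler_twist_mul]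
    rw [show (0 : ℤ) + -1 = -1 from rfl]
    omega

/-- Classes which a translate carries into the cell. -/
def InCell (P : D.Lattice k) (y : D.Class R) : Prop :=
  y * D.chartShift R P ∈ Set.range (D.cellClass (R := R))

theorem inCell_mk (P : D.Lattice k) (L : D.Lattice R) :
    D.InCell P (QuotientGroup.mk L : D.Class R) ↔ IsCompl (D.toR (L *
      (D.twist R (D.G.card : ℤ) * D.mapLat (Algebra.ofId k R) P)).1) (tPow R) := by
  rw [InCell, chartShift, ← QuotientGroup.mk_mul, mem_range_cellClass]

theorem InCell.map {P : D.Lattice k} {y : D.Class R} (h : D.InCell P y) (f : R →ₐ[k] R') :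
    D.InCell P (D.mapClass f y) := by
  obtain ⟨W, hW⟩ := h
  refine ⟨D.mapCell f W, ?_⟩
  rw [← mapClass_cellClass, hW, map_mul, mapClass_chartShift]

/-- Lying in the translated cell is open. -/
theorem exists_inCell_away {P : D.Lattice k} (y : D.Class R) (g : R →ₐ[k] K)
    (h : D.InCell P (D.mapClass g y)) :
    ∃ r : R, g r ≠ 0 ∧ D.InCell P (D.mapClass (awayHom (k := k) r) y) := by
  induction y using QuotientGroup.induction_on with | _ L =>
  have e : ∀ {R'' : Type u} [CommRing R''] [Algebra k R''] (f : R →ₐ[k] R''),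
      D.mapLat f (L * (D.twist R (D.G.card : ℤ) * D.mapLat (Algebra.ofId k R) P)) =
        D.mapLat f L * (D.twist R'' (D.G.card : ℤ) * D.mapLat (Algebra.ofId k R'') P) := by
    intro R'' _ _ f
    rw [map_mul, map_mul, mapLat_twist, mapLat_mapLat,
      Subsingleton.elim (f.comp (Algebra.ofId k R)) (Algebra.ofId k R'')]
  rw [mapClass_mk, inCell_mk, ← e] at h
  obtain ⟨r, hr, hr'⟩ := D.exists_isCompl_of_point _ g h
  refine ⟨r, hr, ?_⟩
  rw [mapClass_mk, inCell_mk, ← e]
  exact hr' _ (awayHom r) (IsLocalization.Away.algebraMap_isUnit r)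

theorem isDegZero_of_isCompl (L : D.Lattice K) (h : IsCompl (D.toR L.1) (tPow K)) :
    D.euler K L (-1) = 0 := by
  rw [tPow_eq_tailAt] at h
  have h0 : D.h0 K L (-1) = 0 := (D.h0_eq_zero_iff L (-1)).mpr (by simpa using h.disjoint.eq_bot)
  have h1 : D.h1 K L (-1) = 0 := (D.h1_eq_zero_iff L (-1)).mpr (by simpa using h.codisjoint.eq_top)
  rw [euler, h0, h1]
  simp

/-- Translates of cell points have degree zero. -/
theorem classDegZero_of_inCell {P : D.Lattice k} (hP : D.IsDegZero k P) {y : D.Class K}
    (h : D.InCell P y) : D.ClassDegZero K y := by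
  induction y using QuotientGroup.induction_on with | _ L =>
  rw [inCell_mk] at h
  have he := D.isDegZero_of_isCompl _ h
  rw [← mul_assoc, D.lattice_comm K L, mul_assoc, euler_twist_mul] at he
  rw [classDegZero_mk, ← D.isDegZero_mul_mapLat P hP L, D.isDegZero_iff _ _, he]
  omega

/-- Every class of degree zero lies in some translated cell. -/
theorem exists_inCell {y : D.Class K} (h : D.ClassDegZero K y) :
    ∃ P : D.Lattice k, D.IsDegZero k P ∧ D.InCell P y := by
  obtain ⟨L, rfl, hL⟩ := h
  obtain ⟨P, hP, hc⟩ := D.exists_isCompl_translate L hL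
  refine ⟨P, hP, ?_⟩
  rw [inCell_mk, ← mul_assoc, D.lattice_comm K L, mul_assoc]
  exact hc

end CellData

variable {k : Type u} [Field k] {C : Scheme.{u}} {c : C ⟶ Spec (CommRingCat.of k)}
variable {ε : SchemeHomOver (𝟙 (Spec (CommRingCat.of k))) c} {D : CellData k}
variable {T T' : Scheme.{u}} {t : T ⟶ Spec (CommRingCat.of k)} {t' : T' ⟶ Spec (CommRingCat.of k)}
variable {R R' : Type u} [CommRing R] [Algebra k R] [CommRing R'] [Algebra k R']

theorem exists_eq_baseHom (s : SchemeHomOver (base (k := k) R') (base (k := k) R)) :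
    ∃ φ : R →ₐ[k] R', baseHom φ = s := by
  obtain ⟨s, hs⟩ := s
  obtain ⟨f, rfl⟩ : ∃ f, Spec.map f = s := ⟨Spec.preimage s, Spec.map_preimage s⟩
  rw [base, base, ← Spec.map_comp] at hs
  have h := Spec.map_injective hs
  refine ⟨{ f.hom with commutes' := fun r => DFunLike.congr_fun (congrArg CommRingCat.Hom.hom h) r },
    Subtype.ext rfl⟩

lemma range_subset_of_mem {K : Type u} [Field K] (f : Spec (CommRingCat.of K) ⟶ T) {S : Set T}
    (h : f (IsLocalRing.closedPoint K) ∈ S) : Set.range f ⊆ S := by
  rintro _ ⟨q, rfl⟩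
  rw [Subsingleton.elim (α := PrimeSpectrum K) q (IsLocalRing.closedPoint K)]
  exact h

/-- Maps into an open piece of the base. -/
theorem exists_lift {S : Scheme.{u}} {s : S ⟶ Spec (CommRingCat.of k)} (ψ : SchemeHomOver t' t)
    [IsOpenImmersion ψ.1] (a : SchemeHomOver s t) (h : Set.range a.1 ⊆ Set.range ψ.1) :
    ∃ b : SchemeHomOver s t', postComp ψ b = a :=
  ⟨⟨IsOpenImmersion.lift ψ.1 a.1 h,
    (congrArg (IsOpenImmersion.lift ψ.1 a.1 h ≫ ·) ψ.2.symm).trans
      ((Category.assoc _ _ _).symm.trans
        ((congrArg (· ≫ t) (IsOpenImmersion.lift_fac _ _ h)).trans a.2))⟩,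
    Subtype.ext (IsOpenImmersion.lift_fac _ _ h)⟩

variable (ch : Chart c ε D)

lemma IsDegZeroClass.map {x : RigidifiedLineBundle.Classes c ε t} (h : IsDegZeroClass ch t x)
    (ψ : SchemeHomOver t' t) : IsDegZeroClass ch t' (RigidifiedLineBundle.classesMap ψ x) := by
  intro K _ _ s
  rw [classesMap_classesMap]
  exact h K _

/-- Having degree zero is local on the base. -/
theorem isDegZeroClass_of_cover (x : RigidifiedLineBundle.Classes c ε t)
    (h : ∀ p : T, ∃ (S : Scheme.{u}) (s : S ⟶ Spec (CommRingCat.of k)) (ψ : SchemeHomOver s t)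
      (_ : IsOpenImmersion ψ.1), p ∈ Set.range ψ.1 ∧
        IsDegZeroClass ch s (RigidifiedLineBundle.classesMap ψ x)) :
    IsDegZeroClass ch t x := by
  intro K _ _ a
  obtain ⟨S, s, ψ, hψ, hp, hx⟩ := h (a.1 (IsLocalRing.closedPoint K))
  obtain ⟨b, hb⟩ := exists_lift ψ a (range_subset_of_mem a.1 hp)
  rw [← hb, ← classesMap_classesMap]
  exact hx K b

variable [IsAlgClosed k] [Algebra.FiniteType k D.A] [IsDedekindDomain D.A]

/-- The class carried by a translate of the cell. -/
def cellPoint (P : D.Lattice k) : RigidifiedLineBundle.Classes c ε (base (k := k) D.Ring) :=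
  Function.surjInv ch.toClass_surjective (D.cellClass D.univCell * (D.chartShift D.Ring P)⁻¹)

lemma toClass_cellPoint (P : D.Lattice k) :
    ch.toClass (cellPoint ch P) * D.chartShift D.Ring P = D.cellClass D.univCell := by
  rw [cellPoint, Function.surjInv_eq ch.toClass_surjective, inv_mul_cancel_right]

lemma toClass_map_cellPoint (P : D.Lattice k) (f : D.Ring →ₐ[k] R) :
    ch.toClass (RigidifiedLineBundle.classesMap (baseHom f) (cellPoint ch P)) *
      D.chartShift R P = D.cellClass (D.homEquiv f) := by
  rw [ch.toClass_natural, ← D.mapClass_chartShift f P, ← map_mul, toClass_cellPoint,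
    D.mapClass_cellClass, D.mapCell_univ]

lemma exists_map_cellPoint {P : D.Lattice k} (x : RigidifiedLineBundle.Classes c ε (base (k := k) R))
    (h : D.InCell P (ch.toClass x)) :
    ∃ a : SchemeHomOver (base (k := k) R) (base (k := k) D.Ring),
      RigidifiedLineBundle.classesMap a (cellPoint ch P) = x := by
  obtain ⟨W, hW⟩ := h
  obtain ⟨f, rfl⟩ := D.homEquiv.surjective W
  exact ⟨baseHom f, ch.toClass_injective (mul_right_cancel
    ((toClass_map_cellPoint ch P f).trans hW))⟩

lemma inCell_map_cellPoint (P : D.Lattice k)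
    (a : SchemeHomOver (base (k := k) R) (base (k := k) D.Ring)) :
    D.InCell P (ch.toClass (RigidifiedLineBundle.classesMap a (cellPoint ch P))) := by
  obtain ⟨f, rfl⟩ := exists_eq_baseHom a
  exact ⟨D.homEquiv f, (toClass_map_cellPoint ch P f).symm⟩

theorem isDegZeroClass_cellPoint (P : D.Lattice k) (hP : D.IsDegZero k P) :
    IsDegZeroClass ch (base (k := k) D.Ring) (cellPoint ch P) := fun _ _ _ a =>
  D.classDegZero_of_inCell hP (inCell_map_cellPoint ch P a)

/-- A point of a translated cell is determined by its class. -/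
theorem eq_of_map_cellPoint (P : D.Lattice k) (a b : SchemeHomOver t (base (k := k) D.Ring))
    (h : RigidifiedLineBundle.classesMap a (cellPoint ch P) =
      RigidifiedLineBundle.classesMap b (cellPoint ch P)) : a = b := by
  choose R iR iA ψ hψ hp hpO using fun p : T => exists_affineChart t p ⊤ trivial
  let 𝓤 : T.OpenCover := Scheme.Cover.mkOfCovers T (fun p => Spec (CommRingCat.of (R p)))
    (fun p => (ψ p).1) (fun p => ⟨p, hp p⟩) hψ
  refine Subtype.ext (𝓤.hom_ext _ _ fun p : T => ?_)
  obtain ⟨f, hf⟩ := exists_eq_baseHom (postComp a (ψ p))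
  obtain ⟨g, hg⟩ := exists_eq_baseHom (postComp b (ψ p))
  have e : RigidifiedLineBundle.classesMap (baseHom f) (cellPoint ch P) =
      RigidifiedLineBundle.classesMap (baseHom g) (cellPoint ch P) := by
    rw [hf, hg, ← classesMap_classesMap, h, classesMap_classesMap]
  have e' : f = g := D.homEquiv.injective (D.cellClass_injective
    (by rw [← toClass_map_cellPoint ch P f, e, toClass_map_cellPoint ch P g]))
  exact congrArg Subtype.val (hf.symm.trans ((congrArg baseHom e').trans hg))

/-- The points of a translated cell form an open set. -/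
theorem exists_lift_near {P : D.Lattice k} (x : RigidifiedLineBundle.Classes c ε t)
    {K : Type u} [Field K] [Algebra k K] (q : SchemeHomOver (base (k := k) K) t)
    (h : D.InCell P (ch.toClass (RigidifiedLineBundle.classesMap q x))) :
    ∃ (R : Type u) (_ : CommRing R) (_ : Algebra k R) (ψ : SchemeHomOver (base (k := k) R) t)
      (_ : IsOpenImmersion ψ.1) (a : SchemeHomOver (base (k := k) R) (base (k := k) D.Ring)),
      Set.range q.1 ⊆ Set.range ψ.1 ∧
        RigidifiedLineBundle.classesMap a (cellPoint ch P) =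
          RigidifiedLineBundle.classesMap ψ x := by
  obtain ⟨R, iR, iA, ψ, hψ, hp, -⟩ :=
    exists_affineChart t (q.1 (IsLocalRing.closedPoint K)) ⊤ trivial
  obtain ⟨b, hb⟩ := exists_lift ψ q (range_subset_of_mem q.1 hp)
  obtain ⟨g, rfl⟩ := exists_eq_baseHom b
  rw [← hb, ← classesMap_classesMap, ch.toClass_natural] at h
  obtain ⟨r, hr, hr'⟩ := D.exists_inCell_away _ g h
  let ψ' := postComp ψ (baseHom (awayHom (k := k) r))
  have hopen : IsOpenImmersion (baseHom (k := k) (awayHom (k := k) r)).1 :=
    IsOpenImmersion.of_isLocalization (S := Localization.Away r) r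
  have : IsOpenImmersion ψ'.1 := IsOpenImmersion.comp (baseHom (awayHom r)).1 ψ.1
  obtain ⟨a, ha⟩ := exists_map_cellPoint ch (RigidifiedLineBundle.classesMap ψ' x)
    (by rwa [← classesMap_classesMap, ch.toClass_natural])
  refine ⟨Localization.Away r, inferInstance, inferInstance, ψ', this, a,
    range_subset_of_mem q.1 ?_, ha⟩
  have hmem : (baseHom g).1 (IsLocalRing.closedPoint K) ∈
      Set.range (baseHom (k := k) (awayHom (k := k) r)).1 := by
    have hrange : Set.range (baseHom (k := k) (awayHom (k := k) r)).1 =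
        (PrimeSpectrum.basicOpen r : Set (PrimeSpectrum R)) :=
      PrimeSpectrum.localization_away_comap_range (Localization.Away r) r
    rw [hrange]
    show g r ∉ (IsLocalRing.closedPoint K).asIdeal
    intro hm
    exact hr (by simpa [IsLocalRing.closedPoint, IsLocalRing.maximalIdeal_eq_bot] using hm)
  obtain ⟨z, hz⟩ := hmem
  refine ⟨z, ?_⟩
  show ψ.1 ((baseHom (k := k) (awayHom r)).1 z) = q.1 (IsLocalRing.closedPoint K)
  rw [hz, ← hb]
  rfl

end FLTAgent.RelPic
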