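/-
Area RelPic (S25): classes of degree zero as a small sheaf on schemes.
-/
import Fermat.Agent.RelPic.CellPoints

set_option autoImplicit false
set_option linter.unusedSectionVars false

noncomputable section

universe u

open CategoryTheory CategoryTheory.Limits AlgebraicGeometry TopologicalSpace ModularCurve Opposite
open AlgebraicGeometry.RelPicard NeronModelInfra

namespace FLTAgent.RelPic

variable {k : Type u} [Field k] {C : Scheme.{u}} {c : C ⟶ Spec (CommRingCat.of k)}
variable {ε : SchemeHomOver (𝟙 (Spec (CommRingCat.of k))) c} {D : CellData k}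
variable (ch : Chart c ε D)

/-- A class of degree zero, with the structure morphism of its base. -/
structure DegElt (T : Scheme.{u}) : Type (u + 1) where
  /-- the structure morphism -/
  str : T ⟶ Spec (CommRingCat.of k)
  /-- the class -/
  cls : RigidifiedLineBundle.Classes c ε str
  deg : IsDegZeroClass ch str cls

namespace DegElt

variable {ch} {T T' T'' : Scheme.{u}}

/-- Pullback. -/
def map (e : DegElt ch T) (g : T' ⟶ T) : DegElt ch T' :=
  ⟨g ≫ e.str, RigidifiedLineBundle.classesMap ⟨g, rfl⟩ e.cls, e.deg.map ch _⟩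

lemma map_eq {e : DegElt ch T} {g : T' ⟶ T} {e' : DegElt ch T'} (h : g ≫ e.str = e'.str)
    (hx : RigidifiedLineBundle.classesMap ⟨g, h⟩ e.cls = e'.cls) : e.map g = e' := by
  obtain ⟨s, x, hd⟩ := e'
  have h' : g ≫ e.str = s := h
  change RigidifiedLineBundle.classesMap ⟨g, h'⟩ e.cls = x at hx
  subst h'
  subst hx
  rfl

lemma of_map_eq {e : DegElt ch T} {g : T' ⟶ T} {e' : DegElt ch T'} (h : e.map g = e')
    (hs : g ≫ e.str = e'.str) : RigidifiedLineBundle.classesMap ⟨g, hs⟩ e.cls = e'.cls := by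
  subst h
  rfl

lemma str_eq {e : DegElt ch T} {g : T' ⟶ T} {e' : DegElt ch T'} (h : e.map g = e') :
    g ≫ e.str = e'.str :=
  congrArg DegElt.str h

lemma map_id (e : DegElt ch T) : e.map (𝟙 T) = e :=
  map_eq (Category.id_comp _) (classesMap_id _ _)

lemma map_map (e : DegElt ch T) (g : T' ⟶ T) (g' : T'' ⟶ T') :
    (e.map g).map g' = e.map (g' ≫ g) := by
  refine (map_eq (e' := (e.map g).map g') (Category.assoc _ _ _) ?_).symm
  exact (classesMap_classesMap (⟨g, rfl⟩ : SchemeHomOver (g ≫ e.str) e.str)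
    (⟨g', rfl⟩ : SchemeHomOver (g' ≫ g ≫ e.str) (g ≫ e.str)) e.cls).symm

lemma cls_eq_of_map_eq {T₂ : Scheme.{u}} {e : DegElt ch T} {e' : DegElt ch T₂} {g : T' ⟶ T}
    {g' : T' ⟶ T₂} (h : e.map g = e'.map g') {t : T' ⟶ Spec (CommRingCat.of k)}
    (hg : g ≫ e.str = t) (hg' : g' ≫ e'.str = t) :
    RigidifiedLineBundle.classesMap ⟨g, hg⟩ e.cls =
      RigidifiedLineBundle.classesMap ⟨g', hg'⟩ e'.cls :=
  let E : DegElt ch T' := ⟨t, RigidifiedLineBundle.classesMap ⟨g, hg⟩ e.cls, e.deg.map ch _⟩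
  have hE : e.map g = E := map_eq hg rfl
  (of_map_eq (e' := E) (h.symm.trans hE) hg').symm

include ch in
theorem small (T : Scheme.{u}) : Small.{u} (DegElt ch T) := by
  choose R iR iA ψ hψ hp hpO using fun (t : T ⟶ Spec (CommRingCat.of k)) (p : T) =>
    exists_affineChart t p ⊤ trivial
  refine small_of_injective.{u} (f := fun e : DegElt ch T =>
    (⟨e.str, fun p => ch.toClass (RigidifiedLineBundle.classesMap (ψ e.str p) e.cls)⟩ :
      Σ t : T ⟶ Spec (CommRingCat.of k), ∀ p : T, D.Class (R t p))) fun e e' h => ?_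
  obtain ⟨t, x, hd⟩ := e
  obtain ⟨t', x', hd'⟩ := e'
  obtain ⟨rfl, h⟩ := Sigma.mk.inj h
  obtain rfl : x = x' := classes_ext ch x x' fun p =>
    ⟨_, _, ψ t p, hψ t p, hp t p, ch.toClass_injective (congrFun (eq_of_heq h) p)⟩
  rfl

end DegElt

instance small_degElt (T : Scheme.{u}) : Small.{u} (DegElt ch T) := DegElt.small T

/-- The functor of classes of degree zero. -/
def degFunctor : Scheme.{u}ᵒᵖ ⥤ Type u where
  obj T := Shrink.{u} (DegElt ch T.unop)
  map g := TypeCat.ofHom fun a => equivShrink _ (((equivShrink _).symm a).map g.unop)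
  map_id T := by
    ext a
    simp [DegElt.map_id]
  map_comp g g' := by
    ext a
    simp [DegElt.map_map]

/-- An element of the functor as a class. -/
def el {T : Scheme.{u}} (a : (degFunctor ch).obj (op T)) : DegElt ch T := (equivShrink _).symm a

lemma el_map {T T' : Scheme.{u}} (g : T' ⟶ T) (a : (degFunctor ch).obj (op T)) :
    el ch ((degFunctor ch).map g.op a) = (el ch a).map g :=
  Equiv.symm_apply_apply _ _

lemma el_injective {T : Scheme.{u}} : Function.Injective (el ch (T := T)) :=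
  (equivShrink _).symm.injective

/-- The element of a class. -/
def mkEl {T : Scheme.{u}} (e : DegElt ch T) : (degFunctor ch).obj (op T) := equivShrink _ e

@[simp] lemma el_mkEl {T : Scheme.{u}} (e : DegElt ch T) : el ch (mkEl ch e) = e :=
  Equiv.symm_apply_apply _ _

theorem isSheaf_degFunctor : Presieve.IsSheaf Scheme.zariskiTopology (degFunctor ch) := by
  rw [Scheme.zariskiTopology, Scheme.grothendieckTopology,
    Precoverage.isSheaf_toGrothendieck_iff_of_isStableUnderBaseChange]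
  rintro T S hS
  obtain ⟨(𝓤 : T.OpenCover), rfl⟩ := Scheme.exists_cover_of_mem_pretopology hS
  refine (Presieve.isSheafFor_arrows_iff _ _).mpr fun x hx => ?_
  let e := fun i => el ch (x i)
  have he : ∀ i j {S : Scheme.{u}} (a : S ⟶ 𝓤.X i) (b : S ⟶ 𝓤.X j),
      a ≫ 𝓤.f i = b ≫ 𝓤.f j → (e i).map a = (e j).map b := fun i j S a b h => by
    rw [← el_map, ← el_map, hx i j S a b h]
  let t : T ⟶ Spec (CommRingCat.of k) := 𝓤.glueMorphisms (fun i => (e i).str) fun i j =>
    congrArg DegElt.str (he i j (pullback.fst _ _) (pullback.snd _ _) pullback.condition)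
  let ψ : ∀ i, SchemeHomOver (e i).str t := fun i => ⟨𝓤.f i, 𝓤.ι_glueMorphisms _ _ i⟩
  have : ∀ i, IsOpenImmersion (ψ i).1 := fun i => inferInstanceAs (IsOpenImmersion (𝓤.f i))
  choose idx hidx using fun p : T => 𝓤.exists_eq p
  have : ∀ p : T, IsOpenImmersion (ψ (idx p)).1 := fun p => inferInstanceAs (IsOpenImmersion (ψ _).1)
  obtain ⟨y, hy₀⟩ := exists_glue_classes ch (fun p : T => 𝓤.X (idx p)) (fun p => (e (idx p)).str)
    (fun p => ψ (idx p)) (fun p => ⟨p, hidx p⟩)
    (fun p => (e (idx p)).cls) fun a b R _ _ f g h =>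
      DegElt.cls_eq_of_map_eq (he (idx a) (idx b) f.1 g.1 h) f.2 g.2
  have hy : ∀ i, RigidifiedLineBundle.classesMap (ψ i) y = (e i).cls := fun i => by
    refine classes_ext ch _ _ fun q => ?_
    obtain ⟨R, iR, iA, χ, hχ, hq, hχO⟩ := exists_affineChart (e i).str q
      (𝓤.f i ⁻¹ᵁ (𝓤.f (idx (𝓤.f i q))).opensRange) (hidx (𝓤.f i q))
    refine ⟨_, _, χ, hχ, hq, ?_⟩
    obtain ⟨g, hg⟩ := exists_lift (ψ (idx (𝓤.f i q))) (postComp (ψ i) χ) fun z ⟨w, hw⟩ =>
      hw ▸ hχO ⟨w, rfl⟩
    rw [classesMap_classesMap, ← hg, ← classesMap_classesMap, hy₀]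
    exact DegElt.cls_eq_of_map_eq (he _ i g.1 χ.1 (congrArg Subtype.val hg)) g.2 χ.2
  have hd : IsDegZeroClass ch t y := isDegZeroClass_of_cover ch y fun p => by
    obtain ⟨i, hi⟩ := 𝓤.exists_eq p
    exact ⟨_, _, ψ i, inferInstanceAs (IsOpenImmersion (ψ i).1), hi, by rw [hy i]; exact (e i).deg⟩
  refine ⟨mkEl ch ⟨t, y, hd⟩, fun i => el_injective ch ?_, fun a ha => el_injective ch ?_⟩
  · show el ch ((degFunctor ch).map (𝓤.f i).op _) = e i
    rw [el_map, el_mkEl]
    exact DegElt.map_eq (ψ i).2 (hy i)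
  · rw [el_mkEl]
    have hA : ∀ i, (el ch a).map (𝓤.f i) = e i := fun i =>
      (el_map ch _ a).symm.trans (congrArg (el ch) (ha i))
    have hstr : (el ch a).str = t := 𝓤.hom_ext _ _ fun i =>
      (DegElt.str_eq (hA i)).trans (ψ i).2.symm
    rw [← DegElt.map_id (el ch a)]
    refine DegElt.map_eq ((Category.id_comp _).trans hstr) (classes_ext ch _ _ fun p => ?_)
    obtain ⟨i, hi⟩ := 𝓤.exists_eq p
    refine ⟨_, _, ψ i, inferInstanceAs (IsOpenImmersion (ψ i).1), hi, ?_⟩
    rw [hy i, classesMap_classesMap]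
    refine Eq.trans ?_ (DegElt.of_map_eq (hA i) ((congrArg (𝓤.f i ≫ ·) hstr).trans (ψ i).2))
    exact congrArg (RigidifiedLineBundle.classesMap · _) (Subtype.ext (Category.comp_id _))

/-- The sheaf of classes of degree zero. -/
def degSheaf : Sheaf Scheme.zariskiTopology.{u} (Type u) :=
  ⟨degFunctor ch, (isSheaf_iff_isSheaf_of_type _ _).mpr (isSheaf_degFunctor ch)⟩

end FLTAgent.RelPic
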