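/-
Area RelPic (S25): the classes of degree zero are represented by a scheme glued from translates of
the cell.
-/
import Fermat.Agent.RelPic.DegZeroSheaf

set_option autoImplicit false
set_option linter.unusedSectionVars false

noncomputable section

universe u

open CategoryTheory CategoryTheory.Limits AlgebraicGeometry TopologicalSpace ModularCurve Opposite
open AlgebraicGeometry.RelPicard NeronModelInfra

namespace FLTAgent.RelPic

variable {k : Type u} [Field k] {C : Scheme.{u}} {c : C ⟶ Spec (CommRingCat.of k)}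
variable {ε : SchemeHomOver (𝟙 (Spec (CommRingCat.of k))) c} {D : CellData k}
variable {T : Scheme.{u}} {t : T ⟶ Spec (CommRingCat.of k)}

/-- Every point is the image of a field-valued point. -/
theorem exists_fieldPoint (t : T ⟶ Spec (CommRingCat.of k)) (p : T) :
    ∃ (K : Type u) (_ : Field K) (_ : Algebra k K) (q : SchemeHomOver (base (k := k) K) t),
      p ∈ Set.range q.1 := by
  let str : CommRingCat.of k ⟶ T.residueField p := Spec.preimage (T.fromSpecResidueField p ≫ t)
  let : Algebra k (T.residueField p) := str.hom.toAlgebra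
  refine ⟨T.residueField p, inferInstance, str.hom.toAlgebra, ⟨T.fromSpecResidueField p, ?_⟩, ?_⟩
  · show T.fromSpecResidueField p ≫ t = Spec.map str
    rw [Spec.map_preimage]
  · exact (T.range_fromSpecResidueField p).ge rfl

variable (ch : Chart c ε D) [IsAlgClosed k] [Algebra.FiniteType k D.A] [IsDedekindDomain D.A]

/-- The open of points in a translated cell, with its map to the cell. -/
theorem exists_cellOpen (P : D.Lattice k) (x : RigidifiedLineBundle.Classes c ε t) :
    ∃ (O : T.Opens) (φ : SchemeHomOver (O.ι ≫ t) (base (k := k) D.Ring)),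
      RigidifiedLineBundle.classesMap φ (cellPoint ch P) =
          RigidifiedLineBundle.classesMap (⟨O.ι, rfl⟩ : SchemeHomOver (O.ι ≫ t) t) x ∧
        ∀ {S : Scheme.{u}} (s : S ⟶ Spec (CommRingCat.of k)) (ψ : SchemeHomOver s t)
          (a : SchemeHomOver s (base (k := k) D.Ring)),
          RigidifiedLineBundle.classesMap a (cellPoint ch P) =
            RigidifiedLineBundle.classesMap ψ x → Set.range ψ.1 ⊆ O := by
  let α := {W : T.Opens // ∃ φ : SchemeHomOver (W.ι ≫ t) (base (k := k) D.Ring),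
    RigidifiedLineBundle.classesMap φ (cellPoint ch P) =
      RigidifiedLineBundle.classesMap (⟨W.ι, rfl⟩ : SchemeHomOver (W.ι ≫ t) t) x}
  choose φ hφ using fun W : α => W.2
  let O : T.Opens := ⨆ W : α, W.1
  have hle : ∀ W : α, W.1 ≤ O := le_iSup (fun W : α => W.1)
  let 𝓤 : O.toScheme.OpenCover := Scheme.Cover.mkOfCovers α (fun W => W.1.toScheme)
    (fun W => T.homOfLE (hle W)) (fun p => by
      obtain ⟨W, hW⟩ := Opens.mem_iSup.mp p.2
      exact ⟨W, ⟨p.1, hW⟩, Subtype.ext (Scheme.homOfLE_apply _ _)⟩)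
    (fun W => inferInstance)
  have key : ∀ (W W' : α) {S : Scheme.{u}} (a : S ⟶ W.1.toScheme) (b : S ⟶ W'.1.toScheme),
      a ≫ W.1.ι = b ≫ W'.1.ι → a ≫ (φ W).1 = b ≫ (φ W').1 := fun W W' S a b h => by
    let sa : SchemeHomOver (a ≫ W.1.ι ≫ t) (W.1.ι ≫ t) := ⟨a, rfl⟩
    let sb : SchemeHomOver (a ≫ W.1.ι ≫ t) (W'.1.ι ≫ t) := ⟨b, by
      rw [← Category.assoc, ← h, Category.assoc]⟩
    refine congrArg Subtype.val (eq_of_map_cellPoint ch P (postComp (φ W) sa) (postComp (φ W') sb) ?_)
    rw [← classesMap_classesMap, ← classesMap_classesMap, hφ W, hφ W', classesMap_classesMap,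
      classesMap_classesMap]
    exact congrArg (RigidifiedLineBundle.classesMap · x) (Subtype.ext h)
  have hι : ∀ W : α, T.homOfLE (hle W) ≫ O.ι = W.1.ι := fun W => Scheme.homOfLE_ι _ _
  let g : O.toScheme ⟶ Spec (CommRingCat.of D.Ring) := 𝓤.glueMorphisms (fun W : α => (φ W).1)
    fun (W W' : α) => key W W' _ _
      ((congrArg (pullback.fst (𝓤.f W) (𝓤.f W') ≫ ·) (hι W).symm).trans
        ((Category.assoc _ _ _).symm.trans ((congrArg (· ≫ O.ι) pullback.condition).trans
          ((Category.assoc _ _ _).trans (congrArg (pullback.snd (𝓤.f W) (𝓤.f W') ≫ ·) (hι W'))))))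
  have hg : ∀ W : α, T.homOfLE (hle W) ≫ g = (φ W).1 := fun W => 𝓤.ι_glueMorphisms _ _ W
  have hgt : g ≫ base D.Ring = O.ι ≫ t := 𝓤.hom_ext _ _ fun W : α => by
    show T.homOfLE (hle W) ≫ g ≫ _ = T.homOfLE (hle W) ≫ O.ι ≫ t
    rw [← Category.assoc, hg, (φ W).2, ← Category.assoc, hι]
  refine ⟨O, ⟨g, hgt⟩, classes_ext ch _ _ fun p => ?_, fun {S} s ψ a ha => ?_⟩
  · obtain ⟨W, hW⟩ := Opens.mem_iSup.mp p.2
    let i : SchemeHomOver (W.1.ι ≫ t) (O.ι ≫ t) := ⟨T.homOfLE (hle W), by rw [← Category.assoc, hι]⟩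
    refine ⟨_, _, i, inferInstanceAs (IsOpenImmersion (T.homOfLE (hle W))),
      ⟨⟨p.1, hW⟩, Subtype.ext (Scheme.homOfLE_apply (hle W) _)⟩, ?_⟩
    rw [classesMap_classesMap, classesMap_classesMap,
      show postComp (⟨g, hgt⟩ : SchemeHomOver (O.ι ≫ t) _) i = φ W from Subtype.ext (hg W), hφ W]
    exact congrArg (RigidifiedLineBundle.classesMap · x) (Subtype.ext (hι W).symm)
  · rintro _ ⟨z, rfl⟩
    obtain ⟨K, iK, iA, q, hq⟩ := exists_fieldPoint s z
    have hin : D.InCell P (ch.toClass (RigidifiedLineBundle.classesMap (postComp ψ q) x)) := by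
      rw [← classesMap_classesMap, ← ha, classesMap_classesMap]
      exact inCell_map_cellPoint ch P _
    obtain ⟨R, iR, iA', χ, hχ, b, hrange, hb⟩ := exists_lift_near ch x (postComp ψ q) hin
    obtain ⟨w, rfl⟩ := hq
    let W : T.Opens := χ.1.opensRange
    obtain ⟨j, hj⟩ := exists_lift χ (⟨W.ι, rfl⟩ : SchemeHomOver (W.ι ≫ t) t) (by
      rw [Scheme.Opens.range_ι]
      rfl)
    have hW : ∃ φ : SchemeHomOver (W.ι ≫ t) (base (k := k) D.Ring),
        RigidifiedLineBundle.classesMap φ (cellPoint ch P) =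
          RigidifiedLineBundle.classesMap (⟨W.ι, rfl⟩ : SchemeHomOver (W.ι ≫ t) t) x :=
      ⟨postComp b j, by rw [← classesMap_classesMap, hb, classesMap_classesMap, hj]⟩
    exact hle ⟨W, hW⟩ (hrange ⟨w, Scheme.Hom.comp_apply _ _ _⟩)

/-- The element carried by a translate of the cell. -/
def cellElt (P : {P : D.Lattice k // D.IsDegZero k P}) :
    DegElt ch (Spec (CommRingCat.of D.Ring)) :=
  ⟨base D.Ring, cellPoint ch P.1, isDegZeroClass_cellPoint ch P.1 P.2⟩

/-- A translate of the cell as a map to the functor. -/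
def chartMap (P : {P : D.Lattice k // D.IsDegZero k P}) :
    yoneda.obj (Spec (CommRingCat.of D.Ring)) ⟶ (degSheaf ch).1 :=
  yonedaEquiv.symm (mkEl ch (cellElt ch P))

lemma el_chartMap (P : {P : D.Lattice k // D.IsDegZero k P}) {S : Scheme.{u}}
    (a : S ⟶ Spec (CommRingCat.of D.Ring)) :
    el ch ((chartMap ch P).app (op S) a) = (cellElt ch P).map a :=
  (el_map ch a _).trans (congrArg (DegElt.map · a) (el_mkEl ch _))

/-- Translates of the cell are open in the functor. -/
theorem isOpenImmersion_chartMap (P : {P : D.Lattice k // D.IsDegZero k P}) :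
    IsOpenImmersion.presheaf (chartMap ch P) := by
  refine MorphismProperty.relative.of_exists fun T g => ?_
  let e := el ch (yonedaEquiv g)
  have hg : ∀ {S : Scheme.{u}} (h : S ⟶ T), el ch (g.app (op S) h) = e.map h := fun {S} h => by
    conv_lhs => rw [← yonedaEquiv.symm_apply_apply g]
    exact el_map ch h _
  obtain ⟨O, φ, hφ, hmax⟩ := exists_cellOpen ch P.1 e.cls
  refine ⟨O.toScheme, yoneda.map φ.1, O.ι, IsPullback.of_forall_isPullback_app fun U => ?_,
    inferInstance⟩
  obtain ⟨S⟩ := U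
  have hw : (cellElt ch P).map φ.1 = e.map O.ι :=
    DegElt.map_eq (e := cellElt ch P) (e' := e.map O.ι) φ.2 hφ
  refine (Types.isPullback_iff _ _ _ _).mpr ⟨?_, ?_, ?_⟩
  · ext h
    refine el_injective ch ?_
    show el ch ((chartMap ch P).app (op S) (h ≫ φ.1)) = el ch (g.app (op S) (h ≫ O.ι))
    rw [el_chartMap, hg, ← DegElt.map_map, ← DegElt.map_map, hw]
  · rintro (h h' : S ⟶ O.toScheme) ⟨-, e₂⟩
    exact (cancel_mono O.ι).mp e₂
  · intro (a : S ⟶ Spec (CommRingCat.of D.Ring)) (h : S ⟶ T) hah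
    have hm : (cellElt ch P).map a = e.map h := by
      rw [← el_chartMap, ← hg]
      exact congrArg (el ch) hah
    let ψ : SchemeHomOver (h ≫ e.str) e.str := ⟨h, rfl⟩
    let a' : SchemeHomOver (h ≫ e.str) (base (k := k) D.Ring) := ⟨a, DegElt.str_eq hm⟩
    have hcls : RigidifiedLineBundle.classesMap a' (cellPoint ch P.1) =
        RigidifiedLineBundle.classesMap ψ e.cls :=
      DegElt.of_map_eq hm (DegElt.str_eq hm)
    obtain ⟨w, hw'⟩ := exists_lift (⟨O.ι, rfl⟩ : SchemeHomOver (O.ι ≫ e.str) e.str) ψ (by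
      rw [Scheme.Opens.range_ι]
      exact hmax _ ψ a' hcls)
    refine ⟨w.1, ?_, congrArg Subtype.val hw'⟩
    refine congrArg Subtype.val (eq_of_map_cellPoint ch P.1 (postComp φ w) a' ?_)
    rw [← classesMap_classesMap, hφ, classesMap_classesMap, hw', hcls]

/-- Translates of the cell cover the functor. -/
theorem isLocallySurjective_chartMap :
    Presheaf.IsLocallySurjective Scheme.zariskiTopology.{u} (Sigma.desc (chartMap ch)) := by
  refine ⟨fun {T} a => ?_⟩
  let e := el ch a
  choose K iK iA q hq using fun p : T => exists_fieldPoint e.str p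
  choose P hP hin using fun p : T => D.exists_inCell (e.deg (K p) (q p))
  choose R iR iA' χ hχ b hrange hb using fun p : T => exists_lift_near ch e.cls (q p) (hin p)
  let 𝓤 : T.OpenCover := Scheme.Cover.mkOfCovers T (fun p => Spec (CommRingCat.of (R p)))
    (fun p => (χ p).1) (fun p => ⟨p, hrange p (hq p)⟩) hχ
  refine GrothendieckTopology.superset_covering _ ?_ 𝓤.mem_grothendieckTopology
  rw [Sieve.generate_le_iff]
  rintro _ _ ⟨p⟩
  refine ⟨(Sigma.ι (fun _ : {P : D.Lattice k // D.IsDegZero k P} =>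
    yoneda.obj (Spec (CommRingCat.of D.Ring))) ⟨P p, hP p⟩).app _ (b p).1, ?_⟩
  refine (ConcreteCategory.congr_hom
    (congr_app (Sigma.ι_desc (chartMap ch) ⟨P p, hP p⟩) _) _).trans ?_
  refine el_injective ch ?_
  refine (el_chartMap ch ⟨P p, hP p⟩ (b p).1).trans ?_
  refine Eq.trans ?_ (el_map ch (χ p).1 a).symm
  exact DegElt.map_eq (e' := e.map (χ p).1) ((b p).2.trans (χ p).2.symm) (reindex (hb p))
where
  reindex {S : Scheme.{u}} {s s' : S ⟶ Spec (CommRingCat.of k)} {T' : Scheme.{u}}
      {t' : T' ⟶ Spec (CommRingCat.of k)} {a : S ⟶ Spec (CommRingCat.of D.Ring)} {ψ : S ⟶ T'}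
      {ha : a ≫ base D.Ring = s} {hψ : ψ ≫ t' = s} {ha' : a ≫ base D.Ring = s'}
      {hψ' : ψ ≫ t' = s'} {x : RigidifiedLineBundle.Classes c ε t'}
      {z : RigidifiedLineBundle.Classes c ε (base (k := k) D.Ring)}
      (h : RigidifiedLineBundle.classesMap ⟨a, ha⟩ z = RigidifiedLineBundle.classesMap ⟨ψ, hψ⟩ x) :
      RigidifiedLineBundle.classesMap ⟨a, ha'⟩ z = RigidifiedLineBundle.classesMap ⟨ψ, hψ'⟩ x := by
    obtain rfl : s = s' := ha.symm.trans ha'
    exact h

/-- The classes of degree zero are representable by translates of the cell. -/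
theorem exists_rep : Nonempty (Rep ch) := by
  have := isLocallySurjective_chartMap ch
  let hf := fun P => isOpenImmersion_chartMap ch P
  let rb := Scheme.LocalRepresentability.representableBy hf
  let J := (Scheme.LocalRepresentability.glueData hf).glued
  let U : DegElt ch J := el ch (rb.homEquiv (𝟙 J))
  have hU : ∀ {T : Scheme.{u}} (g : T ⟶ J), el ch (rb.homEquiv g) = U.map g := fun {T} g => by
    rw [rb.homEquiv_eq g]
    exact el_map ch g _
  have htog : ∀ P, rb.homEquiv (Scheme.LocalRepresentability.toGlued hf P) =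
      mkEl ch (cellElt ch P) := fun P => by
    refine Eq.trans ?_ (Equiv.apply_symm_apply yonedaEquiv _)
    exact Scheme.LocalRepresentability.yonedaGluedToSheaf_app_toGlued hf
  have hcell : ∀ P, U.map (Scheme.LocalRepresentability.toGlued hf P) = cellElt ch P := fun P => by
    rw [← hU, htog, el_mkEl]
  exact ⟨
    { J := J
      π := U.str
      univ := U.cls
      isDegZero := U.deg
      existsUnique := fun {T} t x hx => by
        let e : DegElt ch T := ⟨t, x, hx⟩
        have he : U.map (rb.homEquiv.symm (mkEl ch e)) = e := by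
          rw [← hU]
          exact (congrArg (el ch) (rb.homEquiv.apply_symm_apply _)).trans (el_mkEl ch e)
        refine ⟨⟨rb.homEquiv.symm (mkEl ch e), DegElt.str_eq he⟩,
          DegElt.of_map_eq he (DegElt.str_eq he), fun g hg => Subtype.ext ?_⟩
        refine rb.homEquiv.injective (el_injective ch ?_)
        rw [hU]
        refine Eq.trans ?_
          ((congrArg (el ch) (rb.homEquiv.apply_symm_apply _)).trans (el_mkEl ch e)).symm
        exact DegElt.map_eq g.2 hg
      cell := fun P hP => ⟨Scheme.LocalRepresentability.toGlued hf ⟨P, hP⟩,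
        DegElt.str_eq (hcell ⟨P, hP⟩)⟩
      isOpenImmersion_cell := fun P hP =>
        inferInstanceAs (IsOpenImmersion (Scheme.LocalRepresentability.toGlued hf ⟨P, hP⟩))
      exists_mem_cell := fun y => by
        obtain ⟨⟨P, hP⟩, z, hz⟩ := (Scheme.LocalRepresentability.glueData hf).ι_jointly_surjective y
        exact ⟨P, hP, z, hz⟩
      toClass_cell := fun P hP => by
        exact (congrArg (fun y => ch.toClass y * D.chartShift D.Ring P)
          (DegElt.of_map_eq (hcell ⟨P, hP⟩) (DegElt.str_eq (hcell ⟨P, hP⟩)))).trans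
          (toClass_cellPoint ch P) }⟩

end FLTAgent.RelPic
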