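import Fermat.Agent.RelPic.EngineEuler

/-!
Area S25, parcel E: the Euler characteristic in families and under a change of trivialisation.
-/

set_option autoImplicit false
set_option linter.unusedSectionVars false

noncomputable section

universe u

open ModularCurve Matrix

namespace FLTAgent.RelPic

namespace CellData

variable {k : Type u} [Field k] (D : CellData k)

section Family

variable {R : Type u} [CommRing R] [Algebra k R] {K : Type u} [Field K] [Algebra k K]

theorem Piece.rank_proj_add {M : Submodule (D.AR K) (LaurentSeries K)} {m : ℤ}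
    (P : D.Piece M m) : P.proj.rank + (1 - P.proj).rank = Fintype.card P.I := by
  have hker : LinearMap.ker P.proj.mulVecLin = LinearMap.range (1 - P.proj).mulVecLin := by
    ext v
    simp only [LinearMap.mem_ker, LinearMap.mem_range, Matrix.mulVecLin_apply, Matrix.sub_mulVec,
      Matrix.one_mulVec]
    constructor
    · intro hv
      exact ⟨v, by rw [hv, sub_zero]⟩
    · rintro ⟨w, rfl⟩
      rw [Matrix.mulVec_sub, ← P.coord_comb w, P.proj_coord (P.comb_mem w), sub_self]
  have h := P.proj.mulVecLin.finrank_range_add_finrank_ker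
  rw [hker, Module.finrank_fintype_fun_eq_card] at h
  exact h

/-- the Euler characteristic is locally constant on the base -/
theorem exists_euler_eq (Lt : D.Lattice R) (g : R →ₐ[k] K) (n : ℤ) :
    ∃ r : R, g r ≠ 0 ∧ ∀ (K' : Type u) [Field K'] [Algebra k K'] (φ : R →ₐ[k] K'), φ r ≠ 0 →
      D.euler K' (D.mapLat φ Lt) n = D.euler K (D.mapLat g Lt) n := by
  obtain ⟨m, N, P, hP, e⟩ := D.exists_piece Lt (-n)
  obtain ⟨r₁, h₁, h₁'⟩ := exists_rank_le P.proj (g : R →+* K)
  obtain ⟨r₂, h₂, h₂'⟩ := exists_rank_le (1 - P.proj) (g : R →+* K)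
  refine ⟨r₁ * r₂, by rw [map_mul]; exact mul_ne_zero h₁ h₂, fun K' _ _ φ hφ => ?_⟩
  rw [map_mul, mul_ne_zero_iff] at hφ
  have hsub : ∀ {L : Type u} [Field L] [Algebra k L] (ψ : R →ₐ[k] L),
      (1 - P.proj).map (ψ : R →+* L) = 1 - P.proj.map (ψ : R →+* L) := fun {L} _ _ ψ => by
    rw [Matrix.map_sub _ (map_sub (ψ : R →+* L)),
      Matrix.map_one _ (map_zero (ψ : R →+* L)) (map_one (ψ : R →+* L))]
  have a : (P.proj.map (g : R →+* K)).rank + (1 - P.proj.map (g : R →+* K)).rank =
      Fintype.card P.I := by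
    have := (P.map D g hP).rank_proj_add D
    rw [P.map_proj D g hP] at this
    exact this
  have b : (P.proj.map (φ : R →+* K')).rank + (1 - P.proj.map (φ : R →+* K')).rank =
      Fintype.card P.I := by
    have := (P.map D φ hP).rank_proj_add D
    rw [P.map_proj D φ hP] at this
    exact this
  have c₁ := h₁' K' (φ : R →+* K') hφ.1
  have c₂ := h₂' K' (φ : R →+* K') hφ.2
  rw [hsub, hsub] at c₂
  have e₁ : D.euler K (D.mapLat g Lt) n = ((P.map D g hP).proj.rank : ℤ) - N := by
    have h := D.euler_eq (D.mapLat g Lt) (P.map D g hP) (D.sup_mapSub g hP) N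
    rw [← e, neg_neg] at h
    exact h
  have e₂ : D.euler K' (D.mapLat φ Lt) n = ((P.map D φ hP).proj.rank : ℤ) - N := by
    have h := D.euler_eq (D.mapLat φ Lt) (P.map D φ hP) (D.sup_mapSub φ hP) N
    rw [← e, neg_neg] at h
    exact h
  rw [P.map_proj D g hP] at e₁
  rw [P.map_proj D φ hP] at e₂
  have hr : (P.proj.map (φ : R →+* K')).rank = (P.proj.map (g : R →+* K)).rank := by omega
  rw [e₁, e₂]
  erw [hr]
  rfl

/-- having degree zero is locally constant on the base -/
theorem exists_isDegZero_iff (Lt : D.Lattice R) (g : R →ₐ[k] K) :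
    ∃ r : R, g r ≠ 0 ∧ ∀ (K' : Type u) [Field K'] [Algebra k K'] (φ : R →ₐ[k] K'), φ r ≠ 0 →
      (D.IsDegZero K' (D.mapLat φ Lt) ↔ D.IsDegZero K (D.mapLat g Lt)) := by
  obtain ⟨r, hr, h⟩ := D.exists_euler_eq Lt g (-1)
  refine ⟨r, hr, fun K' _ _ φ hφ => ?_⟩
  rw [D.isDegZero_iff _ (-1), D.isDegZero_iff _ (-1), h K' φ hφ]

/-- the points where the degree is zero form an open set, and so do the others -/
theorem isClopen_isDegZero (Lt : D.Lattice R) :
    IsClopen {p : PrimeSpectrum R |
      D.IsDegZero p.asIdeal.ResidueField (D.mapLat (resHom p) Lt)} := by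
  have key : ∀ p : PrimeSpectrum R, ∃ r : R, r ∉ p.asIdeal ∧ ∀ q : PrimeSpectrum R,
      q ∈ PrimeSpectrum.basicOpen r →
      (D.IsDegZero q.asIdeal.ResidueField (D.mapLat (resHom q) Lt) ↔
        D.IsDegZero p.asIdeal.ResidueField (D.mapLat (resHom p) Lt)) := fun p => by
    obtain ⟨r, hr, h⟩ := D.exists_isDegZero_iff Lt (resHom p)
    exact ⟨r, fun h0 => hr (resHom_eq_zero_iff.mpr h0),
      fun q hq => h _ (resHom q) fun h0 => hq (resHom_eq_zero_iff.mp h0)⟩
  refine ⟨⟨isOpen_iff_forall_mem_open.mpr fun p hp => ?_⟩,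
    isOpen_iff_forall_mem_open.mpr fun p hp => ?_⟩ <;>
  · obtain ⟨r, hr, h⟩ := key p
    refine ⟨PrimeSpectrum.basicOpen r, fun q hq => ?_, PrimeSpectrum.isOpen_basicOpen, hr⟩
    simpa [h q hq] using hp

end Family

section Series

variable {R : Type u} [CommRing R] [Algebra k R] (u : (PowerSeries R)ˣ)

/-- multiplication by an invertible series -/
def mulSeries : LaurentSeries R ≃ₗ[R] LaurentSeries R :=
  LinearEquiv.ofLinearMap
    { toFun := fun x => HahnSeries.ofPowerSeries ℤ R u * x
      map_add' := mul_add _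
      map_smul' := fun r x => mul_C_smul r _ x }
    { toFun := fun x => HahnSeries.ofPowerSeries ℤ R ↑u⁻¹ * x
      map_add' := mul_add _
      map_smul' := fun r x => mul_C_smul r _ x }
    (LinearMap.ext fun x => by
      show HahnSeries.ofPowerSeries ℤ R u * (HahnSeries.ofPowerSeries ℤ R ↑u⁻¹ * x) = x
      rw [← mul_assoc, ← map_mul, Units.mul_inv, map_one, one_mul])
    (LinearMap.ext fun x => by
      show HahnSeries.ofPowerSeries ℤ R ↑u⁻¹ * (HahnSeries.ofPowerSeries ℤ R u * x) = x
      rw [← mul_assoc, ← map_mul, Units.inv_mul, map_one, one_mul])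

theorem ofPowerSeries_mem_tailAt (f : PowerSeries R) :
    HahnSeries.ofPowerSeries ℤ R f ∈ tailAt R 0 := fun j hj => by
  rw [HahnSeries.ofPowerSeries_apply, HahnSeries.embDomain_of_notMem_range]
  rintro ⟨a, ha⟩
  change (a : ℤ) = j at ha
  omega

theorem map_mulSeries_tailAt (n : ℤ) :
    (tailAt R n).map (mulSeries u).toLinearMap = tailAt R n := by
  refine le_antisymm (Submodule.map_le_iff_le_comap.mpr fun x hx => ?_) fun x hx =>
    Submodule.mem_map.mpr ⟨HahnSeries.ofPowerSeries ℤ R ↑u⁻¹ * x, ?_,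
      (mulSeries u).apply_symm_apply x⟩
  · have := mul_mem_tailAt (ofPowerSeries_mem_tailAt (u : PowerSeries R)) hx
    rw [zero_add] at this
    exact this
  · simpa using mul_mem_tailAt (ofPowerSeries_mem_tailAt ((u⁻¹ : _) : PowerSeries R)) hx

/-- the lattice twisted by an invertible series -/
theorem toR_ofSeries_mul (Lt : D.Lattice R) :
    D.toR (D.ofSeries R u * Lt).1 = (D.toR Lt.1).map (mulSeries u).toLinearMap := by
  ext x
  show x ∈ Submodule.span (D.AR R) {HahnSeries.ofPowerSeries ℤ R (u : PowerSeries R)} * Lt.1 ↔ _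
  rw [Submodule.mem_span_singleton_mul, Submodule.mem_map]
  rfl

variable {K : Type u} [Field K] [Algebra k K] (v : (PowerSeries K)ˣ) (Lt : D.Lattice K)

theorem h0_ofSeries_mul (n : ℤ) : D.h0 K (D.ofSeries K v * Lt) n = D.h0 K Lt n := by
  have e : D.toR (D.ofSeries K v * Lt).1 ⊓ tailAt K (-n) =
      (D.toR Lt.1 ⊓ tailAt K (-n)).map (mulSeries v).toLinearMap := by
    rw [Submodule.map_inf _ (mulSeries v).injective, D.toR_ofSeries_mul, map_mulSeries_tailAt]
  rw [h0, h0, e, LinearEquiv.finrank_map_eq]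

theorem h1_ofSeries_mul (n : ℤ) : D.h1 K (D.ofSeries K v * Lt) n = D.h1 K Lt n := by
  have e : (D.toR Lt.1 ⊔ tailAt K (-n)).map (mulSeries v).toLinearMap =
      D.toR (D.ofSeries K v * Lt).1 ⊔ tailAt K (-n) := by
    rw [Submodule.map_sup, D.toR_ofSeries_mul, map_mulSeries_tailAt]
  exact (Submodule.Quotient.equiv _ _ (mulSeries v) e).finrank_eq.symm

theorem isDegZero_ofSeries_mul :
    D.IsDegZero K (D.ofSeries K v * Lt) ↔ D.IsDegZero K Lt := by
  rw [IsDegZero, IsDegZero, h0_ofSeries_mul, h1_ofSeries_mul]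

end Series

end CellData

end FLTAgent.RelPic

end
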