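import Fermat.Agent.RelPic.RepSmooth
import Fermat.Agent.RelPic.EngineFamily

/-!
Area S25, parcel G: the scheme representing the classes of degree zero is separated, because a
class being trivial is a closed condition.
-/

set_option autoImplicit false
set_option linter.unusedSectionVars false

noncomputable section

universe u

open CategoryTheory CategoryTheory.Limits AlgebraicGeometry TopologicalSpace ModularCurve
open AlgebraicGeometry.RelPicard NeronModelInfra
open scoped TensorProduct

namespace FLTAgent.RelPic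

namespace CellData

variable {k : Type u} [Field k] (D : CellData k) {K : Type u} [Field K] [Algebra k K]

/-- the only functions without poles are the constants -/
theorem eq_C_of_mem_tailAt {x : LaurentSeries K} (hx : x ∈ D.AR K) (h : x ∈ tailAt K 0) :
    x = HahnSeries.C (x.coeff 0) := by
  classical
  have h1 : (1 : LaurentSeries K) ∈ tailAt K 0 := fun j hj => by
    rw [HahnSeries.coeff_one, if_neg hj.ne]
  have key : ∀ y ∈ D.AR K, y ∈ tailAt K 0 → y = y.coeff 0 •
      ∑ n : {n // n ≤ 0 ∧ n ∉ D.G}, L K (D.an n.1 n.2.2) := fun y hy hy0 => by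
    rw [Finset.smul_sum]
    conv_lhs => rw [D.AR_eq_sum hy (d := 0) (by simpa using hy0)]
    refine Finset.sum_congr rfl fun n _ => ?_
    rw [show -(n.1 : ℤ) = 0 by have := n.2.1; omega]
  have e := key 1 (one_mem _) h1
  rw [HahnSeries.coeff_one, if_pos rfl, one_smul] at e
  rw [key x hx h, ← e, ← HahnSeries.C_mul_eq_smul, mul_one]
  simp

/-- a class over a field is trivial iff it and its inverse have sections -/
theorem mem_range_ofSeries_iff (Lt : D.Lattice K) :
    Lt ∈ (D.ofSeries K).range ↔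
      D.toR Lt.1 ⊓ tailAt K 0 ≠ ⊥ ∧ D.toR (Lt⁻¹ : D.Lattice K).1 ⊓ tailAt K 0 ≠ ⊥ := by
  constructor
  · rintro ⟨v, rfl⟩
    have key : ∀ w : (PowerSeries K)ˣ, D.toR (D.ofSeries K w).1 ⊓ tailAt K 0 ≠ ⊥ := fun w h => by
      have h1 : HahnSeries.ofPowerSeries ℤ K (w : PowerSeries K) ∈
          D.toR (D.ofSeries K w).1 ⊓ tailAt K 0 :=
        ⟨Submodule.mem_span_singleton_self _, ofPowerSeries_mem_tailAt _⟩
      rw [h, Submodule.mem_bot] at h1
      exact w.ne_zero (HahnSeries.ofPowerSeries_injective (h1.trans (map_zero _).symm))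
    refine ⟨key v, ?_⟩
    rw [← map_inv]
    exact key v⁻¹
  · rintro ⟨h1, h2⟩
    obtain ⟨x, ⟨hxL, hx0⟩, hxne⟩ := Submodule.exists_mem_ne_zero_of_ne_bot h1
    obtain ⟨y, ⟨hyL, hy0⟩, hyne⟩ := Submodule.exists_mem_ne_zero_of_ne_bot h2
    have hmul : ∀ z ∈ Lt.1, z * y ∈ D.AR K := fun z hz => by
      have h := Submodule.mul_mem_mul hz (D.mem_toR.mp hyL)
      rw [← Units.val_mul, mul_inv_cancel, Units.val_one, Submodule.mem_one] at h
      obtain ⟨a, ha⟩ := h
      exact ha ▸ a.2
    have hxy : x * y = HahnSeries.C ((x * y).coeff 0) :=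
      D.eq_C_of_mem_tailAt (hmul x hxL) (by simpa using mul_mem_tailAt hx0 hy0)
    set a := (x * y).coeff 0 with ha
    have ha0 : a ≠ 0 := fun h0 => mul_ne_zero hxne hyne (by rw [hxy, h0, map_zero])
    have hlead := (coeff_mul_lead hx0 hy0).2
    rw [add_zero, ← ha] at hlead
    have hx00 : x.coeff 0 ≠ 0 := fun h0 => ha0 (by rw [hlead, h0, zero_mul])
    have hf : IsUnit (PowerSeries.mk fun n : ℕ => x.coeff n) := by
      rw [PowerSeries.isUnit_iff_constantCoeff, ← PowerSeries.coeff_zero_eq_constantCoeff_apply,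
        PowerSeries.coeff_mk]
      exact isUnit_iff_ne_zero.mpr hx00
    have hfx : HahnSeries.ofPowerSeries ℤ K (hf.unit : PowerSeries K) = x := by
      rw [IsUnit.unit_spec]
      ext l
      rcases le_or_gt 0 l with hl | hl
      · obtain ⟨n, rfl⟩ := Int.eq_ofNat_of_zero_le hl
        rw [HahnSeries.ofPowerSeries_apply_coeff, PowerSeries.coeff_mk]
      · rw [ofPowerSeries_mem_tailAt _ l hl, hx0 l hl]
    refine ⟨hf.unit, Units.ext (le_antisymm ?_ fun z hz => ?_)⟩
    · show Submodule.span (D.AR K) {HahnSeries.ofPowerSeries ℤ K (hf.unit : PowerSeries K)} ≤ _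
      rw [hfx]
      exact Submodule.span_le.mpr (Set.singleton_subset_iff.mpr hxL)
    · refine Submodule.mem_span_singleton.mpr
        ⟨⟨HahnSeries.C a⁻¹ * (z * y), mul_mem (D.C_mem_AR _) (hmul z hz)⟩, ?_⟩
      rw [Subring.smul_def, smul_eq_mul]
      show HahnSeries.C a⁻¹ * (z * y) * HahnSeries.ofPowerSeries ℤ K (hf.unit : PowerSeries K) = z
      rw [hfx]
      rw [mul_assoc, mul_assoc, mul_comm y x, hxy, mul_left_comm, ← map_mul, inv_mul_cancel₀ ha0,
        map_one, mul_one]

/-- two classes agree on a closed set of points of the base -/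
theorem isClosed_mk_eq {R : Type u} [CommRing R] [Algebra k R] (A B : D.Lattice R) :
    IsClosed {p : PrimeSpectrum R |
      (QuotientGroup.mk (D.mapLat (resHom p) A) : D.Class p.asIdeal.ResidueField) =
        QuotientGroup.mk (D.mapLat (resHom p) B)} := by
  have e : ∀ p : PrimeSpectrum R,
      ((QuotientGroup.mk (D.mapLat (resHom p) A) : D.Class p.asIdeal.ResidueField) =
        QuotientGroup.mk (D.mapLat (resHom p) B)) ↔
      (D.toR (D.mapLat (resHom p) (A⁻¹ * B)).1 ⊓ tailAt p.asIdeal.ResidueField 0 ≠ ⊥ ∧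
        D.toR (D.mapLat (resHom p) (A⁻¹ * B)⁻¹).1 ⊓ tailAt p.asIdeal.ResidueField 0 ≠ ⊥) := fun p => by
    rw [QuotientGroup.eq, ← map_inv (D.mapLat (resHom p)) A, ← map_mul, mem_range_ofSeries_iff,
      ← map_inv (D.mapLat (resHom p))]
  simp only [e]
  exact (D.isClosed_inf_ne_bot (A⁻¹ * B) 0).inter (D.isClosed_inf_ne_bot (A⁻¹ * B)⁻¹ 0)

end CellData

variable {k : Type u} [Field k] [IsAlgClosed k] {C : Scheme.{u}}
variable {c : C ⟶ Spec (CommRingCat.of k)}
variable {ε : SchemeHomOver (𝟙 (Spec (CommRingCat.of k))) c} {D : CellData k}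
variable [Algebra.FiniteType k D.A] [IsDedekindDomain D.A] {ch : Chart c ε D}

/-- the first inclusion into a tensor product of algebras -/
def inclL (R₁ R₂ : Type u) [CommRing R₁] [Algebra k R₁] [CommRing R₂] [Algebra k R₂] :
    R₁ →ₐ[k] R₁ ⊗[k] R₂ :=
  Algebra.TensorProduct.includeLeft

/-- the second inclusion into a tensor product of algebras -/
def inclR (R₁ R₂ : Type u) [CommRing R₁] [Algebra k R₁] [CommRing R₂] [Algebra k R₂] :
    R₂ →ₐ[k] R₁ ⊗[k] R₂ :=
  Algebra.TensorProduct.includeRight

/-- a field point on the diagonal has equal components -/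
theorem fst_eq_snd_of_mem_range_diagonal {X S : Scheme.{u}} (f : X ⟶ S) {K : Type u} [Field K]
    (s : Spec (CommRingCat.of K) ⟶ pullback f f)
    (h : s (IsLocalRing.closedPoint K) ∈ Set.range (pullback.diagonal f)) :
    s ≫ pullback.fst f f = s ≫ pullback.snd f f := by
  have key : ∀ z ∈ Set.range (pullback.diagonal f),
      (pullback f f).fromSpecResidueField z ≫ pullback.fst f f =
        (pullback f f).fromSpecResidueField z ≫ pullback.snd f f := by
    rintro _ ⟨y, rfl⟩
    have hsurj : Function.Surjective ((pullback.diagonal f).stalkMap y) :=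
      (pullback.diagonal f).stalkMap_surjective y
    have hbij : IsIso ((pullback.diagonal f).residueFieldMap y) := by
      refine (ConcreteCategory.isIso_iff_bijective _).mpr
        ⟨((pullback.diagonal f).residueFieldMap y).hom.injective, fun a => ?_⟩
      obtain ⟨b, rfl⟩ := X.residue_surjective y a
      obtain ⟨b', rfl⟩ := hsurj b
      exact ⟨(pullback f f).residue _ b',
        congr($(Scheme.residue_residueFieldMap (pullback.diagonal f) y) b')⟩
    rw [← cancel_epi (Spec.map ((pullback.diagonal f).residueFieldMap y)),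
      Scheme.Hom.SpecMap_residueFieldMap_fromSpecResidueField_assoc,
      Scheme.Hom.SpecMap_residueFieldMap_fromSpecResidueField_assoc,
      pullback.diagonal_fst, pullback.diagonal_snd]
  rw [← (pullback f f).descResidueField_stalkClosedPointTo_fromSpecResidueField K s, Category.assoc,
    Category.assoc, key _ h]

namespace Rep

variable (r : Rep ch)

/-- the lattice of the class on a chart -/
def cellPart (P : D.Lattice k) : D.Lattice D.Ring :=
  D.cellLat D.univCell * (D.twist D.Ring (D.G.card : ℤ) * D.mapLat (Algebra.ofId k D.Ring) P)⁻¹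

theorem toClass_cell_eq (P : D.Lattice k) (hP : D.IsDegZero k P) :
    ch.toClass (RigidifiedLineBundle.classesMap (r.cell P hP) r.univ) =
      QuotientGroup.mk (cellPart (D := D) P) :=
  eq_mul_inv_of_mul_eq (r.toClass_cell P hP)

theorem toClass_overComp {R R' R'' : Type u} [CommRing R] [Algebra k R] [CommRing R'] [Algebra k R']
    [CommRing R''] [Algebra k R''] (f : R →ₐ[k] R') (g : R' →ₐ[k] R'')
    (a : SchemeHomOver (base (k := k) R) r.π) (A : D.Lattice R)
    (h : ch.toClass (RigidifiedLineBundle.classesMap a r.univ) = QuotientGroup.mk A) :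
    ch.toClass (RigidifiedLineBundle.classesMap (overComp (baseHom g) (overComp (baseHom f) a))
      r.univ) = QuotientGroup.mk (D.mapLat g (D.mapLat f A)) := by
  rw [← classesMap_comp, ch.toClass_natural, ← classesMap_comp, ch.toClass_natural, h,
    CellData.mapClass_mk, CellData.mapClass_mk]

/-- equality on a product of two charts is a closed condition -/
theorem exists_open_nhd {R₁ R₂ : Type u} [CommRing R₁] [Algebra k R₁] [CommRing R₂] [Algebra k R₂]
    (a₁ : SchemeHomOver (base (k := k) R₁) r.π) (a₂ : SchemeHomOver (base (k := k) R₂) r.π)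
    [IsOpenImmersion a₁.1] [IsOpenImmersion a₂.1] (A₁ : D.Lattice R₁) (A₂ : D.Lattice R₂)
    (h₁ : ch.toClass (RigidifiedLineBundle.classesMap a₁ r.univ) = QuotientGroup.mk A₁)
    (h₂ : ch.toClass (RigidifiedLineBundle.classesMap a₂ r.univ) = QuotientGroup.mk A₂)
    {z : (pullback r.π r.π : Scheme.{u})}
    (hz₁ : pullback.fst r.π r.π z ∈ Set.range a₁.1) (hz₂ : pullback.snd r.π r.π z ∈ Set.range a₂.1)
    (hz : z ∉ Set.range (pullback.diagonal r.π)) :
    ∃ V ⊆ (Set.range (pullback.diagonal r.π))ᶜ, IsOpen V ∧ z ∈ V := by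
  let μ : pullback (base (k := k) R₁) (base (k := k) R₂) ⟶ pullback r.π r.π :=
    pullback.map _ _ _ _ a₁.1 a₂.1 (𝟙 _) ((Category.comp_id _).trans a₁.2.symm)
      ((Category.comp_id _).trans a₂.2.symm)
  let m : Spec (CommRingCat.of (R₁ ⊗[k] R₂)) ⟶ pullback r.π r.π :=
    (pullbackSpecIso k R₁ R₂).inv ≫ μ
  let iL := inclL (k := k) R₁ R₂
  let iR := inclR (k := k) R₁ R₂
  have hmfst : m ≫ pullback.fst r.π r.π = (baseHom iL).1 ≫ a₁.1 := by
    show ((pullbackSpecIso k R₁ R₂).inv ≫ μ) ≫ _ = _
    rw [Category.assoc, pullback.lift_fst, pullbackSpecIso_inv_fst_assoc]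
    rfl
  have hmsnd : m ≫ pullback.snd r.π r.π = (baseHom iR).1 ≫ a₂.1 := by
    show ((pullbackSpecIso k R₁ R₂).inv ≫ μ) ≫ _ = _
    rw [Category.assoc, pullback.lift_snd, pullbackSpecIso_inv_snd_assoc]
    rfl
  let A := D.mapLat iL A₁
  let B := D.mapLat iR A₂
  let S := {p : PrimeSpectrum (R₁ ⊗[k] R₂) |
      (QuotientGroup.mk (D.mapLat (resHom p) A) : D.Class p.asIdeal.ResidueField) =
        QuotientGroup.mk (D.mapLat (resHom p) B)}
  have hS : ∀ p, p ∈ S ↔ m p ∈ Set.range (pullback.diagonal r.π) := fun p => by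
    let g := resHom (k := k) p
    let a := overComp (baseHom g) (overComp (baseHom iL) a₁)
    let b := overComp (baseHom g) (overComp (baseHom iR) a₂)
    have ha : ch.toClass (RigidifiedLineBundle.classesMap a r.univ) =
        QuotientGroup.mk (D.mapLat g A) := r.toClass_overComp iL g a₁ A₁ h₁
    have hb : ch.toClass (RigidifiedLineBundle.classesMap b r.univ) =
        QuotientGroup.mk (D.mapLat g B) := r.toClass_overComp iR g a₂ A₂ h₂
    let sp : Spec (CommRingCat.of p.asIdeal.ResidueField) ⟶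
        Spec (CommRingCat.of (R₁ ⊗[k] R₂)) := (baseHom g).1
    have hsp : sp (IsLocalRing.closedPoint _) = p := PrimeSpectrum.ext <| by
      show Ideal.comap (algebraMap _ p.asIdeal.ResidueField) _ = _
      rw [show (IsLocalRing.closedPoint p.asIdeal.ResidueField).asIdeal = ⊥ from
        IsLocalRing.maximalIdeal_eq_bot, ← RingHom.ker_eq_comap_bot,
        Ideal.ker_algebraMap_residueField]
    have hfst : (sp ≫ m) ≫ pullback.fst r.π r.π = a.1 := by
      rw [Category.assoc, hmfst]; rfl
    have hsnd : (sp ≫ m) ≫ pullback.snd r.π r.π = b.1 := by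
      rw [Category.assoc, hmsnd]; rfl
    constructor
    · intro h
      have hab : a = b := r.hom_ext a b (ch.toClass_injective (ha.trans (h.trans hb.symm)))
      have e : sp ≫ m = a.1 ≫ pullback.diagonal r.π := by
        apply pullback.hom_ext
        · rw [hfst, Category.assoc, pullback.diagonal_fst, Category.comp_id]
        · rw [hsnd, Category.assoc, pullback.diagonal_snd, Category.comp_id, hab]
      exact ⟨a.1 (IsLocalRing.closedPoint _),
        (congrArg (fun f : Spec (CommRingCat.of p.asIdeal.ResidueField) ⟶ pullback r.π r.π =>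
          f (IsLocalRing.closedPoint _)) e.symm).trans (congrArg m hsp)⟩
    · intro h
      have h' : (sp ≫ m) (IsLocalRing.closedPoint _) ∈ Set.range (pullback.diagonal r.π) :=
        (congrArg (fun q => q ∈ Set.range (pullback.diagonal r.π)) (congrArg m hsp)).mpr h
      have hab : a = b := Subtype.ext
        (hfst.symm.trans ((fst_eq_snd_of_mem_range_diagonal r.π _ h').trans hsnd))
      show _ = _
      rw [← ha, ← hb, hab]
  have hmem : z ∈ Set.range m := by
    have h1 : z ∈ Set.range μ := by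
      rw [Scheme.Pullback.range_map]
      exact ⟨hz₁, hz₂⟩
    obtain ⟨w, hw⟩ := h1
    exact ⟨(pullbackSpecIso k R₁ R₂).hom w, by
      rw [← Scheme.Hom.comp_apply, Iso.hom_inv_id_assoc, hw]⟩
  refine ⟨m '' Sᶜ, ?_, m.isOpenEmbedding.isOpenMap _ (D.isClosed_mk_eq A B).isOpen_compl, ?_⟩
  · rintro _ ⟨p, hp, rfl⟩ h
    exact hp ((hS p).mpr h)
  · obtain ⟨p, rfl⟩ := hmem
    exact ⟨p, fun h => hz ((hS p).mp h), rfl⟩

/-- the representing scheme is separated -/
theorem isSeparated : IsSeparated r.π := by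
  refine ⟨IsClosedImmersion.of_isPreimmersion _ (isOpen_compl_iff.mp
    (isOpen_iff_forall_mem_open.mpr fun z hz => ?_))⟩
  obtain ⟨P, hP, hzP⟩ := r.exists_mem_cell (pullback.fst r.π r.π z)
  obtain ⟨Q, hQ, hzQ⟩ := r.exists_mem_cell (pullback.snd r.π r.π z)
  have := r.isOpenImmersion_cell P hP
  have := r.isOpenImmersion_cell Q hQ
  exact r.exists_open_nhd (r.cell P hP) (r.cell Q hQ) _ _ (r.toClass_cell_eq P hP)
    (r.toClass_cell_eq Q hQ) hzP hzQ hz

end Rep

end FLTAgent.RelPic

end
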