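/-
Area RelPic (S25): a scheme representing the classes of degree zero represents the algebraically
trivial cut.
-/
import Fermat.Agent.RelPic.RepExists
import Fermat.Agent.RelPic.RepCut
import Fermat.Agent.RelPic.RepSeparated

set_option autoImplicit false
set_option linter.unusedSectionVars false

noncomputable section

universe u

open CategoryTheory CategoryTheory.Limits AlgebraicGeometry TopologicalSpace ModularCurve
open AlgebraicGeometry.RelPicard NeronModelInfra GoodReductionJacobian

namespace FLTAgent.RelPic

variable {k : Type u} [Field k] [IsAlgClosed k] {C : Scheme.{u}}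
variable {c : C ⟶ Spec (CommRingCat.of k)}
variable {ε : SchemeHomOver (𝟙 (Spec (CommRingCat.of k))) c} {D : CellData k}
variable [Algebra.FiniteType k D.A] [IsDedekindDomain D.A] {ch : Chart c ε D}

namespace Rep

variable (r : Rep ch)

theorem exists_zero : ∃ z : SchemeHomOver (𝟙 (Spec (CommRingCat.of k))) r.π,
    RigidifiedLineBundle.classesMap z r.univ =
      Quotient.mk _ (RigidifiedLineBundle.unit (c := c) (ε := ε) (𝟙 _)) :=
  (r.existsUnique _ _ (isDegZeroClass_unit ch _)).exists

/-- The designated Picard scheme. -/
def designation : RelativePic0Designation k c where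
  P := r.J
  toBase := r.π
  zeroSection := r.exists_zero.choose.1
  zeroSection_toBase := r.exists_zero.choose.2

/-- It represents the cut. -/
theorem nonempty_represents [GeometricallyIntegral r.π] :
    Nonempty (RepresentsRelSubPic c ε (algEquivZeroCut c ε) r.designation) := by
  have hU : (Quotient.mk _ r.univ.out : RigidifiedLineBundle.Classes c ε r.π) = r.univ :=
    Quotient.out_eq _
  have key : ∀ {T : Scheme.{u}} {t : T ⟶ Spec (CommRingCat.of k)} (g : SchemeHomOver t r.π)
      (M : RigidifiedLineBundle c ε t), RigidifiedLineBundle.classesMap g r.univ = Quotient.mk _ M ↔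
        Nonempty ((r.univ.out.pullbackAlong g).L ≅ M.L) := fun g M => by
    conv_lhs => rw [← hU]
    exact ⟨fun h => Quotient.exact h, fun h => Quotient.sound h⟩
  exact ⟨
    { poincare := r.univ.out
      poincare_mem := r.fibrewiseAlgEquivZero r.univ.out (by rw [hU]; exact r.isDegZero)
      univ := fun {T} t M hM => by
        obtain ⟨g, hg, huniq⟩ := r.existsUnique t (Quotient.mk _ M)
          (isDegZeroClass_of_fibrewiseAlgEquivZero ch M hM)
        exact ⟨g, (key g M).mp hg, fun g' hg' => huniq g' ((key g' M).mpr hg')⟩
      zero := (key r.exists_zero.choose _).mp r.exists_zero.choose_spec }⟩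

end Rep

/-- Geometrically integral morphisms are geometrically connected. -/
theorem geometricallyConnected_of_integral {X S : Scheme.{u}} (f : X ⟶ S)
    [GeometricallyIntegral f] : GeometricallyConnected f := by
  constructor
  intro K _ y Z fst snd h
  have : IsIntegral Z := GeometricallyIntegral.geometrically_isIntegral _ _ _ h
  infer_instance

end FLTAgent.RelPic
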