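import Fermat.Agent.RelPic.CellAlg

/-!
The coordinate ring of the big cell is of finite type: finitely many coefficients determine the rest.
-/

set_option autoImplicit false
set_option linter.unusedSectionVars false

noncomputable section

open ModularCurve

universe u v

namespace FLTAgent.RelPic

theorem coeff_mul_lead {R : Type v} [CommRing R] {x y : LaurentSeries R} {p q : ℤ}
    (hx : ∀ l < p, x.coeff l = 0) (hy : ∀ l < q, y.coeff l = 0) :
    (∀ l < p + q, (x * y).coeff l = 0) ∧ (x * y).coeff (p + q) = x.coeff p * y.coeff q := by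
  classical
  refine ⟨fun l hl => ?_, ?_⟩
  · rw [HahnSeries.coeff_mul]
    refine Finset.sum_eq_zero fun ij hij => ?_
    obtain ⟨-, -, h⟩ := Finset.mem_antidiagonal.mp hij
    rcases lt_or_ge ij.1 p with h1 | h1
    · rw [hx _ h1, zero_mul]
    · rw [hy _ (by omega), mul_zero]
  · rw [HahnSeries.coeff_mul, Finset.sum_eq_single (p, q)]
    · rintro ⟨i, j⟩ hij hne
      obtain ⟨-, -, h⟩ := Finset.mem_antidiagonal.mp hij
      rcases lt_trichotomy i p with h1 | h1 | h1
      · rw [hx _ h1, zero_mul]
      · exact absurd (Prod.ext h1 (show j = q by simp only at h; omega)) hne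
      · rw [hy _ (by simp only at h; omega), mul_zero]
    · intro h
      by_contra h0
      refine h (Finset.mem_antidiagonal.mpr ⟨?_, ?_, rfl⟩)
      · exact fun e => h0 (by rw [e, zero_mul])
      · exact fun e => h0 (by rw [e, mul_zero])

namespace CellData

variable {k : Type u} [Field k] (D : CellData k)

/-- a pole order beyond all gaps -/
def deg : ℕ := D.G.sup id + 1

theorem deg_notMem : D.deg ∉ D.G := fun h => by
  have := Finset.le_sup (f := id) h
  simp only [id, deg] at this
  omega

theorem an_deg_coeff : ∀ l : ℤ, l < -(D.deg : ℤ) → (D.an D.deg D.deg_notMem).coeff l = 0 := by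
  intro l hl
  obtain ⟨m, rfl⟩ : ∃ m : ℕ, l = -(m : ℤ) := ⟨(-l).toNat, by omega⟩
  have hm : m ∉ D.G := fun h => by
    have := Finset.le_sup (f := id) h
    simp only [id, deg] at this hl
    omega
  rw [D.an_coeff _ _ hm, if_neg (by omega)]

section Coeff

variable {R : Type v} [CommRing R] [Algebra k R]

theorem coeff_mGen_sub (c c' : D.G → ℕ → R) (i : D.G) (N : ℕ) (h : ∀ j < N, c i j = c' i j) :
    (∀ l < (N : ℤ) + 1, (D.mGen c i - D.mGen c' i).coeff l = 0) ∧
      (D.mGen c i - D.mGen c' i).coeff ((N : ℤ) + 1) = c i N - c' i N := by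
  refine ⟨fun l hl => ?_, by rw [HahnSeries.coeff_sub, coeff_mGen, coeff_mGen]⟩
  rw [HahnSeries.coeff_sub]
  rcases le_or_gt l 0 with h0 | h0
  · have e := DFunLike.congr_fun ((D.pol_mGen c i).trans (D.pol_mGen c' i).symm) (-l).toNat
    rw [pol_apply, pol_apply, show (-((-l).toNat : ℤ)) = l by omega] at e
    rw [e, sub_self]
  · obtain ⟨j, rfl⟩ : ∃ j : ℕ, l = (j : ℤ) + 1 := ⟨(l - 1).toNat, by omega⟩
    rw [coeff_mGen, coeff_mGen, h j (by omega), sub_self]

theorem coeff_comb_congr (c c' : D.G → ℕ → R) (f : ℕ →₀ R) (J : ℕ)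
    (h : ∀ i, c i J = c' i J) :
    (D.comb c f).coeff ((J : ℤ) + 1) = (D.comb c' f).coeff ((J : ℤ) + 1) := by
  induction f using Finsupp.induction_linear with
  | zero => simp
  | add f g hf hg => rw [map_add, map_add, HahnSeries.coeff_add, HahnSeries.coeff_add, hf, hg]
  | single n r =>
    rw [comb, comb, Finsupp.linearCombination_single, Finsupp.linearCombination_single,
      HahnSeries.coeff_smul, HahnSeries.coeff_smul, bas, bas]
    split_ifs with hn
    · rw [coeff_mGen, coeff_mGen, h]
    · simp only [HahnSeries.coeff_sub, HahnSeries.coeff_sum, HahnSeries.coeff_smul, coeff_mGen, h]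

theorem sum_step {c : D.G → ℕ → R} (hc : D.IsStable c) (T : Subalgebra k R) (N : ℕ)
    (hN : D.deg ≤ N) (h : ∀ i, ∀ j < N, c i j ∈ T) (i : D.G) : c i N ∈ T := by
  classical
  set a := D.an D.deg D.deg_notMem
  set c'' : D.G → ℕ → T := fun i j => if hj : j < N then ⟨c i j, h i j hj⟩ else 0
  set c' : D.G → ℕ → R := fun i j => T.val (c'' i j) with hc'
  have hcc : ∀ i', ∀ j < N, c i' j = c' i' j := fun i' j hj => by
    simp only [c', c'', dif_pos hj, Subalgebra.coe_val]
  have hN' : c' i N = 0 := by simp [c', c'']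
  obtain ⟨J, rfl⟩ : ∃ J, N = D.deg + J := ⟨N - D.deg, by omega⟩
  obtain ⟨hlow, htop⟩ := D.coeff_mGen_sub c c' i _ (hcc i)
  obtain ⟨hz, hlead⟩ := coeff_mul_lead (x := L R a) (p := -(D.deg : ℤ))
    (fun l hl => by rw [coeff_L, D.an_deg_coeff l hl, map_zero]) hlow
  rw [show -(D.deg : ℤ) + (((D.deg + J : ℕ) : ℤ) + 1) = (J : ℤ) + 1 by push_cast; ring] at hz hlead
  have ha1 : (L R a).coeff (-(D.deg : ℤ)) = 1 := by
    rw [coeff_L, D.an_coeff _ _ D.deg_notMem, if_pos rfl, map_one]
  rw [ha1, one_mul, htop, hN', sub_zero, mul_sub, HahnSeries.coeff_sub] at hlead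
  have hpol : pol (L R a * D.mGen c i) = pol (L R a * D.mGen c' i) := by
    rw [← sub_eq_zero, ← map_sub, ← mul_sub, pol_eq_zero_iff]
    exact fun l hl => hz l (by omega)
  have hdeg : 0 < D.deg := Nat.succ_pos _
  have h1 : (L R a * D.mGen c i).coeff ((J : ℤ) + 1) =
      (D.comb c' (pol (L R a * D.mGen c' i))).coeff ((J : ℤ) + 1) := by
    conv_lhs => rw [← D.mem_span.mp (hc a (D.an_mem _ _) i)]
    rw [hpol, D.coeff_comb_congr c c' _ J fun i' => hcc i' J (by omega)]
  rw [h1] at hlead
  have e1 : L R a * D.mGen c' i = coeffMap (T.val : T →+* R) (L T a * D.mGen c'' i) := by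
    rw [map_mul, coeffMap_L, coeffMap_mGen]
  rw [← hlead, e1, pol_coeffMap]
  erw [← D.coeffMap_comb T.val c'']
  rw [coeffMap_coeff, coeffMap_coeff]
  exact sub_mem (SetLike.coe_mem _) (SetLike.coe_mem _)

end Coeff

instance finiteType_ring : Algebra.FiniteType k D.Ring := by
  classical
  set π := Ideal.Quotient.mkₐ k D.relIdeal
  set c : D.G → ℕ → D.Ring := fun i j => π (D.cX i j)
  have hc : D.IsStable c := (D.isStable_iff π).mpr fun r hr => by
    rw [RingHom.mem_ker]; exact Ideal.Quotient.eq_zero_iff_mem.mpr hr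
  set gens : Finset D.Ring := (Finset.univ ×ˢ Finset.range D.deg).image fun x => c x.1 x.2
  have key : ∀ N i, c i N ∈ Algebra.adjoin k (gens : Set D.Ring) := fun N => by
    induction N using Nat.strong_induction_on with
    | _ N ih =>
      intro i
      rcases lt_or_ge N D.deg with hN | hN
      · exact Algebra.subset_adjoin (Finset.mem_image.mpr ⟨(i, N), by simp [hN], rfl⟩)
      · exact D.sum_step hc _ N hN (fun i' j hj => ih j hj i') i
  refine ⟨⟨gens, eq_top_iff.mpr fun x _ => ?_⟩⟩
  obtain ⟨p, rfl⟩ := Ideal.Quotient.mkₐ_surjective k D.relIdeal x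
  induction p using MvPolynomial.induction_on with
  | C r => rw [← MvPolynomial.algebraMap_eq, AlgHom.commutes]; exact Subalgebra.algebraMap_mem _ _
  | add p q hp hq => rw [map_add]; exact add_mem (hp trivial) (hq trivial)
  | mul_X p x hp => rw [map_mul]; exact mul_mem (hp trivial) (key x.2 x.1)

instance finitePresentation_ring : Algebra.FinitePresentation k D.Ring :=
  Algebra.FinitePresentation.of_finiteType.mp inferInstance

instance noetherian_ring : IsNoetherianRing D.Ring :=
  Algebra.FiniteType.isNoetherianRing k D.Ring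

end CellData

end FLTAgent.RelPic

end
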