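import Fermat.Agent.RelPic.CellFinite

/-!
A point of the big cell over a ring of finite type is projective over the functions: it is the image
of an idempotent matrix.
-/

set_option autoImplicit false
set_option linter.unusedSectionVars false
set_option synthInstance.maxHeartbeats 200000
set_option maxHeartbeats 1600000

noncomputable section

open ModularCurve
open scoped TensorProduct

universe u

namespace FLTAgent.RelPic

namespace CellData

variable {k : Type u} [Field k] (D : CellData k)

theorem IsStable.map {R S : Type u} [CommRing R] [Algebra k R] [CommRing S] [Algebra k S]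
    {c : D.G → ℕ → R} (hc : D.IsStable c) (φ : R →ₐ[k] S) :
    D.IsStable fun i j => φ (c i j) := fun a ha i => by
  have h := congrArg (coeffMap (φ : R →+* S)) (D.mem_span.mp (hc a ha i))
  rw [coeffMap_comb] at h
  refine D.mem_span.mpr ?_
  have e : coeffMap (φ : R →+* S) (L R a * D.mGen c i) =
      L S a * D.mGen (fun i j => φ (c i j)) i := by
    rw [map_mul, coeffMap_L, coeffMap_mGen]
  rw [← e, pol_coeffMap]
  exact h

section Coeff

variable (R : Type u) [CommRing R] [Algebra k R]

/-- functions with coefficients in `R` -/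
abbrev Fun : Type u := R ⊗[k] D.A

theorem algebraMap_LS (r : k) :
    algebraMap k (LaurentSeries R) r = HahnSeries.C (algebraMap k R r) := by
  rw [HahnSeries.algebraMap_apply',
    PowerSeries.algebraMap_apply,
    HahnSeries.ofPowerSeries_C]

/-- expansions of functions with coefficients -/
def ev : D.Fun R →ₐ[k] LaurentSeries R :=
  Algebra.TensorProduct.productMap
    { toRingHom := (HahnSeries.C : R →+* LaurentSeries R)
      commutes' := fun r => (algebraMap_LS R r).symm }
    { toRingHom := (L R).comp D.A.val.toRingHom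
      commutes' := fun r => by
        rw [algebraMap_LS]
        show L R (algebraMap k (LaurentSeries k) r) = _
        rw [algebraMap_LS, Algebra.algebraMap_self, RingHom.id_apply, L, HahnSeries.C_apply,
          coeffMap_single, HahnSeries.C_apply] }

variable {R}

theorem ev_tmul (r : R) (a : D.A) : D.ev R (r ⊗ₜ a) = HahnSeries.C r * L R (a : LaurentSeries k) :=
  Algebra.TensorProduct.productMap_apply_tmul _ _ r a

theorem ev_smul (r : R) (s : D.Fun R) : D.ev R (r • s) = r • D.ev R s := by
  induction s using TensorProduct.induction_on with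
  | zero => simp
  | add s t hs ht => rw [smul_add, map_add, map_add, hs, ht, smul_add]
  | tmul r' a =>
    rw [TensorProduct.smul_tmul', ev_tmul, ev_tmul, smul_eq_mul, map_mul, mul_assoc,
      HahnSeries.C_mul_eq_smul]

variable (c : D.G → ℕ → R)

/-- `1` and the generators -/
def gen : Option D.G → LaurentSeries R
  | none => 1
  | some i => D.mGen c i

theorem gen_mem (j : Option D.G) : D.gen c j ∈ D.span c := by
  cases j with
  | none => exact D.one_mem_span c
  | some i => exact D.mGen_mem c i

/-- combinations of the generators -/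
def comb1 : (Option D.G → D.Fun R) →ₗ[R] LaurentSeries R where
  toFun v := ∑ j, D.ev R (v j) * D.gen c j
  map_add' v w := by simp only [Pi.add_apply, map_add, add_mul, Finset.sum_add_distrib]
  map_smul' r v := by
    rw [Finset.smul_sum]
    refine Finset.sum_congr rfl fun j _ => ?_
    rw [Pi.smul_apply, ev_smul, RingHom.id_apply, ← HahnSeries.C_mul_eq_smul, mul_assoc,
      HahnSeries.C_mul_eq_smul]

theorem comb1_apply (v : Option D.G → D.Fun R) :
    D.comb1 c v = ∑ j, D.ev R (v j) * D.gen c j := rfl

theorem comb1_smul (s : D.Fun R) (v : Option D.G → D.Fun R) :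
    D.comb1 c (s • v) = D.ev R s * D.comb1 c v := by
  simp only [comb1_apply, Pi.smul_apply, smul_eq_mul, map_mul, Finset.mul_sum, mul_assoc]

theorem comb1_single (j : Option D.G) (s : D.Fun R) :
    D.comb1 c (Pi.single j s) = D.ev R s * D.gen c j := by
  classical
  rw [comb1_apply, Finset.sum_eq_single j (fun i _ hi => by rw [Pi.single_eq_of_ne hi, map_zero,
    zero_mul]) (by simp), Pi.single_eq_same]

theorem ev_mul_mem {c : D.G → ℕ → R} (hc : D.IsStable c) (s : D.Fun R) {x : LaurentSeries R}
    (hx : x ∈ D.span c) : D.ev R s * x ∈ D.span c := by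
  induction s using TensorProduct.induction_on with
  | zero => simp
  | tmul r a =>
    rw [ev_tmul, mul_assoc, HahnSeries.C_mul_eq_smul]
    exact Submodule.smul_mem _ _ (D.mul_mem_span hc a.2 hx)
  | add s t hs ht => rw [map_add, add_mul]; exact add_mem hs ht

theorem comb1_mem {c : D.G → ℕ → R} (hc : D.IsStable c) (v : Option D.G → D.Fun R) :
    D.comb1 c v ∈ D.span c :=
  sum_mem fun j _ => D.ev_mul_mem hc _ (D.gen_mem c j)

theorem exists_comb1_eq_bas (n : ℕ) : ∃ v, D.comb1 c v = D.bas c n := by
  classical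
  by_cases hn : n ∈ D.G
  · refine ⟨Pi.single (some ⟨n, hn⟩) 1, ?_⟩
    rw [comb1_single, map_one, one_mul, bas, dif_pos hn]
    rfl
  · refine ⟨(Pi.single none ((1 : R) ⊗ₜ[k] (⟨D.an n hn, D.an_mem n hn⟩ : D.A)) :
        Option D.G → D.Fun R) -
      ∑ i : D.G, algebraMap k R ((D.an n hn).coeff (-((i : ℕ) : ℤ))) •
        (Pi.single (some i) 1 : Option D.G → D.Fun R), ?_⟩
    rw [map_sub, map_sum, comb1_single, ev_tmul, map_one, one_mul, bas, dif_neg hn]
    simp only [gen, mul_one, map_smul, comb1_single, map_one, one_mul]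

/-- a preimage of the basis -/
def sec : (ℕ →₀ R) →ₗ[R] (Option D.G → D.Fun R) :=
  Finsupp.linearCombination R fun n => (D.exists_comb1_eq_bas c n).choose

theorem comb1_sec (f : ℕ →₀ R) : D.comb1 c (D.sec c f) = D.comb c f := by
  induction f using Finsupp.induction_linear with
  | zero => simp
  | add f g hf hg => rw [map_add, map_add, map_add, hf, hg]
  | single n r =>
    rw [sec, Finsupp.linearCombination_single, map_smul, (D.exists_comb1_eq_bas c n).choose_spec,
      comb, Finsupp.linearCombination_single]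

/-- the relations between the generators -/
def rels : Submodule (D.Fun R) (Option D.G → D.Fun R) where
  carrier := {v | D.comb1 c v = 0}
  add_mem' {v w} hv hw := show D.comb1 c (v + w) = 0 by rw [map_add, hv, hw, add_zero]
  zero_mem' := show D.comb1 c 0 = 0 from map_zero _
  smul_mem' s v hv := show D.comb1 c (s • v) = 0 by rw [comb1_smul, hv, mul_zero]

theorem mem_rels {v : Option D.G → D.Fun R} : v ∈ D.rels c ↔ D.comb1 c v = 0 := Iff.rfl

/-- the projection to the relations along the section -/
def toRels {c : D.G → ℕ → R} (hc : D.IsStable c) :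
    (Option D.G → D.Fun R) →ₗ[R] D.rels c where
  toFun v := ⟨v - D.sec c (pol (D.comb1 c v)), by
    rw [mem_rels, map_sub, comb1_sec, D.mem_span.mp (D.comb1_mem hc v), sub_self]⟩
  map_add' v w := Subtype.ext <| by
    simp only [map_add, Submodule.coe_add]; abel
  map_smul' r v := Subtype.ext <| by
    simp only [map_smul, smul_sub, RingHom.id_apply, SetLike.val_smul_of_tower]

theorem toRels_apply {c : D.G → ℕ → R} (hc : D.IsStable c) (w : D.rels c) :
    D.toRels hc (w : Option D.G → D.Fun R) = w := by
  refine Subtype.ext ?_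
  show (w : Option D.G → D.Fun R) - _ = _
  rw [(D.mem_rels c).mp w.2, map_zero, map_zero, sub_zero]

end Coeff

section Point

variable {R : Type u} [CommRing R] [Algebra k R] (φ : R →ₐ[k] k)

/-- evaluation of the coefficients -/
def red : D.Fun R →ₐ[k] D.A :=
  Algebra.TensorProduct.productMap ((Algebra.ofId k D.A).comp φ) (AlgHom.id k D.A)

theorem red_tmul (r : R) (a : D.A) : D.red φ (r ⊗ₜ a) = algebraMap k D.A (φ r) * a :=
  Algebra.TensorProduct.productMap_apply_tmul _ _ r a

theorem coeffMap_ev (s : D.Fun R) :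
    coeffMap (φ : R →+* k) (D.ev R s) = ((D.red φ s : D.A) : LaurentSeries k) := by
  induction s using TensorProduct.induction_on with
  | zero => simp
  | add s t hs ht => rw [map_add, map_add, hs, ht, map_add]; rfl
  | tmul r a =>
    rw [ev_tmul, red_tmul, map_mul, coeffMap_L, MulMemClass.coe_mul, Subalgebra.coe_algebraMap,
      algebraMap_LS, HahnSeries.C_apply, coeffMap_single]
    congr 1

theorem sub_one_tmul_red_mem (s : D.Fun R) :
    s - (1 : R) ⊗ₜ D.red φ s ∈ (RingHom.ker φ) • (⊤ : Submodule R (D.Fun R)) := by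
  induction s using TensorProduct.induction_on with
  | zero => simp
  | add s t hs ht =>
    rw [map_add, TensorProduct.tmul_add, add_sub_add_comm]
    exact add_mem hs ht
  | tmul r a =>
    have e : r ⊗ₜ a - (1 : R) ⊗ₜ[k] D.red φ (r ⊗ₜ a) =
        (r - algebraMap k R (φ r)) • ((1 : R) ⊗ₜ[k] a) := by
      rw [red_tmul, ← Algebra.smul_def, TensorProduct.tmul_smul, TensorProduct.smul_tmul',
        TensorProduct.smul_tmul', smul_eq_mul, mul_one, Algebra.smul_def, mul_one,
        TensorProduct.sub_tmul]
    rw [e]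
    exact Submodule.smul_mem_smul (by simp [RingHom.mem_ker]) trivial

theorem red_smul (r : R) (s : D.Fun R) :
    D.red φ (r • s) = algebraMap k D.A (φ r) * D.red φ s := by
  induction s using TensorProduct.induction_on with
  | zero => simp
  | add s t hs ht => rw [smul_add, map_add, map_add, hs, ht, mul_add]
  | tmul r' a =>
    rw [TensorProduct.smul_tmul', red_tmul, red_tmul, smul_eq_mul, map_mul, map_mul, mul_assoc]

theorem mem_smul_top_of_red_eq_zero {v : Option D.G → D.Fun R} (hv : ∀ j, D.red φ (v j) = 0) :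
    v ∈ (RingHom.ker φ) • (⊤ : Submodule R (Option D.G → D.Fun R)) := by
  classical
  rw [← Finset.univ_sum_single v]
  refine sum_mem fun j _ => ?_
  have h := D.sub_one_tmul_red_mem φ (v j)
  rw [hv, TensorProduct.tmul_zero, sub_zero] at h
  exact (Submodule.map_smul'' _ _ _).le.trans (Submodule.smul_mono le_rfl le_top)
    (Submodule.mem_map_of_mem (f := LinearMap.single R (fun _ : Option D.G => D.Fun R) j) h)

/-- combinations at a point -/
def comb0 (c₀ : D.G → ℕ → k) : (Option D.G → D.A) →ₗ[D.A] LaurentSeries k :=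
  Fintype.linearCombination D.A (D.gen c₀)

theorem coeffMap_comb1 (c : D.G → ℕ → R) (v : Option D.G → D.Fun R) :
    coeffMap (φ : R →+* k) (D.comb1 c v) =
      D.comb0 (fun i j => φ (c i j)) fun j => D.red φ (v j) := by
  rw [comb1_apply, map_sum, comb0, Fintype.linearCombination_apply]
  refine Finset.sum_congr rfl fun j _ => ?_
  rw [map_mul, coeffMap_ev]
  show _ = ((D.red φ (v j) : D.A) : LaurentSeries k) * _
  congr 1
  cases j with
  | none => exact map_one _
  | some i => exact D.coeffMap_mGen φ c i

theorem exists_lift_rels {c : D.G → ℕ → R} (hc : D.IsStable c) (v₀ : Option D.G → D.A)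
    (hv₀ : D.comb0 (fun i j => φ (c i j)) v₀ = 0) :
    ∃ w : D.rels c, ∀ j, D.red φ ((w : Option D.G → D.Fun R) j) = v₀ j := by
  classical
  set v₁ : Option D.G → D.Fun R := fun j => (1 : R) ⊗ₜ v₀ j
  have hr : (fun j => D.red φ (v₁ j)) = v₀ := funext fun j => by
    simp [v₁, red_tmul]
  set f := pol (D.comb1 c v₁)
  have hf : ∀ n, φ (f n) = 0 := fun n => by
    have h := congrArg pol (D.coeffMap_comb1 φ c v₁)
    rw [hr, hv₀, map_zero, pol_coeffMap] at h
    exact DFunLike.congr_fun h n
  refine ⟨D.toRels hc v₁, fun j => ?_⟩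
  show D.red φ (v₁ j - D.sec c f j) = v₀ j
  rw [map_sub, congrFun hr j, sub_eq_self, sec, Finsupp.linearCombination_apply, Finsupp.sum,
    Finset.sum_apply, map_sum]
  refine Finset.sum_eq_zero fun n _ => ?_
  rw [Pi.smul_apply, red_smul, hf, map_zero, zero_mul]

theorem mem_map_smul_top {c : D.G → ℕ → R} (hc : D.IsStable c) (w : D.rels c)
    (hw : ∀ j, D.red φ ((w : Option D.G → D.Fun R) j) = 0) :
    w ∈ ((RingHom.ker φ).map (algebraMap R (D.Fun R))) • (⊤ : Submodule (D.Fun R) (D.rels c)) := by
  rw [← D.toRels_apply hc w]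
  refine Submodule.smul_induction_on
    (p := fun v => D.toRels hc v ∈ ((RingHom.ker φ).map (algebraMap R (D.Fun R))) •
      (⊤ : Submodule (D.Fun R) (D.rels c)))
    (D.mem_smul_top_of_red_eq_zero φ hw) ?_ ?_
  · intro r hr n _
    rw [map_smul, ← algebraMap_smul (D.Fun R) r]
    exact Submodule.smul_mem_smul (Ideal.mem_map_of_mem _ hr) trivial
  · intro x y hx hy
    rw [map_add]
    exact add_mem hx hy

theorem projective_of_torsionFree (A M : Type u) [CommRing A] [IsDedekindDomain A] [AddCommGroup M]
    [Module A M] [Module.Finite A M] [Module.IsTorsionFree A M] : Module.Projective A M := by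
  have := Module.finitePresentation_of_finite A M
  exact Module.Flat.projective_of_finitePresentation

variable [IsDedekindDomain D.A]

theorem exists_retraction_point (c₀ : D.G → ℕ → k) :
    ∃ π₀ : (Option D.G → D.A) →ₗ[D.A] (Option D.G → D.A),
      (∀ v, D.comb0 c₀ (π₀ v) = 0) ∧ ∀ v, D.comb0 c₀ v = 0 → π₀ v = v := by
  set q := D.comb0 c₀
  have : Module.IsTorsionFree D.A (LinearMap.range q) := ⟨fun a ha x y h => by
    have ha0 : (a : LaurentSeries k) ≠ 0 := fun e => ha.ne_zero (Subtype.ext e)
    refine Subtype.ext (mul_left_cancel₀ ha0 ?_)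
    exact congrArg Subtype.val h⟩
  have : Module.Projective D.A (LinearMap.range q) :=
    projective_of_torsionFree D.A (LinearMap.range q)
  obtain ⟨s, hs⟩ := Module.projective_lifting_property q.rangeRestrict LinearMap.id
    (LinearMap.surjective_rangeRestrict q)
  refine ⟨LinearMap.id - s.comp q.rangeRestrict, fun v => ?_, fun v hv => ?_⟩
  · have h := congrArg Subtype.val (LinearMap.congr_fun hs (q.rangeRestrict v))
    show q (v - s (q.rangeRestrict v)) = 0
    rw [map_sub, show q (s (q.rangeRestrict v)) = q v from h, sub_self]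
  · have e : q.rangeRestrict v = 0 := Subtype.ext hv
    show v - s (q.rangeRestrict v) = v
    rw [e, map_zero, sub_zero]

theorem exists_near_retraction {c : D.G → ℕ → R} (hc : D.IsStable c) :
    ∃ π : (Option D.G → D.Fun R) →ₗ[D.Fun R] D.rels c, ∀ w : D.rels c,
      π w - w ∈
        ((RingHom.ker φ).map (algebraMap R (D.Fun R))) • (⊤ : Submodule (D.Fun R) (D.rels c)) := by
  classical
  obtain ⟨π₀, h0, h1⟩ := D.exists_retraction_point fun i j => φ (c i j)
  choose κ hκ using fun j => D.exists_lift_rels φ hc _ (h0 (Pi.single j 1))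
  refine ⟨Fintype.linearCombination (D.Fun R) κ, fun w => D.mem_map_smul_top φ hc _ fun j => ?_⟩
  have hw0 : π₀ (fun j => D.red φ ((w : Option D.G → D.Fun R) j)) =
      fun j => D.red φ ((w : Option D.G → D.Fun R) j) := h1 _ (by
    rw [← coeffMap_comb1, (D.mem_rels c).mp w.2, map_zero])
  show D.red φ (((Fintype.linearCombination (D.Fun R) κ) w : D.rels c).1 j - _) = 0
  rw [map_sub, sub_eq_zero, Fintype.linearCombination_apply, Submodule.coe_sum, Finset.sum_apply,
    map_sum]
  conv_rhs => rw [← congrFun hw0 j, LinearMap.pi_apply_eq_sum_univ π₀, Finset.sum_apply]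
  refine Finset.sum_congr rfl fun i _ => ?_
  rw [Submodule.coe_smul, Pi.smul_apply, smul_eq_mul, map_mul, hκ, Pi.smul_apply, smul_eq_mul]
  rw [show (Pi.single i 1 : Option D.G → D.A) = fun l => if i = l then 1 else 0 from
    funext fun l => by simp [Pi.single_apply, eq_comm]]

end Point

theorem exists_retraction_of_local {S : Type u} [CommRing S] {M : Type u} [AddCommGroup M]
    [Module S M] (K : Submodule S M) [Module.Finite S K]
    (h : ∀ P : Ideal S, P.IsMaximal → ∃ I : Ideal S, I ≤ P ∧
      ∃ π : M →ₗ[S] K, ∀ w : K, π w - w ∈ I • (⊤ : Submodule S K)) :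
    ∃ π : M →ₗ[S] K, ∀ w : K, π w = w := by
  let J : Ideal S :=
    { carrier := {a | ∃ π : M →ₗ[S] K, ∀ w : K, π w = a • w}
      add_mem' := fun ⟨π, hπ⟩ ⟨π', hπ'⟩ =>
        ⟨π + π', fun w => by rw [LinearMap.add_apply, hπ, hπ', add_smul]⟩
      zero_mem' := ⟨0, fun w => (zero_smul S w).symm⟩
      smul_mem' := fun s a ⟨π, hπ⟩ =>
        ⟨s • π, fun w => by rw [LinearMap.smul_apply, hπ, smul_smul, smul_eq_mul]⟩ }
  suffices hJ : J = ⊤ by
    obtain ⟨π, hπ⟩ := show (1 : S) ∈ J from hJ ▸ trivial
    exact ⟨π, fun w => (hπ w).trans (one_smul S w)⟩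
  by_contra hne
  obtain ⟨P, hP, hle⟩ := Ideal.exists_le_maximal _ hne
  obtain ⟨I, hI, π, hπ⟩ := h P hP
  set f : Module.End S K := π.comp K.subtype with hf
  obtain ⟨p, hp, -, hdeg, hp0⟩ :=
    LinearMap.exists_monic_and_natDegree_eq_and_coeff_mem_pow_and_aeval_eq_zero
      S (f - 1) I (by
      rintro _ ⟨w, rfl⟩
      exact hπ w)
  obtain ⟨q, hq⟩ := Polynomial.X_sub_C_dvd_sub_C_eval (p := p) (a := (-1 : S))
  have hmem : p.eval (-1) ∈ J := by
    refine ⟨-((Polynomial.aeval (f - 1) q).comp π), fun w => ?_⟩
    have h := congrArg (Polynomial.aeval (f - 1)) hq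
    rw [mul_comm, map_mul, map_sub, map_sub, hp0, Polynomial.aeval_C, Polynomial.aeval_X,
      Polynomial.aeval_C, map_neg, map_one, sub_neg_eq_add, sub_add_cancel, zero_sub] at h
    have h2 := LinearMap.congr_fun h w
    rw [LinearMap.neg_apply, Module.algebraMap_end_apply, Module.End.mul_apply] at h2
    show -(Polynomial.aeval (f - 1) q (f w)) = _
    rw [← h2, neg_neg]
  have h1 : p.eval (-1) - (-1) ^ p.natDegree ∈ P := by
    rw [Polynomial.eval_eq_sum_range, Finset.sum_range_succ, hp.coeff_natDegree, one_mul,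
      add_sub_cancel_right]
    exact sum_mem fun i hi => Ideal.mul_mem_right _ _ (hI (Ideal.pow_le_self
      (by have := Finset.mem_range.mp hi; omega) (hdeg i)))
  have h2 : ((-1 : S)) ^ p.natDegree ∈ P := by
    have := sub_mem (hle hmem) h1
    rwa [sub_sub_cancel] at this
  exact hP.ne_top (Ideal.eq_top_of_isUnit_mem _ h2 (isUnit_one.neg.pow _))

variable [IsAlgClosed k] [Algebra.FiniteType k D.A] [IsDedekindDomain D.A]

theorem exists_rels_retraction {R : Type u} [CommRing R] [Algebra k R] [Algebra.FiniteType k R]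
    {c : D.G → ℕ → R} (hc : D.IsStable c) :
    ∃ π : (Option D.G → D.Fun R) →ₗ[D.Fun R] D.rels c, ∀ w : D.rels c, π w = w := by
  have : Algebra.FiniteType k (D.Fun R) :=
    Algebra.FiniteType.trans (S := R) inferInstance inferInstance
  have : IsNoetherianRing (D.Fun R) := Algebra.FiniteType.isNoetherianRing k _
  refine exists_retraction_of_local (D.rels c) fun P hP => ?_
  let : Field (D.Fun R ⧸ P) := Ideal.Quotient.field P
  have : Module.Finite k (D.Fun R ⧸ P) := finite_of_finite_type_of_isJacobsonRing k (D.Fun R ⧸ P)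
  have hbij := IsAlgClosed.algebraMap_bijective_of_isIntegral (k := k) (K := D.Fun R ⧸ P)
  set e := AlgEquiv.ofBijective (Algebra.ofId k (D.Fun R ⧸ P)) hbij
  set φ : R →ₐ[k] k := (e.symm.toAlgHom.comp (Ideal.Quotient.mkₐ k P)).comp
    Algebra.TensorProduct.includeLeft
  refine ⟨(RingHom.ker φ).map (algebraMap R (D.Fun R)), ?_, D.exists_near_retraction φ hc⟩
  rw [Ideal.map_le_iff_le_comap]
  intro r hr
  rw [Ideal.mem_comap]
  exact Ideal.Quotient.eq_zero_iff_mem.mp
    ((map_eq_zero_iff e.symm.toAlgHom e.symm.injective).mp hr)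

/-- a cell point over a ring of finite type is cut out by an idempotent -/
theorem exists_idem {R : Type u} [CommRing R] [Algebra k R] [Algebra.FiniteType k R]
    {c : D.G → ℕ → R} (hc : D.IsStable c) :
    ∃ e : (Option D.G → D.Fun R) →ₗ[D.Fun R] (Option D.G → D.Fun R),
      (∀ v, e (e v) = e v) ∧ (∀ v, D.comb1 c (e v) = D.comb1 c v) ∧
        ∀ v, D.comb1 c v = 0 → e v = 0 := by
  obtain ⟨π, hπ⟩ := D.exists_rels_retraction hc
  have h2 : ∀ v, D.comb1 c v = 0 → ((π v : D.rels c) : Option D.G → D.Fun R) = v := fun v hv => by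
    exact congrArg Subtype.val (hπ ⟨v, hv⟩)
  refine ⟨LinearMap.id - (D.rels c).subtype.comp π, fun v => ?_, fun v => ?_, fun v hv => ?_⟩
  · have hz : D.comb1 c (π v : Option D.G → D.Fun R) = 0 := (π v).2
    simp only [LinearMap.sub_apply, LinearMap.id_apply, LinearMap.comp_apply,
      Submodule.subtype_apply, map_sub, h2 _ hz, sub_self, sub_zero]
  · show D.comb1 c (v - (π v : Option D.G → D.Fun R)) = _
    rw [map_sub, (D.mem_rels c).mp (π v).2, sub_zero]
  · show v - (π v : Option D.G → D.Fun R) = 0
    rw [h2 v hv, sub_self]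

end CellData

end FLTAgent.RelPic

end
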