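import Fermat.Agent.RelPic.CellUnit

/-!
The big cell is smooth: cell points lift along square-zero extensions.
-/

set_option autoImplicit false
set_option linter.unusedSectionVars false
set_option synthInstance.maxHeartbeats 200000
set_option maxHeartbeats 1600000

noncomputable section

open ModularCurve
open scoped TensorProduct Matrix

universe u

namespace FLTAgent.RelPic

theorem eq_zero_of_mem_smul {R : Type u} [CommRing R] {I : Ideal R} (hI : I * I = ⊥) {M : Type u}
    [AddCommGroup M] [Module R M] {Q P : Submodule R M} (h : Q ≤ P ⊔ I • Q) : Q ≤ P := by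
  have h2 : I • Q ≤ P := by
    refine (Submodule.smul_mono le_rfl h).trans ?_
    rw [Submodule.smul_sup, ← Submodule.mul_smul, hI, Submodule.bot_smul, sup_bot_eq]
    exact Submodule.smul_le_right
  exact h.trans (sup_le le_rfl h2)

theorem bijective_of_sub_mem {R : Type u} [CommRing R] {I : Ideal R} (hI : I * I = ⊥) {α : Type}
    (Φ : (α →₀ R) →ₗ[R] (α →₀ R)) (h : ∀ f a, (Φ f - f) a ∈ I) : Function.Bijective Φ := by
  have key : ∀ f : α →₀ R, Φ (Φ f - f) - (Φ f - f) = 0 := fun f => by
    set g := Φ f - f with hg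
    have e : Φ g - g = g.sum fun a r => r • (Φ (Finsupp.single a 1) - Finsupp.single a 1) := by
      conv_lhs => rw [← Finsupp.sum_single g]
      rw [Finsupp.sum, map_sum, ← Finset.sum_sub_distrib]
      refine Finset.sum_congr rfl fun a _ => ?_
      dsimp only
      rw [smul_sub, ← map_smul, Finsupp.smul_single, smul_eq_mul, mul_one]
    rw [e]
    refine Finsupp.ext fun b => ?_
    rw [Finsupp.sum, Finsupp.finsetSum_apply, Finsupp.zero_apply]
    refine Finset.sum_eq_zero fun a _ => ?_
    have := Ideal.mul_mem_mul (h f a) (h (Finsupp.single a 1) b)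
    rw [hI, Ideal.mem_bot] at this
    rw [Finsupp.smul_apply, smul_eq_mul, hg, this]
  refine ⟨(injective_iff_map_eq_zero Φ).mpr fun f hf => ?_, fun g => ⟨g - (Φ g - g), ?_⟩⟩
  · have := key f
    rw [hf, zero_sub, map_neg, hf, neg_zero, zero_sub, neg_neg] at this
    exact this
  · rw [map_sub, sub_eq_zero.mp (key g), sub_sub_cancel]

namespace CellData

variable {k : Type u} [Field k] (D : CellData k)
variable {R R' : Type u} [CommRing R] [Algebra k R] [CommRing R'] [Algebra k R'] (π : R' →ₐ[k] R)

/-- change of coefficients -/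
abbrev funMap : D.Fun R' →ₐ[k] D.Fun R := Algebra.TensorProduct.map π (AlgHom.id k D.A)

theorem coeffMap_ev' (s : D.Fun R') :
    coeffMap (π : R' →+* R) (D.ev R' s) = D.ev R (D.funMap π s) := by
  induction s using TensorProduct.induction_on with
  | zero => simp
  | add s t hs ht => rw [map_add, map_add, hs, ht, map_add, map_add]
  | tmul r a =>
    rw [ev_tmul, map_mul, coeffMap_L, funMap, Algebra.TensorProduct.map_tmul, AlgHom.id_apply,
      ev_tmul, HahnSeries.C_apply, coeffMap_single]
    rfl

theorem coeffMap_comb1' (c' : D.G → ℕ → R') (v : Option D.G → D.Fun R') :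
    coeffMap (π : R' →+* R) (D.comb1 c' v) =
      D.comb1 (fun i j => π (c' i j)) fun j => D.funMap π (v j) := by
  rw [comb1_apply, map_sum, comb1_apply]
  refine Finset.sum_congr rfl fun j _ => ?_
  rw [map_mul, coeffMap_ev']
  congr 1
  cases j with
  | none => exact map_one _
  | some i => exact D.coeffMap_mGen π c' i

theorem mem_smul_top_of_funMap_eq_zero (hπ : Function.Surjective π) {v : Option D.G → D.Fun R'}
    (hv : ∀ j, D.funMap π (v j) = 0) :
    v ∈ (RingHom.ker π) • (⊤ : Submodule R' (Option D.G → D.Fun R')) := by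
  classical
  rw [← Finset.univ_sum_single v]
  refine sum_mem fun j _ => ?_
  have h : v j ∈ (RingHom.ker π) • (⊤ : Submodule R' (D.Fun R')) := by
    rw [Ideal.smul_top_eq_map, Submodule.restrictScalars_mem]
    have h1 : v j ∈ RingHom.ker (Algebra.TensorProduct.map π (AlgHom.id k D.A)) := hv j
    rw [Algebra.TensorProduct.rTensor_ker π hπ] at h1
    exact h1
  exact (Submodule.map_smul'' _ _ _).le.trans (Submodule.smul_mono le_rfl le_top)
    (Submodule.mem_map_of_mem (f := LinearMap.single R' (fun _ : Option D.G => D.Fun R') j) h)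

theorem exists_lift_matrix (hπ : Function.Surjective π) (hI : RingHom.ker π * RingHom.ker π = ⊥)
    (e : Matrix (Option D.G) (Option D.G) (D.Fun R)) (he : IsIdempotentElem e) :
    ∃ E : Matrix (Option D.G) (Option D.G) (D.Fun R'), IsIdempotentElem E ∧
      E.map (D.funMap π) = e := by
  classical
  have hs : Function.Surjective (D.funMap π) :=
    LinearMap.rTensor_surjective D.A (g := π.toLinearMap) hπ
  have hker : ∀ x y, D.funMap π x = 0 → D.funMap π y = 0 → x * y = 0 := fun x y hx hy => by
    have h : x * y ∈ (RingHom.ker (D.funMap π)) * RingHom.ker (D.funMap π) :=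
      Ideal.mul_mem_mul hx hy
    rw [show RingHom.ker (D.funMap π) = _ from Algebra.TensorProduct.rTensor_ker π hπ,
      ← Ideal.map_mul, hI, Ideal.map_bot, Ideal.mem_bot] at h
    exact h
  let F : Matrix (Option D.G) (Option D.G) (D.Fun R') →+*
      Matrix (Option D.G) (Option D.G) (D.Fun R) := (D.funMap π).toRingHom.mapMatrix
  obtain ⟨E, hE, hE'⟩ := exists_isIdempotentElem_eq_of_ker_isNilpotent F (fun X hX => ⟨2, by
      have h0 : ∀ i j, D.funMap π (X i j) = 0 := fun i j =>
        congrArg (fun Y : Matrix (Option D.G) (Option D.G) (D.Fun R) => Y i j)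
          (RingHom.mem_ker.mp hX)
      rw [pow_two]
      ext i j
      rw [Matrix.mul_apply, Matrix.zero_apply]
      exact Finset.sum_eq_zero fun l _ => hker _ _ (h0 i l) (h0 l j)⟩) e
    ⟨Matrix.of fun i j => (hs (e i j)).choose,
      Matrix.ext fun i j => (hs (e i j)).choose_spec⟩ he
  exact ⟨E, hE, hE'⟩

variable [IsAlgClosed k] [Algebra.FiniteType k D.A] [IsDedekindDomain D.A]

/-- cell points lift along square-zero extensions -/
theorem exists_cell_lift [Algebra.FiniteType k R] (hπ : Function.Surjective π)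
    (hI : RingHom.ker π * RingHom.ker π = ⊥) (W : D.Cell R) :
    ∃ W' : D.Cell R', D.mapCell π W' = W := by
  classical
  set c := W.coord D
  have hc : D.IsStable c := W.isStable_coord D
  obtain ⟨e, he1, he2, he3⟩ := D.exists_idem hc
  obtain ⟨E, hE, hEe⟩ := D.exists_lift_matrix π hπ hI (LinearMap.toMatrix' e) (by
    rw [IsIdempotentElem, ← LinearMap.toMatrix'_comp]
    exact congrArg _ (LinearMap.ext he1))
  have hP : ∀ v, (fun j => D.funMap π ((E *ᵥ v) j)) = e fun j => D.funMap π (v j) := fun v => by
    funext j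
    rw [← LinearMap.toMatrix'_mulVec e, ← hEe]
    exact RingHom.map_mulVec (D.funMap π).toRingHom E v j
  have hEE : ∀ v, E *ᵥ (E *ᵥ v) = E *ᵥ v := fun v => by rw [Matrix.mulVec_mulVec, hE.eq]
  choose cl hcl using fun i j => hπ (c i j)
  have hclc : (fun i j => π (cl i j)) = c := funext fun i => funext fun j => hcl i j
  have hs : Function.Surjective (D.funMap π) :=
    LinearMap.rTensor_surjective D.A (g := π.toLinearMap) hπ
  choose w hw using fun n j => hs (D.sec c (Finsupp.single n 1) j)
  let Em : (Option D.G → D.Fun R') →ₗ[R'] (Option D.G → D.Fun R') :=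
    (Matrix.toLin' E).restrictScalars R'
  let U : (ℕ →₀ R') →ₗ[R'] (Option D.G → D.Fun R') :=
    Finsupp.linearCombination R' fun n => E *ᵥ w n
  have hEU : ∀ f, E *ᵥ U f = U f := fun f => by
    show Em (U f) = U f
    induction f using Finsupp.induction_linear with
    | zero => simp
    | add a b ha hb => rw [map_add, map_add, ha, hb]
    | single n r =>
      rw [show U (Finsupp.single n r) = r • (E *ᵥ w n) from
        Finsupp.linearCombination_single R' r n, map_smul]
      exact congrArg (r • ·) (hEE (w n))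
  have hUred : ∀ f, (fun j => D.funMap π (U f j)) =
      e (D.sec c (f.mapRange π (map_zero π))) := fun f => by
    induction f using Finsupp.induction_linear with
    | zero => rw [Finsupp.mapRange_zero, map_zero, map_zero, map_zero]; funext j; simp
    | add a b ha hb =>
      rw [Finsupp.mapRange_add (map_add π), map_add, map_add, map_add, ← ha, ← hb]
      funext j
      simp
    | single n r =>
      have hr : ∀ (s : D.Fun R'), D.funMap π (r • s) = π r • D.funMap π s := fun s => by
        induction s using TensorProduct.induction_on with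
        | zero => simp
        | add a b ha hb => rw [smul_add, map_add, ha, hb, map_add, smul_add]
        | tmul r' a =>
          rw [TensorProduct.smul_tmul', funMap, Algebra.TensorProduct.map_tmul,
            Algebra.TensorProduct.map_tmul, TensorProduct.smul_tmul', smul_eq_mul, smul_eq_mul,
            map_mul]
      rw [Finsupp.mapRange_single, show Finsupp.single n (π r) = π r • Finsupp.single n (1 : R) by
        rw [Finsupp.smul_single, smul_eq_mul, mul_one], map_smul, LinearMap.map_smul_of_tower,
        show U (Finsupp.single n r) = r • (E *ᵥ w n) from Finsupp.linearCombination_single R' r n]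
      funext j
      rw [Pi.smul_apply, hr, congrFun (hP (w n)) j, Pi.smul_apply]
      rw [show (fun j => D.funMap π (w n j)) = D.sec c (Finsupp.single n 1) from funext (hw n)]
  have hrange : LinearMap.range Em ≤ LinearMap.range U := by
    refine eq_zero_of_mem_smul hI ?_
    rintro _ ⟨v, rfl⟩
    choose lf hlf using fun r : R => hπ r
    set f := (pol (D.comb1 c fun j => D.funMap π (v j))).mapRange
      (fun r => if r = 0 then 0 else lf r) (if_pos rfl) with hf
    have hfπ : f.mapRange π (map_zero π) = pol (D.comb1 c fun j => D.funMap π (v j)) := by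
      ext n
      rw [Finsupp.mapRange_apply, hf, Finsupp.mapRange_apply]
      split_ifs with h0
      · rw [map_zero, h0]
      · exact hlf _
    have hz : D.comb1 c ((fun j => D.funMap π (v j)) - D.sec c (f.mapRange π (map_zero π))) = 0 := by
      rw [map_sub, hfπ, comb1_sec, D.mem_span.mp (D.comb1_mem hc _), sub_self]
    have hd : ∀ j, D.funMap π ((E *ᵥ v - U f) j) = 0 := fun j => by
      have h := congrFun (he3 _ hz) j
      rw [map_sub, Pi.sub_apply, ← hP, ← hUred] at h
      rw [Pi.sub_apply, map_sub]
      exact h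
    show Em v ∈ _
    rw [show Em v = U f + Em (E *ᵥ v - U f) by
      rw [map_sub, show Em (U f) = U f from hEU f, show Em (E *ᵥ v) = Em v from hEE v]; abel]
    refine Submodule.add_mem_sup ⟨f, rfl⟩ ?_
    rw [LinearMap.range_eq_map, ← Submodule.map_smul'']
    exact Submodule.mem_map_of_mem (D.mem_smul_top_of_funMap_eq_zero π hπ hd)
  let q : (ℕ →₀ R') →ₗ[R'] LaurentSeries R' := (D.comb1 cl).comp U
  have hq : ∀ f, coeffMap (π : R' →+* R) (q f) = D.comb c (f.mapRange π (map_zero π)) := fun f => by
    rw [show q f = D.comb1 cl (U f) from rfl, coeffMap_comb1', hclc, hUred, he2, comb1_sec]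
  have hΦ : Function.Bijective (pol ∘ₗ q) := bijective_of_sub_mem hI _ fun f a => by
    have h := DFunLike.congr_fun (congrArg pol (hq f)) a
    rw [pol_coeffMap, D.pol_comb, Finsupp.mapRange_apply, Finsupp.mapRange_apply] at h
    rw [RingHom.mem_ker, Finsupp.sub_apply, map_sub, sub_eq_zero]
    exact h
  obtain ⟨f₀, hf₀⟩ := hΦ.2 (Finsupp.single 0 1)
  obtain ⟨u, hu⟩ := exists_series_of_pol (x := q f₀) hf₀
  set X := HahnSeries.ofPowerSeries ℤ R' (u : PowerSeries R')
  set Z := HahnSeries.ofPowerSeries ℤ R' ((u⁻¹ : (PowerSeries R')ˣ) : PowerSeries R')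
  have hZX : Z * X = 1 := by rw [← map_mul, Units.inv_mul, map_one]
  have hred1 : coeffMap (π : R' →+* R) (q f₀) = 1 := by
    refine W.eq_of_pol D ?_ W.one_mem ?_
    · rw [hq]
      exact (W.span_coord D).le ⟨_, rfl⟩
    · rw [pol_coeffMap, show pol (q f₀) = Finsupp.single 0 1 from hf₀, Finsupp.mapRange_single,
        map_one]
      ext n
      rw [pol_apply, HahnSeries.coeff_one, Finsupp.single_apply]
      simp only [neg_eq_zero, Nat.cast_eq_zero, eq_comm]
  let qZ : (ℕ →₀ R') →ₗ[R'] LaurentSeries R' :=
    { toFun := fun f => Z * q f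
      map_add' := fun f g => by rw [map_add, mul_add]
      map_smul' := fun r f => by rw [map_smul, mul_C_smul, RingHom.id_apply] }
  have h1 : (1 : LaurentSeries R') ∈ LinearMap.range qZ :=
    ⟨f₀, show Z * q f₀ = 1 by rw [← hu, hZX]⟩
  have hst : ∀ a ∈ D.A, ∀ x ∈ LinearMap.range qZ, L R' a * x ∈ LinearMap.range qZ := by
    rintro a ha _ ⟨f, rfl⟩
    set s : D.Fun R' := (1 : R') ⊗ₜ ⟨a, ha⟩
    obtain ⟨g, hg⟩ := hrange (show s • U f ∈ LinearMap.range Em from ⟨s • U f, by
      show E *ᵥ (s • U f) = s • U f
      rw [Matrix.mulVec_smul, hEU]⟩)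
    refine ⟨g, ?_⟩
    show Z * D.comb1 cl (U g) = L R' a * (Z * D.comb1 cl (U f))
    rw [hg, comb1_smul, ev_tmul, map_one, one_mul, mul_left_comm]
  have hcompl : IsCompl (LinearMap.range qZ) (tPow R') := by
    refine ⟨Submodule.disjoint_def.mpr fun x hx hx' => ?_, codisjoint_iff.mpr (eq_top_iff.mpr
      fun x _ => ?_)⟩
    · obtain ⟨f, rfl⟩ := hx
      have h : X * (Z * q f) ∈ tPow R' := ofPowerSeries_mul_mem_tPow _ hx'
      rw [← mul_assoc, mul_comm X, hZX, one_mul] at h
      have h0 : f = 0 := hΦ.1 (by rw [map_zero]; exact LinearMap.mem_ker.mp h)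
      rw [h0, map_zero]
    · obtain ⟨f, hf⟩ := hΦ.2 (pol (X * x))
      refine Submodule.mem_sup.mpr ⟨qZ f, ⟨f, rfl⟩, Z * (X * x - q f), ?_, ?_⟩
      · refine ofPowerSeries_mul_mem_tPow _ (LinearMap.mem_ker.mpr ?_)
        rw [map_sub, show pol (q f) = pol (X * x) from hf, sub_self]
      · show Z * q f + Z * (X * x - q f) = x
        rw [← mul_add, add_sub_cancel, ← mul_assoc, hZX, one_mul]
  refine ⟨⟨LinearMap.range qZ, h1, hst, hcompl⟩, D.mapCell_unique π _ W ?_⟩
  rintro _ ⟨f, rfl⟩
  have hZ : coeffMap (π : R' →+* R) Z = 1 := by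
    have := congrArg (coeffMap (π : R' →+* R)) hZX
    rwa [map_mul, show X = q f₀ from hu, hred1, mul_one, map_one] at this
  show coeffMap (π : R' →+* R) (Z * q f) ∈ W.M
  rw [map_mul, hZ, one_mul, hq]
  exact (W.span_coord D).le ⟨_, rfl⟩

/-- the big cell is formally smooth -/
instance formallySmooth_ring : Algebra.FormallySmooth k D.Ring := by
  set f : D.Poly →ₐ[k] D.Ring := Ideal.Quotient.mkₐ k D.relIdeal
  have hf : Function.Surjective f := Ideal.Quotient.mkₐ_surjective k _
  have hsurj : Function.Surjective f.kerSquareLift := fun y => by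
    obtain ⟨x, rfl⟩ := hf y
    exact ⟨Ideal.Quotient.mk _ x, rfl⟩
  have hI : RingHom.ker f.kerSquareLift * RingHom.ker f.kerSquareLift = ⊥ := by
    have h := Ideal.cotangentIdeal_square (RingHom.ker f.toRingHom)
    rw [← AlgHom.ker_kerSquareLift] at h
    show _ * _ = ⊥
    exact (pow_two _).symm.trans h
  obtain ⟨W', hW'⟩ := D.exists_cell_lift f.kerSquareLift hsurj hI D.univCell
  refine Algebra.FormallySmooth.of_split f (D.homEquiv.symm W') (D.homEquiv.injective ?_)
  rw [homEquiv_comp, Equiv.apply_symm_apply, hW']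
  rfl

/-- the big cell is smooth -/
instance smooth_ring : Algebra.Smooth k D.Ring := ⟨inferInstance, inferInstance⟩

end CellData

end FLTAgent.RelPic

end
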