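import Fermat.Agent.RelPic.CellMap
import Mathlib.LinearAlgebra.Charpoly.Basic

/-!
Cell points are lattices: invertible modules over the functions on the punctured curve.
-/

set_option autoImplicit false
set_option linter.unusedSectionVars false
set_option synthInstance.maxHeartbeats 200000
set_option maxHeartbeats 800000

noncomputable section

open ModularCurve
open scoped TensorProduct

universe u

namespace FLTAgent.RelPic

namespace CellData

variable {k : Type u} [Field k] (D : CellData k)
variable {R : Type u} [CommRing R] [Algebra k R]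

theorem ev_mem_AR (s : D.Fun R) : D.ev R s ∈ D.AR R := by
  induction s using TensorProduct.induction_on with
  | zero => rw [map_zero]; exact zero_mem _
  | add s t hs ht => rw [map_add]; exact add_mem hs ht
  | tmul r a => rw [ev_tmul]; exact mul_mem (D.C_mem_AR r) (D.L_mem_AR a.2)

theorem exists_ev_eq {x : LaurentSeries R} (hx : x ∈ D.AR R) : ∃ s, D.ev R s = x := by
  refine D.AR_induction (P := fun y => ∃ s, D.ev R s = y) (fun r => ⟨r ⊗ₜ 1, ?_⟩)
    (fun a ha => ⟨(1 : R) ⊗ₜ ⟨a, ha⟩, ?_⟩) ?_ ?_ ?_ hx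
  · rw [ev_tmul, OneMemClass.coe_one, map_one, mul_one]
  · rw [ev_tmul, map_one, one_mul]
  · rintro x y ⟨s, rfl⟩ ⟨t, rfl⟩; exact ⟨s + t, map_add _ _ _⟩
  · rintro x ⟨s, rfl⟩; exact ⟨-s, map_neg _ _⟩
  · rintro x y ⟨s, rfl⟩ ⟨t, rfl⟩; exact ⟨s * t, map_mul _ _ _⟩

theorem exists_pole_inv : ∃ z : PowerSeries R, PowerSeries.constantCoeff z = 0 ∧
    L R (D.an D.deg D.deg_notMem) * HahnSeries.ofPowerSeries ℤ R z = 1 := by
  set a := L R (D.an D.deg D.deg_notMem) with ha
  set y : PowerSeries R := PowerSeries.mk fun n : ℕ => a.coeff ((n : ℤ) - (D.deg : ℤ)) with hy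
  have hlow : ∀ l < -(D.deg : ℤ), a.coeff l = 0 := fun l hl => by
    rw [ha, coeff_L, D.an_deg_coeff l hl, map_zero]
  have hu : IsUnit y := by
    rw [PowerSeries.isUnit_iff_constantCoeff, ← PowerSeries.coeff_zero_eq_constantCoeff_apply, hy,
      PowerSeries.coeff_mk, Nat.cast_zero, zero_sub, ha, coeff_L, D.an_coeff _ _ D.deg_notMem,
      if_pos rfl, map_one]
    exact isUnit_one
  have e : a * HahnSeries.single (D.deg : ℤ) 1 = HahnSeries.ofPowerSeries ℤ R y := by
    ext l
    rw [show l = (l - D.deg) + D.deg by omega, HahnSeries.coeff_mul_single_add, mul_one,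
      show l - (D.deg : ℤ) + D.deg = l by omega]
    rcases le_or_gt 0 l with hl | hl
    · obtain ⟨n, rfl⟩ := Int.eq_ofNat_of_zero_le hl
      rw [HahnSeries.ofPowerSeries_apply_coeff, hy, PowerSeries.coeff_mk]
    · rw [hlow _ (by omega), HahnSeries.ofPowerSeries_apply, HahnSeries.embDomain_of_notMem_range]
      rintro ⟨m, hm⟩
      change (m : ℤ) = l at hm
      omega
  refine ⟨(PowerSeries.X ^ D.deg : PowerSeries R) * ↑hu.unit⁻¹, ?_, ?_⟩
  · rw [map_mul, map_pow, PowerSeries.constantCoeff_X, zero_pow (show D.deg ≠ 0 from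
      Nat.succ_ne_zero _), zero_mul]
  · rw [map_mul, HahnSeries.ofPowerSeries_X_pow, ← mul_assoc, e, ← map_mul,
      IsUnit.mul_val_inv, map_one]

theorem isUnit_eval₂_monic {a : LaurentSeries R} {z : PowerSeries R}
    (hz : PowerSeries.constantCoeff z = 0) (haz : a * HahnSeries.ofPowerSeries ℤ R z = 1)
    (p : Polynomial R) (hp : p.Monic) : IsUnit (p.eval₂ HahnSeries.C a) := by
  set Z := HahnSeries.ofPowerSeries ℤ R z
  set w : PowerSeries R := ∑ i ∈ Finset.range (p.natDegree + 1),
    PowerSeries.C (p.coeff i) * z ^ (p.natDegree - i)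
  have e : p.eval₂ HahnSeries.C a * Z ^ p.natDegree = HahnSeries.ofPowerSeries ℤ R w := by
    rw [Polynomial.eval₂_eq_sum_range, Finset.sum_mul, map_sum]
    refine Finset.sum_congr rfl fun i hi => ?_
    rw [map_mul, map_pow, HahnSeries.ofPowerSeries_C, mul_assoc]
    refine congrArg _ ?_
    conv_lhs => rw [show p.natDegree = i + (p.natDegree - i) by
      have := Finset.mem_range.mp hi; omega, pow_add, ← mul_assoc, ← mul_pow, haz, one_pow, one_mul]
  have hw : IsUnit w := by
    rw [PowerSeries.isUnit_iff_constantCoeff, map_sum, Finset.sum_range_succ,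
      Finset.sum_eq_zero fun i hi => by
        rw [map_mul, map_pow, hz, zero_pow (by have := Finset.mem_range.mp hi; omega), mul_zero],
      zero_add, Nat.sub_self, pow_zero, mul_one, hp.coeff_natDegree, map_one, map_one]
    exact isUnit_one
  exact isUnit_of_mul_isUnit_left (e ▸ hw.map _)

theorem exists_coord_mod {c : D.G → ℕ → R} {x : LaurentSeries R} (hx : x ∈ D.span c) :
    ∃ g : D.G → R, x - ∑ i, g i • D.mGen c i ∈ D.AR R := by
  classical
  obtain ⟨f, rfl⟩ := hx
  induction f using Finsupp.induction_linear with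
  | zero => exact ⟨0, by simp⟩
  | add a b ha hb =>
    obtain ⟨g, hg⟩ := ha
    obtain ⟨g', hg'⟩ := hb
    refine ⟨g + g', ?_⟩
    simp only [map_add, Pi.add_apply, add_smul, Finset.sum_add_distrib, add_sub_add_comm]
    exact add_mem hg hg'
  | single n r =>
    rw [comb, Finsupp.linearCombination_single, bas]
    split_ifs with hn
    · refine ⟨Pi.single ⟨n, hn⟩ r, ?_⟩
      rw [Finset.sum_eq_single (⟨n, hn⟩ : D.G) (fun i _ hi => by
        rw [Pi.single_eq_of_ne hi, zero_smul]) (by simp), Pi.single_eq_same, sub_self]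
      exact zero_mem _
    · refine ⟨fun i => -(r * algebraMap k R ((D.an n hn).coeff (-((i : ℕ) : ℤ)))), ?_⟩
      simp only [neg_smul, mul_smul, Finset.sum_neg_distrib, ← Finset.smul_sum, sub_neg_eq_add,
        smul_sub, sub_add_cancel]
      rw [← HahnSeries.C_mul_eq_smul]
      exact mul_mem (D.C_mem_AR r) (D.L_mem_AR (D.an_mem n hn))

/-- a denominator of a cell point: a unit of Laurent series among the functions -/
theorem exists_den {c : D.G → ℕ → R} (hc : D.IsStable c) :
    ∃ a ∈ D.AR R, IsUnit a ∧ ∀ x ∈ D.span c, a * x ∈ D.AR R := by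
  classical
  set a₀ := L R (D.an D.deg D.deg_notMem)
  have ha₀ : a₀ ∈ D.AR R := D.L_mem_AR (D.an_mem _ _)
  choose t ht using fun i => D.exists_coord_mod (hc _ (D.an_mem D.deg D.deg_notMem) i)
  set T : Module.End R (D.G → R) := Fintype.linearCombination R t
  set Φ : (D.G → R) →ₗ[R] LaurentSeries R := Fintype.linearCombination R (D.mGen c)
  have hΦ : ∀ g, Φ g = ∑ i, g i • D.mGen c i := fun g => Fintype.linearCombination_apply R _ g
  have hstep : ∀ g, a₀ * Φ g - Φ (T g) ∈ D.AR R := fun g => by
    rw [hΦ, Finset.mul_sum, show T g = ∑ i, g i • t i from Fintype.linearCombination_apply R _ g,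
      map_sum, ← Finset.sum_sub_distrib]
    refine sum_mem fun i _ => ?_
    rw [mul_C_smul, map_smul, ← smul_sub, hΦ, ← HahnSeries.C_mul_eq_smul]
    exact mul_mem (D.C_mem_AR _) (ht i)
  have hpoly : ∀ p : Polynomial R, ∀ g,
      p.eval₂ HahnSeries.C a₀ * Φ g - Φ (Polynomial.aeval T p g) ∈ D.AR R := by
    intro p
    induction p using Polynomial.induction_on with
    | C r =>
      intro g
      rw [Polynomial.eval₂_C, Polynomial.aeval_C, Module.algebraMap_end_apply, map_smul,
        HahnSeries.C_mul_eq_smul, sub_self]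
      exact zero_mem _
    | add p q hp hq =>
      intro g
      rw [Polynomial.eval₂_add, map_add, LinearMap.add_apply, map_add, add_mul, add_sub_add_comm]
      exact add_mem (hp g) (hq g)
    | monomial n r ih =>
      intro g
      rw [pow_succ, ← mul_assoc, mul_comm _ Polynomial.X, Polynomial.eval₂_mul, Polynomial.eval₂_X,
        map_mul, Polynomial.aeval_X, Module.End.mul_apply]
      have h := add_mem (mul_mem ha₀ (ih g))
        (hstep (Polynomial.aeval T (Polynomial.C r * Polynomial.X ^ n) g))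
      rwa [mul_sub, ← mul_assoc, sub_add_sub_cancel] at h
  obtain ⟨z, hz, haz⟩ := D.exists_pole_inv (R := R)
  set p := LinearMap.charpoly T
  have hmem : p.eval₂ HahnSeries.C a₀ ∈ D.AR R := by
    rw [Polynomial.eval₂_eq_sum_range]
    exact sum_mem fun i _ => mul_mem (D.C_mem_AR _) (pow_mem ha₀ i)
  refine ⟨_, hmem, isUnit_eval₂_monic hz haz p (LinearMap.charpoly_monic T), fun x hx => ?_⟩
  obtain ⟨g, hg⟩ := D.exists_coord_mod hx
  have h := hpoly p g
  rw [LinearMap.aeval_self_charpoly, LinearMap.zero_apply, map_zero, sub_zero] at h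
  have h2 := add_mem (mul_mem hmem hg) h
  rwa [← mul_add, hΦ, sub_add_cancel] at h2

variable [IsAlgClosed k] [Algebra.FiniteType k D.A] [IsDedekindDomain D.A]

theorem isUnit_sub_of_finiteType [Algebra.FiniteType k R] (W : D.Cell R) :
    IsUnit (W.sub D) := by
  classical
  set c := W.coord D
  have hc : D.IsStable c := W.isStable_coord D
  have hM : D.span c = W.M := W.span_coord D
  obtain ⟨e, -, he2, he3⟩ := D.exists_idem hc
  set δ : Option D.G → D.Fun R := Pi.single none 1
  have hδ : D.comb1 c δ = 1 := by rw [comb1_single, map_one, one_mul]; rfl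
  obtain ⟨a, ha, hu, hden⟩ := D.exists_den hc
  obtain ⟨sa, hsa⟩ := D.exists_ev_eq ha
  have hmain : ∀ x ∈ W.M, ∀ j, D.ev R (e δ j) * x ∈ D.AR R := by
    intro x hx j
    rw [← hM] at hx
    set u := D.sec c (pol x)
    have hu' : D.comb1 c u = x := by rw [comb1_sec, D.mem_span.mp hx]
    obtain ⟨s, hs⟩ := D.exists_ev_eq (hden x hx)
    have h0 : D.comb1 c (sa • u - s • δ) = 0 := by
      rw [map_sub, comb1_smul, comb1_smul, hu', hδ, hsa, hs, mul_one, sub_self]
    have h1 := he3 _ h0
    rw [map_sub, map_smul, map_smul, sub_eq_zero] at h1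
    have h2 := congrArg (D.ev R) (congrFun h1 j)
    rw [Pi.smul_apply, Pi.smul_apply, smul_eq_mul, smul_eq_mul, map_mul, map_mul, hsa, hs] at h2
    have h3 : D.ev R (e δ j) * x = D.ev R (e u j) := hu.mul_left_cancel (by
      rw [h2, mul_comm (D.ev R (e δ j)), ← mul_assoc])
    rw [h3]
    exact D.ev_mem_AR _
  set N : Submodule (D.AR R) (LaurentSeries R) :=
    Submodule.span (D.AR R) (Set.range fun j => D.ev R (e δ j))
  refine isUnit_iff_exists_inv.mpr ⟨N, le_antisymm (Submodule.mul_le.mpr fun m hm n hn => ?_) ?_⟩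
  · induction hn using Submodule.span_induction with
    | mem y hy =>
      obtain ⟨j, rfl⟩ := hy
      rw [mul_comm]
      exact Submodule.mem_one.mpr ⟨⟨_, hmain m hm j⟩, rfl⟩
    | zero => rw [mul_zero]; exact zero_mem _
    | add y z _ _ hy hz => rw [mul_add]; exact add_mem hy hz
    | smul a y _ hy => rw [mul_smul_comm]; exact Submodule.smul_mem _ a hy
  · rw [Submodule.one_le, ← hδ, ← he2, comb1_apply]
    refine sum_mem fun j _ => ?_
    rw [mul_comm (D.ev R (e δ j))]
    exact Submodule.mul_mem_mul (show D.gen c j ∈ W.sub D from hM.le (D.gen_mem c j))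
      (Submodule.subset_span ⟨j, rfl⟩)

/-- cell points are lattices -/
theorem Cell.isUnit_sub (W : D.Cell R) : IsUnit (W.sub D) := by
  obtain ⟨f, rfl⟩ := D.exists_map_univ W
  rw [← mapSub_sub]
  exact (D.isUnit_sub_of_finiteType D.univCell).map (D.mapSub f)

end CellData

end FLTAgent.RelPic

end
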