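import Fermat.Agent.RelPic.ChartExpand

/-!
Area S25, parcel C: the chart of a proper smooth integral curve at a rational point.
-/

set_option autoImplicit false
set_option linter.unusedSectionVars false

noncomputable section

universe u

open CategoryTheory CategoryTheory.Limits AlgebraicGeometry TopologicalSpace ModularCurve
open AlgebraicGeometry.RelPicard NeronModelInfra
open FLTAgent.AV

namespace FLTAgent.RelPic

open CellData

variable {k : Type u} [Field k] [IsAlgClosed k] {C : Scheme.{u}}
  (c : C ⟶ Spec (CommRingCat.of k)) [IsProper c] [SmoothOfRelativeDimension 1 c] [IsIntegral C]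

include c in
theorem genericPoint_mem_punctured (x₀ : Pl C) : genericPoint C ∈ punctured x₀ :=
  generic_ne_closed c x₀

include c in
theorem finiteType_cellA {x₀ : Pl C} (P : Param c x₀) :
    Algebra.FiniteType k (cellData c P).A := by
  have hη := genericPoint_mem_punctured c x₀
  have := finiteType_sec c (isAffineOpen_punctured c x₀)
  have e := (AlgEquiv.ofInjective (expSec c P hη) (expSec_injective c P hη)).trans
    (Subalgebra.equivOfEq _ _ (range_expSec_punctured c P hη))
  exact Algebra.FiniteType.equiv this e

include c in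
theorem isDedekindDomain_cellA {x₀ : Pl C} (P : Param c x₀) :
    IsDedekindDomain (cellData c P).A := by
  have hη := genericPoint_mem_punctured c x₀
  have : Nonempty (punctured x₀) := ⟨⟨_, hη⟩⟩
  have : IsDedekindDomain Γ(C, punctured x₀) :=
    isDedekindDomain_sec c (isAffineOpen_punctured c x₀) hη
  have : IsDomain (Sec c (punctured x₀)) := inferInstanceAs (IsDomain Γ(C, punctured x₀))
  have : IsDedekindDomain (Sec c (punctured x₀)) :=
    inferInstanceAs (IsDedekindDomain Γ(C, punctured x₀))
  let e := (AlgEquiv.ofInjective (expSec c P hη) (expSec_injective c P hη)).trans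
    (Subalgebra.equivOfEq _ _ (range_expSec_punctured c P hη))
  let : Algebra (Sec c (punctured x₀)) (cellData c P).A := e.toAlgHom.toRingHom.toAlgebra
  have : IsLocalization (⊥ : Submonoid (Sec c (punctured x₀))) (Sec c (punctured x₀)) :=
    IsLocalization.self bot_le
  let e' : Sec c (punctured x₀) ≃ₐ[Sec c (punctured x₀)] (cellData c P).A :=
    { e.toRingEquiv with commutes' := fun r => rfl }
  have : IsLocalization (⊥ : Submonoid (Sec c (punctured x₀))) (cellData c P).A :=
    IsLocalization.isLocalization_of_algEquiv _ e'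
  exact IsLocalization.isDedekindDomain (Sec c (punctured x₀)) (M := ⊥) bot_le _

variable (ε : SchemeHomOver (𝟙 (Spec (CommRingCat.of k))) c)

theorem rigSection_fst_mem {V : C.Opens} (hx : x0 c ε ∈ V) : ⊤ ≤ ε.1 ⁻¹ᵁ V := fun z _ => by
  show ε.1 z ∈ V
  rwa [Subsingleton.elim (α := PrimeSpectrum k) z (IsLocalRing.closedPoint k)]

theorem sectionValue_ofBase (R : Type u) [CommRing R] [Algebra k R] {W : (XR c R).Opens}
    (h : ⊤ ≤ rigSection c (base (k := k) R) ε ⁻¹ᵁ W) (r : R) :
    (Scheme.ΓSpecIso (CommRingCat.of R)).hom (pb (rigSection c (base (k := k) R) ε) h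
      (ofBase c R W r)) = r := by
  have h1 : rigSection c (base (k := k) R) ε ≫ pullback.snd c (base (k := k) R) = 𝟙 _ :=
    pullback.lift_snd _ _ _
  have h2 : (pullback.snd c (base (k := k) R)).appLE ⊤ W le_top ≫
      (rigSection c (base (k := k) R) ε).appLE W ⊤ h = 𝟙 _ := by
    have h3 : (pullback.snd c (base (k := k) R)).appLE ⊤ W le_top ≫
        (rigSection c (base (k := k) R) ε).appLE W ⊤ h =
          (rigSection c (base (k := k) R) ε ≫ pullback.snd c (base (k := k) R)).appLE ⊤ ⊤ le_top :=
      Scheme.Hom.appLE_comp_appLE ..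
    have h4 : (rigSection c (base (k := k) R) ε ≫ pullback.snd c (base (k := k) R)).appLE ⊤ ⊤ le_top =
        (rigSection c (base (k := k) R) ε ≫ pullback.snd c (base (k := k) R)).appTop :=
      Scheme.Hom.appLE_eq_app _
    rw [h3, h4, h1]
    rfl
  exact (congrArg (Scheme.ΓSpecIso (CommRingCat.of R)).hom
    congr($h2 ((Scheme.ΓSpecIso (CommRingCat.of R)).inv r))).trans
      congr($((Scheme.ΓSpecIso (CommRingCat.of R)).inv_hom_id) r)

theorem sectionValue_pb (R : Type u) [CommRing R] [Algebra k R] {V : C.Opens}
    (hε : ⊤ ≤ ε.1 ⁻¹ᵁ V) (h : ⊤ ≤ rigSection c (base (k := k) R) ε ⁻¹ᵁ preR c R V) (s : Γ(C, V)) :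
    (Scheme.ΓSpecIso (CommRingCat.of R)).hom (pb (rigSection c (base (k := k) R) ε) h
      (pb (pullback.fst c (base (k := k) R)) (le_refl (preR c R V)) s)) =
      algebraMap k R ((Scheme.ΓSpecIso (CommRingCat.of k)).hom (pb ε.1 hε s)) := by
  have h1 : rigSection c (base (k := k) R) ε ≫ pullback.fst c (base (k := k) R) =
      base (k := k) R ≫ ε.1 := pullback.lift_fst _ _ _
  have h2 : (pullback.fst c (base (k := k) R)).appLE V (preR c R V) le_rfl ≫
      (rigSection c (base (k := k) R) ε).appLE (preR c R V) ⊤ h ≫
        (Scheme.ΓSpecIso (CommRingCat.of R)).hom =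
      ε.1.appLE V ⊤ hε ≫ (Scheme.ΓSpecIso (CommRingCat.of k)).hom ≫
        CommRingCat.ofHom (algebraMap k R) := by
    have h3 := Scheme.Hom.appLE_comp_appLE (rigSection c (base (k := k) R) ε)
      (pullback.fst c (base (k := k) R)) V (preR c R V) ⊤ le_rfl h
    have h4 := Scheme.Hom.appLE_comp_appLE (base (k := k) R) ε.1 V ⊤ ⊤ hε le_top
    rw [← Category.assoc, h3]
    simp only [h1]
    rw [← h4, Category.assoc]
    refine congrArg (fun m => ε.1.appLE V ⊤ hε ≫ m) ?_
    exact (congrArg (fun m => m ≫ _) (Scheme.Hom.appLE_eq_app (base (k := k) R) (U := ⊤))).trans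
      (Scheme.ΓSpecIso_naturality (CommRingCat.ofHom (algebraMap k R)))
  exact congr($h2 s)

/-- the chart at the rational point -/
theorem exists_chart : ∃ D : CellData k, IsDedekindDomain D.A ∧ Algebra.FiniteType k D.A ∧
    Nonempty (Chart c ε D) := by
  obtain ⟨P⟩ := nonempty_param c (pl0 c ε)
  obtain ⟨V, τ, hηV, hV, hxV, hbasic, hτ⟩ := exists_nhd c P
  have hηU := genericPoint_mem_punctured c (pl0 c ε)
  have hU := isAffineOpen_punctured c (pl0 c ε)
  have hW : IsAffineOpen (punctured (pl0 c ε) ⊓ V) := hbasic ▸ hV.basicOpen τ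
  have hηW : genericPoint C ∈ punctured (pl0 c ε) ⊓ V := ⟨hηU, hηV⟩
  refine ⟨cellData c P, isDedekindDomain_cellA c P, finiteType_cellA c P,
    ⟨{ U := punctured (pl0 c ε), V := V, hU := hU, hV := hV, coe_U := rfl, mem := hxV, τ := τ,
       basic := hbasic
       expV := fun R _ _ => expPS c R P hV hηV hxV
       expW := fun R _ _ => expR c R P hW hηW
       expU := fun R _ _ => expR c R P hU hηU
       expW_rsU := fun R _ _ f => expR_rs c R P hU hW inf_le_left hηW f
       expW_rsV := fun R _ _ f => by
        rw [ofPowerSeries_expPS]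
        exact expR_rs c R P hV hW inf_le_right hηW f
       expU_injective := fun R _ _ => expR_injective c R P hU hηU
       expW_injective := fun R _ _ => expR_injective c R P hW hηW
       expV_injective := fun R _ _ a b h => expR_injective c R P hV hηV (by
        rw [← ofPowerSeries_expPS c R P hV hηV hxV, h, ofPowerSeries_expPS])
       range_expU := fun R _ _ => by
        rw [range_expR, range_expSec_punctured]
        rfl
       expV_τ := fun R _ _ => HahnSeries.ofPowerSeries_injective (by
        rw [ofPowerSeries_expPS, HahnSeries.ofPowerSeries_X]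
        refine (expR_pb c R P hV hηV τ).trans ?_
        refine (congrArg (L R) ((congrArg (expand c P) hτ).trans (expand_t c P) :
          expSec c P hηV τ = HahnSeries.single 1 1)).trans ?_
        exact (coeffMap_single _ _ _).trans (by rw [map_one]))
       expV_ofBase := fun R _ _ r => HahnSeries.ofPowerSeries_injective (by
        rw [ofPowerSeries_expPS, expR_ofBase, HahnSeries.ofPowerSeries_C])
       constantCoeff_expV := fun R _ _ h f => hom_ext_preR c R hV
        (f := (PowerSeries.constantCoeff).comp (expPS c R P hV hηV hxV))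
        (g := ((Scheme.ΓSpecIso (CommRingCat.of R)).hom.hom).comp
          (pb (rigSection c (base (k := k) R) ε) h))
        (fun r => by
          refine Eq.trans ?_ (sectionValue_ofBase c ε R h r).symm
          rw [RingHom.comp_apply, show expPS c R P hV hηV hxV (ofBase c R _ r) = PowerSeries.C r from
            HahnSeries.ofPowerSeries_injective (by
              rw [ofPowerSeries_expPS, expR_ofBase, HahnSeries.ofPowerSeries_C]),
            PowerSeries.constantCoeff_C])
        (fun s => by
          refine Eq.trans ?_ (sectionValue_pb c ε R (rigSection_fst_mem c ε hxV) h s).symm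
          rw [← coeff_zero_expSec c ε P rfl hηV hxV (rigSection_fst_mem c ε hxV) s,
            RingHom.comp_apply, ← PowerSeries.coeff_zero_eq_constantCoeff_apply,
            ← HahnSeries.ofPowerSeries_apply_coeff (Γ := ℤ), ofPowerSeries_expPS]
          refine (congrArg (fun y : LaurentSeries R => y.coeff 0) (expR_pb c R P hV hηV s)).trans ?_
          rfl) f
       exists_extend := fun R _ _ f g hfg => exists_rs_eq c R P hV hW inf_le_right hηW
        (fun z hzV hz => ⟨hz, hzV⟩) f fun l hl => by
          rw [hfg, HahnSeries.ofPowerSeries_apply, HahnSeries.embDomain_of_notMem_range]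
          rintro ⟨m, hm⟩
          change (m : ℤ) = l at hm
          omega
       expW_natural := fun R R' _ _ _ _ φ h f => expR_natural c R P φ hW hηW h f }⟩⟩

end FLTAgent.RelPic

end
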