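import Fermat.Agent.RelPic.CellProj

/-!
Area S25, parcel C: expansions of functions with coefficients in a base ring, from the expansions
over the ground field.
-/

set_option autoImplicit false
set_option linter.unusedSectionVars false

noncomputable section

open ModularCurve
open scoped TensorProduct

universe u

namespace FLTAgent.RelPic

open CellData

variable {k : Type u} [Field k] {R : Type u} [CommRing R] [Algebra k R]
variable {A : Type u} [CommRing A] [Algebra k A] (e : A →ₐ[k] LaurentSeries k)

/-- the expansion with coefficients, from an expansion over the ground field -/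
def tensExp (R : Type u) [CommRing R] [Algebra k R] : R ⊗[k] A →ₐ[k] LaurentSeries R :=
  Algebra.TensorProduct.productMap
    { toRingHom := (HahnSeries.C : R →+* LaurentSeries R)
      commutes' := fun r => (algebraMap_LS R r).symm }
    { toRingHom := (L R).comp e.toRingHom
      commutes' := fun r => by
        show L R (e (algebraMap k A r)) = _
        rw [e.commutes, algebraMap_laurentSeries_eq_single, algebraMap_LS]
        exact coeffMap_single _ _ _ }

theorem tensExp_tmul (r : R) (a : A) : tensExp e R (r ⊗ₜ a) = HahnSeries.C r * L R (e a) :=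
  Algebra.TensorProduct.productMap_apply_tmul _ _ r a

theorem tensExp_basis_coeff {κ : Type u} [DecidableEq κ] (b : Module.Basis κ k R) (f : κ →₀ A) (l : ℤ) :
    (tensExp e R ((TensorProduct.equivFinsuppOfBasisLeft b).symm f)).coeff l =
      ∑ i ∈ f.support, (e (f i)).coeff l • b i := by
  rw [TensorProduct.equivFinsuppOfBasisLeft_symm_apply, Finsupp.sum, map_sum, HahnSeries.coeff_sum]
  refine Finset.sum_congr rfl fun i _ => ?_
  rw [tensExp_tmul, HahnSeries.C_apply, HahnSeries.coeff_single_zero_mul, coeff_L,
    Algebra.smul_def, mul_comm]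

theorem tensExp_coeff_eq_zero {κ : Type u} [DecidableEq κ] (b : Module.Basis κ k R) (f : κ →₀ A) (l : ℤ)
    (h : (tensExp e R ((TensorProduct.equivFinsuppOfBasisLeft b).symm f)).coeff l = 0) (i : κ) :
    (e (f i)).coeff l = 0 := by
  by_cases hi : i ∈ f.support
  · rw [tensExp_basis_coeff] at h
    exact linearIndependent_iff'.mp b.linearIndependent _ _ h i hi
  · rw [Finsupp.notMem_support_iff.mp hi, map_zero, HahnSeries.coeff_zero]

theorem tensExp_injective (he : Function.Injective e) : Function.Injective (tensExp e R) := by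
  rw [injective_iff_map_eq_zero]
  intro x hx
  classical
  let b := Module.Free.chooseBasis k R
  obtain ⟨f, rfl⟩ := (TensorProduct.equivFinsuppOfBasisLeft b).symm.surjective x
  rw [show f = 0 from Finsupp.ext fun i => he (by
    ext l
    rw [tensExp_coeff_eq_zero e b f l (by rw [hx, HahnSeries.coeff_zero]) i, Finsupp.zero_apply,
      map_zero, HahnSeries.coeff_zero]), map_zero]

/-- integral expansions come from the functions with integral expansions -/
theorem exists_of_coeff_eq_zero {B : Type u} [CommRing B] [Algebra k B] (ι : B →ₐ[k] A)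
    (hι : ∀ a, (∀ l < 0, (e a).coeff l = 0) → ∃ a', ι a' = a) {x : R ⊗[k] A}
    (hx : ∀ l < 0, (tensExp e R x).coeff l = 0) :
    ∃ y, Algebra.TensorProduct.map (AlgHom.id k R) ι y = x := by
  classical
  let b := Module.Free.chooseBasis k R
  obtain ⟨f, rfl⟩ := (TensorProduct.equivFinsuppOfBasisLeft b).symm.surjective x
  choose g hg using fun i => hι (f i) fun l hl => tensExp_coeff_eq_zero e b f l (hx l hl) i
  refine ⟨∑ i ∈ f.support, b i ⊗ₜ g i, ?_⟩
  rw [TensorProduct.equivFinsuppOfBasisLeft_symm_apply, Finsupp.sum, map_sum]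
  exact Finset.sum_congr rfl fun i _ => by rw [Algebra.TensorProduct.map_tmul, AlgHom.id_apply, hg]

theorem range_tensExp :
    (tensExp e R).toRingHom.range = Subring.closure
      (Set.range (HahnSeries.C : R →+* LaurentSeries R) ∪
        ⇑(L (k := k) R) '' (e.range : Set (LaurentSeries k))) := by
  refine le_antisymm ?_ (Subring.closure_le.mpr ?_)
  · rintro _ ⟨x, rfl⟩
    induction x using TensorProduct.induction_on with
    | zero => rw [map_zero]; exact zero_mem _
    | add s t hs ht => rw [map_add]; exact add_mem hs ht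
    | tmul r a =>
      rw [AlgHom.toRingHom_eq_coe, RingHom.coe_coe, tensExp_tmul]
      exact mul_mem (Subring.subset_closure (Or.inl ⟨r, rfl⟩))
        (Subring.subset_closure (Or.inr ⟨_, ⟨a, rfl⟩, rfl⟩))
  · rintro _ (⟨r, rfl⟩ | ⟨_, ⟨a, rfl⟩, rfl⟩)
    · exact ⟨r ⊗ₜ 1, by
        rw [AlgHom.toRingHom_eq_coe, RingHom.coe_coe, tensExp_tmul, map_one, map_one, mul_one]⟩
    · exact ⟨(1 : R) ⊗ₜ a, by
        rw [AlgHom.toRingHom_eq_coe, RingHom.coe_coe, tensExp_tmul, map_one, one_mul]; rfl⟩

end FLTAgent.RelPic

end
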