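import Fermat.Agent.RelPic.CurveSections
import Fermat.Agent.RelPic.ExpandTensor

/-!
Area S25, parcel C: functions on affine base changes of affine opens of the curve, and their
expansions along the rational point.
-/

set_option autoImplicit false
set_option linter.unusedSectionVars false

noncomputable section

universe u

open CategoryTheory CategoryTheory.Limits AlgebraicGeometry TopologicalSpace ModularCurve
open NeronModelInfra
open FLTAgent.AV
open scoped TensorProduct

namespace FLTAgent.RelPic

open CellData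

variable {k : Type u} [Field k] {C : Scheme.{u}} (c : C ⟶ Spec (CommRingCat.of k))
variable (R : Type u) [CommRing R] [Algebra k R]

/-- the open over an affine base -/
abbrev preR (O : C.Opens) : (XR c R).Opens := pullback.fst c (base R) ⁻¹ᵁ O

theorem isPushout_sec {O : C.Opens} (hO : IsAffineOpen O) :
    IsPushout (CommRingCat.ofHom (algebraMap k R)) (CommRingCat.ofHom (algebraMap k (Sec c O)))
      (CommRingCat.ofHom (ofBase c R (preR c R O)))
      ((pullback.fst c (base (k := k) R)).appLE O (preR c R O) le_rfl) := by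
  have h := (isIso_pushoutSection_iff (IsPullback.of_hasPullback c (base (k := k) R))
    (US := ⊤) (UT := ⊤) (UX := O) (UY := preR c R O) le_top le_top (by simp [preR])).mp
      (isIso_pushoutSection_of_isAffineOpen _ _ _ _ (isAffineOpen_top _) (isAffineOpen_top _) hO)
  refine h.flip.of_iso (Scheme.ΓSpecIso (CommRingCat.of k)) (Scheme.ΓSpecIso (CommRingCat.of R))
    (Iso.refl _) (Iso.refl _) ?_ ?_ ?_ ?_
  · exact (congrArg (fun m => m ≫ _) (Scheme.Hom.appLE_eq_app (base (k := k) R) (U := ⊤))).trans
      (Scheme.ΓSpecIso_naturality (CommRingCat.ofHom (algebraMap k R)))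
  · exact (Category.comp_id _).trans
      (Iso.hom_inv_id_assoc (Scheme.ΓSpecIso (CommRingCat.of k)) _).symm
  · exact (Category.comp_id _).trans
      (Iso.hom_inv_id_assoc (Scheme.ΓSpecIso (CommRingCat.of R)) _).symm
  · exact (Category.comp_id _).trans (Category.id_comp _).symm

/-- functions over an affine base as a tensor product -/
def secTensor {O : C.Opens} (hO : IsAffineOpen O) :
    R ⊗[k] Sec c O ≃+* Γ(XR c R, preR c R O) :=
  ((CommRingCat.isPushout_tensorProduct k R (Sec c O)).isoIsPushout _ _
    (isPushout_sec c R hO)).commRingCatIsoToRingEquiv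

theorem secTensor_tmul {O : C.Opens} (hO : IsAffineOpen O) (r : R) (s : Sec c O) :
    secTensor c R hO (r ⊗ₜ s) =
      ofBase c R _ r * pb (pullback.fst c (base (k := k) R)) (le_refl (preR c R O)) s := by
  have h1 := (CommRingCat.isPushout_tensorProduct k R (Sec c O)).inl_isoIsPushout_hom
    _ _ (isPushout_sec c R hO)
  have h2 := (CommRingCat.isPushout_tensorProduct k R (Sec c O)).inr_isoIsPushout_hom
    _ _ (isPushout_sec c R hO)
  have e1 : secTensor c R hO (r ⊗ₜ 1) = ofBase c R _ r := congr($h1 r)
  have e2 : secTensor c R hO (1 ⊗ₜ s) =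
      pb (pullback.fst c (base (k := k) R)) (le_refl (preR c R O)) s := congr($h2 s)
  rw [← e1, ← e2, ← map_mul, Algebra.TensorProduct.tmul_mul_tmul, mul_one, one_mul]

/-- maps out of the functions are determined on the base and on the curve -/
theorem hom_ext_preR {O : C.Opens} (hO : IsAffineOpen O) {A : Type u} [CommRing A]
    {f g : Γ(XR c R, preR c R O) →+* A}
    (h1 : ∀ r, f (ofBase c R _ r) = g (ofBase c R _ r))
    (h2 : ∀ s : Sec c O, f (pb (pullback.fst c (base (k := k) R)) (le_refl (preR c R O)) s) =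
      g (pb (pullback.fst c (base (k := k) R)) (le_refl (preR c R O)) s))
    (x : Γ(XR c R, preR c R O)) : f x = g x := by
  obtain ⟨y, rfl⟩ := (secTensor c R hO).surjective x
  induction y using TensorProduct.induction_on with
  | zero => simp
  | add a b ha hb => rw [map_add, map_add, map_add, ha, hb]
  | tmul r s => rw [secTensor_tmul, map_mul, map_mul, h1, h2]

theorem rs_ofBase {W W' : (XR c R).Opens} (h : W' ≤ W) (r : R) :
    rs h (ofBase c R W r) = ofBase c R W' r :=
  rs_pb (pullback.snd c (base (k := k) R)) (U := ⊤) le_top h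
    ((Scheme.ΓSpecIso (CommRingCat.of R)).inv r)

theorem pb_ofBase {R' : Type u} [CommRing R'] [Algebra k R'] (φ : R →ₐ[k] R')
    {W : (XR c R).Opens} {W' : (XR c R').Opens} (h : W' ≤ xMap c φ ⁻¹ᵁ W) (r : R) :
    pb (xMap c φ) h (ofBase c R W r) = ofBase c R' W' (φ r) := by
  have hsnd : xMap c φ ≫ pullback.snd c (base (k := k) R) =
      pullback.snd c (base (k := k) R') ≫ Spec.map (CommRingCat.ofHom φ.toRingHom) :=
    pullback.lift_snd _ _ _
  have e : (Scheme.ΓSpecIso (CommRingCat.of R)).inv ≫ (pullback.snd c (base (k := k) R)).appLE ⊤ W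
        le_top ≫ (xMap c φ).appLE W W' h =
      CommRingCat.ofHom φ.toRingHom ≫ (Scheme.ΓSpecIso (CommRingCat.of R')).inv ≫
        (pullback.snd c (base (k := k) R')).appLE ⊤ W' le_top := by
    have h2 : (Spec.map (CommRingCat.ofHom φ.toRingHom)).appLE ⊤ ⊤ le_top ≫
        (pullback.snd c (base (k := k) R')).appLE ⊤ W' le_top =
          (pullback.snd c (base (k := k) R')  ≫
            Spec.map (CommRingCat.ofHom φ.toRingHom)).appLE ⊤ W' le_top :=
      Scheme.Hom.appLE_comp_appLE ..
    have h4 : (pullback.snd c (base (k := k) R)).appLE ⊤ W le_top ≫ (xMap c φ).appLE W W' h =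
          (xMap c φ ≫ pullback.snd c (base (k := k) R)).appLE ⊤ W' le_top :=
      Scheme.Hom.appLE_comp_appLE ..
    rw [h4]
    simp only [hsnd]
    rw [← h2]
    refine ((Category.assoc _ _ _).symm.trans (congrArg
      (fun m => m ≫ (pullback.snd c (base (k := k) R')).appLE ⊤ W' le_top) ?_)).trans
        (Category.assoc _ _ _)
    exact (congrArg (fun m => (Scheme.ΓSpecIso (CommRingCat.of R)).inv ≫ m)
      (Scheme.Hom.appLE_eq_app (Spec.map (CommRingCat.ofHom φ.toRingHom)) (U := ⊤))).trans
      (Scheme.ΓSpecIso_inv_naturality (CommRingCat.ofHom φ.toRingHom)).symm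
  exact congr($e r)

theorem pb_pb_fst {R' : Type u} [CommRing R'] [Algebra k R'] (φ : R →ₐ[k] R')
    {O : C.Opens} (h : preR c R' O ≤ xMap c φ ⁻¹ᵁ preR c R O) (s : Γ(C, O)) :
    pb (xMap c φ) h (pb (pullback.fst c (base (k := k) R)) (le_refl (preR c R O)) s) =
      pb (pullback.fst c (base (k := k) R')) (le_refl (preR c R' O)) s := by
  have hfst : xMap c φ ≫ pullback.fst c (base (k := k) R) = pullback.fst c (base (k := k) R') :=
    (pullback.lift_fst _ _ _).trans (Category.comp_id _)
  have e := Scheme.Hom.appLE_comp_appLE (xMap c φ) (pullback.fst c (base (k := k) R))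
    O (preR c R O) (preR c R' O) le_rfl h
  refine (congr($e s)).trans ?_
  congr! 3

variable [IsAlgClosed k] [IsIntegral C] [IsProper c] [SmoothOfRelativeDimension 1 c]
variable {x₀ : Pl C} (P : Param c x₀)

/-- the expansion of a function over an affine base -/
def expR {O : C.Opens} (hO : IsAffineOpen O) (hη : genericPoint C ∈ O) :
    Γ(XR c R, preR c R O) →+* LaurentSeries R :=
  (tensExp (expSec c P hη) R).toRingHom.comp (secTensor c R hO).symm.toRingHom

theorem expR_secTensor {O : C.Opens} (hO : IsAffineOpen O) (hη : genericPoint C ∈ O)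
    (y : R ⊗[k] Sec c O) :
    expR c R P hO hη (secTensor c R hO y) = tensExp (expSec c P hη) R y :=
  congrArg (tensExp (expSec c P hη) R) ((secTensor c R hO).symm_apply_apply y)

theorem expR_ofBase {O : C.Opens} (hO : IsAffineOpen O) (hη : genericPoint C ∈ O) (r : R) :
    expR c R P hO hη (ofBase c R _ r) = HahnSeries.C r := by
  have h := expR_secTensor c R P hO hη (r ⊗ₜ 1)
  rwa [secTensor_tmul, tensExp_tmul, map_one, map_one, mul_one,
    show pb (pullback.fst c (base (k := k) R)) (le_refl (preR c R O)) (1 : Sec c O) = 1 from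
      map_one _, mul_one] at h

theorem expR_pb {O : C.Opens} (hO : IsAffineOpen O) (hη : genericPoint C ∈ O) (s : Sec c O) :
    expR c R P hO hη (pb (pullback.fst c (base (k := k) R)) (le_refl (preR c R O)) s) =
      L R (expSec c P hη s) := by
  have h := expR_secTensor c R P hO hη (1 ⊗ₜ s)
  rwa [secTensor_tmul, tensExp_tmul, map_one, map_one, one_mul, one_mul] at h

theorem expR_injective {O : C.Opens} (hO : IsAffineOpen O) (hη : genericPoint C ∈ O) :
    Function.Injective (expR c R P hO hη) :=
  (tensExp_injective _ (expSec_injective c P hη)).comp (secTensor c R hO).symm.injective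

theorem expR_rs {O O' : C.Opens} (hO : IsAffineOpen O) (hO' : IsAffineOpen O') (h : O' ≤ O)
    (hη : genericPoint C ∈ O') (f : Γ(XR c R, preR c R O)) :
    expR c R P hO' hη (rs ((pullback.fst c (base R)).preimage_mono h) f) =
      expR c R P hO (h hη) f := by
  refine hom_ext_preR c R hO (f := (expR c R P hO' hη).comp
    (rs ((pullback.fst c (base R)).preimage_mono h))) (g := expR c R P hO (h hη))
    (fun r => ?_) (fun s => ?_) f
  · rw [RingHom.comp_apply, rs_ofBase, expR_ofBase, expR_ofBase]
  · rw [RingHom.comp_apply, expR_pb]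
    refine Eq.trans ?_ ((expR_pb c R P hO' hη (secRes c h s)).trans
      (congrArg (L R) (expSec_secRes c P h hη s)))
    exact congrArg (expR c R P hO' hη)
      ((rs_pb (pullback.fst c (base (k := k) R)) (le_refl (preR c R O)) _ s).trans
        (pb_rs (pullback.fst c (base (k := k) R)) (le_refl (preR c R O')) h s).symm)

theorem range_expR {O : C.Opens} (hO : IsAffineOpen O) (hη : genericPoint C ∈ O) :
    (expR c R P hO hη).range = Subring.closure
      (Set.range (HahnSeries.C : R →+* LaurentSeries R) ∪
        ⇑(L (k := k) R) '' ((expSec c P hη).range : Set (LaurentSeries k))) := by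
  rw [← range_tensExp (expSec c P hη)]
  ext y
  refine ⟨fun ⟨x, hx⟩ => ⟨_, hx⟩, fun ⟨x, hx⟩ => ⟨secTensor c R hO x, ?_⟩⟩
  rw [expR_secTensor]
  exact hx

theorem expR_natural {R' : Type u} [CommRing R'] [Algebra k R'] (φ : R →ₐ[k] R') {O : C.Opens}
    (hO : IsAffineOpen O) (hη : genericPoint C ∈ O)
    (h : preR c R' O ≤ xMap c φ ⁻¹ᵁ preR c R O) (f : Γ(XR c R, preR c R O)) :
    expR c R' P hO hη (pb (xMap c φ) h f) = coeffMap (φ : R →+* R') (expR c R P hO hη f) := by
  refine hom_ext_preR c R hO (f := (expR c R' P hO hη).comp (pb (xMap c φ) h))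
    (g := (coeffMap (φ : R →+* R')).comp (expR c R P hO hη)) (fun r => ?_) (fun s => ?_) f
  · rw [RingHom.comp_apply, RingHom.comp_apply, pb_ofBase, expR_ofBase, expR_ofBase]
    exact (coeffMap_single _ _ _).symm
  · rw [RingHom.comp_apply, RingHom.comp_apply, expR_pb]
    exact (congrArg (expR c R' P hO hη) (pb_pb_fst c R φ h s)).trans
      ((expR_pb c R' P hO hη s).trans (coeffMap_L φ _).symm)

theorem expR_coeff_neg {O : C.Opens} (hO : IsAffineOpen O) (hη : genericPoint C ∈ O)
    (hx : x₀.1 ∈ O) (f : Γ(XR c R, preR c R O)) {l : ℤ} (hl : l < 0) :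
    (expR c R P hO hη f).coeff l = 0 := by
  obtain ⟨y, rfl⟩ := (secTensor c R hO).surjective f
  rw [expR_secTensor]
  induction y using TensorProduct.induction_on with
  | zero => rw [map_zero, HahnSeries.coeff_zero]
  | add a b ha hb => rw [map_add, HahnSeries.coeff_add, ha, hb, add_zero]
  | tmul r s =>
    rw [tensExp_tmul, HahnSeries.C_apply, HahnSeries.coeff_single_zero_mul, coeff_L,
      expSec_coeff_neg c P hη hx s hl, map_zero, mul_zero]

/-- the integral expansion near the point -/
def expPS {O : C.Opens} (hO : IsAffineOpen O) (hη : genericPoint C ∈ O) (hx : x₀.1 ∈ O) :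
    Γ(XR c R, preR c R O) →+* PowerSeries R :=
  have key : ∀ f, HahnSeries.ofPowerSeries ℤ R
      (PowerSeries.mk fun n : ℕ => (expR c R P hO hη f).coeff n) = expR c R P hO hη f := fun f => by
    ext l
    rcases le_or_gt 0 l with h | h
    · obtain ⟨n, rfl⟩ := Int.eq_ofNat_of_zero_le h
      rw [HahnSeries.ofPowerSeries_apply_coeff, PowerSeries.coeff_mk]
    · rw [HahnSeries.ofPowerSeries_apply, HahnSeries.embDomain_of_notMem_range,
        expR_coeff_neg c R P hO hη hx f h]
      rintro ⟨m, hm⟩
      change (m : ℤ) = l at hm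
      omega
  { toFun := fun f => PowerSeries.mk fun n : ℕ => (expR c R P hO hη f).coeff n
    map_one' := HahnSeries.ofPowerSeries_injective ((key 1).trans (by rw [map_one, map_one]))
    map_zero' := HahnSeries.ofPowerSeries_injective ((key 0).trans (by rw [map_zero, map_zero]))
    map_mul' := fun a b => HahnSeries.ofPowerSeries_injective ((key _).trans
      (by rw [map_mul, map_mul, key, key]))
    map_add' := fun a b => HahnSeries.ofPowerSeries_injective ((key _).trans
      (by rw [map_add, map_add, key, key])) }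

theorem ofPowerSeries_expPS {O : C.Opens} (hO : IsAffineOpen O) (hη : genericPoint C ∈ O)
    (hx : x₀.1 ∈ O) (f : Γ(XR c R, preR c R O)) :
    HahnSeries.ofPowerSeries ℤ R (expPS c R P hO hη hx f) = expR c R P hO hη f := by
  ext l
  rcases le_or_gt 0 l with h | h
  · obtain ⟨n, rfl⟩ := Int.eq_ofNat_of_zero_le h
    rw [HahnSeries.ofPowerSeries_apply_coeff]
    simp [expPS]
  · rw [HahnSeries.ofPowerSeries_apply, HahnSeries.embDomain_of_notMem_range,
      expR_coeff_neg c R P hO hη hx f h]
    rintro ⟨m, hm⟩
    change (m : ℤ) = l at hm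
    omega

theorem exists_rs_eq {V W : C.Opens} (hV : IsAffineOpen V) (hW : IsAffineOpen W) (hWV : W ≤ V)
    (hηW : genericPoint C ∈ W) (hVW : ∀ z ∈ V, z ≠ x₀.1 → z ∈ W) (f : Γ(XR c R, preR c R W))
    (hf : ∀ l < 0, (expR c R P hW hηW f).coeff l = 0) :
    ∃ f', rs ((pullback.fst c (base R)).preimage_mono hWV) f' = f := by
  have key : ∀ y : R ⊗[k] Sec c V, tensExp (expSec c P (hWV hηW)) R y =
      tensExp (expSec c P hηW) R (Algebra.TensorProduct.map (AlgHom.id k R) (secRes c hWV) y) := by
    intro y
    induction y using TensorProduct.induction_on with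
    | zero => simp
    | add a b ha hb => simp only [map_add, ha, hb]
    | tmul r s =>
      rw [Algebra.TensorProduct.map_tmul, tensExp_tmul, tensExp_tmul, expSec_secRes]
      rfl
  obtain ⟨x, rfl⟩ := (secTensor c R hW).surjective f
  obtain ⟨y, hy⟩ := exists_of_coeff_eq_zero (expSec c P hηW) (secRes c hWV)
    (exists_secRes_eq c P hWV hηW hVW) (x := x) fun l hl => by
      rw [← expR_secTensor c R P hW]
      exact hf l hl
  refine ⟨secTensor c R hV y, expR_injective c R P hW hηW ?_⟩
  subst hy
  rw [expR_rs c R P hV hW, expR_secTensor, expR_secTensor]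
  exact key y

end FLTAgent.RelPic

end
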