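import Fermat.Agent.RelPic.CurveDegree

/-!
Area S25, parcel C: almost every order of pole occurs at a given point, and the complement of the
point is affine (a function with a pole there only is a finite map to the line).
-/

set_option autoImplicit false
set_option linter.unusedSectionVars false

noncomputable section

universe u

open CategoryTheory CategoryTheory.Limits AlgebraicGeometry TopologicalSpace
open FLTAgent.AV WithZero

namespace FLTAgent.RelPic

section Sections

variable {W : Scheme.{u}} [IsIntegral W]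

/-- a function regular on an open set is a section on it -/
theorem exists_section' {U : W.Opens} [hUne : Nonempty U] {a : W.functionField}
    (ha : ∀ x ∈ U, a ∈ stalkSub x) : ∃ s : Γ(W, U), W.germToFunctionField U s = a := by
  have hcov : ∀ x : U, ∃ (V : W.Opens) (_ : (x : W) ∈ V) (_ : V ≤ U) (_ : Nonempty V)
      (s : Γ(W, V)), W.germToFunctionField V s = a := fun x => by
    obtain ⟨V, hV, hxV, hVU⟩ := Opens.isBasis_iff_nbhd.mp W.isBasis_affineOpens x.2
    haveI : Nonempty V := ⟨⟨x.1, hxV⟩⟩
    obtain ⟨s, hs⟩ := exists_section hV (a := a) fun y hy => ha y (hVU hy)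
    exact ⟨V, hxV, hVU, inferInstance, s, hs⟩
  choose V hxV hVU hne s hs using hcov
  have hval : ∀ (i : U) (z : W) (hz : z ∈ V i), sAlg z (W.presheaf.germ (V i) z hz (s i)) = a :=
    fun i z hz => by haveI := hne i; exact (germToFunctionField_eq hz (s i)).trans (hs i)
  have hcompat : TopCat.Presheaf.IsCompatible W.sheaf.1 V s := fun i j => by
    obtain ⟨z, hzi, hzj⟩ := nonempty_preirreducible_inter (V i).2 (V j).2
      ⟨i.1, hxV i⟩ ⟨j.1, hxV j⟩
    apply germ_injective_of_isIntegral W z (U := V i ⊓ V j) ⟨hzi, hzj⟩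
    apply sAlg_injective z
    exact ((congrArg (sAlg z) (TopCat.Presheaf.germ_res_apply W.presheaf
      (Opens.infLELeft (V i) (V j)) z ⟨hzi, hzj⟩ (s i))).trans (hval i z hzi)).trans
      ((congrArg (sAlg z) (TopCat.Presheaf.germ_res_apply W.presheaf
        (Opens.infLERight (V i) (V j)) z ⟨hzi, hzj⟩ (s j))).trans (hval j z hzj)).symm
  obtain ⟨t, ht, -⟩ := W.sheaf.existsUnique_gluing' V U (fun i => homOfLE (hVU i))
    (fun x hx => Opens.mem_iSup.mpr ⟨⟨x, hx⟩, hxV _⟩) s hcompat
  refine ⟨t, ?_⟩
  let i : U := hUne.some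
  refine (germToFunctionField_eq i.2 t).symm.trans (Eq.trans ?_ (hval i i.1 (hxV i)))
  rw [← ht i]
  exact (congrArg (sAlg i.1)
    (TopCat.Presheaf.germ_res_apply W.presheaf (homOfLE (hVU i)) i.1 (hxV i) t)).symm

end Sections

variable {k : Type u} [Field k] [IsAlgClosed k] {C : Scheme.{u}} [IsIntegral C]
  (c : C ⟶ Spec (CommRingCat.of k)) [IsProper c] [SmoothOfRelativeDimension 1 c]

include c in
theorem finite_of_isClosed {Z : Set C} (hZ : IsClosed Z) (hη : genericPoint C ∉ Z) : Z.Finite := by
  have : CompactSpace C := QuasiCompact.compactSpace_of_compactSpace c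
  have : IsLocallyNoetherian C := LocallyOfFiniteType.isLocallyNoetherian c
  have : IsNoetherian C := {}
  have : NoetherianSpace C := inferInstance
  obtain ⟨S, hSf, hS⟩ := NoetherianSpace.exists_finite_set_isClosed_irreducible hZ
  rw [hS.2.2]
  refine hSf.sUnion fun t ht => ?_
  obtain ⟨x, hx⟩ := QuasiSober.sober (hS.2.1 t ht) (hS.1 t ht)
  rcases closed_or_generic c x with h | h
  · rw [← hx.def, h.closure_eq]
    exact Set.finite_singleton x
  · exact absurd (show genericPoint C ∈ Z from
      hS.2.2 ▸ Set.mem_sUnion_of_mem (h ▸ hx.mem) ht) hη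

/-- the orders that no function with a pole at `x₀` only takes -/
def gaps (x₀ : Pl C) : Set ℕ :=
  {n | ¬ ∃ a : C.functionField,
    (∀ x, x ≠ x₀ → pv c x a ≤ 1) ∧ pv c x₀ a = exp (n : ℤ)}

section Alg

variable [Algebra k C.functionField] (hk : ∀ a, algebraMap k C.functionField a = kHom c a)

open scoped Classical in
include hk in
theorem mem_bnd_single {x₀ : Pl C} {n : ℤ} {a : C.functionField} :
    a ∈ bnd c hk (Pi.single x₀ n) ↔
      (∀ x, x ≠ x₀ → pv c x a ≤ 1) ∧ pv c x₀ a ≤ exp n := by
  rw [mem_bnd]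
  refine ⟨fun h => ⟨fun x hx => ?_, ?_⟩, fun h x => ?_⟩
  · have := h x; rwa [Pi.single_eq_of_ne hx, exp_zero] at this
  · have := h x₀; rwa [Pi.single_eq_same] at this
  · rcases eq_or_ne x x₀ with rfl | hx
    · rw [Pi.single_eq_same]; exact h.2
    · rw [Pi.single_eq_of_ne hx, exp_zero]; exact h.1 x hx

include hk in
/-- all but finitely many orders occur -/
theorem finite_gaps_aux (x₀ : Pl C) : (gaps c x₀).Finite := by
  classical
  obtain ⟨G, hG⟩ := exists_dim_ge c hk x₀
  let L : ℕ → Submodule k C.functionField := fun n => bnd c hk (Pi.single x₀ (n : ℤ))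
  have hfin : ∀ n, FiniteDimensional k (L n) := fun n =>
    bnd_finite c hk _ {x₀} fun x hx => by simp [Finset.notMem_singleton.mp hx]
  have hupd : ∀ n : ℕ, Function.update (Pi.single x₀ ((n + 1 : ℕ) : ℤ) : Pl C → ℤ) x₀
      ((Pi.single x₀ ((n + 1 : ℕ) : ℤ) : Pl C → ℤ) x₀ - 1) = Pi.single x₀ (n : ℤ) := fun n => by
    funext x
    rcases eq_or_ne x x₀ with rfl | hx
    · rw [Function.update_self, Pi.single_eq_same, Pi.single_eq_same]; push_cast; ring
    · rw [Function.update_of_ne hx, Pi.single_eq_of_ne hx, Pi.single_eq_of_ne hx]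
  have hstep : ∀ n, Module.finrank k (L (n + 1)) ≤
      Module.finrank k (L n) + if n + 1 ∈ gaps c x₀ then 0 else 1 := by
    intro n
    haveI := hfin n
    split
    · next hgap =>
      rw [add_zero]
      refine Submodule.finrank_mono fun a ha => (mem_bnd_single c hk).mpr ?_
      obtain ⟨h1, h2⟩ := (mem_bnd_single c hk).mp ha
      refine ⟨h1, ?_⟩
      have hne : pv c x₀ a ≠ exp ((n + 1 : ℕ) : ℤ) := fun h => hgap ⟨a, h1, h⟩
      rcases eq_or_ne (pv c x₀ a) 0 with h0 | h0
      · rw [h0]; exact zero_le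
      · have h3 := lt_of_le_of_ne h2 hne
        rw [← exp_log h0, exp_lt_exp] at h3
        rw [← exp_log h0, exp_le_exp]
        omega
    · obtain ⟨a₁, ha₁⟩ := bnd_step c hk (Pi.single x₀ ((n + 1 : ℕ) : ℤ) : Pl C → ℤ) x₀
      rw [hupd] at ha₁
      refine (Submodule.finrank_mono ha₁).trans ((Submodule.finrank_add_le_finrank_add_finrank _ _).trans
        (Nat.add_le_add_left ?_ _))
      have h := finrank_span_finset_le_card (R := k) ({a₁} : Finset C.functionField)
      rw [Finset.coe_singleton, Finset.card_singleton] at h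
      exact h
  have h0 : Module.finrank k (L 0) ≤ 1 := by
    refine (Submodule.finrank_mono (bnd_le_span_one c hk fun x => ?_)).trans ?_
    · simp
    · have h := finrank_span_finset_le_card (R := k) ({1} : Finset C.functionField)
      rwa [Finset.coe_singleton, Finset.card_singleton] at h
  have hbound : ∀ n : ℕ, Module.finrank k (L n) +
      ((Finset.Icc 1 n).filter fun j => j ∈ gaps c x₀).card ≤ n + 1 := by
    intro n
    induction n with
    | zero => simpa using h0
    | succ n ih =>
      have h := hstep n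
      rw [Finset.Icc_eq_cons_Ico (by omega), Finset.filter_cons]
      have e : Finset.Ico 1 (n + 1) = Finset.Icc 1 n := by ext; simp
      by_cases hg : n + 1 ∈ gaps c x₀
      · rw [if_pos hg, Finset.card_cons, e]; rw [if_pos hg] at h; omega
      · rw [if_neg hg, e]; rw [if_neg hg] at h; omega
  by_contra hinf
  obtain ⟨S, hS, hcard⟩ := (Set.not_finite.mp hinf).exists_subset_card_eq (G + 3)
  have hb := hbound (S.sup id)
  have hsub : S.erase 0 ⊆ (Finset.Icc 1 (S.sup id)).filter fun j => j ∈ gaps c x₀ := fun j hj => by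
    obtain ⟨hj0, hjS⟩ := Finset.mem_erase.mp hj
    exact Finset.mem_filter.mpr ⟨Finset.mem_Icc.mpr ⟨Nat.pos_of_ne_zero hj0,
      Finset.le_sup (f := id) hjS⟩, hS hjS⟩
  have h1 := Finset.card_le_card hsub
  have h2 := Finset.pred_card_le_card_erase (s := S) (a := 0)
  have h3 : S.sup id ≤ Module.finrank k (L (S.sup id)) + G := hG (S.sup id)
  omega

end Alg

/-- all but finitely many orders occur at a given point -/
theorem finite_gaps (x₀ : Pl C) : (gaps c x₀).Finite :=
  letI := fieldAlg c
  finite_gaps_aux c (fun _ => rfl) x₀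

/-- a non-constant function with a pole at `x₀` only -/
theorem exists_pole_only (x₀ : Pl C) : ∃ a : C.functionField,
    (∀ x, x ≠ x₀ → pv c x a ≤ 1) ∧ 1 < pv c x₀ a := by
  obtain ⟨n, hn⟩ := Infinite.exists_notMem_finset ((finite_gaps c x₀).toFinset ∪ {0})
  rw [Finset.mem_union, not_or, Set.Finite.mem_toFinset, Finset.notMem_singleton] at hn
  simp only [gaps, Set.mem_setOf_eq, not_not] at hn
  obtain ⟨⟨a, h1, h2⟩, hn0⟩ := hn
  exact ⟨a, h1, by rw [h2, ← exp_zero, exp_lt_exp]; omega⟩

/-- the complement of a closed point -/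
def punctured (x₀ : Pl C) : C.Opens := ⟨({x₀.1} : Set C)ᶜ, x₀.2.isOpen_compl⟩

theorem mem_punctured {x₀ : Pl C} {x : C} : x ∈ punctured x₀ ↔ x ≠ x₀.1 := Iff.rfl

include c in
theorem generic_ne_closed (x₀ : Pl C) : genericPoint C ≠ x₀.1 := fun h => by
  obtain ⟨t, ht⟩ := exists_unif c x₀.2
  have h1 : t⁻¹ ∈ stalkSub x₀.1 := h ▸ mem_stalkSub_genericPoint _
  rw [← plc_le_one_iff c x₀.2, map_inv₀, ht, ← exp_neg, ← exp_zero, exp_le_exp] at h1
  omega

/-! ### the map to the line given by a section -/

/-- constants as sections -/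
def strSec (U : C.Opens) : CommRingCat.of k ⟶ Γ(C, U) :=
  (Scheme.ΓSpecIso (CommRingCat.of k)).inv ≫ c.appLE ⊤ U le_top

theorem toSpecΓ_strSec (U : C.Opens) : U.toSpecΓ ≫ Spec.map (strSec c U) = U.ι ≫ c := by
  have h := Scheme.Opens.toSpecΓ_SpecMap_appLE c ⊤ U le_top
  have h2 : (⊤ : (Spec (CommRingCat.of k)).Opens).toSpecΓ ≫
      Spec.map (Scheme.ΓSpecIso (CommRingCat.of k)).inv = (⊤ : (Spec (CommRingCat.of k)).Opens).ι := by
    rw [Scheme.Opens.toSpecΓ_top, Category.assoc, ← SpecMap_ΓSpecIso_hom, ← Spec.map_comp,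
      Iso.inv_hom_id, Spec.map_id, Category.comp_id]
  unfold strSec
  rw [Spec.map_comp]
  exact (Category.assoc _ _ _).symm.trans ((congrArg (fun m => m ≫ _) h).trans
    ((Category.assoc _ _ _).trans ((congrArg (fun m => _ ≫ m) h2).trans
      (Scheme.Hom.resLE_comp_ι c le_top))))

theorem germ_strSec (U : C.Opens) (z : C) (hz : z ∈ U) :
    strSec c U ≫ C.presheaf.germ U z hz = stalkStr c z := by
  refine Spec.map_injective ?_
  rw [Spec.map_comp, specMap_stalkStr, ← Scheme.Opens.fromSpecStalkOfMem_toSpecΓ, Category.assoc,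
    toSpecΓ_strSec, Scheme.Opens.fromSpecStalkOfMem_ι_assoc]

/-- evaluation of polynomials at a section -/
def lineHom {U : C.Opens} (sa : Γ(C, U)) : CommRingCat.of (Polynomial k) ⟶ Γ(C, U) :=
  CommRingCat.ofHom (Polynomial.eval₂RingHom (strSec c U).hom sa)

/-- the map to the line -/
def lineMap {U : C.Opens} (sa : Γ(C, U)) : U.toScheme ⟶ Spec (CommRingCat.of (Polynomial k)) :=
  U.toSpecΓ ≫ Spec.map (lineHom c sa)

/-- the structure map of the line -/
def lineStr : Spec (CommRingCat.of (Polynomial k)) ⟶ Spec (CommRingCat.of k) :=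
  Spec.map (CommRingCat.ofHom Polynomial.C)

theorem lineMap_lineStr {U : C.Opens} (sa : Γ(C, U)) : U.ι ≫ c = lineMap c sa ≫ lineStr := by
  have e : CommRingCat.ofHom (R := k) Polynomial.C ≫ lineHom c sa = strSec c U :=
    CommRingCat.hom_ext (RingHom.ext fun b => Polynomial.eval₂_C (strSec c U).hom sa)
  rw [lineMap, lineStr, Category.assoc, ← Spec.map_comp, e, toSpecΓ_strSec]

theorem sAlg_germ_lineHom {U : C.Opens} [Nonempty U] {sa : Γ(C, U)} {a : C.functionField}
    (hsa : C.germToFunctionField U sa = a) (z : C) (hz : z ∈ U) (r : Polynomial k) :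
    sAlg z (C.presheaf.germ U z hz (lineHom c sa r)) = Polynomial.eval₂ (kHom c) a r := by
  have h : ((sAlg z).comp (C.presheaf.germ U z hz).hom).comp (lineHom c sa).hom =
      Polynomial.eval₂RingHom (kHom c) a := by
    refine Polynomial.ringHom_ext (fun b => ?_) ?_
    · show sAlg z (C.presheaf.germ U z hz (Polynomial.eval₂ _ sa (Polynomial.C b))) =
        Polynomial.eval₂ _ a (Polynomial.C b)
      rw [Polynomial.eval₂_C, Polynomial.eval₂_C]
      exact (congrArg (sAlg z) congr($(germ_strSec c U z hz) b)).trans (sAlg_stalkStr c z b)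
    · show sAlg z (C.presheaf.germ U z hz (Polynomial.eval₂ _ sa Polynomial.X)) =
        Polynomial.eval₂ _ a Polynomial.X
      rw [Polynomial.eval₂_X, Polynomial.eval₂_X]
      exact (germToFunctionField_eq hz sa).trans hsa
  exact RingHom.congr_fun h r

theorem lineMap_mem_basicOpen {U : C.Opens} (sa : Γ(C, U)) (z : U.toScheme) (r : Polynomial k) :
    lineMap c sa z ∈ PrimeSpectrum.basicOpen r ↔
      IsUnit (C.presheaf.germ U z.1 z.2 (lineHom c sa r)) := by
  rw [← Scheme.mem_basicOpen]
  show z ∈ U.toSpecΓ ⁻¹ᵁ ((Spec.map (lineHom c sa)) ⁻¹ᵁ PrimeSpectrum.basicOpen r) ↔ _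
  rw [SpecMap_preimage_basicOpen, Scheme.Opens.toSpecΓ_preimage_basicOpen]
  rfl

include c in
theorem eval_ne_zero {x₀ : Pl C} {a : C.functionField} (hpole : 1 < pv c x₀ a) {r : Polynomial k}
    (hr : r ≠ 0) : Polynomial.eval₂ (kHom c) a r ≠ 0 := by
  let := fieldAlg c
  intro h
  have halg : IsAlgebraic k a := ⟨r, hr, h⟩
  obtain ⟨b, hb⟩ := (IsAlgClosed.algebraMap_bijective_of_isIntegral
    (k := k) (K := integralClosure k C.functionField)).2 ⟨a, halg.isIntegral⟩
  have : a = kHom c b := (congrArg Subtype.val hb).symm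
  rw [this] at hpole
  exact (plc_kHom_le c _ b).not_gt hpole

/-- only finitely many points of the complement lie over each point of the line -/
theorem lineMap_finite_fibre {x₀ : Pl C} {a : C.functionField}
    (hareg : ∀ x ∈ punctured x₀, a ∈ stalkSub x) (hpole : 1 < pv c x₀ a)
    [Nonempty (punctured x₀)] {sa : Γ(C, punctured x₀)}
    (hsa : C.germToFunctionField (punctured x₀) sa = a) (hη : genericPoint C ∈ punctured x₀)
    (y : Spec (CommRingCat.of (Polynomial k))) : (lineMap c sa ⁻¹' {y}).Finite := by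
  let φ := lineMap c sa
  let U := punctured x₀
  let ηU : U.toScheme := ⟨genericPoint C, hη⟩
  let bot : PrimeSpectrum (Polynomial k) := ⟨⊥, Ideal.isPrime_bot⟩
  have hclosedpt : ∀ z : U.toScheme, z ≠ ηU → φ z ≠ bot := by
    intro z hz hbot
    have hzc : IsClosed ({(z.1 : C)} : Set C) :=
      (closed_or_generic c z.1).resolve_right fun h => hz (Subtype.ext h)
    obtain ⟨a₀, ha₀⟩ := exists_const c hzc (a := a) ((plc_le_one_iff c hzc).mpr (hareg z.1 z.2))
    have h1 : φ z ∈ PrimeSpectrum.basicOpen (Polynomial.X - Polynomial.C a₀) := by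
      rw [hbot]
      exact fun h => Polynomial.X_sub_C_ne_zero a₀ (Ideal.mem_bot.mp h)
    obtain ⟨r, hr⟩ := ((lineMap_mem_basicOpen c sa z _).mp h1).exists_right_inv
    have h4 : (a - kHom c a₀) * sAlg z.1 r = 1 := by
      have h3 := sAlg_germ_lineHom c hsa z.1 z.2 (Polynomial.X - Polynomial.C a₀)
      rw [Polynomial.eval₂_sub, Polynomial.eval₂_X, Polynomial.eval₂_C] at h3
      exact (congrArg (· * sAlg z.1 r) h3).symm.trans
        ((map_mul (sAlg z.1) _ _).symm.trans ((congrArg (sAlg z.1) hr).trans (map_one (sAlg z.1))))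
    have h5 : plc c hzc (sAlg z.1 r) ≤ 1 := (plc_le_one_iff c hzc).mpr ⟨r, rfl⟩
    have h6 := congrArg (plc c hzc) h4
    rw [map_mul, map_one] at h6
    exact (mul_lt_one_of_lt_of_le ha₀ h5).ne h6
  have hηbot : φ ηU = bot := by
    refine PrimeSpectrum.ext ((Submodule.eq_bot_iff _).mpr fun r hr => ?_)
    by_contra hr0
    have h1 : IsUnit (C.presheaf.germ U ηU.1 ηU.2 (lineHom c sa r)) := by
      have h2 := sAlg_germ_lineHom c hsa ηU.1 ηU.2 r
      have h3 := eval_ne_zero c hpole hr0
      rw [← h2] at h3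
      exact (Ne.isUnit (fun h => h3 ((congrArg (sAlg ηU.1) h).trans (map_zero (sAlg ηU.1)))) :)
    exact (lineMap_mem_basicOpen c sa ηU r).mpr h1 hr
  by_cases hy : y = bot
  · refine (Set.finite_singleton ηU).subset fun z hz => ?_
    by_contra hne
    exact hclosedpt z hne (hz.trans hy)
  · have hS : IsClosed (φ ⁻¹' closure {y}) := isClosed_closure.preimage φ.continuous
    have hηS : ηU ∉ φ ⁻¹' closure {y} := fun h => by
      have h1 : y ⤳ bot := by
        rw [← hηbot]
        exact specializes_iff_mem_closure.mpr h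
      have h2 := (PrimeSpectrum.le_iff_specializes
        (show PrimeSpectrum (Polynomial k) from y) bot).mpr h1
      exact hy (PrimeSpectrum.ext (le_bot_iff.mp h2))
    have hfin := finite_of_isClosed c (isClosed_closure (s := U.ι '' (φ ⁻¹' closure {y}))) fun h => by
      obtain ⟨_, ⟨w, hw, rfl⟩, z, hz, hzw⟩ := mem_closure_iff.mp h
        (U.ι '' (φ ⁻¹' closure {y})ᶜ) (U.ι.isOpenEmbedding.isOpenMap _ hS.isOpen_compl) ⟨ηU, hηS, rfl⟩
      exact hw (U.ι.isOpenEmbedding.injective hzw ▸ hz)
    refine Set.Finite.of_finite_image (f := U.ι) (hfin.subset ?_) U.ι.isOpenEmbedding.injective.injOn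
    rintro _ ⟨z, hz, rfl⟩
    exact subset_closure ⟨z, subset_closure hz, rfl⟩

theorem appLE_of_eq_fromSpecStalk {x : C} (m : Spec (C.presheaf.stalk x) ⟶ C)
    (hm : m = C.fromSpecStalk x) {V : C.Opens} (e : ⊤ ≤ m ⁻¹ᵁ V) (hx : x ∈ V) :
    m.appLE V ⊤ e = C.presheaf.germ V x hx ≫ (Scheme.ΓSpecIso (C.presheaf.stalk x)).inv := by
  subst hm
  rw [Scheme.Hom.appLE, Scheme.fromSpecStalk_app hx, Category.assoc, Category.assoc, ← Functor.map_comp,
    Subsingleton.elim ((homOfLE le_top).op ≫ (homOfLE e).op) (𝟙 _), CategoryTheory.Functor.map_id,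
    Category.comp_id]

/-- the graph of a map to the line with an inverse at the missing point is closed -/
theorem isClosed_graph {x₀ : Pl C} {a : C.functionField} (hpole : 1 < pv c x₀ a)
    [Nonempty (punctured x₀)] {sa : Γ(C, punctured x₀)}
    (hsa : C.germToFunctionField (punctured x₀) sa = a) (hη : genericPoint C ∈ punctured x₀) :
    IsClosed (Set.range (pullback.lift (punctured x₀).ι (lineMap c sa) (lineMap_lineStr c sa))) := by
  classical
  let U := punctured x₀
  let φ := lineMap c sa
  let fst := pullback.fst c (lineStr (k := k))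
  let snd := pullback.snd c (lineStr (k := k))
  set i : U.toScheme ⟶ pullback c lineStr :=
    pullback.lift U.ι (lineMap c sa) (lineMap_lineStr c sa) with hidef
  have hifst : i ≫ fst = U.ι := pullback.lift_fst _ _ _
  have hisnd : i ≫ snd = φ := pullback.lift_snd _ _ _
  rw [← isOpen_compl_iff, isOpen_iff_forall_mem_open]
  intro z hz
  by_cases hzU : fst z ∈ U
  · -- over the complement the graph is a section
    let O := fst ⁻¹ᵁ U
    let i' : U.toScheme ⟶ O.toScheme := IsOpenImmersion.lift O.ι i (by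
      rintro _ ⟨y, rfl⟩
      rw [Scheme.Opens.range_ι]
      show fst (i y) ∈ U
      rw [← Scheme.Hom.comp_apply, hifst]
      exact y.2)
    have hi' : i' ≫ O.ι = i := IsOpenImmersion.lift_fac _ _ _
    have hsec : i' ≫ (fst ∣_ U) = 𝟙 _ := by
      rw [← cancel_mono U.ι, Category.assoc, morphismRestrict_ι, ← Category.assoc, hi', hifst,
        Category.id_comp]
    haveI : IsClosedImmersion (i' ≫ (fst ∣_ U)) := by rw [hsec]; infer_instance
    haveI : IsClosedImmersion i' := IsClosedImmersion.of_comp i' (fst ∣_ U)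
    refine ⟨O.ι '' (Set.range i')ᶜ, ?_, O.ι.isOpenEmbedding.isOpenMap _
      i'.isClosedEmbedding.isClosed_range.isOpen_compl, ?_⟩
    · rintro _ ⟨w, hw, rfl⟩ ⟨y, hy⟩
      refine hw ⟨y, O.ι.isOpenEmbedding.injective ?_⟩
      rw [← hy, ← hi', Scheme.Hom.comp_apply]
    · refine ⟨⟨z, hzU⟩, ?_, rfl⟩
      rintro ⟨y, hy⟩
      refine hz ⟨y, ?_⟩
      rw [← hi', Scheme.Hom.comp_apply, hy]
      rfl
  · -- near the point the function has an inverse
    have hz0 : fst z = x₀.1 := by
      by_contra h
      exact hzU h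
    have ha0 : a ≠ 0 := fun h => by rw [h, map_zero] at hpole; exact not_lt_zero hpole
    have hinv : a⁻¹ ∈ stalkSub x₀.1 :=
      (plc_le_one_iff c x₀.2).mp (by rw [map_inv₀]; exact inv_le_one_of_one_le₀ hpole.le)
    obtain ⟨V, hxV, hV⟩ := exists_open_regular hinv
    haveI : Nonempty V := ⟨⟨x₀.1, hxV⟩⟩
    obtain ⟨g, hg⟩ := exists_section' hV
    let T : Γ(Spec (CommRingCat.of (Polynomial k)), ⊤) :=
      (Scheme.ΓSpecIso (CommRingCat.of (Polynomial k))).inv Polynomial.X
    let O := fst ⁻¹ᵁ V
    let w : Γ(pullback c lineStr, O) := 1 - fst.app V g * snd.appLE ⊤ O le_top T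
    refine ⟨(pullback c lineStr).basicOpen w, ?_, ((pullback c lineStr).basicOpen w).2, ?_⟩
    · rintro _ hw ⟨y, rfl⟩
      -- a non-empty open of the complement contains the generic point
      let η := genericPoint C
      let j : Spec C.functionField ⟶ U.toScheme := U.fromSpecStalkOfMem η hη
      let q := j ≫ i
      have hyη : (⟨η, hη⟩ : U) ⤳ y := by
        exact U.ι.isOpenEmbedding.toIsEmbedding.toIsInducing.specializes_iff.mp
          (specializes_genericPoint _)
      have hj : j (IsLocalRing.closedPoint C.functionField) = (⟨η, hη⟩ : U) := by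
        apply U.ι.isOpenEmbedding.injective
        show (j ≫ U.ι) _ = η
        rw [Scheme.Opens.fromSpecStalkOfMem_ι]
        exact Scheme.fromSpecStalk_closedPoint
      have hq : q (IsLocalRing.closedPoint C.functionField) ∈ (pullback c lineStr).basicOpen w := by
        show i (j _) ∈ _
        rw [hj]
        exact hyη.mem_open (i ⁻¹ᵁ (pullback c lineStr).basicOpen w).2 hw
      have e : ⊤ ≤ q ⁻¹ᵁ O := fun t _ => by
        show q t ∈ O
        rw [Subsingleton.elim (α := PrimeSpectrum C.functionField) t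
          (IsLocalRing.closedPoint C.functionField)]
        exact (pullback c lineStr).basicOpen_le w hq
      have hηV : η ∈ V := (specializes_genericPoint x₀.1).mem_open V.2 hxV
      have e1 : q.appLE O ⊤ e (fst.app V g) =
          (Scheme.ΓSpecIso C.functionField).inv a⁻¹ := by
        have h1 : q ≫ fst = C.fromSpecStalk η := by
          show (j ≫ i) ≫ fst = _
          rw [Category.assoc, hifst, Scheme.Opens.fromSpecStalkOfMem_ι]
        have h2 : (q ≫ fst).appLE V ⊤ e = fst.app V ≫ q.appLE O ⊤ e := Scheme.Hom.comp_appLE ..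
        have h3 : fst.app V ≫ q.appLE O ⊤ e =
            C.presheaf.germ V η hηV ≫ (Scheme.ΓSpecIso C.functionField).inv :=
          h2.symm.trans (appLE_of_eq_fromSpecStalk (q ≫ fst) h1 e hηV)
        rw [← hg]
        exact congr($h3 g).trans (congrArg (Scheme.ΓSpecIso C.functionField).inv rfl)
      have e2 : q.appLE O ⊤ e (snd.appLE ⊤ O le_top T) =
          (Scheme.ΓSpecIso C.functionField).inv a := by
        let ν := lineHom c sa ≫ C.presheaf.germ U η hη
        have h1 : q ≫ snd = Spec.map ν := by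
          show (j ≫ i) ≫ snd = _
          rw [Category.assoc, hisnd]
          show j ≫ U.toSpecΓ ≫ _ = _
          rw [Scheme.Opens.fromSpecStalkOfMem_toSpecΓ_assoc, ← Spec.map_comp]
        have h2 : snd.appLE ⊤ O le_top ≫ q.appLE O ⊤ e = (q ≫ snd).appLE ⊤ ⊤ le_top :=
          Scheme.Hom.appLE_comp_appLE ..
        have h3 : (q ≫ snd).appLE ⊤ ⊤ le_top = (q ≫ snd).appTop := Scheme.Hom.appLE_eq_app _
        have h4 : (Scheme.ΓSpecIso _).inv ≫ (q ≫ snd).appTop =
            ν ≫ (Scheme.ΓSpecIso C.functionField).inv := by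
          rw [h1]; exact (Scheme.ΓSpecIso_inv_naturality ν).symm
        have h5 : ν Polynomial.X = a := by
          show C.presheaf.germ U η hη (Polynomial.eval₂ _ sa Polynomial.X) = a
          rw [Polynomial.eval₂_X]
          exact hsa
        exact congr($h2 T).trans (congr($h3 T).trans
          (congr($h4 Polynomial.X).trans (congrArg (fun t => (Scheme.ΓSpecIso C.functionField).inv t) h5)))
      have hmem : IsLocalRing.closedPoint C.functionField ∈
          (Spec C.functionField).basicOpen (q.appLE O ⊤ e w) := by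
        rw [Scheme.basicOpen_appLE]
        exact ⟨trivial, hq⟩
      have hzero : q.appLE O ⊤ e w = 0 := by
        show q.appLE O ⊤ e (1 - fst.app V g * snd.appLE ⊤ O le_top T) = 0
        rw [map_sub, map_one, map_mul, e1, e2, ← map_mul, inv_mul_cancel₀ ha0, map_one, sub_self]
      rw [hzero, Scheme.basicOpen_zero] at hmem
      exact hmem
    · have hzO : z ∈ O := by show fst z ∈ V; rw [hz0]; exact hxV
      rw [SetLike.mem_coe, Scheme.mem_basicOpen _ _ z hzO, map_sub, map_one, map_mul]
      refine IsLocalRing.isUnit_one_sub_self_of_mem_nonunits _ (mem_nonunits_iff.mpr fun hu => ?_)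
      have hu' := (IsUnit.mul_iff.mp hu).1
      rw [← Scheme.mem_basicOpen, ← Scheme.preimage_basicOpen] at hu'
      have hx0V : x₀.1 ∈ C.basicOpen g := hz0 ▸ hu'
      rw [Scheme.mem_basicOpen _ _ _ hxV] at hx0V
      obtain ⟨r, hr⟩ := hx0V.exists_right_inv
      have h1 := congrArg (sAlg x₀.1) hr
      have h2 : pv c x₀ (sAlg x₀.1 r) ≤ 1 := (plc_le_one_iff c x₀.2).mpr ⟨r, rfl⟩
      have h3 : a⁻¹ * sAlg x₀.1 r = 1 := by
        rw [← hg]
        exact (congrArg (· * sAlg x₀.1 r) (germToFunctionField_eq hxV g)).symm.trans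
          ((map_mul (sAlg x₀.1) _ _).symm.trans (h1.trans (map_one (sAlg x₀.1))))
      rw [inv_mul_eq_one₀ ha0] at h3
      rw [← h3] at h2
      exact hpole.not_ge h2

include c in
/-- the complement of a closed point is affine -/
theorem isAffineOpen_punctured (x₀ : Pl C) : IsAffineOpen (punctured x₀) := by
  set U := punctured x₀ with hUdef
  have hηU : genericPoint C ∈ U := generic_ne_closed c x₀
  haveI : Nonempty U := ⟨⟨_, hηU⟩⟩
  obtain ⟨a, ha, hpole⟩ := exists_pole_only c x₀
  have hareg : ∀ x ∈ U, a ∈ stalkSub x := fun x hx => by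
    rcases closed_or_generic c x with h | h
    · exact (plc_le_one_iff c h).mp (ha ⟨x, h⟩ fun e => hx (congrArg Subtype.val e))
    · exact h ▸ mem_stalkSub_genericPoint a
  obtain ⟨sa, hsa⟩ := exists_section' hareg
  let i := pullback.lift U.ι (lineMap c sa) (lineMap_lineStr c sa)
  haveI : IsImmersion i := by
    haveI : IsImmersion (i ≫ pullback.fst c lineStr) := by rw [pullback.lift_fst]; infer_instance
    exact IsImmersion.of_comp i (pullback.fst c lineStr)
  haveI : IsClosedImmersion i := IsClosedImmersion.of_isPreimmersion i (isClosed_graph c hpole hsa hηU)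
  haveI : IsProper (lineMap c sa) := by
    rw [← pullback.lift_snd U.ι (lineMap c sa) (lineMap_lineStr c sa)]
    infer_instance
  haveI : LocallyQuasiFinite (lineMap c sa) :=
    LocallyQuasiFinite.of_finite_preimage_singleton _ (lineMap_finite_fibre c hareg hpole hsa hηU)
  haveI : IsFinite (lineMap c sa) := IsFinite.of_isProper_of_locallyQuasiFinite _
  exact isAffine_of_isAffineHom (lineMap c sa)

end FLTAgent.RelPic

end
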