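import Fermat.Agent.RelPic.CurveLocal

/-!
Area S25, parcel C: functions with a pole at one point only. The number of poles with multiplicity
of a coordinate is at most the degree of the function field over it, its polar spaces grow at least
as fast, and so all but finitely many orders occur at a single given point.
-/

set_option autoImplicit false
set_option linter.unusedSectionVars false

noncomputable section

universe u

open CategoryTheory CategoryTheory.Limits AlgebraicGeometry TopologicalSpace
open FLTAgent.AV WithZero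

namespace FLTAgent.RelPic

variable {k : Type u} [Field k] [IsAlgClosed k] {C : Scheme.{u}} [IsIntegral C]
  (c : C ⟶ Spec (CommRingCat.of k)) [IsProper c] [SmoothOfRelativeDimension 1 c]

/-- the closed points -/
abbrev Pl (C : Scheme.{u}) : Type u := {x : C // IsClosed ({x} : Set C)}

/-- the place of a closed point -/
abbrev pv (x : Pl C) : Valuation C.functionField ℤᵐ⁰ := plc c x.2

theorem lt_one_iff_le_exp {z : ℤᵐ⁰} : z < 1 ↔ z ≤ exp (-1 : ℤ) := by
  rcases eq_or_ne z 0 with rfl | hz
  · simp
  · rw [← exp_log hz, ← exp_zero, exp_lt_exp, exp_le_exp]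
    omega

theorem le_exp_bound (z : ℤᵐ⁰) : ∃ N : ℕ, z ≤ exp (N : ℤ) := by
  rcases eq_or_ne z 0 with rfl | hz
  · exact ⟨0, zero_le⟩
  · exact ⟨(log z).natAbs, by
      nth_rw 1 [← exp_log hz]
      rw [exp_le_exp]
      exact Int.le_natAbs⟩

include c in
theorem finite_irregular (a : C.functionField) : {x : Pl C | ¬ pv c x a ≤ 1}.Finite := by
  have : CompactSpace C := QuasiCompact.compactSpace_of_compactSpace c
  have : IsLocallyNoetherian C := LocallyOfFiniteType.isLocallyNoetherian c
  have : IsNoetherian C := {}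
  have : NoetherianSpace C := inferInstance
  suffices h : {x : C | a ∉ stalkSub x}.Finite by
    refine (h.preimage Subtype.val_injective.injOn).subset fun x hx => ?_
    exact fun h' => hx ((plc_le_one_iff c x.2).mpr h')
  have hopen : IsOpen {x : C | a ∈ stalkSub x} := isOpen_iff_forall_mem_open.mpr fun x hx => by
    obtain ⟨U, hxU, hU⟩ := exists_open_regular hx
    exact ⟨U, fun y hy => hU y hy, U.2, hxU⟩
  obtain ⟨S, hSf, hS⟩ := NoetherianSpace.exists_finite_set_isClosed_irreducible
    (show IsClosed {x : C | a ∉ stalkSub x} from hopen.isClosed_compl)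
  have hS1 := hS.1
  have hS2 := hS.2.1
  rw [hS.2.2]
  refine hSf.sUnion fun t ht => ?_
  obtain ⟨x, hx⟩ := QuasiSober.sober (hS2 t ht) (hS1 t ht)
  rcases closed_or_generic c x with h | h
  · rw [← hx.def, h.closure_eq]
    exact Set.finite_singleton x
  · exact absurd (mem_stalkSub_genericPoint a) (show genericPoint C ∈ {x : C | a ∉ stalkSub x} from
      hS.2.2 ▸ Set.mem_sUnion_of_mem (h ▸ hx.mem) ht)

section Alg

variable [Algebra k C.functionField] (hk : ∀ a, algebraMap k C.functionField a = kHom c a)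

include hk in
/-- a function without poles is constant -/
theorem exists_eq_const {a : C.functionField} (ha : ∀ x : Pl C, pv c x a ≤ 1) :
    ∃ a₀ : k, a = algebraMap k C.functionField a₀ := by
  have hreg : ∀ x : C, a ∈ stalkSub x := fun x => by
    rcases closed_or_generic c x with h | h
    · exact (plc_le_one_iff c h).mp (ha ⟨x, h⟩)
    · exact h ▸ mem_stalkSub_genericPoint a
  have hint := isIntegral_of_centres c (algebraMap k C.functionField).range
    (fun b => ⟨b, hk b⟩) a fun V x _ hV _ => hV (hreg x)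
  have h1 : _root_.IsIntegral k a := by
    obtain ⟨p, hp, hpa⟩ := hint
    have hsurj := (algebraMap k C.functionField).rangeRestrict_surjective
    obtain ⟨q, hq, -, hqm⟩ := Polynomial.lifts_and_degree_eq_and_monic
      (Polynomial.map_surjective _ hsurj p : p ∈ Polynomial.lifts _) hp
    refine ⟨q, hqm, ?_⟩
    rw [← hq, Polynomial.eval₂_map] at hpa
    exact hpa
  obtain ⟨a₀, h⟩ := (IsAlgClosed.algebraMap_bijective_of_isIntegral
    (k := k) (K := integralClosure k C.functionField)).2 ⟨a, h1⟩
  exact ⟨a₀, (congrArg Subtype.val h).symm⟩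

include hk in
/-- functions bounded at every place -/
def bnd (D : Pl C → ℤ) : Submodule k C.functionField where
  carrier := {a | ∀ x, pv c x a ≤ exp (D x)}
  zero_mem' x := by rw [map_zero]; exact zero_le
  add_mem' {a b} ha hb x := ((pv c x).map_add a b).trans (max_le (ha x) (hb x))
  smul_mem' e a ha x := by
    rw [Algebra.smul_def, hk, map_mul]
    exact (mul_le_mul' (plc_kHom_le c _ e) (ha x)).trans_eq (one_mul _)

include hk in
theorem mem_bnd {D : Pl C → ℤ} {a : C.functionField} :
    a ∈ bnd c hk D ↔ ∀ x, pv c x a ≤ exp (D x) := Iff.rfl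

include hk in
theorem bnd_le_span_one {D : Pl C → ℤ} (hD : ∀ x, D x ≤ 0) : bnd c hk D ≤ k ∙ (1 : C.functionField) := by
  intro a ha
  rw [mem_bnd c hk] at ha
  obtain ⟨a₀, rfl⟩ := exists_eq_const c hk (a := a) fun x =>
    (ha x).trans (by rw [← exp_zero, exp_le_exp]; exact hD x)
  exact Submodule.mem_span_singleton.mpr ⟨a₀, by rw [Algebra.smul_def, mul_one]⟩

open scoped Classical in
include hk in
/-- one more pole costs at most one dimension -/
theorem bnd_step (D : Pl C → ℤ) (x : Pl C) :
    ∃ a₁, bnd c hk D ≤ bnd c hk (Function.update D x (D x - 1)) ⊔ k ∙ a₁ := by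
  by_cases h : ∀ a ∈ bnd c hk D, pv c x a ≤ exp (D x - 1)
  · refine ⟨0, fun a ha => Submodule.mem_sup_left ((mem_bnd c hk).mpr fun y => ?_)⟩
    rcases eq_or_ne y x with rfl | hy
    · rw [Function.update_self]; exact h a ha
    · rw [Function.update_of_ne hy]; exact (mem_bnd c hk).mp ha y
  push Not at h
  obtain ⟨a₁, ha₁, hlt⟩ := h
  refine ⟨a₁, fun a ha => ?_⟩
  have h0 : pv c x a₁ ≠ 0 := (lt_of_le_of_lt zero_le hlt).ne'
  have heq : pv c x a₁ = exp (D x) := by
    refine le_antisymm ((mem_bnd c hk).mp ha₁ x) ?_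
    rw [← exp_log h0, exp_lt_exp] at hlt
    rw [← exp_log h0, exp_le_exp]
    omega
  have hne : a₁ ≠ 0 := fun e => h0 (by rw [e, map_zero])
  obtain ⟨a₀, ha₀⟩ := exists_const c x.2 (a := a / a₁) (by
    rw [map_div₀]
    exact (div_le_one₀ (zero_lt_iff.mpr h0)).mpr (((mem_bnd c hk).mp ha x).trans heq.ge))
  have hmem : a - a₀ • a₁ ∈ bnd c hk (Function.update D x (D x - 1)) := by
    refine (mem_bnd c hk).mpr fun y => ?_
    rcases eq_or_ne y x with rfl | hy
    · rw [Function.update_self, Algebra.smul_def, hk,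
        show a - kHom c a₀ * a₁ = (a / a₁ - kHom c a₀) * a₁ by field_simp, map_mul, heq]
      refine (mul_le_mul' (lt_one_iff_le_exp.mp ha₀) le_rfl).trans ?_
      rw [← exp_add, exp_le_exp]
      omega
    · rw [Function.update_of_ne hy]
      exact (mem_bnd c hk).mp (sub_mem ha (Submodule.smul_mem _ a₀ ha₁)) y
  exact Submodule.mem_sup.mpr ⟨_, hmem, _, Submodule.smul_mem _ a₀ (Submodule.mem_span_singleton_self a₁),
    sub_add_cancel a _⟩

open scoped Classical in
include hk in
/-- lowering the bound at finitely many points costs at most the amount -/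
theorem bnd_drop (D D' : Pl C → ℤ) (S : Finset (Pl C)) (d : Pl C → ℕ)
    (hD : ∀ x, D x ≤ D' x + if x ∈ S then (d x : ℤ) else 0) :
    ∃ W : Finset C.functionField, W.card ≤ ∑ x ∈ S, d x ∧
      bnd c hk D ≤ bnd c hk D' ⊔ Submodule.span k (W : Set C.functionField) := by
  generalize hN : ∑ x ∈ S, d x = N
  induction N generalizing D d with
  | zero =>
    refine ⟨∅, Finset.card_empty.le, le_sup_of_le_left fun a ha => (mem_bnd c hk).mpr fun x => ?_⟩
    refine ((mem_bnd c hk).mp ha x).trans ?_
    rw [exp_le_exp]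
    refine (hD x).trans ?_
    split
    · next hx => rw [(Finset.sum_eq_zero_iff.mp hN) x hx]; simp
    · simp
  | succ N ih =>
    obtain ⟨x, hx, hdx⟩ : ∃ x ∈ S, d x ≠ 0 := by
      by_contra hcon
      push Not at hcon
      rw [Finset.sum_eq_zero hcon] at hN
      omega
    obtain ⟨a₁, ha₁⟩ := bnd_step c hk D x
    obtain ⟨W, hW, hle⟩ := ih (Function.update D x (D x - 1)) (Function.update d x (d x - 1))
      (fun y => by
        rcases eq_or_ne y x with rfl | hy
        · rw [Function.update_self, Function.update_self, if_pos hx]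
          have := hD y
          rw [if_pos hx] at this
          omega
        · rw [Function.update_of_ne hy, Function.update_of_ne hy]; exact hD y)
      (by
        rw [← Finset.add_sum_erase S _ hx, Finset.sum_congr rfl fun y hy => Function.update_of_ne (Finset.ne_of_mem_erase hy) _ d,
          Function.update_self]
        have h1 := Finset.add_sum_erase S d hx
        convert! (show d x - 1 + ∑ y ∈ S.erase x, d y = N by omega) using 3)
    refine ⟨insert a₁ W, (Finset.card_insert_le _ _).trans (by omega), ha₁.trans ?_⟩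
    rw [Finset.coe_insert, Submodule.span_insert, ← sup_assoc]
    refine sup_le (hle.trans ?_) (le_sup_of_le_left le_sup_right)
    exact sup_le_sup le_sup_left le_rfl

open scoped Classical in
include hk in
theorem bnd_finite (D : Pl C → ℤ) (S : Finset (Pl C)) (hS : ∀ x ∉ S, D x ≤ 0) :
    FiniteDimensional k (bnd c hk D) := by
  obtain ⟨W, -, hle⟩ := bnd_drop c hk D (fun _ => 0) S (fun x => (D x).toNat) fun x => by
    by_cases h : x ∈ S
    · simp only [h, if_true]; simp
    · simp only [h, if_false]; simpa using hS x h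
  have hle' : bnd c hk D ≤ Submodule.span k (insert (1 : C.functionField) ↑W) := by
    rw [Submodule.span_insert]
    exact hle.trans (sup_le_sup_right (bnd_le_span_one c hk fun _ => le_rfl) _)
  have := FiniteDimensional.span_of_finite k (W.finite_toSet.insert (1 : C.functionField))
  exact Submodule.finiteDimensional_of_le hle'

/-- polynomial independence over a generator gives independence over the field it generates -/
theorem linearIndependent_adjoin {ι : Type*} {F : Type u} [Field F] [Algebra k F] (w : F)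
    (b : ι → F)
    (h : ∀ (s : Finset ι) (p : ι → Polynomial k),
      ∑ i ∈ s, Polynomial.aeval w (p i) * b i = 0 → ∀ i ∈ s, p i = 0) :
    LinearIndependent (IntermediateField.adjoin k ({w} : Set F)) b := by
  classical
  rw [linearIndependent_iff']
  intro s g hg i hi
  have hfrac : ∀ i, ∃ r q : Polynomial k,
      Polynomial.aeval w q ≠ 0 ∧ (g i : F) * Polynomial.aeval w q = Polynomial.aeval w r := by
    intro i
    obtain ⟨r, q, he⟩ := (IntermediateField.mem_adjoin_simple_iff k _).mp (g i).2
    rcases eq_or_ne (Polynomial.aeval w q) 0 with hq | hq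
    · exact ⟨0, 1, by simp, by simp [he, hq]⟩
    · exact ⟨r, q, hq, by rw [he, div_mul_cancel₀ _ hq]⟩
  choose r q hq hgq using hfrac
  have hQ : ∀ j ∈ s, Polynomial.aeval w (r j * ∏ l ∈ s.erase j, q l)
      = (g j : F) * ∏ l ∈ s, Polynomial.aeval w (q l) := fun j hj => by
    rw [map_mul, map_prod, ← hgq, mul_assoc, Finset.mul_prod_erase s (fun l => Polynomial.aeval w (q l)) hj]
  have hzero := h s (fun j => r j * ∏ l ∈ s.erase j, q l) (by
    rw [Finset.sum_congr rfl fun j hj => by rw [hQ j hj]]
    have e : ∑ j ∈ s, (g j : F) * b j = 0 := by simpa [IntermediateField.smul_def] using hg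
    calc ∑ j ∈ s, (g j : F) * (∏ l ∈ s, Polynomial.aeval w (q l)) * b j
        = (∏ l ∈ s, Polynomial.aeval w (q l)) * ∑ j ∈ s, (g j : F) * b j := by
          rw [Finset.mul_sum]; exact Finset.sum_congr rfl fun j _ => by ring
      _ = 0 := by rw [e, mul_zero]) i hi
  have := hQ i hi
  rw [hzero, map_zero, eq_comm, mul_eq_zero] at this
  exact Subtype.ext (this.resolve_right (Finset.prod_ne_zero_iff.mpr fun l _ => hq l))

include hk in
theorem pv_aeval_le {x : Pl C} {w : C.functionField} (hw : pv c x w ≤ 1) (p : Polynomial k) :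
    pv c x (Polynomial.aeval w p) ≤ 1 := by
  rw [Polynomial.aeval_eq_sum_range]
  refine (pv c x).map_sum_le fun i _ => ?_
  rw [Algebra.smul_def, hk, map_mul, map_pow]
  exact (mul_le_mul' (plc_kHom_le c _ _) (pow_le_one' hw i)).trans_eq (one_mul _)

open scoped Classical in
include hk in
/-- the poles of `f` with multiplicity are at most `[K : k(f)]` -/
theorem sum_poles_le {f : C.functionField} (hf : f ≠ 0)
    [FiniteDimensional (IntermediateField.adjoin k ({f} : Set C.functionField)) C.functionField]
    (P : Finset (Pl C)) (e : Pl C → ℕ) (he : ∀ x ∈ P, pv c x f = exp (e x : ℤ)) :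
    ∑ x ∈ P, e x ≤
      Module.finrank (IntermediateField.adjoin k ({f} : Set C.functionField)) C.functionField := by
  let F0 := IntermediateField.adjoin k ({f} : Set C.functionField)
  have hF0 : F0 = IntermediateField.adjoin k ({f⁻¹} : Set C.functionField) := by
    refine le_antisymm (IntermediateField.adjoin_simple_le_iff.mpr ?_)
      (IntermediateField.adjoin_simple_le_iff.mpr
        (inv_mem (IntermediateField.mem_adjoin_simple_self k f)))
    simpa using inv_mem (IntermediateField.mem_adjoin_simple_self k f⁻¹)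
  let S : Finset C := P.image Subtype.val
  have hS : ∀ z ∈ S, IsClosed ({z} : Set C) := fun z hz => by
    obtain ⟨y, -, rfl⟩ := Finset.mem_image.mp hz
    exact y.2
  let I := Σ x : P, Fin (e x.1)
  have hex : ∀ i : I, ∃ b, pv c i.1.1 b = exp (-(i.2 : ℤ)) ∧
      ∀ z ∈ P, z ≠ i.1.1 → pv c z b ≤ exp (-(e z : ℤ)) := fun i => by
    obtain ⟨b, h1, h2⟩ := exists_approx c hS (x := i.1.1.1) (Finset.mem_image_of_mem _ i.1.2)
      (i.2 : ℤ) (∑ z ∈ P, (e z : ℤ))
    refine ⟨b, h1, fun z hz hne => (h2 z.1 (Finset.mem_image_of_mem _ hz)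
      (fun h => hne (Subtype.ext h))).trans ?_⟩
    rw [exp_le_exp, neg_le_neg_iff]
    exact Finset.single_le_sum (f := fun z => (e z : ℤ)) (fun _ _ => by positivity) hz
  choose b hb1 hb2 using hex
  have hwx : ∀ x ∈ P, pv c x f⁻¹ = exp (-(e x : ℤ)) := fun x hx => by
    rw [map_inv₀, he x hx, exp_neg]
  have hw : ∀ x ∈ P, pv c x f⁻¹ ≤ 1 := fun x hx => by
    rw [hwx x hx, ← exp_zero, exp_le_exp]; omega
  have hLI : LinearIndependent (IntermediateField.adjoin k ({f⁻¹} : Set C.functionField)) b := by
    refine linearIndependent_adjoin f⁻¹ b fun s p hsum => ?_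
    by_contra hcon
    push Not at hcon
    obtain ⟨i₀, hi₀, hp₀⟩ := hcon
    -- divide by the largest power of the variable
    obtain ⟨i₁, hi₁, hmin⟩ := Finset.exists_min_image (s.filter fun i => p i ≠ 0)
      (fun i => (p i).natTrailingDegree) ⟨i₀, Finset.mem_filter.mpr ⟨hi₀, hp₀⟩⟩
    set m := (p i₁).natTrailingDegree
    have hdvd : ∀ i ∈ s, Polynomial.X ^ m ∣ p i := fun i hi => by
      rcases eq_or_ne (p i) 0 with h | h
      · rw [h]; exact dvd_zero _
      · exact Polynomial.X_pow_dvd_iff.mpr fun d hd => Polynomial.coeff_eq_zero_of_lt_natTrailingDegree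
          (hd.trans_le (hmin i (Finset.mem_filter.mpr ⟨hi, h⟩)))
    choose! q hq using hdvd
    have hwne : f⁻¹ ^ m ≠ 0 := pow_ne_zero _ (inv_ne_zero hf)
    have hsum' : ∑ i ∈ s, Polynomial.aeval f⁻¹ (q i) * b i = 0 := by
      refine ((mul_eq_zero (M₀ := C.functionField)).mp (?_ : f⁻¹ ^ m * _ = 0)).resolve_left hwne
      rw [Finset.mul_sum, ← hsum]
      exact Finset.sum_congr rfl fun i hi => by
        rw [hq i hi, map_mul, map_pow, Polynomial.aeval_X, mul_assoc]
    have hq1 : (q i₁).coeff 0 ≠ 0 := by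
      have h1 := Finset.mem_filter.mp hi₁
      have : (p i₁).coeff m ≠ 0 := Polynomial.trailingCoeff_nonzero_iff_nonzero.mpr h1.2
      rwa [hq i₁ h1.1, Polynomial.coeff_X_pow_mul', if_pos le_rfl, Nat.sub_self] at this
    obtain ⟨j, hj, hjmin⟩ := Finset.exists_min_image
      (s.filter fun i => i.1 = i₁.1 ∧ (q i).coeff 0 ≠ 0) (fun i => (i.2 : ℕ))
      ⟨i₁, Finset.mem_filter.mpr ⟨(Finset.mem_filter.mp hi₁).1, rfl, hq1⟩⟩
    obtain ⟨hjs, hjx, hjc⟩ := Finset.mem_filter.mp hj
    set x := j.1.1
    have hxP : x ∈ P := j.1.2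
    have hsplit : ∀ r : Polynomial k, pv c x (Polynomial.aeval f⁻¹ r - algebraMap k _ (r.coeff 0))
        ≤ exp (-(e x : ℤ)) := fun r => by
      nth_rw 1 [← Polynomial.X_mul_divX_add r]
      rw [map_add, Polynomial.aeval_C, add_sub_cancel_right, map_mul, Polynomial.aeval_X, map_mul,
        hwx x hxP]
      exact (mul_le_mul' le_rfl (pv_aeval_le c hk (hw x hxP) _)).trans_eq (mul_one _)
    have hej : (j.2 : ℤ) < e x := by exact_mod_cast j.2.2
    have hterm : pv c x (Polynomial.aeval f⁻¹ (q j) * b j) = exp (-(j.2 : ℤ)) := by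
      have h1 : pv c x (Polynomial.aeval f⁻¹ (q j)) = 1 := by
        have hlt : pv c x (Polynomial.aeval f⁻¹ (q j) - algebraMap k _ ((q j).coeff 0)) <
            pv c x (algebraMap k _ ((q j).coeff 0)) := by
          rw [hk ((q j).coeff 0), plc_kHom c x.2 hjc, lt_one_iff_le_exp, ← hk]
          refine (hsplit _).trans ?_
          rw [exp_le_exp]; omega
        have := (pv c x).map_add_eq_of_lt_right hlt
        rw [sub_add_cancel] at this
        rw [this, hk, plc_kHom c x.2 hjc]
      rw [map_mul, h1, one_mul, hb1]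
    have hothers : ∀ i ∈ s.erase j,
        pv c x (Polynomial.aeval f⁻¹ (q i) * b i) < exp (-(j.2 : ℤ)) := by
      intro i hi
      obtain ⟨hne, his⟩ := Finset.mem_erase.mp hi
      rw [map_mul]
      by_cases hix : i.1 = j.1
      · have hb : pv c x (b i) = exp (-(i.2 : ℤ)) := by
          have e' : i.1.1 = x := congrArg Subtype.val hix
          exact e' ▸ hb1 i
        rw [hb]
        by_cases hc0 : (q i).coeff 0 = 0
        · have h1 := hsplit (q i)
          rw [hc0, map_zero, sub_zero] at h1
          refine lt_of_le_of_lt (mul_le_mul' h1 le_rfl) ?_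
          rw [← exp_add, exp_lt_exp]; omega
        · have h2 : (j.2 : ℕ) < i.2 := by
            refine lt_of_le_of_ne (hjmin i (Finset.mem_filter.mpr ⟨his, hix.trans hjx, hc0⟩)) ?_
            intro he'
            refine hne ?_
            obtain ⟨ix, il⟩ := i
            obtain rfl : ix = j.1 := hix
            exact Sigma.ext rfl (heq_of_eq (Fin.ext he'.symm))
          refine lt_of_le_of_lt (mul_le_mul' (pv_aeval_le c hk (hw x hxP) _) le_rfl) ?_
          rw [one_mul, exp_lt_exp]; omega
      · refine lt_of_le_of_lt (mul_le_mul' (pv_aeval_le c hk (hw x hxP) _)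
          (hb2 i x hxP fun h => hix (Subtype.ext h.symm))) ?_
        rw [one_mul, exp_lt_exp]; omega
    have hlt : pv c x (∑ i ∈ s.erase j, Polynomial.aeval f⁻¹ (q i) * b i) < exp (-(j.2 : ℤ)) :=
      (pv c x).map_sum_lt exp_ne_zero hothers
    rw [← Finset.add_sum_erase s _ hjs, add_eq_zero_iff_eq_neg] at hsum'
    rw [← (pv c x).map_neg, ← hsum', hterm] at hlt
    exact lt_irrefl _ hlt
  rw [← hF0] at hLI
  have := hLI.fintype_card_le_finrank
  rwa [Fintype.card_sigma, Finset.sum_coe_sort P fun x => Fintype.card (Fin (e x)),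
    Finset.sum_congr rfl fun x _ => Fintype.card_fin (e x)] at this

theorem aeval_mem_adjoin {F : Type u} [Field F] [Algebra k F] (f : F) (p : Polynomial k) :
    Polynomial.aeval f p ∈ IntermediateField.adjoin k ({f} : Set F) :=
  IntermediateField.algebra_adjoin_le_adjoin k _ (Polynomial.aeval_mem_adjoin_singleton k f)

include hk in
/-- a coordinate with a pole at `x₀` -/
theorem exists_coord (x₀ : Pl C) : ∃ f : C.functionField, 1 < pv c x₀ f ∧
    FiniteDimensional (IntermediateField.adjoin k ({f} : Set C.functionField)) C.functionField := by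
  obtain ⟨j, hjC, hfd, -⟩ := exists_coords_dim c 1
  set X : Rn k 1 := algebraMap (MvPolynomial (Fin 1) k) _ (MvPolynomial.X 0)
  set u := j X with hu
  obtain ⟨f, hf, hfu⟩ : ∃ f, 1 < pv c x₀ f ∧ u ∈ IntermediateField.adjoin k ({f} : Set C.functionField) := by
    rcases lt_or_ge 1 (pv c x₀ u) with h | h
    · exact ⟨u, h, IntermediateField.mem_adjoin_simple_self k u⟩
    obtain ⟨a₀, ha₀⟩ := exists_const c x₀.2 h
    have hne : u - kHom c a₀ ≠ 0 := by
      rw [sub_ne_zero, hu, ← hjC]
      intro he
      have := IsFractionRing.injective (MvPolynomial (Fin 1) k) (Rn k 1) (j.injective he)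
      exact MvPolynomial.X_ne_zero (R := k) (0 : Fin 1) (by
        have h1 := congrArg MvPolynomial.totalDegree this
        rw [MvPolynomial.totalDegree_X, MvPolynomial.totalDegree_C] at h1
        omega)
    refine ⟨(u - kHom c a₀)⁻¹, ?_, ?_⟩
    · rw [map_inv₀]
      exact (one_lt_inv₀ (zero_lt_iff.mpr ((Valuation.ne_zero_iff _).mpr hne))).mpr ha₀
    · have h1 := inv_mem (IntermediateField.mem_adjoin_simple_self k (u - kHom c a₀)⁻¹)
      rw [inv_inv] at h1
      simpa using add_mem h1 (hk a₀ ▸ algebraMap_mem _ a₀ :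
        kHom c a₀ ∈ IntermediateField.adjoin k ({(u - kHom c a₀)⁻¹} : Set C.functionField))
  refine ⟨f, hf, ?_⟩
  set F0 := IntermediateField.adjoin k ({f} : Set C.functionField)
  have hj : ∀ z, j z ∈ F0 := by
    intro z
    obtain ⟨p, q, -, rfl⟩ := IsFractionRing.div_surjective (A := MvPolynomial (Fin 1) k) z
    have hP : ∀ p : MvPolynomial (Fin 1) k, j (algebraMap _ _ p) ∈ F0 := fun p => by
      induction p using MvPolynomial.induction_on with
      | C a => rw [hjC, ← hk]; exact algebraMap_mem _ a
      | add p q hp hq => rw [map_add, map_add]; exact add_mem hp hq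
      | mul_X p i hp => rw [map_mul, map_mul, Fin.eq_zero i]; exact mul_mem hp hfu
    rw [map_div₀]
    exact div_mem (hP p) (hP q)
  let := j.toAlgebra
  let : Algebra (Rn k 1) F0 := (j.codRestrict F0 hj).toAlgebra
  have : IsScalarTower (Rn k 1) F0 C.functionField := .of_algebraMap_eq fun z => rfl
  exact Module.Finite.of_restrictScalars_finite (Rn k 1) F0 C.functionField

open scoped Classical in
include hk in
/-- the number of functions with poles only at `x₀` grows like the order -/
theorem exists_dim_ge (x₀ : Pl C) : ∃ G : ℕ, ∀ n : ℕ,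
    n ≤ Module.finrank k (bnd c hk (Pi.single x₀ (n : ℤ) : Pl C → ℤ)) + G := by
  obtain ⟨f, hf, hfd⟩ := exists_coord c hk x₀
  set F0 := IntermediateField.adjoin k ({f} : Set C.functionField)
  have hf0 : f ≠ 0 := fun h => by rw [h, map_zero] at hf; exact not_lt_zero hf
  -- poles
  let P := (finite_irregular c f).toFinset
  have hP : ∀ x, x ∈ P ↔ 1 < pv c x f := fun x => by
    rw [Set.Finite.mem_toFinset]; exact not_le
  let e : Pl C → ℕ := fun x => (log (pv c x f)).toNat
  have he : ∀ x ∈ P, pv c x f = exp (e x : ℤ) ∧ 0 < e x := fun x hx => by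
    have h := (hP x).mp hx
    have h0 : pv c x f ≠ 0 := (lt_trans zero_lt_one h).ne'
    rw [← exp_log h0, ← exp_zero, exp_lt_exp] at h
    refine ⟨?_, Int.lt_toNat.mpr (by simpa using h)⟩
    nth_rw 1 [← exp_log h0]
    rw [Int.toNat_of_nonneg h.le]
  have hdeg := sum_poles_le c hk hf0 P e fun x hx => (he x hx).1
  -- a basis without finite poles
  let bb := Module.finBasis F0 C.functionField
  let r := Module.finrank F0 C.functionField
  let B := (Set.finite_iUnion fun i => finite_irregular c (bb i)).toFinset \ P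
  have hB : ∀ z ∈ B, ∃ a₀ : k, pv c z (f - kHom c a₀) ≤ exp (-1 : ℤ) := fun z hz => by
    obtain ⟨a₀, h⟩ := exists_const c z.2
      (not_lt.mp fun h => (Finset.mem_sdiff.mp hz).2 ((hP z).mpr h))
    exact ⟨a₀, lt_one_iff_le_exp.mp h⟩
  choose! a₀ ha₀ using hB
  choose N hN using fun (z : Pl C) (i : Fin r) => le_exp_bound (pv c z (bb i))
  let s : C.functionField := ∏ z ∈ B, (f - kHom c (a₀ z)) ^ (∑ i, N z i)
  have hs : s ≠ 0 := by
    refine Finset.prod_ne_zero_iff.mpr fun z hz => pow_ne_zero _ fun h => ?_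
    rw [sub_eq_zero] at h
    rw [h] at hf
    exact absurd hf (plc_kHom_le c _ _).not_gt
  let b' : Fin r → C.functionField := fun i => s * bb i
  have hreg : ∀ i, ∀ z ∉ P, pv c z (b' i) ≤ 1 := by
    intro i z hz
    have hfz : pv c z f ≤ 1 := not_lt.mp fun h => hz ((hP z).mpr h)
    have hfac : ∀ y, pv c z (f - kHom c (a₀ y)) ≤ 1 := fun y =>
      ((pv c z).map_sub _ _).trans (max_le hfz (plc_kHom_le c _ _))
    rw [map_mul, map_prod]
    by_cases hzB : z ∈ B
    · rw [← Finset.mul_prod_erase B _ hzB, mul_assoc]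
      refine (mul_le_mul' ?_ (mul_le_mul' (Finset.prod_le_one (fun _ _ => zero_le) fun y _ => by
        rw [map_pow]; exact pow_le_one' (hfac y) _) (hN z i))).trans ?_ (b := exp (-(N z i : ℤ)) * (1 * exp (N z i : ℤ)))
      · rw [map_pow]
        refine (pow_le_pow_left' (ha₀ z hzB) _).trans ?_
        rw [← exp_nsmul, exp_le_exp]
        have := Finset.single_le_sum (f := fun l => N z l) (fun _ _ => Nat.zero_le _) (Finset.mem_univ i)
        simp only [nsmul_eq_mul, mul_neg, mul_one]
        omega
      · rw [one_mul, ← exp_add, neg_add_cancel, exp_zero]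
    · have hbb : pv c z (bb i) ≤ 1 := by
        by_contra h
        exact hzB (Finset.mem_sdiff.mpr
          ⟨(Set.Finite.mem_toFinset _).mpr (Set.mem_iUnion.mpr ⟨i, h⟩), hz⟩)
      refine (mul_le_mul' (Finset.prod_le_one (fun _ _ => zero_le) fun y _ => ?_) hbb).trans_eq
        (one_mul _)
      rw [map_pow]; exact pow_le_one' (hfac y) _
  choose M hM using fun (z : Pl C) (i : Fin r) => le_exp_bound (pv c z (b' i))
  let m₀ := ∑ z ∈ P, ∑ i, M z i
  have hM' : ∀ z ∈ P, ∀ i, pv c z (b' i) ≤ exp ((m₀ : ℤ) * e z) := fun z hz i => by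
    refine (hM z i).trans ?_
    rw [exp_le_exp]
    have h1 : M z i ≤ m₀ := (Finset.single_le_sum (f := fun l => M z l) (fun _ _ => Nat.zero_le _)
      (Finset.mem_univ i)).trans
      (Finset.single_le_sum (f := fun y => ∑ l, M y l) (fun _ _ => Nat.zero_le _) hz)
    have h2 := Nat.mul_le_mul h1 (he z hz).2
    rw [Nat.succ_eq_add_one, zero_add, mul_one] at h2
    exact_mod_cast h2
  have hx₀ : x₀ ∈ P := (hP x₀).mpr hf
  -- count
  have key : ∀ m : ℕ, r * (m + 1) ≤
      Module.finrank k (bnd c hk (Pi.single x₀ (((m + m₀) * e x₀ : ℕ) : ℤ) : Pl C → ℤ)) +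
        (m + m₀) * ∑ x ∈ P.erase x₀, e x := by
    intro m
    let D : Pl C → ℤ := fun x => if x ∈ P then (((m + m₀) * e x : ℕ) : ℤ) else 0
    let v : Fin r × Fin (m + 1) → C.functionField := fun il => f ^ (il.2 : ℕ) * b' il.1
    have hv : LinearIndependent k v := by
      rw [Fintype.linearIndependent_iff]
      intro g hg il
      let p : Fin r → Polynomial k := fun i =>
        ∑ l : Fin (m + 1), Polynomial.C (g (i, l)) * Polynomial.X ^ (l : ℕ)
      have h1 : ∑ i, (⟨Polynomial.aeval f (p i),
          aeval_mem_adjoin f (p i)⟩ : F0) • bb i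
          = 0 := by
        apply mul_left_cancel₀ hs
        rw [Finset.mul_sum, mul_zero, ← hg, Fintype.sum_prod_type]
        refine Finset.sum_congr rfl fun i _ => ?_
        simp only [IntermediateField.smul_def, smul_eq_mul, p, v, b', map_sum, map_mul, map_pow,
          Polynomial.aeval_C, Polynomial.aeval_X, Finset.sum_mul, Finset.mul_sum, Algebra.smul_def]
        show s * ((∑ x : Fin (m + 1), algebraMap k C.functionField (g (i, x)) * f ^ (x : ℕ)) * bb i) = _
        rw [Finset.sum_mul, Finset.mul_sum]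
        exact Finset.sum_congr rfl fun l _ => by ring
      have h2 := congrArg Subtype.val (Fintype.linearIndependent_iff.mp bb.linearIndependent _ h1 il.1)
      have h3 : p il.1 = 0 := by
        by_contra hp
        -- `f` is transcendental, having a pole
        have halg : IsAlgebraic k f := ⟨p il.1, hp, h2⟩
        obtain ⟨a', ha'⟩ := (IsAlgClosed.algebraMap_bijective_of_isIntegral
          (k := k) (K := integralClosure k C.functionField)).2 ⟨f, halg.isIntegral⟩
        have : f = kHom c a' := by rw [← hk]; exact (congrArg Subtype.val ha').symm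
        rw [this] at hf
        exact absurd hf (plc_kHom_le c _ _).not_gt
      have h4 := congrArg (fun q => Polynomial.coeff q (il.2 : ℕ)) h3
      simpa [p, Polynomial.finsetSum_coeff, Polynomial.coeff_C_mul, Polynomial.coeff_X_pow,
        Fin.val_inj] using h4
    have hmem : Submodule.span k (Set.range v) ≤ bnd c hk D := by
      rw [Submodule.span_le]
      rintro _ ⟨il, rfl⟩
      refine (mem_bnd c hk).mpr fun z => ?_
      simp only [v, D]
      rw [map_mul, map_pow]
      split
      · next hz =>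
        refine (mul_le_mul' (le_of_eq (congrArg (· ^ _) (he z hz).1)) (hM' z hz il.1)).trans ?_
        rw [← exp_nsmul, ← exp_add, exp_le_exp]
        have h5 : (il.2 : ℕ) * e z + m₀ * e z ≤ (m + m₀) * e z := by
          rw [← add_mul]; exact Nat.mul_le_mul_right _ (by omega)
        rw [nsmul_eq_mul]
        exact_mod_cast h5
      · next hz =>
        rw [exp_zero]
        exact (mul_le_mul' (pow_le_one' (not_lt.mp fun h => hz ((hP z).mpr h)) _)
          (hreg _ z hz)).trans_eq (one_mul _)
    obtain ⟨W, hW, hle⟩ := bnd_drop c hk D (Pi.single x₀ (((m + m₀) * e x₀ : ℕ) : ℤ)) (P.erase x₀)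
      (fun x => (m + m₀) * e x) fun x => by
        rcases eq_or_ne x x₀ with rfl | hx
        · simp [D, hx₀]
        · by_cases h : x ∈ P <;> simp [D, h, hx]
    haveI := bnd_finite c hk (Pi.single x₀ (((m + m₀) * e x₀ : ℕ) : ℤ)) {x₀} fun x hx => by
      simp [Finset.notMem_singleton.mp hx]
    have h6 := Submodule.finrank_mono (hmem.trans hle)
    rw [finrank_span_eq_card hv, Fintype.card_prod, Fintype.card_fin, Fintype.card_fin] at h6
    refine h6.trans ((Submodule.finrank_add_le_finrank_add_finrank _ _).trans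
      (Nat.add_le_add_left ((finrank_span_finset_le_card W).trans ?_) _))
    rw [Finset.mul_sum]
    exact hW
  have he0 := (he x₀ hx₀).2
  refine ⟨(m₀ + 1) * r + (m₀ + 1) * e x₀, fun n => ?_⟩
  rcases lt_or_ge (n / e x₀) m₀ with h | h
  · have h1 : n ≤ (n / e x₀ + 1) * e x₀ := by
      rw [Nat.add_mul, one_mul]
      have := Nat.div_add_mod n (e x₀)
      have := Nat.mod_lt n he0
      rw [mul_comm]; omega
    have h2 := Nat.mul_le_mul_right (e x₀) (show n / e x₀ + 1 ≤ m₀ + 1 by omega)
    omega
  obtain ⟨m, hm⟩ : ∃ m, n / e x₀ = m + m₀ := ⟨n / e x₀ - m₀, by omega⟩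
  have hk' := key m
  rw [← Finset.add_sum_erase P e hx₀] at hdeg
  haveI := bnd_finite c hk (Pi.single x₀ (n : ℤ)) {x₀} fun x hx => by
    simp [Finset.notMem_singleton.mp hx]
  have hn1 := Nat.div_add_mod n (e x₀)
  have hn2 := Nat.mod_lt n he0
  rw [hm, mul_comm] at hn1
  have hmono : Module.finrank k (bnd c hk (Pi.single x₀ (((m + m₀) * e x₀ : ℕ) : ℤ) : Pl C → ℤ)) ≤
      Module.finrank k (bnd c hk (Pi.single x₀ (n : ℤ) : Pl C → ℤ)) := by
    refine Submodule.finrank_mono fun a ha => (mem_bnd c hk).mpr fun x => ?_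
    refine ((mem_bnd c hk).mp ha x).trans ?_
    rw [exp_le_exp]
    rcases eq_or_ne x x₀ with rfl | hx
    · rw [Pi.single_eq_same, Pi.single_eq_same]; exact_mod_cast (by omega)
    · rw [Pi.single_eq_of_ne hx, Pi.single_eq_of_ne hx]
  have h7 : (m + m₀) * e x₀ + (m + m₀) * ∑ x ∈ P.erase x₀, e x ≤ (m + m₀) * r := by
    rw [← mul_add]; exact Nat.mul_le_mul_left _ hdeg
  have h8 : (m + m₀) * r = r * m + m₀ * r := by ring
  have h9 : r * (m + 1) = r * m + r := by ring
  have h10 : (m₀ + 1) * r = m₀ * r + r := by ring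
  have h11 : (m₀ + 1) * e x₀ = m₀ * e x₀ + e x₀ := by ring
  omega

end Alg

end FLTAgent.RelPic

end
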