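import Fermat.Agent.RelPic.CurveAffine
import Fermat.Agent.RelPic.CellAlg

/-!
Area S25, parcel C: expansion at a rational point in a uniformiser, and the data of the big cell
attached to the complement of the point.
-/

set_option autoImplicit false
set_option linter.unusedSectionVars false

noncomputable section

universe u

open CategoryTheory CategoryTheory.Limits AlgebraicGeometry TopologicalSpace ModularCurve
open FLTAgent.AV WithZero

namespace FLTAgent.RelPic

section Series

variable {k R : Type u} [Field k] [CommRing R] [IsDomain R] [Algebra k R] {t : R} (ht : t ≠ 0)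
  {ρ : R →+* k} (hρ : ∀ a, ρ (algebraMap k R a) = a) (hker : ∀ r, ρ r = 0 ↔ t ∣ r)

include hρ hker in
theorem dvd_sub_const (r : R) : t ∣ r - algebraMap k R (ρ r) :=
  (hker _).mp (by rw [map_sub, hρ, sub_self])

/-- the successive remainders -/
def remR (t : R) (ρ : R →+* k) (h : ∀ r : R, t ∣ r - algebraMap k R (ρ r)) (r : R) : ℕ → R
  | 0 => r
  | n + 1 => (h (remR t ρ h r n)).choose

include hρ hker in
/-- the Taylor series -/
def taylorFun (r : R) : PowerSeries k :=
  PowerSeries.mk fun n => ρ (remR t ρ (dvd_sub_const hρ hker) r n)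

include hρ hker in
theorem taylorFun_spec (r : R) (n : ℕ) :
    r = Polynomial.aeval t ((taylorFun hρ hker r).trunc n) +
      t ^ n * remR t ρ (dvd_sub_const hρ hker) r n := by
  induction n with
  | zero => simp [remR]
  | succ n ih =>
    have h : remR t ρ (dvd_sub_const hρ hker) r n -
        algebraMap k R (ρ (remR t ρ (dvd_sub_const hρ hker) r n)) =
          t * remR t ρ (dvd_sub_const hρ hker) r (n + 1) :=
      (dvd_sub_const hρ hker (remR t ρ (dvd_sub_const hρ hker) r n)).choose_spec
    rw [sub_eq_iff_eq_add] at h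
    conv_lhs => rw [ih, h]
    rw [PowerSeries.trunc_succ, map_add, Polynomial.aeval_monomial, taylorFun, PowerSeries.coeff_mk]
    ring

include hρ hker ht in
theorem coeff_eq_zero_of_dvd (p : Polynomial k) (n : ℕ) (h : t ^ n ∣ Polynomial.aeval t p) :
    ∀ j < n, p.coeff j = 0 := by
  induction n generalizing p with
  | zero => intro j hj; omega
  | succ n ih =>
    obtain ⟨w, hw⟩ := h
    rw [← Polynomial.X_mul_divX_add p, map_add, map_mul, Polynomial.aeval_X, Polynomial.aeval_C] at hw
    have h0 : p.coeff 0 = 0 := by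
      rw [← hρ (p.coeff 0), hker]
      exact ⟨t ^ n * w - Polynomial.aeval t p.divX, by linear_combination hw⟩
    rw [h0, map_zero, add_zero, pow_succ', mul_assoc] at hw
    have h1 := ih p.divX ⟨w, mul_left_cancel₀ ht hw⟩
    intro j hj
    rcases j with _ | j
    · exact h0
    · rw [← Polynomial.coeff_divX]; exact h1 j (by omega)

include hρ hker ht in
theorem taylorFun_eq (r : R) (f : PowerSeries k)
    (h : ∀ n, t ^ n ∣ r - Polynomial.aeval t (f.trunc n)) : taylorFun hρ hker r = f := by
  ext j
  have h1 : t ^ (j + 1) ∣ Polynomial.aeval t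
      ((taylorFun hρ hker r).trunc (j + 1) - f.trunc (j + 1)) := by
    rw [map_sub]
    have h2 := taylorFun_spec hρ hker r (j + 1)
    obtain ⟨w, hw⟩ := h (j + 1)
    exact ⟨w - remR t ρ (dvd_sub_const hρ hker) r (j + 1), by linear_combination hw - h2⟩
  have := coeff_eq_zero_of_dvd ht hρ hker _ _ h1 j (by omega)
  rw [Polynomial.coeff_sub, sub_eq_zero, PowerSeries.coeff_trunc, PowerSeries.coeff_trunc,
    if_pos (by omega), if_pos (by omega)] at this
  exact this

include hρ hker ht in
/-- the Taylor series as a map of algebras -/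
def taylor : R →ₐ[k] PowerSeries k where
  toFun := taylorFun hρ hker
  map_one' := taylorFun_eq ht hρ hker _ _ fun n => by
    rcases n with _ | n
    · simp
    · simp [PowerSeries.trunc_one]
  map_mul' r s := by
    refine taylorFun_eq ht hρ hker _ _ fun n => ?_
    set P := (taylorFun hρ hker r).trunc n
    set Q := (taylorFun hρ hker s).trunc n
    have h1 : t ^ n ∣ Polynomial.aeval t
        (P * Q - (taylorFun hρ hker r * taylorFun hρ hker s).trunc n) := by
      have h3 : (Polynomial.X : Polynomial k) ^ n ∣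
          P * Q - (taylorFun hρ hker r * taylorFun hρ hker s).trunc n := by
        refine Polynomial.X_pow_dvd_iff.mpr fun d hd => ?_
        rw [Polynomial.coeff_sub, sub_eq_zero, PowerSeries.coeff_trunc, if_pos hd, PowerSeries.coeff_mul,
          Polynomial.coeff_mul]
        refine Finset.sum_congr rfl fun ij hij => ?_
        have h' := Finset.HasAntidiagonal.mem_antidiagonal.mp hij
        rw [PowerSeries.coeff_trunc, PowerSeries.coeff_trunc, if_pos (by omega), if_pos (by omega)]
      have h4 := map_dvd (Polynomial.aeval t) h3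
      rwa [map_pow, Polynomial.aeval_X] at h4
    obtain ⟨w, hw⟩ := h1
    have hr : r = Polynomial.aeval t P + t ^ n * _ := taylorFun_spec hρ hker r n
    have hs : s = Polynomial.aeval t Q + t ^ n * _ := taylorFun_spec hρ hker s n
    rw [map_sub, map_mul, sub_eq_iff_eq_add] at hw
    refine ⟨w + Polynomial.aeval t P * remR t ρ (dvd_sub_const hρ hker) s n +
      remR t ρ (dvd_sub_const hρ hker) r n * s, ?_⟩
    linear_combination hw + Polynomial.aeval t P * hs + s * hr
  map_zero' := taylorFun_eq ht hρ hker _ _ fun n => by simp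
  map_add' r s := taylorFun_eq ht hρ hker _ _ fun n => by
    rw [map_add, map_add]
    exact ⟨remR t ρ (dvd_sub_const hρ hker) r n + remR t ρ (dvd_sub_const hρ hker) s n, by
      linear_combination taylorFun_spec hρ hker r n + taylorFun_spec hρ hker s n⟩
  commutes' a := taylorFun_eq ht hρ hker _ _ fun n => by
    rcases n with _ | n
    · simp
    · simp [PowerSeries.algebraMap_eq, PowerSeries.trunc_C]

theorem constantCoeff_taylor (r : R) :
    PowerSeries.constantCoeff (taylor ht hρ hker r) = ρ r := by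
  rw [← PowerSeries.coeff_zero_eq_constantCoeff_apply]
  exact PowerSeries.coeff_mk (R := k) 0 (fun n => ρ (remR t ρ (dvd_sub_const hρ hker) r n))

theorem taylor_unif : taylor ht hρ hker t = (PowerSeries.X : PowerSeries k) :=
  taylorFun_eq (R := R) (t := t) ht hρ hker t PowerSeries.X fun n => by
    rcases n with _ | _ | n
    · simp
    · rw [show (PowerSeries.X : PowerSeries k).trunc (0 + 1) = 0 from Polynomial.ext fun i => by
        rw [PowerSeries.coeff_trunc, Polynomial.coeff_zero]
        split
        · next h => rw [PowerSeries.coeff_X, if_neg (by omega)]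
        · rfl, map_zero, sub_zero, zero_add, pow_one]
    · rw [show (PowerSeries.X : PowerSeries k).trunc (n + 2) = Polynomial.X from PowerSeries.trunc_X n,
        Polynomial.aeval_X, sub_self]
      exact dvd_zero _

end Series

variable {k : Type u} [Field k] [IsAlgClosed k] {C : Scheme.{u}} [IsIntegral C]
  (c : C ⟶ Spec (CommRingCat.of k)) [IsProper c] [SmoothOfRelativeDimension 1 c]

/-- a uniformiser with the residue map -/
structure Param (x₀ : Pl C) where
  t : C.functionField
  pv_t : pv c x₀ t = exp (-1 : ℤ)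

theorem nonempty_param (x₀ : Pl C) : Nonempty (Param c x₀) := by
  obtain ⟨t, ht⟩ := exists_unif c x₀.2
  exact ⟨⟨t, ht⟩⟩

/-- existence of the expansion in a parameter -/
theorem exists_expansion {x₀ : Pl C} (P : Param c x₀) :
    ∃ e : C.functionField →+* LaurentSeries k, (∀ a, e (kHom c a) = HahnSeries.single 0 a) ∧
      e P.t = HahnSeries.single 1 1 ∧
      ∀ a, pv c x₀ a ≤ 1 → ∀ l < 0, (e a).coeff l = 0 := by
  have := isDVR_stalk c x₀.2
  let R := C.presheaf.stalk x₀.1
  let : Algebra k R := (stalkStr c x₀.1).hom.toAlgebra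
  obtain ⟨ρ', hρl, hρ'⟩ := exists_residue (f := c) x₀.2
  obtain ⟨t, htK⟩ := (plc_le_one_iff c x₀.2).mp
    (P.pv_t.le.trans (by rw [← exp_zero, exp_le_exp]; omega))
  have hρ : ∀ a, ρ'.hom (algebraMap k R a) = a := fun a => congr($hρ' a)
  have ht : t ≠ 0 := fun h => by
    have := P.pv_t
    rw [← htK, h, (sAlg x₀.1).map_zero, map_zero] at this
    exact exp_ne_zero this.symm
  have hker : ∀ r : R, ρ'.hom r = 0 ↔ t ∣ r := fun r => by
    refine ⟨fun h => ?_, ?_⟩
    · have hr : r ∈ IsLocalRing.maximalIdeal R :=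
        (IsLocalRing.mem_maximalIdeal _).mpr fun hu => (hu.map ρ'.hom).ne_zero h
      have hlt : pv c x₀ (sAlg x₀.1 r) < 1 :=
        (IsDedekindDomain.HeightOneSpectrum.valuation_lt_one_iff_mem _ _).mpr hr
      have h2 : pv c x₀ (sAlg x₀.1 r / P.t) ≤ 1 := by
        rw [map_div₀, P.pv_t, div_le_one₀ (zero_lt_iff.mpr exp_ne_zero)]
        exact lt_one_iff_le_exp.mp hlt
      obtain ⟨q, hq⟩ := (plc_le_one_iff c x₀.2).mp h2
      refine ⟨q, sAlg_injective x₀.1 ?_⟩
      have ht0 : P.t ≠ 0 := fun h => exp_ne_zero (P.pv_t.symm.trans (by rw [h, map_zero]))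
      rw [(sAlg x₀.1).map_mul, htK, hq, mul_div_cancel₀ _ ht0]
    · rintro ⟨q, rfl⟩
      have hlt : pv c x₀ (sAlg x₀.1 t) < 1 := by
        rw [htK, P.pv_t, ← exp_zero, exp_lt_exp]; omega
      have hm := (IsDedekindDomain.HeightOneSpectrum.valuation_lt_one_iff_mem _ _).mp hlt
      rw [map_mul]
      refine mul_eq_zero_of_left ?_ _
      by_contra h
      exact (IsLocalRing.mem_maximalIdeal t).mp hm ((Ne.isUnit h).of_map ρ'.hom)
  let ψ := taylor ht hρ hker
  have hψinj : Function.Injective ψ := by
    rw [injective_iff_map_eq_zero]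
    intro r hr
    by_contra hr0
    have hne : pv c x₀ (sAlg x₀.1 r) ≠ 0 := (Valuation.ne_zero_iff _).mpr fun h =>
      hr0 (sAlg_injective x₀.1 (h.trans (map_zero (sAlg x₀.1)).symm))
    obtain ⟨N, hN⟩ : ∃ N : ℕ, exp (-(N : ℤ)) < pv c x₀ (sAlg x₀.1 r) := by
      refine ⟨(log (pv c x₀ (sAlg x₀.1 r))).natAbs + 1, ?_⟩
      nth_rw 2 [← exp_log hne]
      rw [exp_lt_exp]
      omega
    have h := taylorFun_spec hρ hker r N
    rw [show taylorFun hρ hker r = 0 from hr, map_zero, map_zero, zero_add] at h
    refine hN.not_ge ?_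
    rw [h, (sAlg x₀.1).map_mul, (sAlg x₀.1).map_pow, htK, map_mul, map_pow, P.pv_t, ← exp_nsmul]
    refine (mul_le_mul' le_rfl ((plc_le_one_iff c x₀.2).mpr ⟨_, rfl⟩)).trans ?_
    rw [mul_one, exp_le_exp]
    simp
  let g : R →+* LaurentSeries k := (HahnSeries.ofPowerSeries ℤ k).comp ψ.toRingHom
  have hginj : Function.Injective g := HahnSeries.ofPowerSeries_injective.comp hψinj
  let e : C.functionField →+* LaurentSeries k := IsFractionRing.lift hginj
  have he : ∀ r : R, e (sAlg x₀.1 r) = g r := IsFractionRing.lift_algebraMap hginj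
  refine ⟨e, fun a => ?_, ?_, fun a ha l hl => ?_⟩
  · rw [← sAlg_stalkStr c x₀.1 a, he]
    show HahnSeries.ofPowerSeries ℤ k (ψ (algebraMap k R a)) = _
    rw [ψ.commutes, PowerSeries.algebraMap_eq, HahnSeries.ofPowerSeries_C]
    rfl
  · rw [← htK, he]
    show HahnSeries.ofPowerSeries ℤ k (ψ t) = _
    rw [taylor_unif, HahnSeries.ofPowerSeries_X]
  · obtain ⟨r, rfl⟩ := (plc_le_one_iff c x₀.2).mp ha
    rw [he]
    show (HahnSeries.ofPowerSeries ℤ k (ψ r)).coeff l = 0
    rw [HahnSeries.ofPowerSeries_apply, HahnSeries.embDomain_of_notMem_range]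
    rintro ⟨n, hn⟩
    have : (0 : ℤ) ≤ l := by rw [← hn]; exact Int.natCast_nonneg n
    omega

/-- the expansion at the point in the parameter -/
def expand {x₀ : Pl C} (P : Param c x₀) : C.functionField →+* LaurentSeries k :=
  (exists_expansion c P).choose

variable {x₀ : Pl C} (P : Param c x₀)

theorem expand_kHom (a : k) : expand c P (kHom c a) = HahnSeries.single 0 a :=
  (exists_expansion c P).choose_spec.1 a

theorem expand_t : expand c P P.t = HahnSeries.single 1 1 :=
  (exists_expansion c P).choose_spec.2.1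

theorem expand_t_zpow (n : ℤ) : expand c P (P.t ^ n) = HahnSeries.single n 1 := by
  rw [map_zpow₀, expand_t]
  induction n using Int.induction_on with
  | zero => simp
  | succ i ih => rw [zpow_add_one₀ (HahnSeries.single_ne_zero one_ne_zero), ih,
      HahnSeries.single_mul_single, mul_one]
  | pred i ih =>
    have h : (HahnSeries.single (1 : ℤ) (1 : k))⁻¹ = HahnSeries.single (-1 : ℤ) 1 :=
      inv_eq_of_mul_eq_one_left (by rw [HahnSeries.single_mul_single, mul_one]; rfl)
    rw [zpow_sub_one₀ (HahnSeries.single_ne_zero one_ne_zero), ih, h,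
      HahnSeries.single_mul_single, mul_one]
    rfl

theorem coeff_mul_single (x : LaurentSeries k) (n l : ℤ) :
    (x * HahnSeries.single n 1).coeff l = x.coeff (l - n) := by
  conv_lhs => rw [show l = (l - n) + n by ring]
  rw [HahnSeries.coeff_mul_single_add, mul_one]

/-- no coefficient below the order -/
theorem expand_coeff_eq_zero {a : C.functionField} {n : ℤ} (ha : pv c x₀ a ≤ exp n) {l : ℤ}
    (hl : l < -n) : (expand c P a).coeff l = 0 := by
  have h1 : pv c x₀ (a * P.t ^ n) ≤ 1 := by
    rw [map_mul, map_zpow₀, P.pv_t, ← exp_zsmul]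
    refine (mul_le_mul' ha le_rfl).trans ?_
    rw [← exp_add, ← exp_zero, exp_le_exp]
    simp
  have h2 := (exists_expansion c P).choose_spec.2.2 _ h1 (l + n) (by omega)
  change (expand c P (a * P.t ^ n)).coeff (l + n) = 0 at h2
  rwa [map_mul, expand_t_zpow, coeff_mul_single, add_sub_cancel_right] at h2

/-- the leading coefficient is at the order -/
theorem expand_coeff_ne_zero {a : C.functionField} {n : ℤ} (ha : pv c x₀ a = exp n) :
    (expand c P a).coeff (-n) ≠ 0 := by
  have h1 : pv c x₀ (a * P.t ^ n) = 1 := by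
    rw [map_mul, map_zpow₀, P.pv_t, ha, ← exp_zsmul, ← exp_add, ← exp_zero]
    congr 1
    simp
  obtain ⟨a₀, ha₀⟩ := exists_const c x₀.2 h1.le
  have ha₀0 : a₀ ≠ 0 := fun h => by
    rw [h, map_zero, sub_zero] at ha₀
    exact ha₀.ne h1
  have h2 := expand_coeff_eq_zero c P (lt_one_iff_le_exp.mp ha₀) (l := 0) (by omega)
  rw [map_sub, expand_kHom, HahnSeries.coeff_sub, HahnSeries.coeff_single_same, sub_eq_zero,
    map_mul, expand_t_zpow, coeff_mul_single, zero_sub] at h2
  rwa [h2]

theorem pv_le_of_coeff {a : C.functionField} {n : ℤ}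
    (h : ∀ l < -n, (expand c P a).coeff l = 0) : pv c x₀ a ≤ exp n := by
  rcases eq_or_ne (pv c x₀ a) 0 with h0 | h0
  · rw [h0]; exact zero_le
  · rw [← exp_log h0, exp_le_exp]
    by_contra hcon
    exact expand_coeff_ne_zero c P (exp_log h0).symm (h _ (by omega))

/-- functions with a pole at the point only -/
def polarRing (x₀ : Pl C) : Subring C.functionField where
  carrier := {a | ∀ x, x ≠ x₀ → pv c x a ≤ 1}
  mul_mem' {a b} ha hb x hx := by
    rw [map_mul]; exact (mul_le_mul' (ha x hx) (hb x hx)).trans_eq (one_mul _)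
  one_mem' x _ := (pv c x).map_one.le
  add_mem' {a b} ha hb x hx := ((pv c x).map_add a b).trans (max_le (ha x hx) (hb x hx))
  zero_mem' x _ := by rw [map_zero]; exact zero_le
  neg_mem' {a} ha x hx := by rw [Valuation.map_neg]; exact ha x hx

theorem kHom_mem_polarRing (a : k) : kHom c a ∈ polarRing c x₀ := fun _ _ => plc_kHom_le c _ a

/-- the expansions of the functions on the complement of the point -/
def polarExp : Subalgebra k (LaurentSeries k) where
  carrier := expand c P '' (polarRing c x₀ : Set C.functionField)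
  mul_mem' := by rintro _ _ ⟨a, ha, rfl⟩ ⟨b, hb, rfl⟩; exact ⟨a * b, mul_mem ha hb, map_mul _ _ _⟩
  one_mem' := ⟨1, one_mem _, map_one _⟩
  add_mem' := by rintro _ _ ⟨a, ha, rfl⟩ ⟨b, hb, rfl⟩; exact ⟨a + b, add_mem ha hb, map_add _ _ _⟩
  zero_mem' := ⟨0, zero_mem _, map_zero _⟩
  algebraMap_mem' a := ⟨kHom c a, kHom_mem_polarRing c a,
    (expand_kHom c P a).trans (algebraMap_laurentSeries_eq_single k a).symm⟩

theorem zero_notMem_gaps : 0 ∉ gaps c x₀ := fun h =>
  h ⟨1, fun x _ => (pv c x).map_one.le, by rw [map_one, Nat.cast_zero, exp_zero]⟩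

theorem cell_indep {x : LaurentSeries k} (hx : x ∈ polarExp c P)
    (h : ∀ n : ℕ, n ∉ (finite_gaps c x₀).toFinset → x.coeff (-(n : ℤ)) = 0) : x = 0 := by
  obtain ⟨a, ha, rfl⟩ := hx
  rcases eq_or_ne (pv c x₀ a) 0 with h0 | h0
  · rw [(Valuation.zero_iff _).mp h0, map_zero]
  rcases le_or_gt 0 (log (pv c x₀ a)) with hlog | hlog
  · obtain ⟨m, hm⟩ := Int.eq_ofNat_of_zero_le hlog
    have hpv : pv c x₀ a = exp (m : ℤ) := by rw [← exp_log h0, hm]
    refine absurd (h m ?_) (expand_coeff_ne_zero c P hpv)
    rw [Set.Finite.mem_toFinset]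
    exact fun hg => hg ⟨a, ha, hpv⟩
  · let := fieldAlg c
    have hlt : pv c x₀ a < 1 := by rw [← exp_log h0, ← exp_zero, exp_lt_exp]; exact hlog
    obtain ⟨a₀, rfl⟩ := exists_eq_const c (fun _ => rfl) (a := a) fun y => by
      rcases eq_or_ne y x₀ with rfl | hy
      · exact hlt.le
      · exact ha y hy
    rcases eq_or_ne a₀ 0 with rfl | ha₀
    · rw [map_zero, map_zero]
    · change pv c x₀ (kHom c a₀) < 1 at hlt
      rw [plc_kHom c x₀.2 ha₀] at hlt
      exact absurd hlt (lt_irrefl _)

theorem cell_exists_pol (n : ℕ) (hn : n ∉ (finite_gaps c x₀).toFinset) :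
    ∃ x ∈ polarExp c P, (∀ l : ℤ, l < -(n : ℤ) → x.coeff l = 0) ∧
      ∀ m : ℕ, m ∉ (finite_gaps c x₀).toFinset → x.coeff (-(m : ℤ)) = if m = n then 1 else 0 := by
  classical
  induction n using Nat.strong_induction_on with
  | _ n ih =>
    rw [Set.Finite.mem_toFinset] at hn
    simp only [gaps, Set.mem_ofPred_eq, not_not] at hn
    obtain ⟨a, ha, han⟩ := hn
    let b := kHom c ((expand c P a).coeff (-(n : ℤ)))⁻¹ * a
    have hbmem : expand c P b ∈ polarExp c P := ⟨b, mul_mem (kHom_mem_polarRing c _) ha, rfl⟩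
    have hbcoeff : ∀ l, (expand c P b).coeff l =
        ((expand c P a).coeff (-(n : ℤ)))⁻¹ * (expand c P a).coeff l := fun l => by
      rw [map_mul, expand_kHom, HahnSeries.coeff_single_zero_mul]
    choose an han1 han2 han3 using fun j : {j // j ∈ (Finset.range n).filter
        fun j => j ∉ (finite_gaps c x₀).toFinset} =>
      ih j.1 (Finset.mem_range.mp (Finset.mem_filter.mp j.2).1) (Finset.mem_filter.mp j.2).2
    refine ⟨expand c P b - ∑ j, HahnSeries.single 0 ((expand c P b).coeff (-(j.1 : ℤ))) * an j,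
      sub_mem hbmem (sum_mem fun j _ => mul_mem (⟨_, kHom_mem_polarRing c _, expand_kHom c P _⟩ :
        HahnSeries.single 0 _ ∈ polarExp c P) (han1 j)), fun l hl => ?_, fun m hm => ?_⟩
    · rw [HahnSeries.coeff_sub, HahnSeries.coeff_sum, hbcoeff,
        expand_coeff_eq_zero c P han.le hl, mul_zero, zero_sub, neg_eq_zero]
      refine Finset.sum_eq_zero fun j _ => ?_
      rw [HahnSeries.coeff_single_zero_mul, han2 j l (by
        have := Finset.mem_range.mp (Finset.mem_filter.mp j.2).1
        omega), mul_zero]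
    · rw [HahnSeries.coeff_sub, HahnSeries.coeff_sum]
      simp only [HahnSeries.coeff_single_zero_mul, han3 _ m hm, mul_ite, mul_one, mul_zero]
      by_cases hmn : m < n
      · rw [Finset.sum_eq_single (⟨m, Finset.mem_filter.mpr ⟨Finset.mem_range.mpr hmn, hm⟩⟩ :
            {j // j ∈ (Finset.range n).filter fun j => j ∉ (finite_gaps c x₀).toFinset})
          (fun j _ hj => if_neg fun e => hj (Subtype.ext e.symm))
          (fun h => absurd (Finset.mem_univ _) h), if_pos rfl, sub_self, if_neg hmn.ne]
      · rw [Finset.sum_eq_zero fun j _ => if_neg fun e => by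
          have := Finset.mem_range.mp (Finset.mem_filter.mp j.2).1
          omega, sub_zero, hbcoeff]
        rcases eq_or_ne m n with rfl | hne
        · rw [if_pos rfl, inv_mul_cancel₀ (expand_coeff_ne_zero c P han)]
        · rw [if_neg hne, expand_coeff_eq_zero c P han.le (l := -(m : ℤ)) (by omega), mul_zero]

/-- the data of the big cell -/
def cellData : CellData k where
  A := polarExp c P
  G := (finite_gaps c x₀).toFinset
  indep _ hx h := cell_indep c P hx h
  exists_pol n hn := by
    obtain ⟨x, hx, -, h⟩ := cell_exists_pol c P n hn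
    exact ⟨x, hx, h⟩

end FLTAgent.RelPic

end
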