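import Fermat.Agent.AV.Growth

/-!
Area S25, parcel C: local rings of a smooth proper curve over an algebraically closed field. Closed
points are places, everything else is the generic point, and there is weak approximation at finitely
many places.
-/

set_option autoImplicit false
set_option linter.unusedSectionVars false

noncomputable section

universe u

open CategoryTheory CategoryTheory.Limits AlgebraicGeometry TopologicalSpace
open FLTAgent.AV WithZero

namespace FLTAgent.RelPic

variable {k : Type u} [Field k] {C : Scheme.{u}} (c : C ⟶ Spec (CommRingCat.of k))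
  [SmoothOfRelativeDimension 1 c]

/-- local rings are formally étale over polynomials in one variable, centred at a rational point -/
lemma exists_coord_stalk [IsIntegral C] (x : C) (ρ : C.presheaf.stalk x →+* k)
    (hρc : ∀ a, ρ (stalkStr c x a) = a) :
    ∃ φ : MvPolynomial (Fin 1) k →+* C.presheaf.stalk x,
      (∀ a, φ (MvPolynomial.C a) = stalkStr c x a) ∧ ρ (φ (MvPolynomial.X 0)) = 0 ∧
      Function.Injective φ ∧
      (letI := φ.toAlgebra
       Algebra.FormallyUnramified (MvPolynomial (Fin 1) k) (C.presheaf.stalk x) ∧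
         Algebra.EssFiniteType (MvPolynomial (Fin 1) k) (C.presheaf.stalk x)) := by
  obtain ⟨U, hUa, V, hV, hx, e, hs⟩ :=
    SmoothOfRelativeDimension.exists_isStandardSmoothOfRelativeDimension (n := 1) (f := c) x
  obtain ⟨g, hgC, hg⟩ := hs.exists_etale_mvPolynomial
  have hU : U = ⊤ := by
    ext y
    have : y = c x := Subsingleton.elim (α := PrimeSpectrum k) y (c x)
    simp only [TopologicalSpace.Opens.coe_top, Set.mem_univ, iff_true]
    exact this ▸ e hx
  subst hU
  let ε : CommRingCat.of k ≅ Γ(Spec (CommRingCat.of k), ⊤) := (Scheme.ΓSpecIso _).symm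
  let φ₁ : MvPolynomial (Fin 1) k →+* Γ(C, V) := g.comp (MvPolynomial.map ε.hom.hom)
  let w : Fin 1 → k := fun i => ρ (C.presheaf.germ V x hx (φ₁ (MvPolynomial.X i)))
  let τ : MvPolynomial (Fin 1) k ≃ₐ[k] MvPolynomial (Fin 1) k :=
    AlgEquiv.ofAlgHom
      (MvPolynomial.aeval fun i => MvPolynomial.X i - MvPolynomial.C (w i))
      (MvPolynomial.aeval fun i => MvPolynomial.X i + MvPolynomial.C (w i))
      (MvPolynomial.algHom_ext fun i => by simp) (MvPolynomial.algHom_ext fun i => by simp)
  let φ₀ : MvPolynomial (Fin 1) k →+* Γ(C, V) := φ₁.comp τ.toAlgHom.toRingHom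
  let φ : MvPolynomial (Fin 1) k →+* C.presheaf.stalk x := (C.presheaf.germ V x hx).hom.comp φ₀
  have hC : ∀ a, φ (MvPolynomial.C a) = stalkStr c x a := by
    have h1 : ε.hom ≫ c.appLE ⊤ V e ≫ C.presheaf.germ V x hx = stalkStr c x := by
      refine Spec.map_injective ?_
      rw [specMap_stalkStr, Spec.map_comp, Spec.map_comp, Category.assoc]
      have h2 := (isAffineOpen_top (Spec (CommRingCat.of k))).SpecMap_appLE_fromSpec c hV e
      have h3 : C.fromSpecStalk x = Spec.map (C.presheaf.germ V x hx) ≫ hV.fromSpec :=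
        (hV.fromSpecStalk_eq_fromSpecStalk hx).symm
      rw [h3, Category.assoc, ← h2]
      simp [ε, IsAffineOpen.fromSpec_top]
    intro a
    show C.presheaf.germ V x hx (φ₁ (τ (MvPolynomial.C a))) = _
    rw [show τ (MvPolynomial.C a) = MvPolynomial.C a from τ.commutes a]
    simp only [φ₁, RingHom.coe_comp, Function.comp_apply, MvPolynomial.map_C]
    rw [show g (MvPolynomial.C (ε.hom.hom a)) = (c.appLE ⊤ V e).hom (ε.hom.hom a) from
      RingHom.congr_fun hgC _]
    exact congr($h1 a)
  have hφ₀ : φ₀.Etale := by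
    have h4 : (MvPolynomial.map (σ := Fin 1) ε.hom.hom).Etale :=
      RingHom.Etale.of_bijective ⟨MvPolynomial.map_injective _ ε.commRingCatIsoToRingEquiv.injective,
        MvPolynomial.map_surjective _ ε.commRingCatIsoToRingEquiv.surjective⟩
    exact RingHom.Etale.stableUnderComposition τ.toAlgHom.toRingHom φ₁
      (RingHom.Etale.of_bijective τ.bijective)
      (RingHom.Etale.stableUnderComposition _ g h4 hg)
  have : Nonempty V := ⟨⟨x, hx⟩⟩
  refine ⟨φ, hC, ?_, ?_, ?_⟩
  · have h1 : C.presheaf.germ V x hx (φ₁ (MvPolynomial.C (w 0))) = stalkStr c x (w 0) := by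
      have := hC (w 0)
      rwa [show φ (MvPolynomial.C (w 0)) = C.presheaf.germ V x hx (φ₁ (MvPolynomial.C (w 0))) from
        congrArg (fun t => C.presheaf.germ V x hx (φ₁ t)) (τ.commutes (w 0))] at this
    show ρ (C.presheaf.germ V x hx (φ₁ (τ (MvPolynomial.X 0)))) = 0
    simp only [τ, AlgEquiv.ofAlgHom_apply, MvPolynomial.aeval_X]
    rw [map_sub, map_sub, h1, map_sub, hρc, sub_self]
  · let := φ₀.toAlgebra
    have : Algebra.Etale (MvPolynomial (Fin 1) k) Γ(C, V) := hφ₀
    have : Module.Flat (MvPolynomial (Fin 1) k) Γ(C, V) := inferInstance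
    refine (germ_injective_of_isIntegral C x hx).comp ((injective_iff_map_eq_zero φ₀).mpr
      fun p hp => ?_)
    by_contra hp0
    refine one_ne_zero (α := Γ(C, V)) ?_
    refine Module.Flat.isSMulRegular_of_isRegular
      (IsRegular.of_ne_zero hp0 : IsRegular p) ?_
    show p • (1 : Γ(C, V)) = p • 0
    rw [Algebra.smul_def, mul_one, smul_zero]
    exact hp
  · let := φ.toAlgebra
    let := φ₀.toAlgebra
    have : Algebra.Etale (MvPolynomial (Fin 1) k) Γ(C, V) := hφ₀
    let := TopCat.Presheaf.algebra_section_stalk C.presheaf (⟨x, hx⟩ : V)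
    have : IsLocalization.AtPrime (C.presheaf.stalk x) (hV.primeIdealOf ⟨x, hx⟩).asIdeal :=
      hV.isLocalization_stalk ⟨x, hx⟩
    have : IsScalarTower (MvPolynomial (Fin 1) k) Γ(C, V) (C.presheaf.stalk x) :=
      .of_algebraMap_eq' rfl
    refine ⟨?_, ?_⟩
    · have : Algebra.FormallyUnramified Γ(C, V) (C.presheaf.stalk x) :=
        .of_isLocalization (hV.primeIdealOf ⟨x, hx⟩).asIdeal.primeCompl
      exact .comp (MvPolynomial (Fin 1) k) Γ(C, V) _
    · have : Algebra.EssFiniteType Γ(C, V) (C.presheaf.stalk x) :=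
        .of_isLocalization _ (hV.primeIdealOf ⟨x, hx⟩).asIdeal.primeCompl
      exact .comp (MvPolynomial (Fin 1) k) Γ(C, V) _

variable [IsAlgClosed k] [LocallyOfFiniteType c] [IsIntegral C]

include c in
/-- the local ring at a closed point of a smooth curve is a discrete valuation ring -/
theorem isDVR_stalk {x : C} (hx : IsClosed ({x} : Set C)) :
    IsDiscreteValuationRing (C.presheaf.stalk x) := by
  have : IsLocallyNoetherian C := LocallyOfFiniteType.isLocallyNoetherian c
  obtain ⟨ρ, hρl, hρ⟩ := exists_residue (f := c) hx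
  have hρc : ∀ a, ρ (stalkStr c x a) = a := fun a => congr($hρ a)
  obtain ⟨φ, hC, hX0, hinj, hE, hF⟩ := exists_coord_stalk c x ρ.hom hρc
  let R := C.presheaf.stalk x
  let := φ.toAlgebra
  let I : Ideal R := Ideal.span {φ (MvPolynomial.X 0)}
  have hXm : φ (MvPolynomial.X 0) ∈ IsLocalRing.maximalIdeal R :=
    (IsLocalRing.mem_maximalIdeal _).mpr fun hu => (hu.map ρ.hom).ne_zero hX0
  have hle : I ≤ IsLocalRing.maximalIdeal R :=
    (Ideal.span_singleton_le_iff_mem _).mpr hXm
  let algK : Algebra k (R ⧸ I) := ((Ideal.Quotient.mk I).comp (stalkStr c x).hom).toAlgebra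
  let algKP : Algebra (MvPolynomial (Fin 1) k) k := (MvPolynomial.constantCoeff).toAlgebra
  have : IsScalarTower (MvPolynomial (Fin 1) k) k (R ⧸ I) := by
    refine .of_algebraMap_eq' (MvPolynomial.ringHom_ext (fun a => ?_) fun i => ?_)
    · show Ideal.Quotient.mk I (φ (MvPolynomial.C a)) =
        Ideal.Quotient.mk I (stalkStr c x (MvPolynomial.constantCoeff (MvPolynomial.C a)))
      rw [MvPolynomial.constantCoeff_C, hC]
    · show Ideal.Quotient.mk I (φ (MvPolynomial.X i)) =
        Ideal.Quotient.mk I (stalkStr c x (MvPolynomial.constantCoeff (MvPolynomial.X i)))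
      rw [MvPolynomial.constantCoeff_X, map_zero, map_zero, Fin.eq_zero i]
      exact Ideal.Quotient.eq_zero_iff_mem.mpr (Ideal.subset_span rfl)
  have : Algebra.FormallyUnramified R (R ⧸ I) := .quotient I
  have : Algebra.FormallyUnramified (MvPolynomial (Fin 1) k) (R ⧸ I) :=
    .comp (MvPolynomial (Fin 1) k) R (R ⧸ I)
  have : Algebra.FormallyUnramified k (R ⧸ I) :=
    .of_restrictScalars (MvPolynomial (Fin 1) k) k (R ⧸ I)
  have : Algebra.EssFiniteType (MvPolynomial (Fin 1) k) (R ⧸ I) :=
    .comp (MvPolynomial (Fin 1) k) R (R ⧸ I)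
  have : Algebra.EssFiniteType k (R ⧸ I) :=
    .of_comp (MvPolynomial (Fin 1) k) k (R ⧸ I)
  have : Nontrivial (R ⧸ I) := Ideal.Quotient.nontrivial_iff.mpr
    (ne_top_of_le_ne_top (IsLocalRing.maximalIdeal.isMaximal R).ne_top hle)
  have : IsLocalRing (R ⧸ I) := .of_surjective' _ Ideal.Quotient.mk_surjective
  have hI : I = IsLocalRing.maximalIdeal R := IsLocalRing.eq_maximalIdeal
    (Ideal.Quotient.maximal_of_isField I
      (Algebra.FormallyUnramified.isField_of_isAlgClosed_of_isLocalRing k (R ⧸ I)))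
  have hnf : ¬ IsField R := fun hf => MvPolynomial.X_ne_zero (0 : Fin 1) <| hinj <| by
    rw [IsLocalRing.isField_iff_maximalIdeal_eq.mp hf, Ideal.mem_bot] at hXm
    rw [hXm, map_zero]
  have hp : (IsLocalRing.maximalIdeal R).IsPrincipal := ⟨⟨_, hI.symm⟩⟩
  exact ((IsDiscreteValuationRing.TFAE R hnf).out 0 4).mpr hp

variable [QuasiCompact c]

include c in
/-- a point is closed or generic -/
theorem closed_or_generic (x : C) : IsClosed ({x} : Set C) ∨ x = genericPoint C := by
  have : CompactSpace C := QuasiCompact.compactSpace_of_compactSpace c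
  obtain ⟨y, hy, hyc⟩ := (isClosed_closure (s := ({x} : Set C))).exists_closed_singleton
    ⟨x, subset_closure rfl⟩
  have hxy : x ⤳ y := specializes_iff_mem_closure.mpr hy
  have := isDVR_stalk c hyc
  let R := C.presheaf.stalk y
  let g := C.fromSpecStalk y
  obtain ⟨q, hq⟩ : x ∈ Set.range g := by rw [Scheme.range_fromSpecStalk]; exact hxy
  obtain ⟨q₀, hq₀⟩ : genericPoint C ∈ Set.range g := by
    rw [Scheme.range_fromSpecStalk]; exact specializes_genericPoint y
  rcases eq_or_ne (q.asIdeal : Ideal R) ⊥ with h | h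
  · right
    have hsp : q ⤳ q₀ := (PrimeSpectrum.le_iff_specializes q q₀).mp (by
      show q.asIdeal ≤ q₀.asIdeal
      exact h.le.trans bot_le)
    have := hsp.map g.continuous
    rw [hq, hq₀] at this
    exact (this.antisymm (specializes_genericPoint x)).eq
  · left
    have hm : (q.asIdeal : Ideal R) = IsLocalRing.maximalIdeal R :=
      IsLocalRing.eq_maximalIdeal (q.2.isMaximal h)
    have : q = IsLocalRing.closedPoint R := PrimeSpectrum.ext hm
    rw [this, Scheme.fromSpecStalk_closedPoint] at hq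
    exact hq ▸ hyc

/-- the place of a closed point -/
def plc {x : C} (hx : IsClosed ({x} : Set C)) : Valuation C.functionField ℤᵐ⁰ :=
  haveI := isDVR_stalk c hx
  (IsDiscreteValuationRing.maximalIdeal (C.presheaf.stalk x)).valuation C.functionField

variable {x : C} (hx : IsClosed ({x} : Set C))

omit [QuasiCompact c] in
theorem plc_le_one_iff {a : C.functionField} : plc c hx a ≤ 1 ↔ a ∈ stalkSub x := by
  have := isDVR_stalk c hx
  refine ⟨fun h => ?_, ?_⟩
  · exact IsDiscreteValuationRing.exists_lift_of_le_one h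
  · rintro ⟨r, rfl⟩
    exact IsDedekindDomain.HeightOneSpectrum.valuation_le_one _ r

omit [QuasiCompact c] in
theorem exists_unif : ∃ t : C.functionField, plc c hx t = exp (-1 : ℤ) := by
  have := isDVR_stalk c hx
  exact IsDedekindDomain.HeightOneSpectrum.valuation_exists_uniformizer C.functionField _

omit [QuasiCompact c] in
theorem plc_kHom {a : k} (ha : a ≠ 0) : plc c hx (kHom c a) = 1 := by
  refine le_antisymm ((plc_le_one_iff c hx).mpr (kHom_mem c x a)) ?_
  have h := (plc_le_one_iff c hx).mpr (kHom_mem c x a⁻¹)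
  rw [map_inv₀, map_inv₀] at h
  exact (inv_le_one₀ (zero_lt_iff.mpr ((Valuation.ne_zero_iff _).mpr
    ((_root_.map_ne_zero _).mpr ha)))).mp h

omit [QuasiCompact c] in
theorem plc_kHom_le (a : k) : plc c hx (kHom c a) ≤ 1 :=
  (plc_le_one_iff c hx).mpr (kHom_mem c x a)

omit [QuasiCompact c] in
/-- the residue field is the ground field -/
theorem exists_const {a : C.functionField} (ha : plc c hx a ≤ 1) :
    ∃ a₀ : k, plc c hx (a - kHom c a₀) < 1 := by
  have := isDVR_stalk c hx
  obtain ⟨r, rfl⟩ := (plc_le_one_iff c hx).mp ha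
  obtain ⟨ρ, hρl, hρ⟩ := exists_residue (f := c) hx
  refine ⟨ρ r, ?_⟩
  rw [← sAlg_stalkStr c x, ← map_sub]
  refine (IsDedekindDomain.HeightOneSpectrum.valuation_lt_one_iff_mem _ _).mpr ?_
  refine (IsLocalRing.mem_maximalIdeal _).mpr fun hu => (hu.map ρ.hom).ne_zero ?_
  rw [map_sub, sub_eq_zero]
  exact (congr($hρ (ρ r))).symm

variable [IsSeparated c]

include c in
/-- local rings at different closed points are incomparable -/
theorem eq_of_stalkSub_le {x y : C} (hx : IsClosed ({x} : Set C)) (hy : IsClosed ({y} : Set C))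
    (h : stalkSub y ≤ stalkSub x) : x = y := by
  have := isDVR_stalk c hx
  have := isDVR_stalk c hy
  choose f hf using fun r : C.presheaf.stalk y => h ⟨r, rfl⟩
  let σ : C.presheaf.stalk y ⟶ C.presheaf.stalk x := CommRingCat.ofHom
    { toFun := f
      map_one' := sAlg_injective x ((hf _).trans ((map_one (sAlg y)).trans (map_one (sAlg x)).symm))
      map_mul' := fun a b => sAlg_injective x ((hf _).trans ((map_mul (sAlg y) a b).trans
        ((congrArg₂ (· * ·) (hf a) (hf b)).symm.trans (map_mul (sAlg x) _ _).symm)))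
      map_zero' := sAlg_injective x ((hf _).trans ((map_zero (sAlg y)).trans (map_zero (sAlg x)).symm))
      map_add' := fun a b => sAlg_injective x ((hf _).trans ((map_add (sAlg y) a b).trans
        ((congrArg₂ (· + ·) (hf a) (hf b)).symm.trans (map_add (sAlg x) _ _).symm))) }
  have hσ : ∀ r, sAlg x (σ r) = sAlg y r := hf
  let gs : ∀ z : C, C.presheaf.stalk z ⟶ C.functionField := fun z =>
    C.presheaf.stalkSpecializes (specializes_genericPoint z)
  have hgen : ∀ z : C, Spec.map (gs z) ≫ C.fromSpecStalk z =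
      C.fromSpecStalk (genericPoint C) := fun z =>
    Scheme.SpecMap_stalkSpecializes_fromSpecStalk (specializes_genericPoint z)
  have e : σ ≫ gs x = gs y := CommRingCat.hom_ext (RingHom.ext hσ)
  have hstr : stalkStr c y ≫ σ = stalkStr c x := CommRingCat.hom_ext <| RingHom.ext fun a =>
    sAlg_injective x ((hσ _).trans ((sAlg_stalkStr c y a).trans (sAlg_stalkStr c x a).symm))
  let j : Spec C.functionField ⟶ Spec (C.presheaf.stalk x) := Spec.map (gs x)
  have : IsDominant j := ⟨(PrimeSpectrum.denseRange_comap_iff_ker_le_nilRadical _).mpr fun r hr => by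
    have h0 : sAlg x r = sAlg x 0 := (RingHom.mem_ker.mp hr).trans (map_zero (sAlg x)).symm
    rw [sAlg_injective x h0]
    exact zero_mem _⟩
  have key : C.fromSpecStalk x = Spec.map σ ≫ C.fromSpecStalk y := by
    refine ext_of_isDominant_of_isSeparated c ?_ j ?_
    · rw [Category.assoc, ← specMap_stalkStr, ← specMap_stalkStr, ← Spec.map_comp, hstr]
    · refine (hgen x).trans ((hgen y).symm.trans ?_)
      rw [← e, Spec.map_comp, Category.assoc]
  have hxy : x ⤳ y := by
    have hx' : x ∈ Set.range (C.fromSpecStalk y) := by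
      refine ⟨Spec.map σ (IsLocalRing.closedPoint (C.presheaf.stalk x)), ?_⟩
      refine Eq.trans ?_ (Scheme.fromSpecStalk_closedPoint (X := C) (x := x))
      rw [key]
      rfl
    rwa [Scheme.range_fromSpecStalk] at hx'
  exact ((hx.stableUnderSpecialization hxy (Set.mem_singleton x)) : y ∈ ({x} : Set C)).symm

/-- a function regular at a finite set of closed points, zero at one and nonzero at another -/
theorem exists_separating {S : Finset C} (hS : ∀ z ∈ S, IsClosed ({z} : Set C)) {x y : C}
    (hxS : x ∈ S) (hyS : y ∈ S) (hne : x ≠ y) :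
    ∃ b : C.functionField, plc c (hS x hxS) b = 1 ∧ plc c (hS y hyS) b < 1 ∧
      ∀ z (hz : z ∈ S), plc c (hS z hz) b ≤ 1 := by
  classical
  obtain ⟨a, ha, ha'⟩ : ∃ a ∈ stalkSub x, a ∉ stalkSub y := by
    by_contra hcon
    push Not at hcon
    exact hne (eq_of_stalkSub_le c (hS y hyS) (hS x hxS) hcon).symm
  -- avoid finitely many constants
  have hfin : ∀ z : S, ∃ a₀ : k, plc c (hS z.1 z.2) a ≤ 1 →
      plc c (hS z.1 z.2) (a - kHom c a₀) < 1 := fun z => by
    by_cases h : plc c (hS z.1 z.2) a ≤ 1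
    · obtain ⟨a₀, h₀⟩ := exists_const c _ h
      exact ⟨a₀, fun _ => h₀⟩
    · exact ⟨0, fun h' => absurd h' h⟩
  choose A₀ hA₀ using hfin
  obtain ⟨e, he⟩ := Infinite.exists_notMem_finset (Finset.univ.image A₀)
  have hreg : ∀ z (hz : z ∈ S), 1 ≤ plc c (hS z hz) (a - kHom c e) := by
    intro z hz
    by_contra hlt
    rw [not_le] at hlt
    have hle : plc c (hS z hz) a ≤ 1 := by
      have := (plc c (hS z hz)).map_add (a - kHom c e) (kHom c e)
      rw [sub_add_cancel] at this
      exact this.trans (max_le hlt.le (plc_kHom_le c _ e))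
    have h1 := hA₀ ⟨z, hz⟩ hle
    have h2 : plc c (hS z hz) (kHom c (A₀ ⟨z, hz⟩) - kHom c e) < 1 := by
      rw [show kHom c (A₀ ⟨z, hz⟩) - kHom c e = (a - kHom c e) - (a - kHom c (A₀ ⟨z, hz⟩)) by ring]
      exact lt_of_le_of_lt ((plc c (hS z hz)).map_sub _ _) (max_lt hlt h1)
    rw [← map_sub, plc_kHom] at h2
    · exact lt_irrefl _ h2
    · exact sub_ne_zero.mpr fun h => he (h ▸ Finset.mem_image_of_mem _ (Finset.mem_univ _))
  refine ⟨(a - kHom c e)⁻¹, ?_, ?_, fun z hz => ?_⟩
  · rw [map_inv₀, inv_eq_one]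
    exact le_antisymm ((plc_le_one_iff c _).mpr (sub_mem ha (kHom_mem c x e))) (hreg x hxS)
  · rw [map_inv₀]
    refine inv_lt_one_of_one_lt₀ ?_
    by_contra hle
    rw [not_lt, plc_le_one_iff] at hle
    exact ha' (by simpa using add_mem hle (kHom_mem c y e))
  · rw [map_inv₀]
    exact inv_le_one_of_one_le₀ (hreg z hz)

/-- weak approximation: a function with prescribed order at one place and small at the others -/
theorem exists_approx {S : Finset C} (hS : ∀ z ∈ S, IsClosed ({z} : Set C)) {x : C} (hxS : x ∈ S)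
    (j : ℤ) (N : ℤ) :
    ∃ b : C.functionField, plc c (hS x hxS) b = exp (-j) ∧
      ∀ z (hz : z ∈ S), z ≠ x → plc c (hS z hz) b ≤ exp (-N) := by
  classical
  choose h h1 h2 h3 using fun y : {y // y ∈ S.erase x} =>
    exists_separating c hS hxS (Finset.mem_of_mem_erase y.2) (Finset.ne_of_mem_erase y.2).symm
  let H : C.functionField := ∏ y, h y
  have hHx : plc c (hS x hxS) H = 1 := by
    rw [map_prod]; exact Finset.prod_eq_one fun y _ => h1 y
  have hHz : ∀ z (hz : z ∈ S), z ≠ x → plc c (hS z hz) H ≤ exp (-1 : ℤ) := by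
    intro z hz hzx
    let w : {y // y ∈ S.erase x} := ⟨z, Finset.mem_erase.mpr ⟨hzx, hz⟩⟩
    let v := plc c (hS z hz)
    have hlt : v (h w) < exp (0 : ℤ) := h2 w
    have hrest : ∏ y ∈ Finset.univ.erase w, v (h y) ≤ 1 :=
      Finset.prod_le_one (fun _ _ => zero_le) fun y _ => h3 y z hz
    have hw : v (h w) ≤ exp (-1 : ℤ) := by
      rcases eq_or_ne (v (h w)) 0 with h0 | h0
      · exact h0.le.trans zero_le
      · rw [← exp_log h0, exp_lt_exp] at hlt
        rw [← exp_log h0, exp_le_exp]
        omega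
    have hH : v H = v (h w) * ∏ y ∈ Finset.univ.erase w, v (h y) :=
      (map_prod v h Finset.univ).trans
        (Finset.mul_prod_erase Finset.univ (fun y => v (h y)) (Finset.mem_univ w)).symm
    exact hH.le.trans ((mul_le_mul' hw hrest).trans_eq (mul_one _))
  obtain ⟨t, ht⟩ := exists_unif c (hS x hxS)
  -- large enough powers absorb the behaviour of `t ^ j` elsewhere
  obtain ⟨B, hB⟩ : ∃ B : ℤ, ∀ z : S, plc c (hS z.1 z.2) (t ^ j) ≤ exp B :=
    ⟨∑ z : S, |log (plc c (hS z.1 z.2) (t ^ j))|, fun z => by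
      rcases eq_or_ne (plc c (hS z.1 z.2) (t ^ j)) 0 with h0 | h0
      · exact h0.le.trans zero_le
      · rw [← exp_log h0, exp_le_exp]
        exact (le_abs_self _).trans (Finset.single_le_sum
          (f := fun z : S => |log (plc c (hS z.1 z.2) (t ^ j))|) (fun _ _ => abs_nonneg _)
          (Finset.mem_univ z))⟩
  refine ⟨t ^ j * H ^ (B + N).toNat, ?_, fun z hz hzx => ?_⟩
  · rw [map_mul, map_pow, hHx, one_pow, mul_one, map_zpow₀, ht, ← exp_zsmul]
    simp
  · rw [map_mul, map_pow]
    refine (mul_le_mul' (hB ⟨z, hz⟩) (pow_le_pow_left₀ zero_le (hHz z hz hzx) _)).trans ?_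
    rw [← exp_nsmul, ← exp_add, exp_le_exp]
    have := Int.self_le_toNat (B + N)
    simp only [nsmul_eq_mul, mul_neg, mul_one]
    omega

end FLTAgent.RelPic

end
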