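import Fermat.Agent.RelPic.CurveExpand
import Fermat.Agent.RelPic.Chart

/-!
Area S25, parcel C: functions on opens of the curve through their expansions at the rational point.
-/

set_option autoImplicit false
set_option linter.unusedSectionVars false

noncomputable section

universe u

open CategoryTheory CategoryTheory.Limits AlgebraicGeometry TopologicalSpace ModularCurve
open NeronModelInfra
open FLTAgent.AV WithZero

namespace FLTAgent.RelPic

variable {k : Type u} [Field k] {C : Scheme.{u}} (c : C ⟶ Spec (CommRingCat.of k))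

/-- the functions on an open, over the ground field -/
def Sec (_c : C ⟶ Spec (CommRingCat.of k)) (O : C.Opens) : Type u := Γ(C, O)

instance (O : C.Opens) : CommRing (Sec c O) := inferInstanceAs (CommRing Γ(C, O))

instance (O : C.Opens) : Algebra k (Sec c O) := (strSec c O).hom.toAlgebra

theorem algebraMap_sec (O : C.Opens) (a : k) : algebraMap k (Sec c O) a = strSec c O a := rfl

/-- restriction of functions -/
def secRes {O O' : C.Opens} (h : O' ≤ O) : Sec c O →ₐ[k] Sec c O' where
  toRingHom := (C.presheaf.map (homOfLE h).op).hom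
  commutes' a := by
    show (strSec c O ≫ C.presheaf.map (homOfLE h).op) a = strSec c O' a
    exact congrArg (fun m => ((Scheme.ΓSpecIso (CommRingCat.of k)).inv ≫ m) a)
      (Scheme.Hom.appLE_map c (U := ⊤) (V := O) (V' := O') le_top (homOfLE h).op)

variable (ε : SchemeHomOver (𝟙 (Spec (CommRingCat.of k))) c)

theorem isClosed_x0 [IsSeparated c] : IsClosed ({x0 c ε} : Set C) := by
  have : IsClosedImmersion (ε.1 ≫ c) := by rw [ε.2]; infer_instance
  have : IsClosedImmersion ε.1 := IsClosedImmersion.of_comp ε.1 c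
  convert ε.1.isClosedEmbedding.isClosed_range
  ext y
  refine ⟨fun h => ⟨IsLocalRing.closedPoint k, h.symm⟩, ?_⟩
  rintro ⟨z, rfl⟩
  exact congrArg ε.1 (Subsingleton.elim (α := PrimeSpectrum k) z (IsLocalRing.closedPoint k))

/-- the rational point as a place -/
def pl0 [IsSeparated c] : Pl C := ⟨x0 c ε, isClosed_x0 c ε⟩

variable [IsAlgClosed k] [IsIntegral C] [IsProper c] [SmoothOfRelativeDimension 1 c]

include c in
theorem isUnit_of_pv {x : Pl C} {O : C.Opens} (hx : x.1 ∈ O) (s : Γ(C, O))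
    (h : IsUnit (C.presheaf.germ O x.1 hx s)) (hη : genericPoint C ∈ O) :
    ¬ pv c x (C.presheaf.germ O (genericPoint C) hη s) < 1 := by
  have : Nonempty O := ⟨⟨x.1, hx⟩⟩
  intro hlt
  obtain ⟨r, hr⟩ := h.exists_right_inv
  have h1 := congrArg (fun y => pv c x (sAlg x.1 y)) hr
  simp only [map_mul, map_one, germToFunctionField_eq] at h1
  exact (mul_lt_one_of_lt_of_le hlt ((plc_le_one_iff c x.2).mpr ⟨r, rfl⟩)).ne h1

variable {x₀ : Pl C} (P : Param c x₀)

/-- the expansion of a function on an open -/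
def expSec {O : C.Opens} (hη : genericPoint C ∈ O) : Sec c O →ₐ[k] LaurentSeries k where
  toRingHom := (expand c P).comp (C.presheaf.germ O (genericPoint C) hη).hom
  commutes' a := by
    show expand c P ((strSec c O ≫ C.presheaf.germ O (genericPoint C) hη) a) = _
    rw [germ_strSec, algebraMap_laurentSeries_eq_single]
    exact expand_kHom c P a

theorem expSec_apply {O : C.Opens} (hη : genericPoint C ∈ O) (s : Sec c O) :
    expSec c P hη s = expand c P (C.presheaf.germ O (genericPoint C) hη s) := rfl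

theorem expSec_injective {O : C.Opens} (hη : genericPoint C ∈ O) :
    Function.Injective (expSec c P hη) :=
  (expand c P).injective.comp (germ_injective_of_isIntegral C (genericPoint C) hη)

theorem expSec_secRes {O O' : C.Opens} (h : O' ≤ O) (hη : genericPoint C ∈ O')
    (s : Sec c O) : expSec c P hη (secRes c h s) = expSec c P (h hη) s :=
  congrArg (expand c P) (C.presheaf.germ_res_apply (homOfLE h) _ hη s)

theorem expSec_coeff_neg {O : C.Opens} (hη : genericPoint C ∈ O) (hx : x₀.1 ∈ O) (s : Sec c O)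
    {l : ℤ} (hl : l < 0) : (expSec c P hη s).coeff l = 0 := by
  have : Nonempty O := ⟨⟨x₀.1, hx⟩⟩
  refine expand_coeff_eq_zero c P (n := 0) ?_ (by simpa using hl)
  rw [exp_zero]
  exact (plc_le_one_iff c x₀.2).mpr (section_mem_stalkSub hx s)

theorem range_expSec_punctured (hη : genericPoint C ∈ punctured x₀) :
    (expSec c P hη).range = polarExp c P := by
  have : Nonempty (punctured x₀) := ⟨⟨_, hη⟩⟩
  refine le_antisymm ?_ ?_
  · rintro _ ⟨s, rfl⟩
    exact ⟨_, fun x hx => (plc_le_one_iff c x.2).mpr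
      (section_mem_stalkSub (show x.1 ∈ punctured x₀ from fun e => hx (Subtype.ext e)) s), rfl⟩
  · rintro _ ⟨a, ha, rfl⟩
    obtain ⟨s, hs⟩ := exists_section' (U := punctured x₀) (a := a) fun y hy => by
      rcases closed_or_generic c y with h | h
      · exact (plc_le_one_iff c h).mp (ha ⟨y, h⟩ fun e => hy (congrArg Subtype.val e))
      · exact h ▸ mem_stalkSub_genericPoint a
    exact ⟨s, congrArg (expand c P) hs⟩

/-- a neighbourhood of the point where the parameter vanishes only there -/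
theorem exists_nhd : ∃ (V : C.Opens) (τ : Γ(C, V)) (hη : genericPoint C ∈ V),
    IsAffineOpen V ∧ x₀.1 ∈ V ∧ C.basicOpen τ = punctured x₀ ⊓ V ∧
      C.presheaf.germ V (genericPoint C) hη τ = P.t := by
  obtain ⟨V₁, hx₁, hV₁⟩ := exists_open_regular ((plc_le_one_iff c x₀.2).mp
    (P.pv_t.le.trans (by rw [← exp_zero, exp_le_exp]; omega)))
  have : Nonempty V₁ := ⟨⟨x₀.1, hx₁⟩⟩
  obtain ⟨τ₁, hτ₁⟩ := exists_section' hV₁
  have hη₁ : genericPoint C ∈ V₁ := (genericPoint_specializes x₀.1).mem_open V₁.2 hx₁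
  have hηb : genericPoint C ∈ C.basicOpen τ₁ := by
    rw [Scheme.mem_basicOpen _ _ _ hη₁]
    have h0 : C.presheaf.germ V₁ (genericPoint C) hη₁ τ₁ = P.t := hτ₁
    rw [h0]
    exact Ne.isUnit fun h => exp_ne_zero (P.pv_t.symm.trans (by rw [h, map_zero]))
  have hfin : ((C.basicOpen τ₁ : Set C)ᶜ \ {x₀.1}).Finite :=
    (finite_of_isClosed c (C.basicOpen τ₁).2.isClosed_compl fun h => h hηb).subset Set.sdiff_subset
  have hcl : IsClosed ((C.basicOpen τ₁ : Set C)ᶜ \ {x₀.1}) := by
    rw [← Set.biUnion_of_singleton ((C.basicOpen τ₁ : Set C)ᶜ \ {x₀.1})]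
    exact hfin.isClosed_biUnion fun y hy => (closed_or_generic c y).resolve_right fun h =>
      hy.1 (h ▸ hηb)
  obtain ⟨V, hV, hxV, hVle⟩ := Opens.isBasis_iff_nbhd.mp C.isBasis_affineOpens
    (show x₀.1 ∈ V₁ ⊓ ⟨_, hcl.isOpen_compl⟩ from ⟨hx₁, fun h => h.2 rfl⟩)
  have hηV : genericPoint C ∈ V := (genericPoint_specializes x₀.1).mem_open V.2 hxV
  refine ⟨V, C.presheaf.map (homOfLE (hVle.trans inf_le_left)).op τ₁, hηV, hV, hxV, ?_, ?_⟩
  · rw [Scheme.basicOpen_res]
    refine Opens.ext (Set.ext fun z => ⟨fun hz => ⟨fun e => ?_, hz.1⟩, fun hz => ⟨hz.2, ?_⟩⟩)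
    · subst e
      refine isUnit_of_pv c hx₁ τ₁ ((Scheme.mem_basicOpen _ _ _ hx₁).mp hz.2) hη₁ ?_
      rw [show C.presheaf.germ V₁ (genericPoint C) hη₁ τ₁ = P.t from hτ₁, P.pv_t, ← exp_zero,
        exp_lt_exp]
      omega
    · by_contra h
      exact (hVle hz.2).2 ⟨h, hz.1⟩
  · rw [C.presheaf.germ_res_apply]
    exact hτ₁

/-- functions with integral expansion extend over the point -/
theorem exists_secRes_eq {V W : C.Opens} (hWV : W ≤ V) (hηW : genericPoint C ∈ W)
    (hVW : ∀ z ∈ V, z ≠ x₀.1 → z ∈ W) (s : Sec c W)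
    (h : ∀ l < 0, (expSec c P hηW s).coeff l = 0) : ∃ s', secRes c hWV s' = s := by
  have : Nonempty W := ⟨⟨_, hηW⟩⟩
  have : Nonempty V := ⟨⟨_, hWV hηW⟩⟩
  obtain ⟨s', hs'⟩ := exists_section' (U := V)
    (a := C.presheaf.germ W (genericPoint C) hηW s) fun z hz => by
    rcases eq_or_ne z x₀.1 with rfl | hne
    · refine (plc_le_one_iff c x₀.2).mp ?_
      have := pv_le_of_coeff c P (a := C.presheaf.germ W (genericPoint C) hηW s) (n := 0)
        fun l hl => h l (by simpa using hl)
      rwa [exp_zero] at this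
    · exact section_mem_stalkSub (hVW z hz hne) s
  exact ⟨s', germ_injective_of_isIntegral C (genericPoint C) hηW
    ((C.presheaf.germ_res_apply (homOfLE hWV) _ hηW s').trans hs')⟩

theorem section_strSec {O : C.Opens} (h : ⊤ ≤ ε.1 ⁻¹ᵁ O) (a : k) :
    (Scheme.ΓSpecIso (CommRingCat.of k)).hom (pb ε.1 h (strSec c O a)) = a := by
  have e : strSec c O ≫ ε.1.appLE O ⊤ h ≫ (Scheme.ΓSpecIso (CommRingCat.of k)).hom = 𝟙 _ := by
    have e1 : c.appLE ⊤ O le_top ≫ ε.1.appLE O ⊤ h = (ε.1 ≫ c).appLE ⊤ ⊤ le_top :=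
      Scheme.Hom.appLE_comp_appLE ..
    have e2 : (ε.1 ≫ c).appLE ⊤ ⊤ le_top = (ε.1 ≫ c).appTop := Scheme.Hom.appLE_eq_app _
    have e3 : c.appLE ⊤ O le_top ≫ ε.1.appLE O ⊤ h = 𝟙 _ := by
      rw [e1, e2, ε.2]; rfl
    show ((Scheme.ΓSpecIso (CommRingCat.of k)).inv ≫ c.appLE ⊤ O le_top) ≫ _ = _
    rw [Category.assoc]
    exact (congrArg (fun m => (Scheme.ΓSpecIso (CommRingCat.of k)).inv ≫ m ≫ _) rfl).trans
      ((congrArg (fun m => (Scheme.ΓSpecIso (CommRingCat.of k)).inv ≫ m)
        ((Category.assoc _ _ _).symm.trans (congrArg (fun m => m ≫ _) e3))).trans (by simp))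
  exact congr($e a)

/-- the value at the rational point is the constant term -/
theorem coeff_zero_expSec (hx0 : x₀.1 = x0 c ε) {O : C.Opens} (hη : genericPoint C ∈ O)
    (hx : x₀.1 ∈ O) (h : ⊤ ≤ ε.1 ⁻¹ᵁ O) (s : Sec c O) :
    (expSec c P hη s).coeff 0 = (Scheme.ΓSpecIso (CommRingCat.of k)).hom (pb ε.1 h s) := by
  have : Nonempty O := ⟨⟨x₀.1, hx⟩⟩
  obtain ⟨a₀, ha₀⟩ := exists_const c x₀.2 (a := C.presheaf.germ O (genericPoint C) hη s)
    ((plc_le_one_iff c x₀.2).mpr (section_mem_stalkSub hx s))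
  have hst : C.presheaf.germ O (genericPoint C) hη (strSec c O a₀) = kHom c a₀ :=
    congr($(germ_strSec c O (genericPoint C) hη) a₀)
  have h1 : (expSec c P hη s).coeff 0 = a₀ := by
    have := expand_coeff_eq_zero c P (n := -1) (lt_one_iff_le_exp.mp ha₀) (l := 0) (by omega)
    rwa [map_sub, expand_kHom, HahnSeries.coeff_sub, HahnSeries.coeff_single_same,
      sub_eq_zero] at this
  rw [h1]
  let b : Γ(C, O) := (show Γ(C, O) from s) - strSec c O a₀
  by_contra hne
  have hu : IsUnit (pb ε.1 h b) := by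
    refine (MulEquiv.isUnit_map
      (Scheme.ΓSpecIso (CommRingCat.of k)).commRingCatIsoToRingEquiv).mp (IsUnit.mk0 _ ?_)
    intro h0
    change (Scheme.ΓSpecIso (CommRingCat.of k)).hom (pb ε.1 h b) = 0 at h0
    refine hne ?_
    rw [map_sub, map_sub, section_strSec, sub_eq_zero] at h0
    exact h0.symm
  have hb : x0 c ε ∈ C.basicOpen b := by
    have h2 := Scheme.basicOpen_of_isUnit _ hu
    rw [Scheme.basicOpen_appLE] at h2
    exact (h2.ge (trivial : IsLocalRing.closedPoint k ∈ (⊤ : (Spec (CommRingCat.of k)).Opens))).2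
  rw [← hx0, Scheme.mem_basicOpen _ _ _ hx] at hb
  refine isUnit_of_pv c hx b hb hη ?_
  rwa [map_sub, hst]

omit [IsProper c] in
theorem finiteType_sec [LocallyOfFiniteType c] {U : C.Opens} (hU : IsAffineOpen U) :
    Algebra.FiniteType k (Sec c U) := by
  have h1 : (c.appLE ⊤ U le_top).hom.FiniteType :=
    HasRingHomProperty.appLE (P := @LocallyOfFiniteType) c inferInstance
      ⟨⊤, isAffineOpen_top _⟩ ⟨U, hU⟩ le_top
  exact h1.comp (RingHom.FiniteType.of_surjective _
    (Scheme.ΓSpecIso (CommRingCat.of k)).commRingCatIsoToRingEquiv.symm.surjective)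

include c in
theorem isDedekindDomain_sec {U : C.Opens} (hU : IsAffineOpen U) (hη : genericPoint C ∈ U) :
    IsDedekindDomain Γ(C, U) := by
  have : Nonempty U := ⟨⟨_, hη⟩⟩
  have : IsLocallyNoetherian C := LocallyOfFiniteType.isLocallyNoetherian c
  have : IsNoetherianRing Γ(C, U) := IsLocallyNoetherian.component_noetherian ⟨U, hU⟩
  have : IsDedekindDomainDvr Γ(C, U) := by
    refine { is_dvr_at_nonzero_prime := fun P hP hPprime => ?_ }
    let p : PrimeSpectrum Γ(C, U) := ⟨P, hPprime⟩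
    have hpU : hU.fromSpec p ∈ U := hU.range_fromSpec.le ⟨p, rfl⟩
    have hne : hU.fromSpec p ≠ genericPoint C := fun h => by
      refine hP ?_
      have h1 : hU.fromSpec (hU.primeIdealOf ⟨genericPoint C, hη⟩) = hU.fromSpec p := by
        rw [hU.fromSpec_primeIdealOf, h]
      have h2 := hU.fromSpec.isOpenEmbedding.injective h1
      rw [hU.primeIdealOf_genericPoint, genericPoint_eq_bot_of_affine] at h2
      exact (congrArg PrimeSpectrum.asIdeal h2).symm
    have := isDVR_stalk c ((closed_or_generic c _).resolve_right hne)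
    let := TopCat.Presheaf.algebra_section_stalk C.presheaf (⟨hU.fromSpec p, hpU⟩ : U)
    have : IsLocalization.AtPrime (C.presheaf.stalk (hU.fromSpec p)) P :=
      hU.isLocalization_stalk' p hpU
    exact IsDiscreteValuationRing.RingEquivClass.isDiscreteValuationRing
      (IsLocalization.algEquiv P.primeCompl (C.presheaf.stalk (hU.fromSpec p))
        (Localization.AtPrime P))
  infer_instance

end FLTAgent.RelPic

end
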