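import Fermat.Agent.RelPic.EngineOpen

/-!
Area S25, parcel E: `h⁰`, `h¹` and the Euler characteristic of a lattice over a field.
-/

set_option autoImplicit false
set_option linter.unusedSectionVars false

noncomputable section

universe u

open ModularCurve Matrix

namespace FLTAgent.RelPic

namespace CellData

variable {k : Type u} [Field k] (D : CellData k)

/-- the Euler characteristic of a lattice over a field, twisted by `n` times the point -/
def euler (K : Type u) [Field K] [Algebra k K] (Lt : D.Lattice K) (n : ℤ) : ℤ :=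
  (D.h0 K Lt n : ℤ) - D.h1 K Lt n

variable {K : Type u} [Field K] [Algebra k K] {M : Submodule (D.AR K) (LaurentSeries K)} {m : ℤ}

theorem Piece.finite_base (P : D.Piece M m) :
    Module.Finite K ↥(D.toR M ⊓ tailAt K m) := by
  refine Module.Finite.of_surjective (LinearMap.codRestrict _ P.comb P.comb_mem) fun x =>
    ⟨P.coord x, Subtype.ext (P.comb_coord x.2)⟩

theorem Piece.finrank_base (P : D.Piece M m) :
    Module.finrank K ↥(D.toR M ⊓ tailAt K m) = P.proj.rank := by
  have hinj : Function.Injective (P.coord ∘ₗ (D.toR M ⊓ tailAt K m).subtype) := fun x y h =>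
    Subtype.ext <| by
      rw [← P.comb_coord x.2, ← P.comb_coord y.2]
      exact congrArg P.comb h
  suffices hr : LinearMap.range (P.coord ∘ₗ (D.toR M ⊓ tailAt K m).subtype) =
      LinearMap.range P.proj.mulVecLin by
    rw [← LinearMap.finrank_range_of_inj hinj, hr, Matrix.rank]
  ext v
  simp only [LinearMap.mem_range, LinearMap.coe_comp, Function.comp_apply, Submodule.coe_subtype,
    Matrix.mulVecLin_apply]
  constructor
  · rintro ⟨x, rfl⟩
    exact ⟨_, P.proj_coord x.2⟩
  · rintro ⟨w, rfl⟩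
    exact ⟨⟨P.comb w, P.comb_mem w⟩, P.coord_comb w⟩

theorem Piece.finrank_inf_add (P : D.Piece M m) (N : ℕ) :
    Module.finrank K ↥(D.toR M ⊓ tailAt K (m + N)) + (P.win N).rank =
      Module.finrank K ↥(D.toR M ⊓ tailAt K m) := by
  have := P.finite_base
  let w := toWindow m N ∘ₗ (D.toR M ⊓ tailAt K m).subtype
  have hrange : LinearMap.range w = LinearMap.range (P.win N).mulVecLin := by
    ext v
    simp only [w, LinearMap.mem_range, LinearMap.coe_comp, Function.comp_apply,
      Submodule.coe_subtype, Matrix.mulVecLin_apply]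
    constructor
    · rintro ⟨x, rfl⟩
      exact ⟨P.coord x, by rw [P.win_mulVec, P.comb_coord x.2]⟩
    · rintro ⟨c, rfl⟩
      exact ⟨⟨P.comb c, P.comb_mem c⟩, (P.win_mulVec N c).symm⟩
  have hker : (LinearMap.ker w).map (D.toR M ⊓ tailAt K m).subtype =
      D.toR M ⊓ tailAt K (m + N) := by
    ext x
    simp only [Submodule.mem_map, LinearMap.mem_ker, Submodule.coe_subtype]
    constructor
    · rintro ⟨y, hy, rfl⟩
      exact ⟨y.2.1, (mem_tailAt_add_iff y.2.2).mpr hy⟩
    · intro hx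
      have hx' : x ∈ D.toR M ⊓ tailAt K m := ⟨hx.1, tailAt_mono (by omega) hx.2⟩
      exact ⟨⟨x, hx'⟩, (mem_tailAt_add_iff hx'.2).mp hx.2, rfl⟩
  rw [← hker, Submodule.finrank_map_subtype_eq, Matrix.rank, ← hrange, add_comm]
  exact LinearMap.finrank_range_add_finrank_ker w

theorem Piece.finite_quot (_P : D.Piece M m) (h : D.toR M ⊔ tailAt K m = ⊤) (N : ℕ) :
    Module.Finite K (LaurentSeries K ⧸ (D.toR M ⊔ tailAt K (m + N))) := by
  refine Module.Finite.of_surjective ((Submodule.mkQ _) ∘ₗ ofWindow m (N := N)) fun z => ?_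
  obtain ⟨y, rfl⟩ := Submodule.mkQ_surjective _ z
  obtain ⟨w, hw⟩ := D.exists_window h N y
  exact ⟨w, ((Submodule.Quotient.eq _).mpr hw).symm⟩

theorem Piece.finrank_quot_add (P : D.Piece M m) (h : D.toR M ⊔ tailAt K m = ⊤) (N : ℕ) :
    Module.finrank K (LaurentSeries K ⧸ (D.toR M ⊔ tailAt K (m + N))) + (P.win N).rank = N := by
  let φ : (Fin N → K) →ₗ[K] (LaurentSeries K ⧸ (D.toR M ⊔ tailAt K (m + N))) :=
    (Submodule.mkQ _) ∘ₗ ofWindow m (N := N)
  have hsurj : Function.Surjective φ := fun z => by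
    obtain ⟨y, rfl⟩ := Submodule.mkQ_surjective _ z
    obtain ⟨w, hw⟩ := D.exists_window h N y
    exact ⟨w, ((Submodule.Quotient.eq _).mpr hw).symm⟩
  have hker : LinearMap.ker φ = LinearMap.range (P.win N).mulVecLin := by
    ext w
    simp only [φ, LinearMap.mem_ker, LinearMap.coe_comp, Function.comp_apply, Submodule.mkQ_apply,
      Submodule.Quotient.mk_eq_zero, LinearMap.mem_range, Matrix.mulVecLin_apply]
    exact P.ofWindow_mem_sup_iff N w
  have := LinearMap.finrank_range_add_finrank_ker φ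
  rw [LinearMap.range_eq_top.mpr hsurj, finrank_top, hker, Module.finrank_fintype_fun_eq_card,
    Fintype.card_fin] at this
  rw [Matrix.rank]
  exact this

/-! ### lattices -/

variable (Lt : D.Lattice K)

theorem finite_h0 (n : ℤ) : Module.Finite K ↥(D.toR Lt.1 ⊓ tailAt K n) := by
  obtain ⟨m, N, P, -, rfl⟩ := D.exists_piece Lt n
  have := P.finite_base
  exact Submodule.finiteDimensional_of_le (S₂ := D.toR Lt.1 ⊓ tailAt K m)
    (inf_le_inf_left _ (tailAt_mono (by omega)))

theorem finite_h1 (n : ℤ) : Module.Finite K (LaurentSeries K ⧸ (D.toR Lt.1 ⊔ tailAt K n)) := by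
  obtain ⟨m, N, P, hP, rfl⟩ := D.exists_piece Lt n
  exact P.finite_quot D hP N

theorem h1_eq_zero_iff (n : ℤ) : D.h1 K Lt n = 0 ↔ D.toR Lt.1 ⊔ tailAt K (-n) = ⊤ := by
  have := D.finite_h1 Lt (-n)
  rw [h1, Module.finrank_zero_iff, Submodule.Quotient.subsingleton_iff]

theorem exists_h1_eq_zero : ∃ n₀ : ℤ, ∀ n, n₀ ≤ n → D.h1 K Lt n = 0 := by
  obtain ⟨m, hm⟩ := D.exists_sup_eq_top Lt
  exact ⟨-m, fun n hn => (D.h1_eq_zero_iff Lt n).mpr (hm _ (by omega))⟩

theorem h0_eq_zero_iff (n : ℤ) : D.h0 K Lt n = 0 ↔ D.toR Lt.1 ⊓ tailAt K (-n) = ⊥ := by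
  have := D.finite_h0 Lt (-n)
  rw [h0, Submodule.finrank_eq_zero]

theorem euler_eq (P : D.Piece Lt.1 m) (h : D.toR Lt.1 ⊔ tailAt K m = ⊤) (N : ℕ) :
    D.euler K Lt (-(m + N)) = (P.proj.rank : ℤ) - N := by
  have h1' := P.finrank_inf_add D N
  have h2' := P.finrank_quot_add D h N
  rw [P.finrank_base D] at h1'
  rw [euler, h0, CellData.h1, neg_neg]
  omega

theorem euler_eq_add (n n' : ℤ) : D.euler K Lt n' = D.euler K Lt n + (n' - n) := by
  obtain ⟨m, N, P, hP, e⟩ := D.exists_piece Lt (min (-n) (-n'))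
  have h1 := min_le_left (-n) (-n')
  have h2 := min_le_right (-n) (-n')
  have e1 := D.euler_eq Lt P hP (-n - m).toNat
  have e2 := D.euler_eq Lt P hP (-n' - m).toNat
  rw [show -(m + ((-n - m).toNat : ℤ)) = n by omega] at e1
  rw [show -(m + ((-n' - m).toNat : ℤ)) = n' by omega] at e2
  omega

theorem euler_succ (n : ℤ) : D.euler K Lt (n + 1) = D.euler K Lt n + 1 := by
  rw [D.euler_eq_add Lt n (n + 1)]
  ring

theorem isDegZero_iff (n : ℤ) : D.IsDegZero K Lt ↔ D.euler K Lt n = n + 1 - (D.G.card : ℤ) := by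
  have := D.euler_eq_add Lt (-1) n
  rw [IsDegZero, show (D.h0 K Lt (-1) : ℤ) - D.h1 K Lt (-1) = D.euler K Lt (-1) from rfl]
  omega

theorem isDegZero_one : D.IsDegZero K (1 : D.Lattice K) := by
  classical
  let V := D.toR ((1 : D.Lattice K) : Submodule (D.AR K) (LaurentSeries K)) ⊓
    tailAt K (-(D.top : ℤ))
  have htop : D.toR ((1 : D.Lattice K) : Submodule (D.AR K) (LaurentSeries K)) ⊔
      tailAt K (-(D.top : ℤ)) = ⊤ := by
    rw [sup_tailAt_eq_top_iff]
    intro j hj
    obtain ⟨e, rfl⟩ : ∃ e : ℕ, j = -(e : ℤ) := ⟨(-j).toNat, by omega⟩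
    have he : e ∉ D.G := fun h => by have := D.le_top_of_mem h; omega
    exact ⟨_, Submodule.mem_one.mpr ⟨⟨_, D.L_mem_AR (D.an_mem e he)⟩, rfl⟩,
      D.an_isMonic e he (by omega)⟩
  let I := {n // n ≤ D.top ∧ n ∉ D.G}
  let φ : (I → K) →ₗ[K] ↥V := LinearMap.codRestrict V
    (Fintype.linearCombination K fun n : I => L K (D.an n.1 n.2.2)) fun c => by
      rw [Fintype.linearCombination_apply]
      refine sum_mem fun n _ => Submodule.smul_mem _ _ ⟨Submodule.mem_one.mpr
        ⟨⟨_, D.L_mem_AR (D.an_mem n.1 n.2.2)⟩, rfl⟩, ?_⟩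
      have := D.an_tail (R := K) n.1 n.2.2
      rwa [max_eq_right n.2.1] at this
  have hcoef : ∀ (c : I → K) (n : I), (φ c : LaurentSeries K).coeff (-(n.1 : ℤ)) = c n := by
    intro c n
    show (Fintype.linearCombination K (fun n : I => L K (D.an n.1 n.2.2)) c).coeff _ = _
    rw [Fintype.linearCombination_apply, HahnSeries.coeff_sum, Finset.sum_eq_single n]
    · rw [HahnSeries.coeff_smul, coeff_L, D.an_coeff _ _ n.2.2, if_pos rfl, map_one, smul_eq_mul,
        mul_one]
    · intro m _ hm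
      rw [HahnSeries.coeff_smul, coeff_L, D.an_coeff _ _ n.2.2,
        if_neg fun e => hm (Subtype.ext e.symm), map_zero, smul_zero]
    · simp
  have hbij : Function.Bijective φ := by
    refine ⟨fun c c' h => funext fun n => ?_, fun x => ⟨fun n => x.1.coeff (-(n.1 : ℤ)),
      Subtype.ext ?_⟩⟩
    · rw [← hcoef c n, ← hcoef c' n, h]
    · obtain ⟨a, ha⟩ := Submodule.mem_one.mp (D.mem_toR.mp x.2.1)
      show Fintype.linearCombination K (fun n : I => L K (D.an n.1 n.2.2)) _ = _
      rw [Fintype.linearCombination_apply]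
      exact (D.AR_eq_sum (ha ▸ a.2) x.2.2).symm
  have hh0 : D.h0 K (1 : D.Lattice K) D.top = Fintype.card I := by
    rw [h0, ← Module.finrank_fintype_fun_eq_card K]
    exact (LinearEquiv.ofBijective φ hbij).finrank_eq.symm
  have hI : Fintype.card I + D.G.card = D.top + 1 := by
    rw [Fintype.card_of_subtype ((Finset.range (D.top + 1)).filter (· ∉ D.G)) (by simp),
      ← Finset.card_union_of_disjoint]
    · rw [← Finset.card_range (D.top + 1)]
      congr 1
      ext n
      simp only [Finset.mem_union, Finset.mem_filter, Finset.card_range, Finset.mem_range]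
      constructor
      · rintro (⟨h, -⟩ | h)
        · omega
        · have := D.le_top_of_mem h; omega
      · intro h
        by_cases hn : n ∈ D.G
        · exact Or.inr hn
        · exact Or.inl ⟨by omega, hn⟩
    · exact Finset.disjoint_left.mpr fun n hn => (Finset.mem_filter.mp hn).2
  rw [D.isDegZero_iff _ D.top, euler, hh0,
    (D.h1_eq_zero_iff _ _).mpr htop]
  omega

/-! ### change of field -/

variable {K' : Type u} [Field K'] [Algebra k K'] (g : K →ₐ[k] K')

theorem h0_mapLat (n : ℤ) : D.h0 K' (D.mapLat g Lt) n = D.h0 K Lt n := by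
  obtain ⟨m, N, P, hP, e⟩ := D.exists_piece Lt (-n)
  have a := P.finrank_inf_add D N
  have b := (P.map D g hP).finrank_inf_add D N
  rw [(P.map D g hP).finrank_base D, P.map_proj D g hP, P.map_win D g hP] at b
  erw [rank_map_eq P.proj (g : K →+* K'), rank_map_eq (P.win N) (g : K →+* K'),
    ← P.finrank_base D] at b
  rw [h0, h0, e]
  show Module.finrank K' ↥(D.toR (D.mapSub g Lt.1) ⊓ _) = _
  omega

theorem h1_mapLat (n : ℤ) : D.h1 K' (D.mapLat g Lt) n = D.h1 K Lt n := by
  obtain ⟨m, N, P, hP, e⟩ := D.exists_piece Lt (-n)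
  have a := P.finrank_quot_add D hP N
  have b := (P.map D g hP).finrank_quot_add D (D.sup_mapSub g hP) N
  rw [P.map_win D g hP] at b
  erw [rank_map_eq (P.win N) (g : K →+* K')] at b
  rw [CellData.h1, CellData.h1, e]
  show Module.finrank K' (LaurentSeries K' ⧸ (D.toR (D.mapSub g Lt.1) ⊔ _)) = _
  omega

theorem euler_mapLat (n : ℤ) : D.euler K' (D.mapLat g Lt) n = D.euler K Lt n := by
  rw [euler, euler, h0_mapLat, h1_mapLat]

theorem isDegZero_mapLat : D.IsDegZero K' (D.mapLat g Lt) ↔ D.IsDegZero K Lt := by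
  rw [IsDegZero, IsDegZero, h0_mapLat, h1_mapLat]

end CellData

end FLTAgent.RelPic

end
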