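import Mathlib

/-!
Area S25, parcel E: ranks of matrices after change of base, through minors.
-/

set_option autoImplicit false

noncomputable section

universe u v w

namespace FLTAgent.RelPic

open Matrix

variable {J : Type v} {I : Type w} [Fintype J] [Fintype I]

section Field

variable {K : Type u} [Field K]

/-- the rows contain as many independent ones as the rank -/
theorem exists_rows_rank (T : Matrix J I K) :
    ∃ σ : Fin T.rank → J, LinearIndependent K (T.submatrix σ id).row := by
  classical
  obtain ⟨b, hb, hspan, hli⟩ := exists_linearIndependent K (Set.range T.row)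
  have : Fintype b := ((Set.finite_range T.row).subset hb).fintype
  have hc : Fintype.card b = T.rank := by
    rw [rank_eq_finrank_span_row, ← hspan]
    have h := linearIndependent_iff_card_eq_finrank_span.mp hli
    rwa [Subtype.range_coe_subtype, Set.ofPred_mem_eq, Set.finrank] at h
  let e : Fin T.rank ≃ b := (Fintype.equivFinOfCardEq hc).symm
  choose σ hσ using fun i => hb (e i).2
  refine ⟨σ, ?_⟩
  have : (T.submatrix σ id).row = (fun x : b => (x : I → K)) ∘ e := funext fun i => by
    show T.row (σ i) = _
    exact hσ i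
  rw [this]
  exact hli.comp _ e.injective

/-- a minor of full rank -/
theorem exists_minor (T : Matrix J I K) :
    ∃ (σ : Fin T.rank → J) (τ : Fin T.rank → I), IsUnit (T.submatrix σ τ).det := by
  obtain ⟨σ, hσ⟩ := exists_rows_rank T
  have h1 : (T.submatrix σ id)ᵀ.rank = T.rank := by
    rw [rank_transpose, hσ.rank_matrix, Fintype.card_fin]
  obtain ⟨τ, hτ⟩ := exists_rows_rank (T.submatrix σ id)ᵀ
  refine ⟨σ, τ ∘ Fin.cast h1.symm, ?_⟩
  rw [← det_transpose, ← isUnit_iff_isUnit_det, ← linearIndependent_rows_iff_isUnit]
  have h2 : (T.submatrix σ (τ ∘ Fin.cast h1.symm))ᵀ.row =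
      (LinearMap.funLeft K K (id : Fin T.rank → Fin T.rank)) ∘
        ((T.submatrix σ id)ᵀ.submatrix τ id).row ∘ Fin.cast h1.symm := rfl
  rw [h2]
  exact (hτ.comp _ (Fin.cast_injective _)).map' _ (LinearMap.ker_eq_bot.mpr
    fun a b h => funext fun i => congrFun h i)

end Field

variable {R : Type u} [CommRing R] {K : Type u} [Field K]

/-- lower semicontinuity of the rank -/
theorem exists_rank_le (T : Matrix J I R) (g : R →+* K) :
    ∃ r : R, g r ≠ 0 ∧ ∀ (K' : Type u) [Field K'] (h : R →+* K'), h r ≠ 0 →
      (T.map g).rank ≤ (T.map h).rank := by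
  obtain ⟨σ, τ, hu⟩ := exists_minor (T.map g)
  refine ⟨(T.submatrix σ τ).det, ?_, fun K' _ h hr => ?_⟩
  · rw [g.map_det]
    exact hu.ne_zero
  · have hu' : IsUnit ((T.map h).submatrix σ τ).det := by
      refine IsUnit.mk0 _ ?_
      rwa [h.map_det] at hr
    calc (T.map g).rank = ((T.map h).submatrix σ τ).rank := by
          rw [rank_of_isUnit _ ((isUnit_iff_isUnit_det _).mpr hu'), Fintype.card_fin]
      _ ≤ _ := rank_submatrix_le _ _ _

/-- a matrix injective at a point is injective nearby -/
theorem exists_mulVec_injective (T : Matrix J I R) (g : R →+* K)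
    (hg : Function.Injective (T.map g).mulVec) :
    ∃ r : R, g r ≠ 0 ∧ ∀ (S : Type u) [CommRing S] (φ : R →+* S), IsUnit (φ r) →
      Function.Injective (T.map φ).mulVec := by
  classical
  have hr : (T.map g).rank = Fintype.card I := by
    rw [Matrix.rank, LinearMap.finrank_range_of_inj hg, Module.finrank_fintype_fun_eq_card]
  obtain ⟨σ, τ, hu⟩ := exists_minor (T.map g)
  have hτ : Function.Bijective τ := by
    refine (Fintype.bijective_iff_injective_and_card τ).mpr ⟨fun a b hab => ?_, by simp [hr]⟩
    by_contra hne
    exact hu.ne_zero (det_zero_of_column_eq hne fun i => by simp [hab])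
  let e := Equiv.ofBijective τ hτ
  refine ⟨(T.submatrix (σ ∘ e.symm) id).det, ?_, fun S _ φ hφ v w hvw => ?_⟩
  · rw [g.map_det]
    have e1 : (T.map g).submatrix (σ ∘ e.symm) id =
        ((T.map g).submatrix σ τ).submatrix e.symm e.symm := by
      ext i j
      simp [e, Equiv.ofBijective_apply_symm_apply]
    show ((T.map g).submatrix (σ ∘ e.symm) id).det ≠ 0
    rw [e1, det_submatrix_equiv_self]
    exact hu.ne_zero
  · rw [φ.map_det] at hφ
    refine mulVec_injective_of_isUnit ((isUnit_iff_isUnit_det _).mpr hφ) (funext fun i => ?_)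
    exact congrFun hvw (σ (e.symm i))

/-- a matrix surjective at a point is surjective nearby -/
theorem exists_mulVec_surjective (T : Matrix J I R) (g : R →+* K)
    (hg : Function.Surjective (T.map g).mulVec) :
    ∃ r : R, g r ≠ 0 ∧ ∀ (S : Type u) [CommRing S] (φ : R →+* S), IsUnit (φ r) →
      Function.Surjective (T.map φ).mulVec := by
  classical
  have hr : (T.map g).rank = Fintype.card J := by
    rw [Matrix.rank, LinearMap.range_eq_top.mpr hg, finrank_top,
      Module.finrank_fintype_fun_eq_card]
  obtain ⟨σ, τ, hu⟩ := exists_minor (T.map g)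
  have hσ : Function.Bijective σ := by
    refine (Fintype.bijective_iff_injective_and_card σ).mpr ⟨fun a b hab => ?_, by simp [hr]⟩
    by_contra hne
    exact hu.ne_zero (det_zero_of_row_eq hne (funext fun i => by simp [hab]))
  let e := Equiv.ofBijective σ hσ
  refine ⟨(T.submatrix id (τ ∘ e.symm)).det, ?_, fun S _ φ hφ w => ?_⟩
  · rw [g.map_det]
    have e1 : (T.map g).submatrix id (τ ∘ e.symm) =
        ((T.map g).submatrix σ τ).submatrix e.symm e.symm := by
      ext i j
      simp [e, Equiv.ofBijective_apply_symm_apply]
    show ((T.map g).submatrix id (τ ∘ e.symm)).det ≠ 0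
    rw [e1, det_submatrix_equiv_self]
    exact hu.ne_zero
  · rw [φ.map_det] at hφ
    obtain ⟨u, hu⟩ := mulVec_surjective_iff_isUnit.mpr ((isUnit_iff_isUnit_det _).mpr hφ) w
    refine ⟨∑ j, Pi.single (τ (e.symm j)) (u j), ?_⟩
    rw [mulVec_sum, ← hu]
    ext i
    simp [mulVec, dotProduct, Finset.sum_apply, mul_comm]

/-- the rank does not change under field extensions -/
theorem rank_map_eq {K' : Type u} [Field K'] (T : Matrix J I K) (g : K →+* K') :
    (T.map g).rank = T.rank := by
  classical
  refine le_antisymm ?_ ?_
  · let bs := Module.Free.chooseBasis K (LinearMap.ker T.mulVecLin)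
    let B : Matrix I (Module.Free.ChooseBasisIndex K (LinearMap.ker T.mulVecLin)) K :=
      Matrix.of fun i j => (bs j : I → K) i
    have hB : B.rank = Module.finrank K (LinearMap.ker T.mulVecLin) := by
      rw [← rank_transpose, Module.finrank_eq_card_basis bs]
      exact (bs.linearIndependent.map' (LinearMap.ker T.mulVecLin).subtype
        (Submodule.ker_subtype _)).rank_matrix
    have hTB : T * B = 0 := by
      ext j i
      exact congrFun (LinearMap.mem_ker.mp (bs i).2) j
    have hle : B.rank ≤ (B.map g).rank := by
      obtain ⟨r, hr, h⟩ := exists_rank_le B (RingHom.id K)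
      have := h K' g (by simpa using hr)
      simpa using this
    have h1 := rank_add_rank_le_card_of_mul_eq_zero (A := T.map g) (B := B.map g)
      (by rw [← Matrix.map_mul, hTB, Matrix.map_zero _ (map_zero g)])
    have h2 := T.mulVecLin.finrank_range_add_finrank_ker
    rw [Module.finrank_fintype_fun_eq_card] at h2
    change T.rank + _ = _ at h2
    omega
  · obtain ⟨r, hr, h⟩ := exists_rank_le T (RingHom.id K)
    simpa using h K' g (by simpa using hr)

end FLTAgent.RelPic

end
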