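import Fermat.Agent.RelPic.Engine
import Fermat.Agent.RelPic.EngineRank

/-!
Area S25, parcel E: a lattice seen through a window of degrees, by matrices.
-/

set_option autoImplicit false
set_option linter.unusedSectionVars false

noncomputable section

universe u

open ModularCurve Matrix

namespace FLTAgent.RelPic

open CellData

section Window

variable {R : Type u} [CommRing R]

/-- a series supported on the window -/
def ofWindow (m : ℤ) {N : ℕ} : (Fin N → R) →ₗ[R] LaurentSeries R :=
  Fintype.linearCombination R fun j : Fin N => HahnSeries.single (m + (j : ℕ)) 1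

/-- the coefficients in the window -/
def toWindow (m : ℤ) (N : ℕ) : LaurentSeries R →ₗ[R] (Fin N → R) :=
  LinearMap.pi fun j => coeffL R (m + (j : ℕ))

theorem toWindow_apply (m : ℤ) (N : ℕ) (x : LaurentSeries R) (j : Fin N) :
    toWindow m N x j = x.coeff (m + (j : ℕ)) := rfl

theorem mem_tailAt_add_iff {m : ℤ} {N : ℕ} {x : LaurentSeries R} (hx : x ∈ tailAt R m) :
    x ∈ tailAt R (m + N) ↔ toWindow m N x = 0 := by
  refine ⟨fun h => funext fun j => h _ (by have := j.2; omega), fun h l hl => ?_⟩
  rcases lt_or_ge l m with h' | h'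
  · exact hx l h'
  · obtain ⟨i, rfl⟩ : ∃ i : ℕ, l = m + i := ⟨(l - m).toNat, by omega⟩
    exact congrFun h ⟨i, by omega⟩

theorem ofWindow_mem (m : ℤ) {N : ℕ} (w : Fin N → R) : ofWindow m w ∈ tailAt R m := by
  rw [ofWindow, Fintype.linearCombination_apply]
  refine sum_mem fun j _ => Submodule.smul_mem _ _ fun l hl => ?_
  rw [HahnSeries.coeff_single_of_ne (by omega)]

theorem toWindow_ofWindow (m : ℤ) {N : ℕ} (w : Fin N → R) :
    toWindow m N (ofWindow m w) = w := by
  funext j
  rw [toWindow_apply, ofWindow, Fintype.linearCombination_apply, HahnSeries.coeff_sum,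
    Finset.sum_eq_single j]
  · simp
  · intro i _ hi
    have h : (i : ℕ) ≠ (j : ℕ) := fun h => hi (Fin.ext h)
    rw [HahnSeries.coeff_smul, HahnSeries.coeff_single_of_ne (by omega), smul_zero]
  · simp

theorem sub_ofWindow_mem {m : ℤ} {N : ℕ} {x : LaurentSeries R} (hx : x ∈ tailAt R m) :
    x - ofWindow m (toWindow m N x) ∈ tailAt R (m + N) := by
  rw [mem_tailAt_add_iff (sub_mem hx (ofWindow_mem m _)), map_sub, toWindow_ofWindow, sub_self]

end Window

namespace CellData

variable {k : Type u} [Field k] {D : CellData k}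

namespace Piece

variable {R : Type u} [CommRing R] [Algebra k R] {M : Submodule (D.AR R) (LaurentSeries R)}
variable {m : ℤ} (P : D.Piece M m)

instance : DecidableEq P.I := Classical.decEq _

/-- coordinates -/
def coord : LaurentSeries R →ₗ[R] (P.I → R) where
  toFun x a := (x * P.q a).coeff (P.deg a)
  map_add' x y := funext fun a => by simp [add_mul]
  map_smul' r x := funext fun a => by
    rw [mul_comm, mul_C_smul, mul_comm]
    simp

/-- combinations of the generators -/
def comb : (P.I → R) →ₗ[R] LaurentSeries R := Fintype.linearCombination R P.b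

/-- the projector on coordinates -/
def proj : Matrix P.I P.I R := Matrix.of fun a a' => (P.b a' * P.q a).coeff (P.deg a)

/-- the window of the generators -/
def win (N : ℕ) : Matrix (Fin N) P.I R := Matrix.of fun j a => (P.b a).coeff (m + (j : ℕ))

theorem comb_mem (v : P.I → R) : P.comb v ∈ D.toR M ⊓ tailAt R m := by
  rw [comb, Fintype.linearCombination_apply]
  exact sum_mem fun a _ => Submodule.smul_mem _ _ (P.b_mem a)

theorem comb_coord {x : LaurentSeries R} (hx : x ∈ D.toR M ⊓ tailAt R m) :
    P.comb (P.coord x) = x := by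
  rw [comb, Fintype.linearCombination_apply]
  exact (P.repr x hx).symm

theorem coord_comb (v : P.I → R) : P.coord (P.comb v) = P.proj *ᵥ v := by
  rw [comb, Fintype.linearCombination_apply, map_sum]
  funext a
  simp [coord, proj, Matrix.mulVec, dotProduct, mul_comm]

theorem win_mulVec (N : ℕ) (v : P.I → R) :
    P.win N *ᵥ v = toWindow m N (P.comb v) := by
  rw [comb, Fintype.linearCombination_apply, map_sum]
  funext j
  simp [toWindow, coeffL, win, Matrix.mulVec, dotProduct, mul_comm]

theorem proj_coord {x : LaurentSeries R} (hx : x ∈ D.toR M ⊓ tailAt R m) :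
    P.proj *ᵥ P.coord x = P.coord x := by
  rw [← P.coord_comb, P.comb_coord hx]

/-- injectivity on the window -/
theorem inf_eq_bot_iff (N : ℕ) :
    D.toR M ⊓ tailAt R (m + N) = ⊥ ↔
      Function.Injective (Matrix.fromRows (P.win N) (1 - P.proj)).mulVec := by
  show _ ↔ Function.Injective (Matrix.fromRows (P.win N) (1 - P.proj)).mulVecLin
  rw [← LinearMap.ker_eq_bot, LinearMap.ker_eq_bot', Submodule.eq_bot_iff]
  simp only [Matrix.mulVecLin_apply, Matrix.fromRows_mulVec]
  constructor
  · intro h v hv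
    have h1 : P.win N *ᵥ v = 0 := funext fun j => congrFun hv (Sum.inl j)
    have h2 : P.proj *ᵥ v = v := by
      have : (1 - P.proj) *ᵥ v = 0 := funext fun a => congrFun hv (Sum.inr a)
      rwa [Matrix.sub_mulVec, Matrix.one_mulVec, sub_eq_zero, eq_comm] at this
    have hx := h (P.comb v) ⟨(P.comb_mem v).1, (mem_tailAt_add_iff (P.comb_mem v).2).mpr
      (by rw [← P.win_mulVec, h1])⟩
    rw [← h2, ← P.coord_comb, hx, map_zero]
  · intro h x hx
    have hx' : x ∈ D.toR M ⊓ tailAt R m := ⟨hx.1, tailAt_mono (by omega) hx.2⟩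
    have h1 : P.win N *ᵥ P.coord x = 0 := by
      rw [P.win_mulVec, P.comb_coord hx', (mem_tailAt_add_iff hx'.2).mp hx.2]
    have h2 : (1 - P.proj) *ᵥ P.coord x = 0 := by
      rw [Matrix.sub_mulVec, Matrix.one_mulVec, P.proj_coord hx', sub_self]
    rw [← P.comb_coord hx', h (P.coord x) (by rw [h1, h2]; exact funext fun i => by cases i <;> rfl),
      map_zero]

include P in
theorem ofWindow_mem_sup_iff (N : ℕ) (w : Fin N → R) :
    ofWindow m w ∈ D.toR M ⊔ tailAt R (m + N) ↔ ∃ v, P.win N *ᵥ v = w := by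
  constructor
  · intro hw
    obtain ⟨x, hx, z, hz, e⟩ := Submodule.mem_sup.mp hw
    have hx' : x ∈ D.toR M ⊓ tailAt R m := ⟨hx, by
      rw [show x = ofWindow m w - z by rw [← e]; abel]
      exact sub_mem (ofWindow_mem m w) (tailAt_mono (by omega) hz)⟩
    refine ⟨P.coord x, ?_⟩
    rw [P.win_mulVec, P.comb_coord hx', ← toWindow_ofWindow m w, ← e, map_add,
      (mem_tailAt_add_iff (tailAt_mono (by omega) hz)).mp hz, add_zero]
  · rintro ⟨v, rfl⟩
    rw [P.win_mulVec, show ofWindow m (toWindow m N (P.comb v)) =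
      P.comb v + -(P.comb v - ofWindow m (toWindow m N (P.comb v))) by abel]
    exact Submodule.mem_sup.mpr ⟨_, (P.comb_mem v).1, _,
      neg_mem (sub_ofWindow_mem (P.comb_mem v).2), rfl⟩

end Piece

variable (D)
variable {R : Type u} [CommRing R] [Algebra k R] {M : Submodule (D.AR R) (LaurentSeries R)}

/-- every class modulo `toR M ⊔ tail` is seen in the window -/
theorem exists_window {m : ℤ} (h : D.toR M ⊔ tailAt R m = ⊤) (N : ℕ) (y : LaurentSeries R) :
    ∃ w : Fin N → R, y - ofWindow m w ∈ D.toR M ⊔ tailAt R (m + N) := by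
  obtain ⟨x, hx, z, hz, e⟩ := Submodule.mem_sup.mp (h ▸ Submodule.mem_top : y ∈ D.toR M ⊔ tailAt R m)
  refine ⟨toWindow m N z, ?_⟩
  rw [← e, add_sub_assoc]
  exact Submodule.mem_sup.mpr ⟨x, hx, _, sub_ofWindow_mem hz, rfl⟩

/-- surjectivity on the window -/
theorem Piece.sup_eq_top_iff {m : ℤ} (P : D.Piece M m) (h : D.toR M ⊔ tailAt R m = ⊤) (N : ℕ) :
    D.toR M ⊔ tailAt R (m + N) = ⊤ ↔ Function.Surjective (P.win N).mulVec := by
  refine ⟨fun h' w => (P.ofWindow_mem_sup_iff N w).mp (h' ▸ Submodule.mem_top),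
    fun h' => eq_top_iff.mpr fun y _ => ?_⟩
  obtain ⟨w, hw⟩ := D.exists_window h N y
  have := add_mem hw ((P.ofWindow_mem_sup_iff N w).mpr (h' w))
  rwa [sub_add_cancel] at this

section Map

variable {m : ℤ} {S : Type u} [CommRing S] [Algebra k S] (f : R →ₐ[k] S) (P : D.Piece M m)
  (h : D.toR M ⊔ tailAt R m = ⊤)

theorem Piece.map_proj : (P.map D f h).proj = (P.proj.map f : Matrix P.I P.I S) := by
  ext a a'
  show (coeffMap (f : R →+* S) (P.b a') * coeffMap (f : R →+* S) (P.q a)).coeff (P.deg a) = _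
  rw [← map_mul, coeffMap_coeff]
  rfl

theorem Piece.map_win (N : ℕ) :
    (P.map D f h).win N = ((P.win N).map f : Matrix (Fin N) P.I S) := rfl

include h in
theorem Piece.inf_map_eq_bot_iff (N : ℕ) :
    D.toR (D.mapSub f M) ⊓ tailAt S (m + N) = ⊥ ↔
      Function.Injective ((Matrix.fromRows (P.win N) (1 - P.proj)).map f).mulVec := by
  refine (Piece.inf_eq_bot_iff (P.map D f h) N).trans (iff_of_eq ?_)
  have e : Matrix.fromRows ((P.win N).map f) (1 - P.proj.map f) =
      (Matrix.fromRows (P.win N) (1 - P.proj)).map f := by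
    rw [Matrix.fromRows_map, Matrix.map_sub _ (map_sub f),
      Matrix.map_one _ (map_zero f) (map_one f)]
  rw [← e, ← P.map_proj D f h]
  congr!

include h in
theorem Piece.sup_map_eq_top_iff (N : ℕ) :
    D.toR (D.mapSub f M) ⊔ tailAt S (m + N) = ⊤ ↔
      Function.Surjective ((P.win N).map f).mulVec := by
  refine (Piece.sup_eq_top_iff D (P.map D f h) (D.sup_mapSub f h) N).trans (iff_of_eq ?_)
  rfl

end Map

end CellData

end FLTAgent.RelPic

end
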