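import Fermat.Agent.RelPic.PointEuler

/-!
Area S25, parcel G: families of points of the punctured curve over an affine base as lattices.
A point over `R` with values near the base point is given by fractions `b / τ ^ n` of functions.
-/

set_option autoImplicit false
set_option linter.unusedSectionVars false
set_option synthInstance.maxHeartbeats 200000
set_option maxHeartbeats 800000

noncomputable section

open ModularCurve
open scoped TensorProduct

universe u

namespace FLTAgent.RelPic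

namespace CellData

variable {k : Type u} [Field k] (D : CellData k)

theorem L_self (a : LaurentSeries k) : L k a = a :=
  HahnSeries.ext (funext fun n => by simp [coeff_L])

theorem isUnit_of_lead {R : Type u} [CommRing R] {x : LaurentSeries R} {p : ℤ}
    (hlow : ∀ l < p, x.coeff l = 0) (hp : IsUnit (x.coeff p)) : IsUnit x := by
  set f : PowerSeries R := PowerSeries.mk fun n : ℕ => x.coeff (p + n)
  have hf : IsUnit f := by
    rw [PowerSeries.isUnit_iff_constantCoeff, ← PowerSeries.coeff_zero_eq_constantCoeff_apply,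
      PowerSeries.coeff_mk, Nat.cast_zero, add_zero]
    exact hp
  have e : x = (tUnit R p : LaurentSeries R) * HahnSeries.ofPowerSeries ℤ R f := by
    ext l
    show _ = (HahnSeries.single p (1 : R) * HahnSeries.ofPowerSeries ℤ R f).coeff l
    rw [show l = (l - p) + p by omega, HahnSeries.coeff_single_mul_add, one_mul]
    rcases le_or_gt p l with hl | hl
    · obtain ⟨n, hn⟩ : ∃ n : ℕ, l - p = n := ⟨(l - p).toNat, by omega⟩
      rw [hn, HahnSeries.ofPowerSeries_apply_coeff, PowerSeries.coeff_mk, add_comm p]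
    · rw [hlow _ (by omega), HahnSeries.ofPowerSeries_apply, HahnSeries.embDomain_of_notMem_range]
      rintro ⟨m, hm⟩
      change (m : ℤ) = l - p at hm
      omega
  rw [e]
  exact (Units.isUnit _).mul (hf.map _)

/-- A point with values in `R`, given on fractions with powers of `τ` in the denominator, together
with a series `δ` by which the functions vanishing at it are divisible. -/
structure PtData (R : Type u) [CommRing R] [Algebra k R] where
  /-- the parameter -/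
  τ : R
  /-- the divisor of the point -/
  δ : LaurentSeries R
  /-- `P a n b`: the value of `τ ^ n * a` is `b` -/
  P : D.A → ℕ → R → Prop
  shift : ∀ {a n b}, P a n b → P a (n + 1) (τ * b)
  add : ∀ {a a' n b b'}, P a n b → P a' n b' → P (a + a') n (b + b')
  mul : ∀ {a a' n n' b b'}, P a n b → P a' n' b' → P (a * a') (n + n') (b * b')
  const : ∀ r : k, P (algebraMap k D.A r) 0 (algebraMap k R r)
  exists_P : ∀ a, ∃ n b, P a n b
  uniq : ∀ {a n b b'}, P a n b → P a n b' → b = b'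
  dvd : ∀ {a n b}, P a n b → ∃ x, δ * x = D.ev R ((τ ^ n) ⊗ₜ a - b ⊗ₜ 1)
  div_τ : ∀ (m : ℕ) (x z : LaurentSeries R),
    δ * x = HahnSeries.C (τ ^ m) * z → ∃ x', x = HahnSeries.C (τ ^ m) * x'
  τ_ne : τ ≠ 0
  δ_ne : δ ≠ 0
  at_zero : ∀ φ : R →ₐ[k] k, φ τ = 0 → ∃ a n b, P a n b ∧ n ≠ 0 ∧ φ b ≠ 0

namespace PtData

variable {D} {R : Type u} [CommRing R] [Algebra k R] (pd : D.PtData R)

theorem shiftN {a : D.A} {n : ℕ} {b : R} (h : pd.P a n b) (j : ℕ) :
    pd.P a (n + j) (pd.τ ^ j * b) := by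
  induction j with
  | zero => simpa using h
  | succ j ih =>
    have := pd.shift ih
    rwa [← mul_assoc, ← pow_succ'] at this

/-- the function `τ ^ n * a - b` -/
def gen (a : D.A) (n : ℕ) (b : R) : D.Fun R := (pd.τ ^ n) ⊗ₜ a - b ⊗ₜ 1

theorem ev_gen (a : D.A) (n : ℕ) (b : R) : D.ev R (pd.gen a n b) =
    HahnSeries.C (pd.τ ^ n) * L R (a : LaurentSeries k) - HahnSeries.C b := by
  rw [gen, map_sub, ev_tmul, ev_tmul, OneMemClass.coe_one, map_one, mul_one]

theorem gen_shift (a : D.A) (n j : ℕ) (b : R) :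
    (pd.τ ^ j) ⊗ₜ (1 : D.A) * pd.gen a n b = pd.gen a (n + j) (pd.τ ^ j * b) := by
  rw [gen, gen, mul_sub, Algebra.TensorProduct.tmul_mul_tmul, Algebra.TensorProduct.tmul_mul_tmul,
    one_mul, one_mul, ← pow_add, add_comm j n]

theorem gen_mul (a a' : D.A) (n n' : ℕ) (b b' : R) : pd.gen (a * a') (n + n') (b * b') =
    (pd.τ ^ n) ⊗ₜ a * pd.gen a' n' b' + b' ⊗ₜ (1 : D.A) * pd.gen a n b := by
  simp only [gen, mul_sub, Algebra.TensorProduct.tmul_mul_tmul, one_mul, mul_one]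
  rw [← pow_add, mul_comm (pd.τ ^ n) b', mul_comm b' b]
  abel

theorem gen_const (r : k) : pd.gen (algebraMap k D.A r) 0 (algebraMap k R r) = 0 := by
  rw [gen, pow_zero, Algebra.algebraMap_eq_smul_one, Algebra.algebraMap_eq_smul_one,
    TensorProduct.tmul_smul, TensorProduct.smul_tmul', sub_self]

/-- the ideal generated by the `τ ^ n * a - b` -/
def rel₀ : Ideal (D.Fun R) := Ideal.span {s | ∃ a n b, pd.P a n b ∧ s = pd.gen a n b}

theorem gen_mem_rel₀ {a : D.A} {n : ℕ} {b : R} (h : pd.P a n b) : pd.gen a n b ∈ pd.rel₀ :=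
  Ideal.subset_span ⟨a, n, b, h, rfl⟩

/-- the functions vanishing at the point -/
def rel : Ideal (D.Fun R) where
  carrier := {s | ∃ m : ℕ, (pd.τ ^ m) ⊗ₜ (1 : D.A) * s ∈ pd.rel₀}
  add_mem' := by
    rintro s t ⟨m, hm⟩ ⟨m', hm'⟩
    refine ⟨m + m', ?_⟩
    rw [show (pd.τ ^ (m + m')) ⊗ₜ (1 : D.A) = (pd.τ ^ m) ⊗ₜ (1 : D.A) * (pd.τ ^ m') ⊗ₜ (1 : D.A) by
      rw [Algebra.TensorProduct.tmul_mul_tmul, one_mul, pow_add], mul_add]
    refine add_mem ?_ ?_
    · rw [mul_comm ((pd.τ ^ m) ⊗ₜ (1 : D.A)), mul_assoc]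
      exact Ideal.mul_mem_left _ _ hm
    · rw [mul_assoc]
      exact Ideal.mul_mem_left _ _ hm'
  zero_mem' := ⟨0, by rw [mul_zero]; exact zero_mem _⟩
  smul_mem' := by
    rintro s t ⟨m, hm⟩
    refine ⟨m, ?_⟩
    rw [smul_eq_mul, mul_left_comm]
    exact Ideal.mul_mem_left _ _ hm

theorem gen_mem {a : D.A} {n : ℕ} {b : R} (h : pd.P a n b) : pd.gen a n b ∈ pd.rel :=
  ⟨0, Ideal.mul_mem_left _ _ (pd.gen_mem_rel₀ h)⟩

/-- the functions with a simple pole at the point -/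
def sub : Submodule (D.AR R) (LaurentSeries R) where
  carrier := {x | ∃ s ∈ pd.rel, D.ev R s = pd.δ * x}
  add_mem' := by
    rintro x y ⟨s, hs, e⟩ ⟨t, ht, f⟩
    exact ⟨s + t, add_mem hs ht, by rw [map_add, e, f, mul_add]⟩
  zero_mem' := ⟨0, zero_mem _, by rw [map_zero, mul_zero]⟩
  smul_mem' := by
    rintro ⟨a, ha⟩ x ⟨s, hs, e⟩
    obtain ⟨t, rfl⟩ := D.exists_ev_eq ha
    refine ⟨t * s, Ideal.mul_mem_left _ _ hs, ?_⟩
    show D.ev R (t * s) = pd.δ * (D.ev R t * x)
    rw [map_mul, e, mul_left_comm]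

theorem mem_sub {x : LaurentSeries R} :
    x ∈ pd.sub ↔ ∃ s ∈ pd.rel, D.ev R s = pd.δ * x := Iff.rfl

variable [IsDomain R]

theorem exists_div {s : D.Fun R} (hs : s ∈ pd.rel) : ∃ x ∈ pd.sub, pd.δ * x = D.ev R s := by
  suffices h : ∃ x, pd.δ * x = D.ev R s by
    obtain ⟨x, hx⟩ := h
    exact ⟨x, ⟨s, hs, hx.symm⟩, hx⟩
  obtain ⟨m, hm⟩ := hs
  have h0 : ∃ x, pd.δ * x = D.ev R ((pd.τ ^ m) ⊗ₜ (1 : D.A) * s) := by
    generalize (pd.τ ^ m) ⊗ₜ (1 : D.A) * s = u at hm
    induction hm using Submodule.span_induction with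
    | mem y hy =>
      obtain ⟨a, n, b, h, rfl⟩ := hy
      exact pd.dvd h
    | zero => exact ⟨0, by rw [mul_zero, map_zero]⟩
    | add y z _ _ hy hz =>
      obtain ⟨x, hx⟩ := hy
      obtain ⟨x', hx'⟩ := hz
      exact ⟨x + x', by rw [mul_add, hx, hx', map_add]⟩
    | smul t y _ hy =>
      obtain ⟨x, hx⟩ := hy
      exact ⟨D.ev R t * x, by rw [mul_left_comm, hx, smul_eq_mul, map_mul]⟩
  obtain ⟨x, hx⟩ := h0
  rw [map_mul, ev_tmul, OneMemClass.coe_one, map_one, mul_one] at hx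
  obtain ⟨x', rfl⟩ := pd.div_τ m x _ hx
  refine ⟨x', mul_left_cancel₀ ?_ ((mul_left_comm _ pd.δ x').trans hx)⟩
  rw [Ne, HahnSeries.C_apply, HahnSeries.single_eq_zero_iff]
  exact pow_ne_zero _ pd.τ_ne

variable [IsAlgClosed k] [Algebra.FiniteType k D.A] [IsDedekindDomain D.A]
  [Algebra.FiniteType k R]

/-- the value at a pair of points -/
def evAt (φ : R →ₐ[k] k) (θ : D.A →ₐ[k] k) : D.Fun R →ₐ[k] k :=
  Algebra.TensorProduct.productMap φ θ

theorem evAt_tmul (φ : R →ₐ[k] k) (θ : D.A →ₐ[k] k) (r : R) (a : D.A) :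
    evAt φ θ (r ⊗ₜ a) = φ r * θ a :=
  Algebra.TensorProduct.productMap_apply_tmul _ _ r a

theorem evAt_gen (φ : R →ₐ[k] k) (θ : D.A →ₐ[k] k) (a : D.A) (n : ℕ) (b : R) :
    evAt φ θ (pd.gen a n b) = φ pd.τ ^ n * θ a - φ b := by
  rw [gen, map_sub, evAt_tmul, evAt_tmul, map_one, mul_one, map_pow]

theorem exists_eq_evAt (ψ : D.Fun R →ₐ[k] k) : ∃ φ θ, ψ = evAt φ θ :=
  ⟨ψ.comp Algebra.TensorProduct.includeLeft, ψ.comp Algebra.TensorProduct.includeRight,
    Algebra.TensorProduct.ext' fun r a => by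
      rw [evAt_tmul, show r ⊗ₜ[k] a = r ⊗ₜ (1 : D.A) * (1 : R) ⊗ₜ a by
        rw [Algebra.TensorProduct.tmul_mul_tmul, mul_one, one_mul], map_mul]
      rfl⟩

/-- near a point of its graph the ideal of the point is principal -/
theorem exists_local_gen (φ : R →ₐ[k] k) (θ : D.A →ₐ[k] k) (hτ : φ pd.τ ≠ 0)
    (hc : ∀ a n b, pd.P a n b → φ b = φ pd.τ ^ n * θ a) :
    ∃ f ∈ pd.rel, ∃ h, evAt φ θ h ≠ 0 ∧ ∀ s ∈ pd.rel, ∃ g, h * s = g * f := by
  classical
  set M : Ideal (D.Fun R) := RingHom.ker (evAt φ θ)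
  set m : Ideal D.A := RingHom.ker θ
  have hm : m ≠ ⊥ := D.ker_ne_bot θ
  have hm1 : m.IsPrime := RingHom.ker_isPrime θ
  obtain ⟨π, hπ, hπ'⟩ := SetLike.exists_of_lt
    (show m ^ 2 < m ^ 1 from Ideal.pow_right_strictAnti m hm hm1.ne_top (by norm_num))
  rw [pow_one] at hπ
  have hspan : m ≤ Ideal.span {π} ⊔ m ^ 2 := by
    have h := Ideal.eq_prime_pow_of_succ_lt_of_le hm (i := 1) (I := Ideal.span {π} ⊔ m ^ 2)
      (lt_of_le_not_ge le_sup_right fun h => hπ' (h (Submodule.mem_sup_left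
        (Ideal.mem_span_singleton_self π))))
      ((sup_le ((Ideal.span_singleton_le_iff_mem m).mpr hπ)
        (Ideal.pow_le_self (show 2 ≠ 0 by norm_num))).trans (pow_one m).ge)
    rw [pow_one] at h
    exact h.ge
  obtain ⟨nπ, bπ, hPπ⟩ := pd.exists_P π
  set f := pd.gen π nπ bπ
  set Q : Ideal (D.Fun R) := Ideal.span {f} ⊔ M * pd.rel
  have hbp : ∀ {a : D.A} {n : ℕ} {b : R}, a ∈ m → pd.P a n b → b ⊗ₜ (1 : D.A) ∈ M :=
    fun {a n b} ha h => by
    rw [RingHom.mem_ker, evAt_tmul, map_one, mul_one, hc a n b h, RingHom.mem_ker.mp ha, mul_zero]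
  have hcancel : ∀ c s, s ∈ pd.rel → evAt φ θ c ≠ 0 → c * s ∈ Q → s ∈ Q := fun c s hs hne h => by
    have hc' : c - algebraMap k (D.Fun R) (evAt φ θ c) ∈ M := by
      rw [RingHom.mem_ker, map_sub, AlgHom.commutes, Algebra.algebraMap_self, RingHom.id_apply,
        sub_self]
    have h2 : algebraMap k (D.Fun R) (evAt φ θ c) * s ∈ Q := by
      have := Q.sub_mem h (Ideal.mem_sup_right (S := Ideal.span {f}) (Ideal.mul_mem_mul hc' hs))
      rwa [← sub_mul, sub_sub_cancel] at this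
    have h3 := Q.mul_mem_left (algebraMap k (D.Fun R) (evAt φ θ c)⁻¹) h2
    rwa [← mul_assoc, ← map_mul, inv_mul_cancel₀ hne, map_one, one_mul] at h3
  have htau : ∀ j : ℕ, evAt φ θ ((pd.τ ^ j) ⊗ₜ (1 : D.A)) ≠ 0 := fun j => by
    rw [evAt_tmul, map_one, mul_one, map_pow]; exact pow_ne_zero _ hτ
  let Good : D.A → Prop := fun a => ∃ n b, pd.P a n b ∧ pd.gen a n b ∈ Q
  have hall : ∀ a, Good a → ∀ n b, pd.P a n b → pd.gen a n b ∈ Q := by
    rintro a ⟨n', b', h', hQ⟩ n b h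
    refine hcancel _ _ (pd.gen_mem h) (htau n') ?_
    have e := pd.uniq (pd.shiftN h n') (add_comm n' n ▸ pd.shiftN h' n)
    rw [gen_shift, e, add_comm n n', ← gen_shift]
    exact Q.mul_mem_left _ hQ
  have hadd : ∀ a a', Good a → Good a' → Good (a + a') := fun a a' ha ha' => by
    obtain ⟨n, b, h⟩ := pd.exists_P a
    obtain ⟨n', b', h'⟩ := pd.exists_P a'
    have h₁ := pd.shiftN h n'
    have h₂ := add_comm n' n ▸ pd.shiftN h' n
    refine ⟨_, _, pd.add h₁ h₂, ?_⟩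
    have e : pd.gen (a + a') (n + n') (pd.τ ^ n' * b + pd.τ ^ n * b') =
        pd.gen a (n + n') (pd.τ ^ n' * b) + pd.gen a' (n + n') (pd.τ ^ n * b') := by
      simp only [gen, TensorProduct.tmul_add, TensorProduct.add_tmul]
      abel
    rw [e]
    exact add_mem (hall a ha _ _ h₁) (hall a' ha' _ _ h₂)
  have hzero : Good 0 := ⟨0, _, map_zero (algebraMap k D.A) ▸ pd.const 0, by
    have := pd.gen_const 0
    rw [map_zero] at this
    rw [this]; exact zero_mem _⟩
  have hmul : ∀ a ∈ m, ∀ a' ∈ m, Good (a * a') := fun a ha a' ha' => by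
    obtain ⟨n, b, h⟩ := pd.exists_P a
    obtain ⟨n', b', h'⟩ := pd.exists_P a'
    refine ⟨_, _, pd.mul h h', ?_⟩
    rw [gen_mul]
    refine add_mem (Ideal.mem_sup_right (Ideal.mul_mem_mul ?_ (pd.gen_mem h')))
      (Ideal.mem_sup_right (Ideal.mul_mem_mul (hbp ha' h') (pd.gen_mem h)))
    rw [RingHom.mem_ker, evAt_tmul, RingHom.mem_ker.mp ha, mul_zero]
  have hpi : ∀ r, Good (r * π) := fun r => by
    obtain ⟨n, b, h⟩ := pd.exists_P r
    refine ⟨_, _, pd.mul h hPπ, ?_⟩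
    rw [gen_mul]
    exact add_mem (Ideal.mem_sup_left (Ideal.mul_mem_left _ _ (Ideal.mem_span_singleton_self f)))
      (Ideal.mem_sup_right (Ideal.mul_mem_mul (hbp hπ hPπ) (pd.gen_mem h)))
  have hgood : ∀ a, Good a := fun a => by
    have hmem : a - algebraMap k D.A (θ a) ∈ m := by
      rw [RingHom.mem_ker, map_sub, AlgHom.commutes, Algebra.algebraMap_self, RingHom.id_apply,
        sub_self]
    obtain ⟨x, hx, y, hy, e⟩ := Submodule.mem_sup.mp (hspan hmem)
    obtain ⟨r, rfl⟩ := Ideal.mem_span_singleton'.mp hx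
    have hy' : Good y := by
      rw [pow_two] at hy
      exact Submodule.mul_induction_on hy (fun p hp q hq => hmul p hp q hq) hadd
    have hconst : Good (algebraMap k D.A (θ a)) := ⟨0, _, pd.const _, by
      rw [gen_const]; exact zero_mem _⟩
    have h := hadd _ _ (hadd _ _ (hpi r) hy') hconst
    rwa [e, sub_add_cancel] at h
  have hQ : pd.rel ≤ Q := fun s ⟨j, hs⟩ => hcancel _ _ ⟨j, hs⟩ (htau j) <| by
    refine (Ideal.span_le.mpr ?_ : pd.rel₀ ≤ Q) hs
    rintro _ ⟨a, n, b, h, rfl⟩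
    exact hall a (hgood a) n b h
  have : IsNoetherianRing (D.Fun R) :=
    have : Algebra.FiniteType k (D.Fun R) :=
      Algebra.FiniteType.trans (S := R) inferInstance inferInstance
    Algebra.FiniteType.isNoetherianRing k _
  obtain ⟨r, hr, hr0⟩ := Submodule.exists_sub_one_mem_and_smul_eq_zero_of_fg_of_le_smul M
    (Submodule.map (Submodule.mkQ (Ideal.span {f})) pd.rel) (IsNoetherian.noetherian _) (by
      refine (Submodule.map_mono hQ).trans ?_
      rw [Submodule.map_sup, Submodule.mkQ_map_self, bot_sup_eq, ← smul_eq_mul,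
        Submodule.map_smul''])
  refine ⟨f, pd.gen_mem hPπ, r, ?_, fun s hs => ?_⟩
  · intro h0
    rw [RingHom.mem_ker, map_sub, map_one, h0, zero_sub, neg_eq_zero] at hr
    exact one_ne_zero hr
  · have h := hr0 _ (Submodule.mem_map_of_mem hs)
    rw [← map_smul, Submodule.mkQ_apply, Submodule.Quotient.mk_eq_zero,
      Ideal.mem_span_singleton'] at h
    exact h.imp fun g hg => hg.symm

theorem isUnit_sub (hu : ∃ x ∈ pd.sub, IsUnit x) : IsUnit pd.sub := by
  classical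
  have : IsNoetherianRing (D.Fun R) :=
    have : Algebra.FiniteType k (D.Fun R) :=
      Algebra.FiniteType.trans (S := R) inferInstance inferInstance
    Algebra.FiniteType.isNoetherianRing k _
  let J : Submodule (D.AR R) (LaurentSeries R) :=
    { carrier := {y | ∀ x ∈ pd.sub, x * y ∈ D.AR R}
      add_mem' := fun {y z} hy hz x hx => by rw [mul_add]; exact add_mem (hy x hx) (hz x hx)
      zero_mem' := fun x _ => by rw [mul_zero]; exact zero_mem _
      smul_mem' := fun a y hy x hx => by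
        show x * ((a : LaurentSeries R) * y) ∈ _
        rw [mul_left_comm]
        exact mul_mem a.2 (hy x hx) }
  let T : Ideal (D.Fun R) :=
    { carrier := {s | D.ev R s ∈ pd.sub * J}
      add_mem' := fun {s t} hs ht => by show D.ev R (s + t) ∈ pd.sub * J; rw [map_add]; exact add_mem hs ht
      zero_mem' := by show D.ev R 0 ∈ pd.sub * J; rw [map_zero]; exact zero_mem _
      smul_mem' := fun t s hs => by
        show D.ev R (t * s) ∈ pd.sub * J
        rw [map_mul]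
        exact Submodule.smul_mem _ (⟨_, D.ev_mem_AR t⟩ : D.AR R) hs }
  have hδ : pd.δ ∈ J := fun x ⟨s, _, e⟩ => by
    rw [mul_comm, ← e]
    exact D.ev_mem_AR s
  have hrel : ∀ s ∈ pd.rel, s ∈ T := fun s hs => by
    obtain ⟨x, hx, e⟩ := pd.exists_div hs
    show D.ev R s ∈ pd.sub * J
    rw [← e, mul_comm pd.δ x]
    exact Submodule.mul_mem_mul hx hδ
  suffices hT : T = ⊤ by
    refine isUnit_iff_exists_inv.mpr ⟨J, le_antisymm (Submodule.mul_le.mpr fun x hx y hy =>
      Submodule.mem_one.mpr ⟨⟨_, hy x hx⟩, rfl⟩) (Submodule.one_le.mpr ?_)⟩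
    have h : (1 : D.Fun R) ∈ T := hT ▸ trivial
    rw [← map_one (D.ev R)]
    exact h
  by_contra hne
  obtain ⟨P, hP, hle⟩ := Ideal.exists_le_maximal _ hne
  let : Field (D.Fun R ⧸ P) := Ideal.Quotient.field P
  have : Algebra.FiniteType k (D.Fun R) :=
    Algebra.FiniteType.trans (S := R) inferInstance inferInstance
  have : Module.Finite k (D.Fun R ⧸ P) := finite_of_finite_type_of_isJacobsonRing k (D.Fun R ⧸ P)
  have hbij := IsAlgClosed.algebraMap_bijective_of_isIntegral (k := k) (K := D.Fun R ⧸ P)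
  set e := AlgEquiv.ofBijective (Algebra.ofId k (D.Fun R ⧸ P)) hbij
  set ψ : D.Fun R →ₐ[k] k := e.symm.toAlgHom.comp (Ideal.Quotient.mkₐ k P)
  have hψ : ∀ s ∈ P, ψ s = 0 := fun s hs => by
    show e.symm (Ideal.Quotient.mk P s) = 0
    rw [Ideal.Quotient.eq_zero_iff_mem.mpr hs, map_zero]
  obtain ⟨φ, θ, hφθ⟩ := exists_eq_evAt ψ
  have hall : ∀ a n b, pd.P a n b → φ b = φ pd.τ ^ n * θ a := fun a n b h => by
    have := hψ _ (hle (hrel _ (pd.gen_mem h)))
    rw [hφθ, evAt_gen, sub_eq_zero] at this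
    exact this.symm
  have hτ : φ pd.τ ≠ 0 := fun h0 => by
    obtain ⟨a, n, b, h, hn, hb⟩ := pd.at_zero φ h0
    exact hb ((hall a n b h).trans (by rw [h0, zero_pow hn, zero_mul]))
  obtain ⟨f, hf, h, hh, hdiv⟩ := pd.exists_local_gen φ θ hτ hall
  have hh' : D.ev R h ≠ 0 := fun e0 => hh (by
    rw [D.ev_injective (e0.trans (map_zero (D.ev R)).symm), map_zero])
  obtain ⟨xm, ⟨sm, hsm, esm⟩, hxm⟩ := hu
  obtain ⟨xf, hxf, exf⟩ := pd.exists_div hf
  obtain ⟨g, hg⟩ := hdiv sm hsm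
  have hgm : D.ev R h * xm = D.ev R g * xf := by
    refine mul_left_cancel₀ pd.δ_ne ?_
    rw [mul_left_comm, ← esm, mul_left_comm, exf, ← map_mul, ← map_mul, hg]
  set y : LaurentSeries R := D.ev R g * ↑hxm.unit⁻¹
  have hy : y ∈ J := fun x ⟨s, hs, es⟩ => by
    obtain ⟨gs, hgs⟩ := hdiv s hs
    have hx : D.ev R h * x = D.ev R gs * xf := by
      refine mul_left_cancel₀ pd.δ_ne ?_
      rw [mul_left_comm, ← es, mul_left_comm, exf, ← map_mul, ← map_mul, hgs]
    have e2 : x * y = D.ev R gs := mul_left_cancel₀ hh' (by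
      show D.ev R h * (x * (D.ev R g * ↑hxm.unit⁻¹)) = _
      rw [← mul_assoc, hx, show D.ev R gs * xf * (D.ev R g * ↑hxm.unit⁻¹) =
        D.ev R gs * ((D.ev R g * xf) * ↑hxm.unit⁻¹) by ring, ← hgm, mul_assoc, IsUnit.mul_val_inv,
        mul_one, mul_comm])
    rw [e2]
    exact D.ev_mem_AR gs
  have hT : h ∈ T := by
    show D.ev R h ∈ pd.sub * J
    have e3 : D.ev R h = xf * y := by
      show _ = xf * (D.ev R g * ↑hxm.unit⁻¹)
      rw [← mul_assoc, mul_comm xf, ← hgm, mul_assoc, IsUnit.mul_val_inv, mul_one]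
    rw [e3]
    exact Submodule.mul_mem_mul hxf hy
  exact hh (hφθ ▸ hψ h (hle hT))

/-! ### fibres -/

theorem exists_point (φ : R →ₐ[k] k) (hτ : φ pd.τ ≠ 0) :
    ∃ θ : D.A →ₐ[k] k, ∀ a n b, pd.P a n b → φ b = φ pd.τ ^ n * θ a := by
  choose n b hP using pd.exists_P
  let v : D.A → k := fun a => φ (b a) / φ pd.τ ^ n a
  have hv : ∀ a n' b', pd.P a n' b' → φ b' = φ pd.τ ^ n' * v a := fun a n' b' h => by
    have e := congrArg φ (pd.uniq (pd.shiftN h (n a)) (add_comm (n a) n' ▸ pd.shiftN (hP a) n'))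
    rw [map_mul, map_mul, map_pow, map_pow] at e
    show _ = _ * (_ / _)
    field_simp
    linear_combination e
  have hmul : ∀ a a', v (a * a') = v a * v a' := fun a a' => by
    have h := hv _ _ _ (pd.mul (hP a) (hP a'))
    rw [map_mul, hv _ _ _ (hP a), hv _ _ _ (hP a'), pow_add] at h
    refine mul_left_cancel₀ (mul_ne_zero (pow_ne_zero (n a) hτ) (pow_ne_zero (n a') hτ)) ?_
    linear_combination -h
  have hadd : ∀ a a', v (a + a') = v a + v a' := fun a a' => by
    have h := hv _ _ _ (pd.add (pd.shiftN (hP a) (n a'))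
      (add_comm (n a') (n a) ▸ pd.shiftN (hP a') (n a)))
    rw [map_add, map_mul, map_mul, map_pow, map_pow, hv _ _ _ (hP a), hv _ _ _ (hP a')] at h
    refine mul_left_cancel₀ (pow_ne_zero (n a + n a') hτ) ?_
    rw [← h, pow_add]
    ring
  have hconst : ∀ r, v (algebraMap k D.A r) = r := fun r => by
    have h := hv _ _ _ (pd.const r)
    rw [AlgHom.commutes, pow_zero, one_mul] at h
    exact h.symm
  exact ⟨{ toFun := v
           map_one' := by simpa using hconst 1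
           map_mul' := hmul
           map_zero' := by simpa using hconst 0
           map_add' := hadd
           commutes' := hconst }, hv⟩

theorem theta_red (φ : R →ₐ[k] k) (θ : D.A →ₐ[k] k) (s : D.Fun R) :
    θ (D.red φ s) = evAt φ θ s := by
  induction s using TensorProduct.induction_on with
  | zero => simp
  | add s t hs ht => rw [map_add, map_add, map_add, hs, ht]
  | tmul r a =>
    rw [red_tmul, evAt_tmul, map_mul, AlgHom.commutes, Algebra.algebraMap_self, RingHom.id_apply]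

theorem evAt_rel {φ : R →ₐ[k] k} {θ : D.A →ₐ[k] k} (hτ : φ pd.τ ≠ 0)
    (hc : ∀ a n b, pd.P a n b → φ b = φ pd.τ ^ n * θ a) {s : D.Fun R} (hs : s ∈ pd.rel) :
    evAt φ θ s = 0 := by
  obtain ⟨m, hm⟩ := hs
  have h : evAt φ θ ((pd.τ ^ m) ⊗ₜ (1 : D.A) * s) = 0 := by
    refine RingHom.mem_ker.mp ((Ideal.span_le.mpr ?_ : pd.rel₀ ≤ RingHom.ker (evAt φ θ)) hm)
    rintro _ ⟨a, n, b, h, rfl⟩
    rw [SetLike.mem_coe, RingHom.mem_ker, evAt_gen, hc a n b h, sub_self]
  rw [map_mul, evAt_tmul, map_one, mul_one, map_pow] at h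
  exact (mul_eq_zero.mp h).resolve_left (pow_ne_zero _ hτ)

theorem span_mul_mapSub_sub_point (φ : R →ₐ[k] k) (θ : D.A →ₐ[k] k) (hτ : φ pd.τ ≠ 0)
    (hc : ∀ a n b, pd.P a n b → φ b = φ pd.τ ^ n * θ a) :
    Submodule.span (D.AR k) {coeffMap (φ : R →+* k) pd.δ} * D.mapSub φ pd.sub =
      D.idSub k (RingHom.ker θ) := by
  show Submodule.span (D.AR k) _ * Submodule.span (D.AR k) _ = _
  rw [Submodule.span_mul_span]
  refine le_antisymm (Submodule.span_le.mpr ?_) (Submodule.span_le.mpr ?_)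
  · rintro _ ⟨_, rfl, _, ⟨x, ⟨s, hs, e⟩, rfl⟩, rfl⟩
    show coeffMap (φ : R →+* k) pd.δ * coeffMap (φ : R →+* k) x ∈ D.idSub k (RingHom.ker θ)
    rw [← map_mul, ← e, coeffMap_ev, ← L_self ((D.red φ s : D.A) : LaurentSeries k)]
    refine D.L_mem_idSub k ?_
    rw [RingHom.mem_ker, theta_red]
    exact pd.evAt_rel hτ hc hs
  · rintro _ ⟨a, ha, rfl⟩
    obtain ⟨n, b, h⟩ := pd.exists_P a
    obtain ⟨x, hx, e⟩ := pd.exists_div (pd.gen_mem h)
    have h1 : coeffMap (φ : R →+* k) pd.δ * coeffMap (φ : R →+* k) x =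
        HahnSeries.C (φ pd.τ ^ n) * L k (a : LaurentSeries k) := by
      rw [← map_mul, e, ev_gen, map_sub, map_mul, coeffMap_L]
      simp only [HahnSeries.C_apply, coeffMap_single, AlgHom.coe_toRingHom, map_pow, hc a n b h,
        RingHom.mem_ker.mp ha, mul_zero, map_zero, sub_zero]
    have h2 : L k (a : LaurentSeries k) = HahnSeries.C (φ pd.τ ^ n)⁻¹ *
        (coeffMap (φ : R →+* k) pd.δ * coeffMap (φ : R →+* k) x) := by
      rw [h1, ← mul_assoc, ← map_mul, inv_mul_cancel₀ (pow_ne_zero _ hτ), map_one, one_mul]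
    show L k (a : LaurentSeries k) ∈ _
    rw [h2]
    exact Submodule.smul_mem _ (⟨_, D.C_mem_AR _⟩ : D.AR k)
      (Submodule.subset_span (Set.mul_mem_mul rfl ⟨x, hx, rfl⟩))

theorem span_mul_mapSub_sub_zero (φ : R →ₐ[k] k) (hτ : φ pd.τ = 0) :
    Submodule.span (D.AR k) {coeffMap (φ : R →+* k) pd.δ} * D.mapSub φ pd.sub = 1 := by
  show Submodule.span (D.AR k) _ * Submodule.span (D.AR k) _ = _
  rw [Submodule.span_mul_span]
  refine le_antisymm (Submodule.span_le.mpr ?_) (Submodule.one_le.mpr ?_)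
  · rintro _ ⟨_, rfl, _, ⟨x, ⟨s, hs, e⟩, rfl⟩, rfl⟩
    show coeffMap (φ : R →+* k) pd.δ * coeffMap (φ : R →+* k) x ∈
      (1 : Submodule (D.AR k) (LaurentSeries k))
    rw [← map_mul, ← e]
    exact Submodule.mem_one.mpr ⟨⟨_, D.coeffMap_mem_AR φ (D.ev_mem_AR s)⟩, rfl⟩
  · obtain ⟨a, n, b, h, hn, hb⟩ := pd.at_zero φ hτ
    obtain ⟨x, hx, e⟩ := pd.exists_div (pd.gen_mem h)
    have h1 : coeffMap (φ : R →+* k) pd.δ * coeffMap (φ : R →+* k) x =
        HahnSeries.C (-φ b) := by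
      rw [← map_mul, e, ev_gen, map_sub, map_mul, coeffMap_L]
      simp only [HahnSeries.C_apply, coeffMap_single, AlgHom.coe_toRingHom, map_pow, hτ,
        zero_pow hn, map_zero, zero_mul, zero_sub, map_neg]
    have h2 : (1 : LaurentSeries k) = HahnSeries.C (-φ b)⁻¹ *
        (coeffMap (φ : R →+* k) pd.δ * coeffMap (φ : R →+* k) x) := by
      rw [h1, ← map_mul, inv_mul_cancel₀ (neg_ne_zero.mpr hb), map_one]
    rw [h2]
    exact Submodule.smul_mem _ (⟨_, D.C_mem_AR _⟩ : D.AR k)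
      (Submodule.subset_span (Set.mul_mem_mul rfl ⟨x, hx, rfl⟩))

/-- the family of classes `point - base point` -/
def fam (hu : ∃ x ∈ pd.sub, IsUnit x) : D.Lattice R :=
  D.twist R (-1) * ((pd.isUnit_sub hu).unit)⁻¹

theorem mk_fam_point (hu : ∃ x ∈ pd.sub, IsUnit x) (φ : R →ₐ[k] k) (θ : D.A →ₐ[k] k)
    (hτ : φ pd.τ ≠ 0) (hc : ∀ a n b, pd.P a n b → φ b = φ pd.τ ^ n * θ a) {v : (PowerSeries k)ˣ}
    (hv : coeffMap (φ : R →+* k) pd.δ = HahnSeries.ofPowerSeries ℤ k (v : PowerSeries k)) :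
    (QuotientGroup.mk (D.mapLat φ (pd.fam hu)) : D.Class k) =
      QuotientGroup.mk (D.twist k (-1) * D.ptLat k θ) := by
  have e : D.ofSeries k v * D.mapLat φ (pd.isUnit_sub hu).unit = D.ptIdeal k θ := by
    refine Units.ext ?_
    rw [Units.val_mul, ptIdeal, idLat_val]
    show Submodule.span (D.AR k) {HahnSeries.ofPowerSeries ℤ k (v : PowerSeries k)} *
      D.mapSub φ (pd.isUnit_sub hu).unit.1 = _
    rw [IsUnit.unit_spec, ← hv]
    exact pd.span_mul_mapSub_sub_point φ θ hτ hc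
  refine QuotientGroup.eq.mpr ⟨v⁻¹, ?_⟩
  rw [fam, map_mul, map_inv, mapLat_twist, ptLat, ← e, map_inv]
  simp only [mul_inv_rev, inv_inv]
  rw [mul_assoc, inv_mul_cancel_left, ← mul_assoc, mul_inv_cancel, one_mul]

theorem mk_fam_zero (hu : ∃ x ∈ pd.sub, IsUnit x) (φ : R →ₐ[k] k) (hτ : φ pd.τ = 0)
    (hv : coeffMap (φ : R →+* k) pd.δ = HahnSeries.single (1 : ℤ) 1) :
    (QuotientGroup.mk (D.mapLat φ (pd.fam hu)) : D.Class k) = 1 := by
  have e : D.twist k 1 * D.mapLat φ (pd.isUnit_sub hu).unit = 1 := by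
    refine Units.ext ?_
    rw [Units.val_mul, Units.val_one]
    show Submodule.span (D.AR k) {(HahnSeries.single (1 : ℤ) (1 : k) : LaurentSeries k)} *
      D.mapSub φ (pd.isUnit_sub hu).unit.1 = _
    rw [IsUnit.unit_spec, ← hv]
    exact pd.span_mul_mapSub_sub_zero φ hτ
  rw [fam, map_mul, map_inv, mapLat_twist, eq_inv_of_mul_eq_one_right e, inv_inv, ← twist_add,
    neg_add_cancel, twist_zero]
  rfl

end PtData

/-! ### a point with values in the functions -/

variable {D} {R : Type u} [CommRing R] [Algebra k R] [IsDomain R]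

/-- a point with values in `R` -/
def ptDataOfHom (χ : D.A →ₐ[k] R) : D.PtData R where
  τ := 1
  δ := 1
  P a _ b := b = χ a
  shift h := by rw [one_mul, h]
  add h h' := by rw [h, h', map_add]
  mul h h' := by rw [h, h', map_mul]
  const r := (χ.commutes r).symm
  exists_P a := ⟨0, χ a, rfl⟩
  uniq h h' := h.trans h'.symm
  dvd _ := ⟨_, one_mul _⟩
  div_τ m x z _ := ⟨x, by rw [one_pow, map_one, one_mul]⟩
  τ_ne := one_ne_zero
  δ_ne := one_ne_zero
  at_zero φ h := absurd h (by rw [map_one]; exact one_ne_zero)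

variable [IsAlgClosed k] [Algebra.FiniteType k D.A] [IsDedekindDomain D.A]
  [Algebra.FiniteType k R]

theorem exists_unit_ptDataOfHom (χ : D.A →ₐ[k] R) :
    ∃ x ∈ (ptDataOfHom χ).sub, IsUnit x := by
  set a : D.A := ⟨D.an D.deg D.deg_notMem, D.an_mem _ _⟩
  refine ⟨D.ev R ((ptDataOfHom χ).gen a 0 (χ a)),
    ⟨_, (ptDataOfHom χ).gen_mem (rfl : χ a = χ a), (one_mul _).symm⟩, ?_⟩
  rw [PtData.ev_gen, pow_zero, map_one, one_mul]
  have hd : -(D.deg : ℤ) < 0 := by
    have : 0 < D.deg := Nat.succ_pos _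
    omega
  refine isUnit_of_lead (p := -(D.deg : ℤ)) (fun l hl => ?_) ?_
  · rw [HahnSeries.coeff_sub, coeff_L, D.an_deg_coeff l hl, map_zero, HahnSeries.C_apply,
      HahnSeries.coeff_single_of_ne (by omega), sub_zero]
  · rw [HahnSeries.coeff_sub, coeff_L, D.an_coeff _ _ D.deg_notMem, if_pos rfl, map_one,
      HahnSeries.C_apply, HahnSeries.coeff_single_of_ne (by omega), sub_zero]
    exact isUnit_one

variable (D) in
/-- the family of points away from the base point -/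
theorem exists_family_away :
    ∃ F : D.Lattice D.A, ∀ θ : D.A →ₐ[k] k,
      (QuotientGroup.mk (D.mapLat θ F) : D.Class k) =
        QuotientGroup.mk (D.twist k (-1) * D.ptLat k θ) := by
  refine ⟨(ptDataOfHom (AlgHom.id k D.A)).fam (exists_unit_ptDataOfHom _), fun θ => ?_⟩
  refine PtData.mk_fam_point _ _ θ θ ?_ ?_ (v := 1) ?_
  · show θ 1 ≠ 0
    rw [map_one]; exact one_ne_zero
  · intro a n b h
    show θ b = θ 1 ^ n * θ a
    rw [show b = a from h, map_one, one_pow, one_mul]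
  · show coeffMap (θ : D.A →+* k) 1 = _
    rw [Units.val_one, map_one, map_one]

end CellData

end FLTAgent.RelPic

end
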