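import Fermat.Agent.RelPic.FamilyNear
import Fermat.Agent.RelPic.ChartExists
import Fermat.Agent.RelPic.IdealBundle
import Fermat.Agent.RelPic.Descent

/-!
Area S25, parcel G: the functions on the two opens of a chart as expansions over the ground field,
and the family of points near the base point on an affine open of the curve.
-/

set_option autoImplicit false
set_option linter.unusedSectionVars false
set_option synthInstance.maxHeartbeats 200000
set_option maxHeartbeats 800000

noncomputable section

universe u

open CategoryTheory CategoryTheory.Limits AlgebraicGeometry TopologicalSpace ModularCurve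
open AlgebraicGeometry.RelPicard NeronModelInfra

namespace FLTAgent.RelPic

open CellData

variable {k : Type u} [Field k] {C : Scheme.{u}} (c : C ⟶ Spec (CommRingCat.of k))

theorem base_self : base (k := k) k = 𝟙 _ := by
  rw [base, Algebra.algebraMap_self, CommRingCat.ofHom_id, Spec.map_id]

instance : IsIso (base (k := k) k) := by rw [base_self]; infer_instance

theorem pb_fst_strSec (O : C.Opens) (r : k) :
    pb (pullback.fst c (base (k := k) k)) (le_refl (preR c k O)) (strSec c O r) =
      ofBase c k (preR c k O) r := by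
  have h : pullback.fst c (base (k := k) k) ≫ c = pullback.snd c (base (k := k) k) := by
    rw [pullback.condition, base_self, Category.comp_id]
  refine (pb_comp (pullback.fst c (base (k := k) k)) c le_top _ _).trans ?_
  exact pb_congr h _ _

theorem basicOpen_pb_fst (U : C.Opens) (s : Γ(C, U)) :
    (XR c k).basicOpen (pb (pullback.fst c (base (k := k) k)) (le_refl (preR c k U)) s) =
      pullback.fst c (base (k := k) k) ⁻¹ᵁ C.basicOpen s := by
  rw [Scheme.preimage_basicOpen, pb, Scheme.Hom.app_eq_appLE]

theorem fst_secR_apply (ε : SchemeHomOver (𝟙 (Spec (CommRingCat.of k))) c)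
    (x : Spec (CommRingCat.of k)) :
    pullback.fst c (base (k := k) k) (secR k c ε x) = x0 c ε := by
  rw [← Scheme.Hom.comp_apply, secR_fst, Scheme.Hom.comp_apply]
  exact congrArg ε.1 (Subsingleton.elim (α := PrimeSpectrum k) _ _)

variable {c} {ε : SchemeHomOver (𝟙 (Spec (CommRingCat.of k))) c} {D : CellData k}
variable (ch : Chart c ε D)

/-- functions over the ground field, as functions on the base change -/
def toXk (O : C.Opens) : Sec c O →+* Γ(XR c k, preR c k O) :=
  pb (pullback.fst c (base (k := k) k)) (le_refl (preR c k O))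

theorem bijective_toXk (O : C.Opens) : Function.Bijective (toXk (c := c) O) :=
  bijective_pb _ (fun x _ => (pullback.fst c (base (k := k) k)).surjective x) le_rfl le_rfl

theorem rs_toXk {O O' : C.Opens} (h : O' ≤ O) (s : Sec c O) :
    rs ((pullback.fst c (base (k := k) k)).preimage_mono h) (toXk O s) = toXk O' (secRes c h s) :=
  (rs_pb (pullback.fst c (base (k := k) k)) (le_refl (preR c k O)) _ s).trans
    (pb_rs (pullback.fst c (base (k := k) k)) (le_refl (preR c k O')) h s).symm

namespace Chart

/-- the expansions on the punctured neighbourhood over the ground field -/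
def expWk : Sec c (ch.U ⊓ ch.V) →+* LaurentSeries k := (ch.expW k).comp (toXk _)

theorem expWk_injective : Function.Injective ch.expWk :=
  (ch.expW_injective k).comp (bijective_toXk _).1

/-- the expansions near the base point over the ground field -/
def expVk : Sec c ch.V →ₐ[k] PowerSeries k where
  toRingHom := (ch.expV k).comp (toXk _)
  commutes' r := by
    refine (congrArg (ch.expV k) (pb_fst_strSec c ch.V r)).trans ?_
    rw [ch.expV_ofBase, PowerSeries.algebraMap_apply, Algebra.algebraMap_self, RingHom.id_apply]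

theorem expWk_resV (s : Sec c ch.V) :
    ch.expWk (secRes c inf_le_right s) = HahnSeries.ofPowerSeries ℤ k (ch.expVk s) := by
  refine (congrArg (ch.expW k) (rs_toXk inf_le_right s).symm).trans ?_
  exact ch.expW_rsV' k _

theorem expV_expWk_ofBase (r : k) :
    ch.expW k (ofBase c k (ch.XW k) r) = HahnSeries.C r := by
  rw [← rs_ofBase c k (ch.XW_le_XV k), ch.expW_rsV', ch.expV_ofBase, HahnSeries.ofPowerSeries_C]

/-- the expansions away from the base point over the ground field -/
def expUk : Sec c ch.U →ₐ[k] LaurentSeries k where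
  toRingHom := (ch.expU k).comp (toXk _)
  commutes' r := by
    refine (congrArg (ch.expU k) (pb_fst_strSec c ch.U r)).trans ?_
    rw [← ch.expW_rsU', rs_ofBase c k (ch.XW_le_XU k), expV_expWk_ofBase,
      algebraMap_LS, Algebra.algebraMap_self, RingHom.id_apply]

theorem expUk_injective : Function.Injective ch.expUk :=
  (ch.expU_injective k).comp (bijective_toXk _).1

theorem expWk_resU (s : Sec c ch.U) : ch.expWk (secRes c inf_le_left s) = ch.expUk s := by
  refine (congrArg (ch.expW k) (rs_toXk inf_le_left s).symm).trans ?_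
  exact ch.expW_rsU' k _

theorem range_expUk : ch.expUk.range = D.A := by
  ext x
  constructor
  · rintro ⟨s, rfl⟩
    refine D.AR_induction (P := fun y => y ∈ D.A) (fun r => C_mem D.A r) (fun a ha => ?_)
      (fun _ _ => add_mem) (fun _ => neg_mem) (fun _ _ => mul_mem) (ch.expU_mem k _)
    rwa [L_self]
  · intro hx
    obtain ⟨f, hf⟩ := (ch.range_expU k).ge (show x ∈ D.AR k by
      rw [← L_self x]; exact D.L_mem_AR hx)
    obtain ⟨s, rfl⟩ := (bijective_toXk ch.U).2 f
    exact ⟨s, hf⟩

/-- the functions away from the base point -/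
def secU : Sec c ch.U ≃ₐ[k] D.A :=
  (AlgEquiv.ofInjective ch.expUk ch.expUk_injective).trans
    (Subalgebra.equivOfEq _ _ ch.range_expUk)

theorem secU_val (s : Sec c ch.U) : (ch.secU s : LaurentSeries k) = ch.expUk s := rfl

/-- the parameter, as a function near the base point -/
def τs : Sec c ch.V := ch.τ

theorem expVk_τ : ch.expVk ch.τs = PowerSeries.X := ch.expV_τ k

/-- the functions near the base point, as a ring for the family of points -/
def nearRing : D.NearRing (Sec c ch.V) where
  e := ch.expVk
  inj := (ch.expV_injective k).comp (bijective_toXk _).1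
  τ := ch.τs
  e_τ := ch.expVk_τ
  dvd s hs := by
    obtain ⟨g, hg⟩ := ch.exists_eq_τR_mul k (toXk ch.V s) hs
    obtain ⟨g₀, rfl⟩ := (bijective_toXk ch.V).2 g
    exact ⟨g₀, (bijective_toXk ch.V).1 (hg.trans
      (map_mul (toXk (c := c) ch.V) ch.τs g₀).symm)⟩
  mem a ha n hn := by
    obtain ⟨s, hs⟩ := (show a ∈ ch.expUk.range from ch.range_expUk.ge ha)
    change ch.expUk s = a at hs
    set q : PowerSeries k := PowerSeries.mk fun j : ℕ => a.coeff ((j : ℤ) - n) with hq
    have e : HahnSeries.single (n : ℤ) 1 * a = HahnSeries.ofPowerSeries ℤ k q := by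
      ext l
      rw [show l = (l - n) + n by omega, HahnSeries.coeff_single_mul_add, one_mul,
        show l - (n : ℤ) + n = l by omega]
      rcases le_or_gt 0 l with hl | hl
      · obtain ⟨j, rfl⟩ := Int.eq_ofNat_of_zero_le hl
        rw [HahnSeries.ofPowerSeries_apply_coeff, hq, PowerSeries.coeff_mk]
      · rw [hn _ (by omega), HahnSeries.ofPowerSeries_apply, HahnSeries.embDomain_of_notMem_range]
        rintro ⟨m, hm⟩
        change (m : ℤ) = l at hm
        omega
    have hexp : ch.expW k (rs (ch.XW_le_XV k) (ch.τR k) ^ n * rs (ch.XW_le_XU k) (toXk ch.U s)) =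
        HahnSeries.ofPowerSeries ℤ k q := by
      rw [map_mul, map_pow, ch.expW_τR, ch.expW_rsU', HahnSeries.single_pow, one_pow, nsmul_one,
        show ch.expU k (toXk ch.U s) = a from hs, e]
    obtain ⟨f', hf'⟩ := ch.exists_extend k _ q hexp
    obtain ⟨b, rfl⟩ := (bijective_toXk ch.V).2 f'
    refine ⟨b, ?_⟩
    rw [e]
    exact (ch.expW_rsV' k _).symm.trans ((congrArg (ch.expW k) hf').trans hexp)

theorem near_compat {W : C.Opens} (hU : W ≤ ch.U) (hV : W ≤ ch.V)
    (χ : Sec c W →ₐ[k] k) (a : D.A) (n : ℕ) (b : Sec c ch.V)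
    (h : HahnSeries.ofPowerSeries ℤ k (ch.expVk b) =
      HahnSeries.single (n : ℤ) 1 * (a : LaurentSeries k)) :
    χ (secRes c hV b) = χ (secRes c hV ch.τs) ^ n * χ (secRes c hU (ch.secU.symm a)) := by
  have e : secRes c (inf_le_right : ch.U ⊓ ch.V ≤ ch.V) b =
      secRes c inf_le_right ch.τs ^ n * secRes c inf_le_left (ch.secU.symm a) := by
    refine ch.expWk_injective ?_
    rw [map_mul, map_pow, expWk_resV, expWk_resV, expWk_resU, h, expVk_τ,
      HahnSeries.ofPowerSeries_X, HahnSeries.single_pow, one_pow, nsmul_one, ← secU_val,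
      AlgEquiv.apply_symm_apply]
  have h2 : ∀ {O : C.Opens} (h : ch.U ⊓ ch.V ≤ O) (h' : W ≤ O) (s : Sec c O),
      secRes c (le_inf hU hV) (secRes c h s) = secRes c h' s := fun h h' s =>
    rs_rs h (le_inf hU hV) s
  have e2 := congrArg (fun x => χ (secRes c (le_inf hU hV) x)) e
  simp only [map_mul, map_pow] at e2
  rwa [h2 inf_le_right hV, h2 inf_le_right hV, h2 inf_le_left hU] at e2

variable [IsAlgClosed k] [IsIntegral C] [IsProper c] [SmoothOfRelativeDimension 1 c]
  [Algebra.FiniteType k D.A] [IsDedekindDomain D.A]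

include ch in
/-- the family of points near the base point, on an affine open of the curve -/
theorem exists_family_near : ∃ (O : C.Opens) (hle : O ≤ ch.V), IsAffineOpen O ∧ x0 c ε ∈ O ∧
    ∃ F : D.Lattice (Sec c O), ∀ φ : Sec c O →ₐ[k] k,
      (φ (secRes c hle ch.τs) = 0 → (QuotientGroup.mk (D.mapLat φ F) : D.Class k) = 1) ∧
      (φ (secRes c hle ch.τs) ≠ 0 → ∀ (W : C.Opens) (hWU : W ≤ ch.U) (hWO : W ≤ O)
        (χ : Sec c W →ₐ[k] k), χ.comp (secRes c hWO) = φ →
        (QuotientGroup.mk (D.mapLat φ F) : D.Class k) = QuotientGroup.mk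
          (D.twist k (-1) *
            D.ptLat k ((χ.comp (secRes c hWU)).comp ch.secU.symm.toAlgHom))) := by
  have : Algebra.FiniteType k (Sec c ch.V) := finiteType_sec c ch.hV
  have : IsIntegral C := inferInstance
  obtain ⟨h, hh, H⟩ := ch.nearRing.exists_family
  have hη : genericPoint C ∈ ch.V := (genericPoint_specializes (x0 c ε)).mem_open ch.V.2 ch.mem
  set O : C.Opens := C.basicOpen (h : Γ(C, ch.V)) with hOdef
  have hle : O ≤ ch.V := C.basicOpen_le _
  have hO : IsAffineOpen O := ch.hV.basicOpen _
  have hx : x0 c ε ∈ O := by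
    have hval : IsUnit (ch.value k (toXk ch.V h)) := (Ne.isUnit hh)
    have hmem : secR k c ε (IsLocalRing.closedPoint k) ∈
        (XR c k).basicOpen (toXk (c := c) ch.V h) := by
      refine ch.mem_basicOpen_of_isUnit_value k hval (ch.top_le_preimage k trivial) fun hW => ?_
      have hfst := fst_secR_apply c ε (IsLocalRing.closedPoint k)
      have hU : x0 c ε ∈ (ch.U : Set C) := hfst ▸ hW.1
      rw [ch.coe_U] at hU
      exact hU rfl
    have hmem' : pullback.fst c (base k) (secR k c ε (IsLocalRing.closedPoint k)) ∈ O :=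
      (basicOpen_pb_fst c ch.V (h : Γ(C, ch.V))).le hmem
    exact (fst_secR_apply c ε (IsLocalRing.closedPoint k)) ▸ hmem'
  have hηO : genericPoint C ∈ O := (genericPoint_specializes (x0 c ε)).mem_open O.2 hx
  have : Algebra.FiniteType k (Sec c O) := finiteType_sec c hO
  have : Nonempty O := ⟨⟨_, hx⟩⟩
  have : IsDomain (Sec c O) := inferInstanceAs (IsDomain Γ(C, O))
  have hinj : Function.Injective (secRes c hle) := fun a b e =>
    AlgebraicGeometry.map_injective_of_isIntegral C (homOfLE hle) e
  have hu : IsUnit (secRes c hle h) := C.toRingedSpace.isUnit_res_basicOpen (h : Γ(C, ch.V))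
  obtain ⟨F, hF⟩ := H (Sec c O) (secRes c hle) hinj hu
  refine ⟨O, hle, hO, hx, F, fun φ => ⟨fun h0 => (hF φ).1 h0, fun h0 W hWU hWO χ hχ => ?_⟩⟩
  refine (hF φ).2 h0 _ fun a n b hb => ?_
  have hb' := ch.near_compat hWU (hWO.trans hle) χ a n b hb
  have hres : ∀ s : Sec c ch.V, φ (secRes c hle s) = χ (secRes c (hWO.trans hle) s) := fun s => by
    rw [← hχ]
    exact congrArg χ (rs_rs hle hWO s)
  rw [hres b, hres]
  exact hb'

end Chart

end FLTAgent.RelPic

end
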