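import Fermat.Agent.RelPic.FamilyAlg

/-!
Area S25, parcel G: the family of points near the base point, from the ring of functions regular
near the base point with their expansions.
-/

set_option autoImplicit false
set_option linter.unusedSectionVars false
set_option synthInstance.maxHeartbeats 200000
set_option maxHeartbeats 800000

noncomputable section

open ModularCurve
open scoped TensorProduct

universe u

namespace FLTAgent.RelPic

namespace CellData

variable {k : Type u} [Field k] (D : CellData k)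

theorem an_coeff_low {n : ℕ} (hn : n ∉ D.G) (h : D.deg ≤ n) :
    ∀ l : ℤ, l < -(n : ℤ) → (D.an n hn).coeff l = 0 := by
  intro l hl
  obtain ⟨m, rfl⟩ : ∃ m : ℕ, l = -(m : ℤ) := ⟨(-l).toNat, by omega⟩
  have hm : m ∉ D.G := fun h' => by
    have := Finset.le_sup (f := id) h'
    simp only [id, deg] at this h hl
    omega
  rw [D.an_coeff _ _ hm, if_neg (by omega)]

theorem deg_succ_notMem : D.deg + 1 ∉ D.G := fun h => by
  have := Finset.le_sup (f := id) h
  simp only [id, deg] at this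
  omega

/-- A ring of functions regular near the base point: its expansions, a parameter with expansion
`t`, and the functions with poles at the base point only. -/
structure NearRing (B₀ : Type u) [CommRing B₀] [Algebra k B₀] where
  /-- the expansions -/
  e : B₀ →ₐ[k] PowerSeries k
  inj : Function.Injective e
  /-- the parameter -/
  τ : B₀
  e_τ : e τ = PowerSeries.X
  dvd : ∀ b, PowerSeries.constantCoeff (e b) = 0 → ∃ b₁, b = τ * b₁
  mem : ∀ a ∈ D.A, ∀ n : ℕ, (∀ l : ℤ, l < -(n : ℤ) → a.coeff l = 0) →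
    ∃ b, HahnSeries.ofPowerSeries ℤ k (e b) = HahnSeries.single (n : ℤ) 1 * a

namespace NearRing

variable {D} {B₀ : Type u} [CommRing B₀] [Algebra k B₀] (nr : D.NearRing B₀)

/-- the value at the base point -/
def c : B₀ →ₐ[k] k where
  toRingHom := (PowerSeries.constantCoeff).comp nr.e.toRingHom
  commutes' r := by
    show PowerSeries.constantCoeff (nr.e (algebraMap k B₀ r)) = r
    rw [AlgHom.commutes, PowerSeries.algebraMap_apply, PowerSeries.constantCoeff_C,
      Algebra.algebraMap_self, RingHom.id_apply]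

theorem c_apply (b : B₀) : nr.c b = PowerSeries.constantCoeff (nr.e b) := rfl

theorem c_τ : nr.c nr.τ = 0 := by rw [c_apply, nr.e_τ, PowerSeries.constantCoeff_X]

/-- `b` at the second point minus `b` at the first -/
def diag (_nr : D.NearRing B₀) (b : B₀) : B₀ ⊗[k] B₀ := (1 : B₀) ⊗ₜ b - b ⊗ₜ 1

/-- the first point, and the base point -/
def atBase : B₀ ⊗[k] B₀ →ₐ[k] B₀ :=
  Algebra.TensorProduct.productMap (AlgHom.id k B₀) ((Algebra.ofId k B₀).comp nr.c)

variable [Algebra.FiniteType k B₀]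

theorem exists_diag_dvd : ∃ h : B₀ ⊗[k] B₀, nr.c (nr.atBase h) ≠ 0 ∧
    ∀ b, ∃ g, h * nr.diag b = g * nr.diag nr.τ := by
  set ψ : B₀ ⊗[k] B₀ →ₐ[k] k := nr.c.comp nr.atBase
  have hψ : ∀ r b, ψ (r ⊗ₜ b) = nr.c r * nr.c b := fun r b => by
    show nr.c (nr.atBase (r ⊗ₜ b)) = _
    rw [atBase, Algebra.TensorProduct.productMap_apply_tmul, map_mul]
    exact congrArg (nr.c r * ·) (nr.c.commutes _)
  set M : Ideal (B₀ ⊗[k] B₀) := RingHom.ker ψ
  set J : Ideal (B₀ ⊗[k] B₀) := Ideal.span (Set.range nr.diag)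
  have hJ : J ≤ Ideal.span {nr.diag nr.τ} ⊔ M * J := by
    refine Ideal.span_le.mpr ?_
    rintro _ ⟨b, rfl⟩
    obtain ⟨b₁, hb₁⟩ := nr.dvd (b - algebraMap k B₀ (nr.c b)) (by
      rw [← c_apply, map_sub, AlgHom.commutes, Algebra.algebraMap_self, RingHom.id_apply, sub_self])
    have hconst : nr.diag (algebraMap k B₀ (nr.c b)) = 0 := by
      rw [diag, Algebra.algebraMap_eq_smul_one, TensorProduct.tmul_smul, TensorProduct.smul_tmul',
        sub_self]
    have e : nr.diag b = nr.diag nr.τ * (1 : B₀) ⊗ₜ b₁ + nr.τ ⊗ₜ (1 : B₀) * nr.diag b₁ := by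
      rw [sub_eq_iff_eq_add] at hb₁
      conv_lhs => rw [hb₁]
      rw [diag, TensorProduct.tmul_add, TensorProduct.add_tmul, add_sub_add_comm]
      rw [diag] at hconst
      rw [hconst, add_zero, diag, diag, sub_mul, mul_sub]
      simp only [Algebra.TensorProduct.tmul_mul_tmul, one_mul, mul_one]
      abel
    rw [e]
    refine add_mem (Ideal.mem_sup_left (Ideal.mul_mem_right _ _ (Ideal.mem_span_singleton_self _)))
      (Ideal.mem_sup_right (Ideal.mul_mem_mul ?_ (Ideal.subset_span ⟨b₁, rfl⟩)))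
    rw [RingHom.mem_ker, hψ, nr.c_τ, zero_mul]
  have : IsNoetherianRing (B₀ ⊗[k] B₀) :=
    have : Algebra.FiniteType k (B₀ ⊗[k] B₀) :=
      Algebra.FiniteType.trans (S := B₀) inferInstance inferInstance
    Algebra.FiniteType.isNoetherianRing k _
  obtain ⟨r, hr, hr0⟩ := Submodule.exists_sub_one_mem_and_smul_eq_zero_of_fg_of_le_smul M
    (Submodule.map (Submodule.mkQ (Ideal.span {nr.diag nr.τ})) J) (IsNoetherian.noetherian _) (by
      refine (Submodule.map_mono hJ).trans ?_
      rw [Submodule.map_sup, Submodule.mkQ_map_self, bot_sup_eq, ← smul_eq_mul,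
        Submodule.map_smul''])
  refine ⟨r, fun h0 => ?_, fun b => ?_⟩
  · rw [RingHom.mem_ker, map_sub, map_one, show ψ r = 0 from h0, zero_sub, neg_eq_zero] at hr
    exact one_ne_zero hr
  · have h := hr0 _ (Submodule.mem_map_of_mem (Ideal.subset_span ⟨b, rfl⟩ : nr.diag b ∈ J))
    rw [← map_smul, Submodule.mkQ_apply, Submodule.Quotient.mk_eq_zero,
      Ideal.mem_span_singleton'] at h
    exact h.imp fun g hg => hg.symm

variable {R : Type u} [CommRing R] [Algebra k R] (ι : B₀ →ₐ[k] R)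

/-- the expansion in the second point -/
def exp₂ : B₀ ⊗[k] B₀ →ₐ[k] PowerSeries R :=
  Algebra.TensorProduct.productMap
    { toRingHom := (PowerSeries.C).comp ι.toRingHom
      commutes' := fun r => by
        show PowerSeries.C (ι (algebraMap k B₀ r)) = _
        rw [AlgHom.commutes, PowerSeries.algebraMap_apply] }
    { toRingHom := (PowerSeries.map (algebraMap k R)).comp nr.e.toRingHom
      commutes' := fun r => by
        show PowerSeries.map (algebraMap k R) (nr.e (algebraMap k B₀ r)) = _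
        rw [AlgHom.commutes, PowerSeries.algebraMap_apply, PowerSeries.map_C,
          PowerSeries.algebraMap_apply, Algebra.algebraMap_self, RingHom.id_apply] }

theorem exp₂_tmul (r b : B₀) : nr.exp₂ ι (r ⊗ₜ b) =
    PowerSeries.C (ι r) * PowerSeries.map (algebraMap k R) (nr.e b) :=
  Algebra.TensorProduct.productMap_apply_tmul _ _ r b

theorem exp₂_diag (b : B₀) :
    nr.exp₂ ι (nr.diag b) = PowerSeries.map (algebraMap k R) (nr.e b) - PowerSeries.C (ι b) := by
  rw [diag, map_sub, exp₂_tmul, exp₂_tmul, map_one, map_one, map_one, one_mul, map_one, mul_one]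

theorem constantCoeff_exp₂ (h : B₀ ⊗[k] B₀) :
    PowerSeries.constantCoeff (nr.exp₂ ι h) = ι (nr.atBase h) := by
  induction h using TensorProduct.induction_on with
  | zero => simp
  | add x y hx hy => rw [map_add, map_add, map_add, map_add, hx, hy]
  | tmul r b =>
    rw [exp₂_tmul, map_mul, PowerSeries.constantCoeff_C,
      ← PowerSeries.coeff_zero_eq_constantCoeff_apply, PowerSeries.coeff_map,
      PowerSeries.coeff_zero_eq_constantCoeff_apply, atBase,
      Algebra.TensorProduct.productMap_apply_tmul, map_mul]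
    exact congrArg (ι r * ·) (ι.commutes _).symm

/-- the divisor of the moving point -/
def delta : LaurentSeries R := HahnSeries.single (1 : ℤ) 1 - HahnSeries.C (ι nr.τ)

theorem delta_eq : nr.delta ι =
    HahnSeries.ofPowerSeries ℤ R (PowerSeries.X - PowerSeries.C (ι nr.τ)) := by
  rw [delta, map_sub, HahnSeries.ofPowerSeries_X, HahnSeries.ofPowerSeries_C]

theorem coeff_delta_mul (x : LaurentSeries R) (l : ℤ) :
    (nr.delta ι * x).coeff l = x.coeff (l - 1) - ι nr.τ * x.coeff l := by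
  rw [delta, sub_mul, HahnSeries.coeff_sub, HahnSeries.C_mul_eq_smul, HahnSeries.coeff_smul,
    smul_eq_mul]
  conv_lhs => rw [show l = (l - 1) + 1 by omega, HahnSeries.coeff_single_mul_add, one_mul]
  rw [sub_add_cancel]

variable [IsDomain R]

/-- the data of the moving point near the base point -/
def ptData (hι : Function.Injective ι) {h₂ : B₀ ⊗[k] B₀} (hdiv : ∀ b, ∃ g, h₂ * nr.diag b = g * nr.diag nr.τ)
    (hu : IsUnit (ι (nr.atBase h₂))) : D.PtData R where
  τ := ι nr.τ
  δ := nr.delta ι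
  P a n b := ∃ b₀, ι b₀ = b ∧ HahnSeries.ofPowerSeries ℤ k (nr.e b₀) =
    HahnSeries.single (n : ℤ) 1 * (a : LaurentSeries k)
  shift := by
    rintro a n _ ⟨b₀, rfl, hb⟩
    refine ⟨nr.τ * b₀, map_mul _ _ _, ?_⟩
    rw [map_mul, map_mul, hb, nr.e_τ, HahnSeries.ofPowerSeries_X, ← mul_assoc,
      HahnSeries.single_mul_single, one_mul, Nat.cast_succ, add_comm]
  add := by
    rintro a a' n _ _ ⟨b₀, rfl, hb⟩ ⟨b₀', rfl, hb'⟩
    refine ⟨b₀ + b₀', map_add _ _ _, ?_⟩
    rw [map_add, map_add, hb, hb', AddMemClass.coe_add, mul_add]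
  mul := by
    rintro a a' n n' _ _ ⟨b₀, rfl, hb⟩ ⟨b₀', rfl, hb'⟩
    refine ⟨b₀ * b₀', map_mul _ _ _, ?_⟩
    rw [map_mul, map_mul, hb, hb', MulMemClass.coe_mul, mul_mul_mul_comm,
      HahnSeries.single_mul_single, one_mul, Nat.cast_add]
  const r := ⟨algebraMap k B₀ r, ι.commutes r, by
    rw [AlgHom.commutes, PowerSeries.algebraMap_apply, HahnSeries.ofPowerSeries_C,
      Subalgebra.coe_algebraMap, algebraMap_LS, Nat.cast_zero]
    exact (one_mul _).symm⟩
  exists_P a := by
    obtain ⟨n, hn⟩ : ∃ n : ℕ, ∀ l : ℤ, l < -(n : ℤ) → (a : LaurentSeries k).coeff l = 0 :=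
      ⟨(-(a : LaurentSeries k).order).toNat,
        fun l hl => HahnSeries.coeff_eq_zero_of_lt_order (by omega)⟩
    obtain ⟨b, hb⟩ := nr.mem a a.2 n hn
    exact ⟨n, ι b, b, rfl, hb⟩
  uniq := by
    rintro a n _ _ ⟨b₀, rfl, hb⟩ ⟨b₀', rfl, hb'⟩
    exact congrArg ι (nr.inj (HahnSeries.ofPowerSeries_injective (Γ := ℤ) (hb.trans hb'.symm)))
  dvd := by
    rintro a n _ ⟨b₀, rfl, hb⟩
    obtain ⟨g, hg⟩ := hdiv b₀
    have hE : IsUnit (nr.exp₂ ι h₂) := by
      rw [PowerSeries.isUnit_iff_constantCoeff, constantCoeff_exp₂]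
      exact hu
    have h1 := congrArg (nr.exp₂ ι) hg
    rw [map_mul, map_mul, exp₂_diag, exp₂_diag, nr.e_τ, PowerSeries.map_X] at h1
    have h2 : PowerSeries.map (algebraMap k R) (nr.e b₀) - PowerSeries.C (ι b₀) =
        (↑hE.unit⁻¹ : PowerSeries R) * nr.exp₂ ι g * (PowerSeries.X - PowerSeries.C (ι nr.τ)) := by
      rw [mul_assoc, ← h1, ← mul_assoc, IsUnit.val_inv_mul, one_mul]
    obtain ⟨w, hw⟩ : nr.delta ι ∣
        HahnSeries.single (n : ℤ) (1 : R) - HahnSeries.C (ι nr.τ ^ n) := by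
      have h := sub_dvd_pow_sub_pow (HahnSeries.single (1 : ℤ) (1 : R))
        (HahnSeries.C (ι nr.τ)) n
      rw [HahnSeries.single_pow, one_pow, nsmul_one, ← map_pow] at h
      exact h
    have h3 : HahnSeries.single (n : ℤ) (1 : R) * L R (a : LaurentSeries k) - HahnSeries.C (ι b₀) =
        nr.delta ι * HahnSeries.ofPowerSeries ℤ R ((↑hE.unit⁻¹ : PowerSeries R) * nr.exp₂ ι g) := by
      have hL : HahnSeries.single (n : ℤ) (1 : R) * L R (a : LaurentSeries k) =
          HahnSeries.ofPowerSeries ℤ R (PowerSeries.map (algebraMap k R) (nr.e b₀)) := by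
        rw [← coeffMap_ofPowerSeries, hb, map_mul, coeffMap_single, map_one (algebraMap k R)]
        rfl
      rw [hL, delta_eq, ← map_mul, ← HahnSeries.ofPowerSeries_C, ← map_sub, h2, mul_comm]
    refine ⟨HahnSeries.ofPowerSeries ℤ R ((↑hE.unit⁻¹ : PowerSeries R) * nr.exp₂ ι g) -
      w * L R (a : LaurentSeries k), ?_⟩
    rw [map_sub, ev_tmul, ev_tmul, OneMemClass.coe_one, map_one, mul_one, mul_sub, ← mul_assoc,
      ← hw, ← h3, sub_mul]
    abel
  div_τ := by
    have hC : ∀ j : ℕ, (HahnSeries.C (ι nr.τ ^ j) : LaurentSeries R) ≠ 0 := fun j => by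
      rw [Ne, HahnSeries.C_apply, HahnSeries.single_eq_zero_iff]
      refine pow_ne_zero _ fun h => one_ne_zero (α := k) ?_
      have h' := congrArg nr.e (hι (h.trans (map_zero ι).symm))
      rw [nr.e_τ, map_zero] at h'
      exact absurd h' PowerSeries.X_ne_zero
    intro m
    induction m with
    | zero => exact fun x z _ => ⟨x, by rw [pow_zero, map_one, one_mul]⟩
    | succ m ih =>
      intro x z h
      rw [pow_succ, map_mul, mul_assoc] at h
      obtain ⟨x', rfl⟩ := ih x _ h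
      rw [mul_left_comm] at h
      have h' := mul_left_cancel₀ (hC m) h
      rw [delta, sub_mul, sub_eq_iff_eq_add, ← mul_add] at h'
      refine ⟨HahnSeries.single (-1 : ℤ) 1 * (z + x'), ?_⟩
      have h4 : x' = HahnSeries.single (-1 : ℤ) (1 : R) *
          (HahnSeries.single (1 : ℤ) 1 * x') := by
        rw [← mul_assoc, HahnSeries.single_mul_single, neg_add_cancel, one_mul]
        exact (one_mul x').symm
      conv_lhs => rw [h4, h']
      rw [pow_succ, map_mul]
      ring
  τ_ne h := by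
    have h' := congrArg nr.e (hι (h.trans (map_zero ι).symm))
    rw [nr.e_τ, map_zero] at h'
    exact PowerSeries.X_ne_zero h'
  δ_ne h := by
    have h' := congrArg (fun x : LaurentSeries R => x.coeff 1) h
    rw [delta] at h'
    simp at h'
  at_zero φ hφ := by
    obtain ⟨b, hb⟩ := nr.mem _ (D.an_mem D.deg D.deg_notMem) D.deg D.an_deg_coeff
    refine ⟨⟨_, D.an_mem D.deg D.deg_notMem⟩, D.deg, ι b, ⟨b, rfl, hb⟩, Nat.succ_ne_zero _, ?_⟩
    obtain ⟨b₁, hb₁⟩ := nr.dvd (b - algebraMap k B₀ (nr.c b)) (by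
      rw [← c_apply, map_sub, AlgHom.commutes, Algebra.algebraMap_self, RingHom.id_apply, sub_self])
    rw [sub_eq_iff_eq_add] at hb₁
    have hcb : nr.c b = 1 := by
      have h := congrArg (fun x : LaurentSeries k => x.coeff ((0 : ℕ) : ℤ)) hb
      simp only [HahnSeries.ofPowerSeries_apply_coeff] at h
      rw [PowerSeries.coeff_zero_eq_constantCoeff_apply, Nat.cast_zero,
        show (0 : ℤ) = -(D.deg : ℤ) + D.deg by omega, HahnSeries.coeff_single_mul_add, one_mul,
        D.an_coeff _ _ D.deg_notMem, if_pos rfl] at h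
      exact h
    rw [hb₁, map_add, map_add, map_mul, map_mul, hφ, zero_mul, zero_add, AlgHom.commutes,
      AlgHom.commutes, hcb, Algebra.algebraMap_self, RingHom.id_apply]
    exact one_ne_zero

theorem coeffMap_delta (φ : R →ₐ[k] k) :
    coeffMap (φ : R →+* k) (nr.delta ι) =
      HahnSeries.single (1 : ℤ) 1 - HahnSeries.C (φ (ι nr.τ)) := by
  rw [delta, map_sub, coeffMap_single, map_one, HahnSeries.C_apply, coeffMap_single,
    HahnSeries.C_apply]
  rfl

theorem exists_eq_c_one {n : ℕ} (hn : n ∉ D.G) (hdeg : D.deg ≤ n) : ∃ b,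
    HahnSeries.ofPowerSeries ℤ k (nr.e b) = HahnSeries.single (n : ℤ) 1 * D.an n hn ∧
      nr.c b = 1 := by
  obtain ⟨b, hb⟩ := nr.mem _ (D.an_mem n hn) n (D.an_coeff_low hn hdeg)
  refine ⟨b, hb, ?_⟩
  have h := congrArg (fun x : LaurentSeries k => x.coeff ((0 : ℕ) : ℤ)) hb
  simp only [HahnSeries.ofPowerSeries_apply_coeff] at h
  rw [PowerSeries.coeff_zero_eq_constantCoeff_apply, Nat.cast_zero,
    show (0 : ℤ) = -(n : ℤ) + n by omega, HahnSeries.coeff_single_mul_add, one_mul,
    D.an_coeff _ _ hn, if_pos rfl] at h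
  exact h

variable [IsAlgClosed k] [Algebra.FiniteType k D.A] [IsDedekindDomain D.A]
  [Algebra.FiniteType k R]

theorem exists_unit_mem (hι : Function.Injective ι) {h₂ : B₀ ⊗[k] B₀}
    (hdiv : ∀ b, ∃ g, h₂ * nr.diag b = g * nr.diag nr.τ) (hu : IsUnit (ι (nr.atBase h₂))) {b : B₀}
    (hb : HahnSeries.ofPowerSeries ℤ k (nr.e b) =
      HahnSeries.single (D.deg : ℤ) 1 * D.an D.deg D.deg_notMem) (hub : IsUnit (ι b)) :
    ∃ x ∈ (nr.ptData ι hι hdiv hu).sub, IsUnit x := by
  set pd := nr.ptData ι hι hdiv hu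
  obtain ⟨b', hb', -⟩ := nr.exists_eq_c_one D.deg_succ_notMem (Nat.le_succ _)
  set a : D.A := ⟨_, D.an_mem D.deg D.deg_notMem⟩
  set a' : D.A := ⟨_, D.an_mem (D.deg + 1) D.deg_succ_notMem⟩
  set s : D.Fun R := (ι nr.τ * ι b) ⊗ₜ a' - ι b' ⊗ₜ a with hs_def
  have hs : s ∈ pd.rel := by
    refine ⟨D.deg, ?_⟩
    have e : (pd.τ ^ D.deg) ⊗ₜ (1 : D.A) * s = ι b ⊗ₜ (1 : D.A) * pd.gen a' (D.deg + 1) (ι b') -
        ι b' ⊗ₜ (1 : D.A) * pd.gen a D.deg (ι b) := by
      simp only [hs_def, PtData.gen, show pd.τ = ι nr.τ from rfl, mul_sub,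
        Algebra.TensorProduct.tmul_mul_tmul, one_mul]
      rw [show ι b * ι nr.τ ^ (D.deg + 1) = ι nr.τ ^ D.deg * (ι nr.τ * ι b) by ring,
        show ι b' * ι nr.τ ^ D.deg = ι nr.τ ^ D.deg * ι b' by ring, mul_comm (ι b') (ι b)]
      abel
    rw [e]
    exact sub_mem (Ideal.mul_mem_left _ _ (pd.gen_mem_rel₀ ⟨b', rfl, hb'⟩))
      (Ideal.mul_mem_left _ _ (pd.gen_mem_rel₀ ⟨b, rfl, hb⟩))
  obtain ⟨x, hx, ex⟩ := pd.exists_div hs
  refine ⟨x, hx, ?_⟩
  have hτ0 : ι nr.τ ≠ 0 := pd.τ_ne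
  set p : ℤ := -((D.deg + 1 : ℕ) : ℤ) with hp
  have hz : ∀ l ≤ p, (D.ev R s).coeff l = if l = p then ι nr.τ * ι b else 0 := fun l hl => by
    rw [hs_def, map_sub, ev_tmul, ev_tmul, HahnSeries.coeff_sub, HahnSeries.C_mul_eq_smul,
      HahnSeries.C_mul_eq_smul, HahnSeries.coeff_smul, HahnSeries.coeff_smul, coeff_L, coeff_L,
      show (a : LaurentSeries k).coeff l = 0 from D.an_deg_coeff l (by push_cast [hp] at hl; omega),
      map_zero, smul_zero, sub_zero]
    split_ifs with h
    · rw [h, show (a' : LaurentSeries k).coeff p = 1 from (D.an_coeff _ D.deg_succ_notMem D.deg_succ_notMem).trans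
        (if_pos rfl), map_one, smul_eq_mul, mul_one]
    · rw [show (a' : LaurentSeries k).coeff l = 0 from
        D.an_coeff_low D.deg_succ_notMem (Nat.le_succ _) l (lt_of_le_of_ne hl h), map_zero, smul_zero]
  have hrec : ∀ l, x.coeff (l - 1) - ι nr.τ * x.coeff l = (D.ev R s).coeff l := fun l => by
    rw [← ex]
    exact (nr.coeff_delta_mul ι x l).symm
  have hlow : ∀ l < p, x.coeff l = 0 := fun l hl => by
    rcases le_or_gt x.order l with ho | ho
    · by_contra h0
      have hx0 : x ≠ 0 := fun e => h0 (by rw [e]; rfl)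
      have h := hrec x.order
      rw [hz _ (by omega), if_neg (by omega),
        HahnSeries.coeff_eq_zero_of_lt_order (show x.order - 1 < x.order by omega), zero_sub,
        neg_eq_zero] at h
      exact HahnSeries.coeff_order_eq_zero.not.mpr hx0 ((mul_eq_zero.mp h).resolve_left hτ0)
    · exact HahnSeries.coeff_eq_zero_of_lt_order ho
  refine isUnit_of_lead hlow ?_
  have h := hrec p
  rw [hlow (p - 1) (by omega), zero_sub, hz p le_rfl, if_pos rfl, ← mul_neg] at h
  rw [← neg_neg (x.coeff p), mul_left_cancel₀ hτ0 h]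
  exact hub.neg

/-- the family of points near the base point -/
theorem exists_family (nr : D.NearRing B₀) : ∃ h : B₀, nr.c h ≠ 0 ∧
    ∀ (R : Type u) [CommRing R] [Algebra k R] [IsDomain R] [Algebra.FiniteType k R]
      (ι : B₀ →ₐ[k] R), Function.Injective ι → IsUnit (ι h) →
      ∃ F : D.Lattice R, ∀ φ : R →ₐ[k] k,
        (φ (ι nr.τ) = 0 → (QuotientGroup.mk (D.mapLat φ F) : D.Class k) = 1) ∧
        (φ (ι nr.τ) ≠ 0 → ∀ θ : D.A →ₐ[k] k, (∀ (a : D.A) (n : ℕ) (b : B₀),
          HahnSeries.ofPowerSeries ℤ k (nr.e b) =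
            HahnSeries.single (n : ℤ) 1 * (a : LaurentSeries k) →
          φ (ι b) = φ (ι nr.τ) ^ n * θ a) →
          (QuotientGroup.mk (D.mapLat φ F) : D.Class k) =
            QuotientGroup.mk (D.twist k (-1) * D.ptLat k θ)) := by
  obtain ⟨h₂, hh₂, hdiv⟩ := nr.exists_diag_dvd
  obtain ⟨b, hb, hbc⟩ := nr.exists_eq_c_one D.deg_notMem le_rfl
  refine ⟨nr.atBase h₂ * b, by rw [map_mul, hbc, mul_one]; exact hh₂, ?_⟩
  intro R _ _ _ _ ι hι hu
  rw [map_mul, IsUnit.mul_iff] at hu
  have hm := nr.exists_unit_mem ι hι hdiv hu.1 hb hu.2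
  refine ⟨(nr.ptData ι hι hdiv hu.1).fam hm, fun φ => ⟨fun h0 => ?_, fun h0 θ hc => ?_⟩⟩
  · refine PtData.mk_fam_zero _ hm φ h0 ?_
    refine (nr.coeffMap_delta ι φ).trans ?_
    rw [h0, map_zero, sub_zero]
  · have hv : IsUnit (PowerSeries.X - PowerSeries.C (φ (ι nr.τ)) : PowerSeries k) := by
      rw [PowerSeries.isUnit_iff_constantCoeff, map_sub, PowerSeries.constantCoeff_X,
        PowerSeries.constantCoeff_C, zero_sub]
      exact (Ne.isUnit h0).neg
    refine PtData.mk_fam_point _ hm φ θ h0 (fun a n _ ⟨b₀, e₀, hb₀⟩ => ?_) (v := hv.unit) ?_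
    · rw [← e₀]
      exact hc a n b₀ hb₀
    · refine (nr.coeffMap_delta ι φ).trans ?_
      rw [IsUnit.unit_spec, map_sub, HahnSeries.ofPowerSeries_X, HahnSeries.ofPowerSeries_C]

end NearRing

end CellData

end FLTAgent.RelPic

end
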