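import Fermat.Agent.RelPic.PointIdeal
import Fermat.Agent.RelPic.EngineFamily

/-!
Area S25, parcel G: dimensions of lattices over a field, cut by the series with bounded pole.
-/

set_option autoImplicit false
set_option linter.unusedSectionVars false
set_option synthInstance.maxHeartbeats 200000
set_option maxHeartbeats 800000

noncomputable section

open ModularCurve Module

universe u

namespace FLTAgent.RelPic

section Linear

variable {K : Type u} [Field K] {X : Type u} [AddCommGroup X] [Module K X]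
  {V W' W : Submodule K X} {w : X}

/-- `dim (V ⊓ W) - dim (X ⧸ (V ⊔ W))` -/
def relDim (V W : Submodule K X) : ℤ :=
  (finrank K ↥(V ⊓ W) : ℤ) - finrank K (X ⧸ (V ⊔ W))

theorem relDim_comm (V W : Submodule K X) : relDim V W = relDim W V := by
  rw [relDim, relDim, inf_comm, sup_comm]

theorem map_mkQ_sup_span (_hle : W' ≤ W) (hw : w ∈ W) (hcod : ∀ x ∈ W, ∃ μ : K, x - μ • w ∈ W') :
    (V ⊔ W).map (V ⊔ W').mkQ = K ∙ (V ⊔ W').mkQ w := by
  refine le_antisymm ?_ (Submodule.span_le.mpr (Set.singleton_subset_iff.mpr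
    ⟨w, Submodule.mem_sup_right hw, rfl⟩))
  rintro _ ⟨x, hx, rfl⟩
  obtain ⟨v, hv, y, hy, rfl⟩ := Submodule.mem_sup.mp hx
  obtain ⟨μ, hμ⟩ := hcod y hy
  refine Submodule.mem_span_singleton.mpr ⟨μ, ?_⟩
  rw [← map_smul]
  refine ((Submodule.Quotient.eq _).mpr ?_).symm
  rw [add_sub_assoc]
  exact Submodule.add_mem_sup hv hμ

theorem finite_quot_of_codim (hle : W' ≤ W) (hw : w ∈ W)
    (hcod : ∀ x ∈ W, ∃ μ : K, x - μ • w ∈ W') [Module.Finite K (X ⧸ (V ⊔ W))] :
    Module.Finite K (X ⧸ (V ⊔ W')) := by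
  have : Module.Finite K ↥((V ⊔ W).map (V ⊔ W').mkQ) := by
    rw [map_mkQ_sup_span hle hw hcod]; infer_instance
  have : Module.Finite K ((X ⧸ (V ⊔ W')) ⧸ (V ⊔ W).map (V ⊔ W').mkQ) :=
    Module.Finite.equiv (Submodule.quotientQuotientEquivQuotient _ _ (sup_le_sup_left hle V)).symm
  exact Module.Finite.of_submodule_quotient ((V ⊔ W).map (V ⊔ W').mkQ)

/-- enlarging one of the spaces by a line raises the relative dimension by one -/
theorem relDim_step (hle : W' ≤ W) (hw : w ∈ W) (hw' : w ∉ W')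
    (hcod : ∀ x ∈ W, ∃ μ : K, x - μ • w ∈ W') [Module.Finite K ↥(V ⊓ W)]
    [Module.Finite K (X ⧸ (V ⊔ W))] : relDim V W = relDim V W' + 1 := by
  have := finite_quot_of_codim (V := V) hle hw hcod
  have h1 := Submodule.finrank_quotient_add_finrank ((V ⊔ W).map (V ⊔ W').mkQ)
  rw [(Submodule.quotientQuotientEquivQuotient _ _ (sup_le_sup_left hle V)).finrank_eq,
    map_mkQ_sup_span hle hw hcod] at h1
  have : FiniteDimensional K ↥(V ⊓ W') :=
    Submodule.finiteDimensional_of_le (inf_le_inf_left V hle)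
  by_cases h : w ∈ V ⊔ W'
  · rw [show (V ⊔ W').mkQ w = 0 from (Submodule.Quotient.mk_eq_zero _).mpr h,
      Submodule.span_zero_singleton, finrank_bot, add_zero] at h1
    obtain ⟨v, hv, y, hy, e⟩ := Submodule.mem_sup.mp h
    have hv' : v ∉ W' := fun h' => hw' (e ▸ add_mem h' hy)
    have hsup : V ⊓ W = (V ⊓ W') ⊔ K ∙ v := by
      refine le_antisymm (fun x hx => ?_) (sup_le (inf_le_inf_left V hle)
        (Submodule.span_le.mpr (Set.singleton_subset_iff.mpr ⟨hv, ?_⟩)))
      · obtain ⟨μ, hμ⟩ := hcod x hx.2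
        refine Submodule.mem_sup.mpr ⟨x - μ • v, ⟨sub_mem hx.1 (V.smul_mem μ hv), ?_⟩, μ • v,
          Submodule.smul_mem _ _ (Submodule.mem_span_singleton_self v), sub_add_cancel _ _⟩
        rw [show x - μ • v = x - μ • w + μ • y by rw [← e, smul_add]; abel]
        exact add_mem hμ (W'.smul_mem μ hy)
      · rw [show v = w - y by rw [← e, add_sub_cancel_right]]
        exact sub_mem hw (hle hy)
    have hinf : (V ⊓ W') ⊓ (K ∙ v) = ⊥ := (Submodule.eq_bot_iff _).mpr fun x ⟨hx1, hx2⟩ => by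
      obtain ⟨μ, rfl⟩ := Submodule.mem_span_singleton.mp hx2
      rcases eq_or_ne μ 0 with rfl | hμ
      · exact zero_smul K v
      · exact absurd ((Submodule.smul_mem_iff _ hμ).mp hx1.2) hv'
    have h2 := Submodule.finrank_sup_add_finrank_inf_eq (V ⊓ W') (K ∙ v)
    rw [hinf, finrank_bot, add_zero, ← hsup,
      finrank_span_singleton (fun e0 : v = 0 => hv' (e0 ▸ zero_mem _))] at h2
    rw [relDim, relDim]
    omega
  · rw [finrank_span_singleton (fun e0 : (V ⊔ W').mkQ w = 0 =>
      h ((Submodule.Quotient.mk_eq_zero _).mp e0))] at h1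
    have hinf : V ⊓ W = V ⊓ W' := by
      refine le_antisymm (fun x hx => ⟨hx.1, ?_⟩) (inf_le_inf_left V hle)
      obtain ⟨μ, hμ⟩ := hcod x hx.2
      rcases eq_or_ne μ 0 with rfl | hμ0
      · simpa using hμ
      · refine absurd ((Submodule.smul_mem_iff _ hμ0).mp ?_) h
        rw [show μ • w = x - (x - μ • w) by abel]
        exact sub_mem (Submodule.mem_sup_left hx.1) (Submodule.mem_sup_right hμ)
    rw [relDim, relDim, hinf]
    omega

theorem relDim_map {Y : Type u} [AddCommGroup Y] [Module K Y] (e : X ≃ₗ[K] Y)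
    (V W : Submodule K X) :
    relDim (V.map (e : X →ₗ[K] Y)) (W.map (e : X →ₗ[K] Y)) = relDim V W := by
  rw [relDim, relDim, ← Submodule.map_inf _ e.injective, ← Submodule.map_sup,
    ← (e.submoduleMap (V ⊓ W)).finrank_eq,
    ← (Submodule.Quotient.equiv (V ⊔ W) _ e rfl).finrank_eq]

end Linear

namespace CellData

variable {k : Type u} [Field k] (D : CellData k)

theorem euler_eq_relDim {K : Type u} [Field K] [Algebra k K] (Lt : D.Lattice K) (n : ℤ) :
    D.euler K Lt n = relDim (D.toR Lt.1) (tailAt K (-n)) := rfl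

/-! ### twists at the point -/

/-- the monomial `t ^ N` -/
def tUnit (R : Type u) [CommRing R] (N : ℤ) : (LaurentSeries R)ˣ where
  val := HahnSeries.single N 1
  inv := HahnSeries.single (-N) 1
  val_inv := by rw [HahnSeries.single_mul_single, add_neg_cancel, one_mul]; rfl
  inv_val := by rw [HahnSeries.single_mul_single, neg_add_cancel, one_mul]; rfl

variable (R : Type u) [CommRing R] [Algebra k R]

/-- the twist by `N` times the point -/
def twist (N : ℤ) : D.Lattice R := D.ofLaurent R (tUnit R N)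

variable {R}

theorem twist_add (M N : ℤ) : D.twist R (M + N) = D.twist R M * D.twist R N := by
  rw [twist, twist, twist, ← map_mul]
  congr 1
  refine Units.ext ?_
  show HahnSeries.single (M + N) (1 : R) = HahnSeries.single M 1 * HahnSeries.single N 1
  rw [HahnSeries.single_mul_single, one_mul]

theorem twist_zero : D.twist R 0 = 1 := by
  have h := D.twist_add (R := R) 0 0
  rw [add_zero] at h
  exact mul_eq_left.mp h.symm

theorem mem_ofLaurent_mul {x : (LaurentSeries R)ˣ} {Lt : D.Lattice R} {y : LaurentSeries R} :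
    y ∈ (D.ofLaurent R x * Lt).1 ↔ ∃ z ∈ Lt.1, (x : LaurentSeries R) * z = y := by
  rw [Units.val_mul]
  exact Submodule.mem_span_singleton_mul

theorem mapLat_ofLaurent {R' : Type u} [CommRing R'] [Algebra k R'] (f : R →ₐ[k] R')
    (x : (LaurentSeries R)ˣ) :
    D.mapLat f (D.ofLaurent R x) =
      D.ofLaurent R' (Units.map (coeffMap (f : R →+* R')).toMonoidHom x) := by
  refine Units.ext ?_
  show Submodule.span (D.AR R') (coeffMap (f : R →+* R') ''
    (Submodule.span (D.AR R) {(x : LaurentSeries R)} : Set (LaurentSeries R))) =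
      Submodule.span (D.AR R') {coeffMap (f : R →+* R') (x : LaurentSeries R)}
  refine le_antisymm (Submodule.span_le.mpr ?_) (Submodule.span_mono ?_)
  · rintro _ ⟨y, hy, rfl⟩
    obtain ⟨a, rfl⟩ := Submodule.mem_span_singleton.mp hy
    refine Submodule.mem_span_singleton.mpr ⟨⟨_, D.coeffMap_mem_AR f a.2⟩, ?_⟩
    exact (map_mul (coeffMap (f : R →+* R')) _ _).symm
  · rintro _ rfl
    exact ⟨_, Submodule.mem_span_singleton_self _, rfl⟩

theorem mapLat_twist {R' : Type u} [CommRing R'] [Algebra k R'] (f : R →ₐ[k] R') (N : ℤ) :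
    D.mapLat f (D.twist R N) = D.twist R' N := by
  rw [twist, mapLat_ofLaurent, twist]
  congr 1
  refine Units.ext ?_
  show coeffMap (f : R →+* R') (HahnSeries.single N 1) = HahnSeries.single N 1
  rw [coeffMap_single, map_one]

theorem single_mul_mem_tailAt {N j : ℤ} {x : LaurentSeries R} (hx : x ∈ tailAt R j) :
    (HahnSeries.single N 1 : LaurentSeries R) * x ∈ tailAt R (N + j) :=
  (coeff_mul_lead (fun _ hl => HahnSeries.coeff_single_of_ne (ne_of_lt hl)) hx).1

/-- multiplication by `t ^ N` -/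
def mulT (R : Type u) [CommRing R] (N : ℤ) : LaurentSeries R ≃ₗ[R] LaurentSeries R where
  toFun x := HahnSeries.single N 1 * x
  map_add' := mul_add _
  map_smul' r x := mul_C_smul r _ x
  invFun x := HahnSeries.single (-N) 1 * x
  left_inv x := by
    show HahnSeries.single (-N) (1 : R) * (HahnSeries.single N 1 * x) = x
    rw [← mul_assoc, HahnSeries.single_mul_single, neg_add_cancel, one_mul]
    exact one_mul x
  right_inv x := by
    show HahnSeries.single N (1 : R) * (HahnSeries.single (-N) 1 * x) = x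
    rw [← mul_assoc, HahnSeries.single_mul_single, add_neg_cancel, one_mul]
    exact one_mul x

theorem map_mulT_tailAt (N j : ℤ) :
    (tailAt R j).map (mulT R N : LaurentSeries R →ₗ[R] LaurentSeries R) = tailAt R (N + j) := by
  refine le_antisymm ?_ fun x hx => ⟨(mulT R N).symm x, ?_, (mulT R N).apply_symm_apply x⟩
  · rintro _ ⟨x, hx, rfl⟩
    exact single_mul_mem_tailAt hx
  · have h := single_mul_mem_tailAt (N := -N) hx
    rwa [neg_add_cancel_left] at h

theorem toR_twist_mul (N : ℤ) (Lt : D.Lattice R) :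
    D.toR (D.twist R N * Lt).1 =
      (D.toR Lt.1).map (mulT R N : LaurentSeries R →ₗ[R] LaurentSeries R) := by
  ext y
  rw [mem_toR, twist, mem_ofLaurent_mul]
  rfl

section Degree

variable {K : Type u} [Field K] [Algebra k K]

theorem euler_twist_mul (N : ℤ) (Lt : D.Lattice K) (n : ℤ) :
    D.euler K (D.twist K N * Lt) n = D.euler K Lt (n + N) := by
  rw [euler_eq_relDim, euler_eq_relDim, toR_twist_mul,
    show tailAt K (-n) = (tailAt K (-(n + N))).map
      (mulT K N : LaurentSeries K →ₗ[K] LaurentSeries K) by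
      rw [map_mulT_tailAt]; congr 1; ring, relDim_map]

theorem sup_eq_top_twist_mul (N : ℤ) (Lt : D.Lattice K) (j : ℤ)
    (h : D.toR Lt.1 ⊔ tailAt K j = ⊤) : D.toR (D.twist K N * Lt).1 ⊔ tailAt K (N + j) = ⊤ := by
  rw [toR_twist_mul, ← map_mulT_tailAt, ← Submodule.map_sup, h, Submodule.map_top]
  exact LinearEquiv.range (mulT K N)

variable [IsDedekindDomain D.A] (θ : D.A →ₐ[k] k)

theorem mul_ptIdeal_le (Lt : D.Lattice K) : D.toR (Lt * D.ptIdeal K θ).1 ≤ D.toR Lt.1 :=
  fun _ hx => ((D.mem_mul_ptIdeal θ Lt).mp hx).1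

theorem exists_notMem_mul_ptIdeal' (Lt : D.Lattice K) :
    ∃ w ∈ Lt.1, w ∉ (Lt * D.ptIdeal K θ).1 := by
  by_contra h
  push Not at h
  have h1 : (1 : LaurentSeries K) ∈ (Lt⁻¹).1 * (Lt * D.ptIdeal K θ).1 := by
    refine (mul_le_mul_right (show Lt.1 ≤ (Lt * D.ptIdeal K θ).1 from h) (Lt⁻¹).1) ?_
    rw [← Units.val_mul, inv_mul_cancel, Units.val_one]
    exact Submodule.one_le.mp le_rfl
  rw [← Units.val_mul, inv_mul_cancel_left, ptIdeal, idLat_val] at h1
  obtain ⟨s, hs, h0⟩ := D.exists_ev_of_mem_idSub θ h1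
  rw [D.ev_injective (hs.trans (map_one (D.ev K)).symm), map_one] at h0
  exact one_ne_zero h0

/-- a point ideal lowers `h⁰ - h¹` by one -/
theorem euler_mul_ptIdeal (Lt : D.Lattice K) (n : ℤ) :
    D.euler K (Lt * D.ptIdeal K θ) n = D.euler K Lt n - 1 := by
  obtain ⟨w, hw, hw'⟩ := D.exists_notMem_mul_ptIdeal' θ Lt
  have : Module.Finite K ↥(tailAt K (-n) ⊓ D.toR Lt.1) := by
    rw [inf_comm]; exact D.finite_h0 Lt (-n)
  have : Module.Finite K (LaurentSeries K ⧸ (tailAt K (-n) ⊔ D.toR Lt.1)) := by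
    rw [sup_comm]; exact D.finite_h1 Lt (-n)
  have h := relDim_step (V := tailAt K (-n)) (W := D.toR Lt.1)
    (W' := D.toR (Lt * D.ptIdeal K θ).1) (D.mul_ptIdeal_le θ Lt) hw hw'
    fun x hx => D.exists_sub_smul_mem θ Lt hw hw' hx
  rw [euler_eq_relDim, euler_eq_relDim, relDim_comm, relDim_comm (D.toR Lt.1)]
  omega

/-- a point raises `h⁰ - h¹` by one -/
theorem euler_mul_ptLat (Lt : D.Lattice K) (n : ℤ) :
    D.euler K (Lt * D.ptLat K θ) n = D.euler K Lt n + 1 := by
  have h := D.euler_mul_ptIdeal θ (Lt * D.ptLat K θ) n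
  rw [ptLat, mul_assoc, inv_mul_cancel, mul_one] at h
  rw [ptLat]
  omega

theorem euler_mul_prod_ptLat (Lt : D.Lattice K) (S : Multiset (D.A →ₐ[k] k)) (n : ℤ) :
    D.euler K (Lt * (S.map (D.ptLat K)).prod) n = D.euler K Lt n + Multiset.card S := by
  induction S using Multiset.induction_on with
  | empty => simp
  | cons a S ih =>
    rw [Multiset.map_cons, Multiset.prod_cons, mul_comm (D.ptLat K a), ← mul_assoc,
      euler_mul_ptLat, ih, Multiset.card_cons, Nat.cast_succ]
    omega

theorem euler_mul_prod_ptIdeal (Lt : D.Lattice K) (S : Multiset (D.A →ₐ[k] k)) (n : ℤ) :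
    D.euler K (Lt * (S.map (D.ptIdeal K)).prod) n = D.euler K Lt n - Multiset.card S := by
  induction S using Multiset.induction_on with
  | empty => simp
  | cons a S ih =>
    rw [Multiset.map_cons, Multiset.prod_cons, mul_comm (D.ptIdeal K a), ← mul_assoc,
      euler_mul_ptIdeal, ih, Multiset.card_cons, Nat.cast_succ]
    omega

end Degree

end CellData

end FLTAgent.RelPic

end
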