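import Fermat.Agent.RelPic.CellUnit

/-!
Area S25, parcel G: the ideals of the rational points of the punctured curve as lattices, evaluation
at a point of the functions with coefficients, density of the points, and the factorisation of the
lattices containing the functions.
-/

set_option autoImplicit false
set_option linter.unusedSectionVars false
set_option synthInstance.maxHeartbeats 200000
set_option maxHeartbeats 800000

noncomputable section

open ModularCurve UniqueFactorizationMonoid
open scoped TensorProduct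

universe u

namespace FLTAgent.RelPic

namespace CellData

variable {k : Type u} [Field k] (D : CellData k)

/-! ### functions with coefficients are their expansions -/

theorem val_eq_comb_an {a : LaurentSeries k} (ha : a ∈ D.A) :
    a = Finsupp.linearCombination k (fun n => if hn : n ∈ D.G then 0 else D.an n hn) (pol a) := by
  classical
  have hmem : Finsupp.linearCombination k (fun n => if hn : n ∈ D.G then 0 else D.an n hn) (pol a) ∈
      D.A := by
    rw [Finsupp.linearCombination_apply]
    refine sum_mem fun n _ => ?_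
    dsimp only
    rw [← HahnSeries.C_mul_eq_smul]
    refine mul_mem (C_mem D.A _) ?_
    split_ifs with hn
    · exact zero_mem _
    · exact D.an_mem n hn
  refine sub_eq_zero.mp (D.indep _ (sub_mem ha hmem) fun m hm => ?_)
  rw [HahnSeries.coeff_sub, Finsupp.linearCombination_apply, Finsupp.sum, HahnSeries.coeff_sum,
    Finset.sum_eq_single m]
  · rw [HahnSeries.coeff_smul, dif_neg hm, D.an_coeff m hm hm, if_pos rfl, smul_eq_mul, mul_one,
      pol_apply, sub_self]
  · intro n _ hne
    rw [HahnSeries.coeff_smul]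
    split_ifs with hn
    · rw [HahnSeries.coeff_zero, smul_zero]
    · rw [D.an_coeff n hn hm, if_neg (Ne.symm hne), smul_zero]
  · intro h
    rw [Finsupp.notMem_support_iff.mp h, zero_smul, HahnSeries.coeff_zero]

theorem ev_injective {R : Type u} [CommRing R] [Algebra k R] : Function.Injective (D.ev R) := by
  classical
  let a0 : ℕ → D.A := fun n => if hn : n ∈ D.G then 0 else ⟨D.an n hn, D.an_mem n hn⟩
  let ψ : (ℕ →₀ R) →ₗ[R] D.Fun R := Finsupp.linearCombination R fun n => (1 : R) ⊗ₜ a0 n
  have h0 : ∀ f : ℕ →₀ k, ψ (f.mapRange (algebraMap k R) (map_zero _)) =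
      (1 : R) ⊗ₜ Finsupp.linearCombination k a0 f := fun f => by
    induction f using Finsupp.induction_linear with
    | zero => simp
    | add a b ha hb =>
      rw [Finsupp.mapRange_add (map_add (algebraMap k R)), map_add, map_add, ha, hb,
        TensorProduct.tmul_add]
    | single n r =>
      rw [Finsupp.mapRange_single, Finsupp.linearCombination_single,
        Finsupp.linearCombination_single, algebraMap_smul, ← TensorProduct.tmul_smul]
  have h1 : ∀ a : D.A, Finsupp.linearCombination k a0 (pol (a : LaurentSeries k)) = a := fun a => by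
    refine Subtype.ext ?_
    conv_rhs => rw [D.val_eq_comb_an a.2]
    rw [Finsupp.linearCombination_apply, Finsupp.linearCombination_apply, Finsupp.sum, Finsupp.sum,
      AddSubmonoidClass.coe_finsetSum]
    refine Finset.sum_congr rfl fun n _ => ?_
    simp only [a0]
    split_ifs with hn
    · rw [smul_zero, smul_zero]; rfl
    · rw [Algebra.smul_def, MulMemClass.coe_mul, Subalgebra.coe_algebraMap, algebraMap_LS,
        Algebra.algebraMap_self, RingHom.id_apply, HahnSeries.C_mul_eq_smul]
  refine Function.LeftInverse.injective (g := fun x => ψ (pol x)) fun s => ?_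
  induction s using TensorProduct.induction_on with
  | zero => simp
  | add s t hs ht => simp only [map_add] at hs ht ⊢; rw [hs, ht]
  | tmul r a =>
    show ψ (pol (D.ev R (r ⊗ₜ a))) = _
    rw [ev_tmul, HahnSeries.C_mul_eq_smul, map_smul, map_smul, L, pol_coeffMap, h0, h1,
      TensorProduct.smul_tmul', smul_eq_mul, mul_one]

/-! ### ideals -/

section Ideal

variable (R : Type u) [CommRing R] [Algebra k R]

/-- an ideal of functions, with coefficients -/
def idSub : Ideal D.A →* Submodule (D.AR R) (LaurentSeries R) where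
  toFun I := Submodule.span (D.AR R) ((fun a : D.A => L R (a : LaurentSeries k)) '' I)
  map_one' := by
    refine le_antisymm (Submodule.span_le.mpr ?_) ?_
    · rintro _ ⟨a, -, rfl⟩
      exact Submodule.mem_one.mpr ⟨⟨_, D.L_mem_AR a.2⟩, rfl⟩
    · rw [Submodule.one_le]
      exact Submodule.subset_span ⟨1, by simp, by simp⟩
  map_mul' I J := by
    rw [Submodule.span_mul_span]
    refine le_antisymm (Submodule.span_le.mpr ?_) (Submodule.span_mono ?_)
    · rintro _ ⟨a, ha, rfl⟩
      refine Submodule.mul_induction_on ha (fun m hm n hn => ?_) (fun y z hy hz => ?_)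
      · show L R ((m * n : D.A) : LaurentSeries k) ∈ _
        rw [MulMemClass.coe_mul, map_mul]
        exact Submodule.subset_span (Set.mul_mem_mul ⟨m, hm, rfl⟩ ⟨n, hn, rfl⟩)
      · show L R ((y + z : D.A) : LaurentSeries k) ∈ _
        rw [AddMemClass.coe_add, map_add]
        exact Submodule.add_mem _ hy hz
    · rintro _ ⟨_, ⟨m, hm, rfl⟩, _, ⟨n, hn, rfl⟩, rfl⟩
      exact ⟨m * n, Submodule.mul_mem_mul hm hn, by simp⟩

theorem L_mem_idSub {I : Ideal D.A} {a : D.A} (ha : a ∈ I) :
    L R (a : LaurentSeries k) ∈ D.idSub R I :=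
  Submodule.subset_span ⟨a, ha, rfl⟩

theorem mapSub_idSub {R' : Type u} [CommRing R'] [Algebra k R'] (f : R →ₐ[k] R') (I : Ideal D.A) :
    D.mapSub f (D.idSub R I) = D.idSub R' I := by
  refine le_antisymm (Submodule.span_le.mpr ?_) (Submodule.span_le.mpr ?_)
  · rintro _ ⟨x, hx, rfl⟩
    induction hx using Submodule.span_induction with
    | mem y hy =>
      obtain ⟨a, ha, rfl⟩ := hy
      show coeffMap (f : R →+* R') (L R (a : LaurentSeries k)) ∈ _
      rw [coeffMap_L]
      exact D.L_mem_idSub R' ha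
    | zero => rw [map_zero]; exact zero_mem _
    | add y z _ _ hy hz => rw [map_add]; exact add_mem hy hz
    | smul a y _ hy =>
      show coeffMap (f : R →+* R') ((a : LaurentSeries R) * y) ∈ _
      rw [map_mul]
      exact Submodule.smul_mem _ (⟨_, D.coeffMap_mem_AR f a.2⟩ : D.AR R') hy
  · rintro _ ⟨a, ha, rfl⟩
    exact Submodule.subset_span ⟨_, D.L_mem_idSub R ha, by rw [coeffMap_L]⟩

variable [IsDedekindDomain D.A]

theorem isUnit_idSub {I : Ideal D.A} (hI : I ≠ ⊥) : IsUnit (D.idSub R I) := by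
  obtain ⟨a, haI, ha⟩ := Submodule.exists_mem_ne_zero_of_ne_bot hI
  obtain ⟨J, hJ⟩ := Ideal.dvd_iff_le.mpr ((Ideal.span_singleton_le_iff_mem (I := I)).mpr haI)
  have h1 : IsUnit (L R (a : LaurentSeries k)) :=
    (Ne.isUnit fun e => ha (Subtype.ext e)).map (L R)
  have h2 : D.idSub R (Ideal.span {a}) =
      Submodule.spanSingleton (D.AR R) (L R (a : LaurentSeries k)) := by
    refine le_antisymm (Submodule.span_le.mpr ?_) (Submodule.span_le.mpr ?_)
    · rintro _ ⟨b, hb, rfl⟩
      obtain ⟨d, rfl⟩ := Ideal.mem_span_singleton'.mp hb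
      show L R ((d * a : D.A) : LaurentSeries k) ∈ _
      rw [MulMemClass.coe_mul, map_mul]
      exact Submodule.smul_mem _ (⟨_, D.L_mem_AR d.2⟩ : D.AR R) (Submodule.mem_span_singleton_self _)
    · rintro _ rfl
      exact D.L_mem_idSub R (Ideal.mem_span_singleton_self a)
  have h3 : IsUnit (D.idSub R I * D.idSub R J) := by
    rw [← map_mul, ← hJ, h2]
    exact h1.map _
  exact isUnit_of_mul_isUnit_left h3

/-- the lattice of a nonzero ideal of functions -/
def idLat (I : Ideal D.A) (hI : I ≠ ⊥) : D.Lattice R := (D.isUnit_idSub R hI).unit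

theorem idLat_val (I : Ideal D.A) (hI : I ≠ ⊥) : (D.idLat R I hI).1 = D.idSub R I :=
  IsUnit.unit_spec _

theorem mapLat_idLat {R' : Type u} [CommRing R'] [Algebra k R'] (f : R →ₐ[k] R') (I : Ideal D.A)
    (hI : I ≠ ⊥) : D.mapLat f (D.idLat R I hI) = D.idLat R' I hI := by
  refine Units.ext ?_
  show D.mapSub f (D.idLat R I hI).1 = _
  rw [idLat_val, idLat_val, mapSub_idSub]

theorem ker_ne_bot (θ : D.A →ₐ[k] k) : RingHom.ker θ ≠ ⊥ := by
  intro h
  have hdeg := D.an_coeff D.deg D.deg_notMem D.deg_notMem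
  set a : D.A := ⟨D.an D.deg D.deg_notMem, D.an_mem _ _⟩
  have hmem : a - algebraMap k D.A (θ a) ∈ RingHom.ker θ := by
    rw [RingHom.mem_ker, map_sub, AlgHom.commutes, Algebra.algebraMap_self, RingHom.id_apply,
      sub_self]
  rw [h, Ideal.mem_bot, sub_eq_zero] at hmem
  have h2 := congrArg (fun x : D.A => (x : LaurentSeries k).coeff (-(D.deg : ℤ))) hmem
  simp only [a, hdeg, if_true, Subalgebra.coe_algebraMap, algebraMap_LS, HahnSeries.C_apply,
    HahnSeries.coeff_single_of_ne (show -(D.deg : ℤ) ≠ 0 by have : 0 < D.deg := Nat.succ_pos _; omega)] at h2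
  exact one_ne_zero h2

/-- the ideal of a point, as a lattice -/
def ptIdeal (θ : D.A →ₐ[k] k) : D.Lattice R := D.idLat R (RingHom.ker θ) (D.ker_ne_bot θ)

/-- the lattice of the divisor of a point -/
def ptLat (θ : D.A →ₐ[k] k) : D.Lattice R := (D.ptIdeal R θ)⁻¹

theorem mapLat_ptLat {R' : Type u} [CommRing R'] [Algebra k R'] (f : R →ₐ[k] R')
    (θ : D.A →ₐ[k] k) : D.mapLat f (D.ptLat R θ) = D.ptLat R' θ := by
  rw [ptLat, map_inv, ptIdeal, mapLat_idLat]
  rfl

end Ideal

/-! ### evaluation at a point -/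

section Eval

variable {R : Type u} [CommRing R] [Algebra k R] (θ : D.A →ₐ[k] k)

/-- evaluation of functions with coefficients at a point -/
def evalPt : D.Fun R →ₐ[k] R :=
  Algebra.TensorProduct.productMap (AlgHom.id k R) ((Algebra.ofId k R).comp θ)

theorem evalPt_tmul (r : R) (a : D.A) : D.evalPt θ (r ⊗ₜ a) = r * algebraMap k R (θ a) :=
  Algebra.TensorProduct.productMap_apply_tmul _ _ r a

theorem evalPt_smul (μ : R) (s : D.Fun R) : D.evalPt θ (μ • s) = μ * D.evalPt θ s := by
  induction s using TensorProduct.induction_on with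
  | zero => simp
  | add a b ha hb => rw [smul_add, map_add, map_add, ha, hb, mul_add]
  | tmul r a => rw [TensorProduct.smul_tmul', evalPt_tmul, evalPt_tmul, smul_eq_mul, mul_assoc]

theorem ev_sub_evalPt_mem [IsDedekindDomain D.A] (s : D.Fun R) :
    D.ev R s - HahnSeries.C (D.evalPt θ s) ∈ D.idSub R (RingHom.ker θ) := by
  induction s using TensorProduct.induction_on with
  | zero => simp
  | add s t hs ht =>
    rw [map_add, map_add, map_add, add_sub_add_comm]
    exact add_mem hs ht
  | tmul r a =>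
    have e : D.ev R (r ⊗ₜ a) - HahnSeries.C (D.evalPt θ (r ⊗ₜ a)) = HahnSeries.C r *
        L R ((a - algebraMap k D.A (θ a) : D.A) : LaurentSeries k) := by
      rw [ev_tmul, evalPt_tmul, map_mul, AddSubgroupClass.coe_sub, map_sub, mul_sub,
        Subalgebra.coe_algebraMap, algebraMap_LS, Algebra.algebraMap_self, RingHom.id_apply]
      congr 2
      rw [L, HahnSeries.C_apply, HahnSeries.C_apply, coeffMap_single]
    rw [e]
    refine Submodule.smul_mem _ (⟨_, D.C_mem_AR r⟩ : D.AR R) (D.L_mem_idSub R ?_)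
    rw [RingHom.mem_ker, map_sub, AlgHom.commutes, Algebra.algebraMap_self, RingHom.id_apply,
      sub_self]

theorem exists_ev_of_mem_idSub [IsDedekindDomain D.A] {x : LaurentSeries R}
    (hx : x ∈ D.idSub R (RingHom.ker θ)) : ∃ s, D.ev R s = x ∧ D.evalPt θ s = 0 := by
  induction hx using Submodule.span_induction with
  | mem y hy =>
    obtain ⟨a, ha, rfl⟩ := hy
    refine ⟨(1 : R) ⊗ₜ a, by rw [ev_tmul, map_one, one_mul], ?_⟩
    rw [evalPt_tmul, RingHom.mem_ker.mp ha, map_zero, mul_zero]
  | zero => exact ⟨0, map_zero _, map_zero _⟩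
  | add y z _ _ hy hz =>
    obtain ⟨s, rfl, hs⟩ := hy
    obtain ⟨t, rfl, ht⟩ := hz
    exact ⟨s + t, map_add _ _ _, by rw [map_add, hs, ht, add_zero]⟩
  | smul a y _ hy =>
    obtain ⟨s, rfl, hs⟩ := hy
    obtain ⟨t, ht⟩ := D.exists_ev_eq a.2
    exact ⟨t * s, by rw [map_mul, ht]; rfl, by rw [map_mul, hs, mul_zero]⟩

variable [IsDedekindDomain D.A]

theorem ptIdeal_le_one : (D.ptIdeal R θ).1 ≤ 1 := by
  rw [ptIdeal, idLat_val, ← map_one (D.idSub R)]
  exact Submodule.span_mono (Set.image_mono fun _ _ => by simp)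

theorem mem_mul_ptIdeal (L' : D.Lattice R) {x : LaurentSeries R} :
    x ∈ (L' * D.ptIdeal R θ).1 ↔
      x ∈ L'.1 ∧ ∀ n ∈ (L'⁻¹).1, ∀ s, D.ev R s = x * n → D.evalPt θ s = 0 := by
  rw [Units.val_mul]
  constructor
  · intro hx
    refine ⟨(mul_le_mul_right (D.ptIdeal_le_one θ) L'.1).trans_eq (mul_one _) hx, fun n hn => ?_⟩
    have h : x * n ∈ (D.ptIdeal R θ).1 := by
      have h' := Submodule.mul_mem_mul hx hn
      rwa [mul_comm L'.1, mul_assoc, ← Units.val_mul L', mul_inv_cancel, Units.val_one,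
        mul_one] at h'
    rw [ptIdeal, idLat_val] at h
    obtain ⟨s₀, hs₀, h0⟩ := D.exists_ev_of_mem_idSub θ h
    intro s hs
    rwa [← D.ev_injective (hs₀.trans hs.symm)]
  · rintro ⟨hx, h⟩
    have key : ∀ y ∈ (L'⁻¹).1 * L'.1, x * y ∈ L'.1 * (D.ptIdeal R θ).1 := fun y hy => by
      refine Submodule.mul_induction_on hy (fun n hn m hm => ?_) fun y z hy hz => ?_
      · have hmem : x * n ∈ D.AR R := by
          have h' := Submodule.mul_mem_mul hx hn
          rw [← Units.val_mul, mul_inv_cancel, Units.val_one, Submodule.mem_one] at h'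
          obtain ⟨a, ha⟩ := h'
          exact ha ▸ a.2
        obtain ⟨s, hs⟩ := D.exists_ev_eq hmem
        have h0 := D.ev_sub_evalPt_mem θ s
        rw [h n hn s hs, map_zero, sub_zero, hs] at h0
        rw [← mul_assoc, mul_comm L'.1, ptIdeal, idLat_val]
        exact Submodule.mul_mem_mul h0 hm
      · rw [mul_add]
        exact add_mem hy hz
    have h1 := key 1 (by
      rw [← Units.val_mul, inv_mul_cancel, Units.val_one]
      exact Submodule.one_le.mp le_rfl)
    rwa [mul_one] at h1

theorem ev_mem_AR' {L' : D.Lattice R} {x n : LaurentSeries R} (hx : x ∈ L'.1) (hn : n ∈ (L'⁻¹).1) :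
    x * n ∈ D.AR R := by
  have h' := Submodule.mul_mem_mul hx hn
  rw [← Units.val_mul, mul_inv_cancel, Units.val_one, Submodule.mem_one] at h'
  obtain ⟨a, ha⟩ := h'
  exact ha ▸ a.2

end Eval

/-- over a field a point ideal has codimension one in every lattice -/
theorem exists_sub_smul_mem [IsDedekindDomain D.A] {K : Type u} [Field K] [Algebra k K]
    (θ : D.A →ₐ[k] k) (L' : D.Lattice K) {s : LaurentSeries K} (hs : s ∈ L'.1)
    (hs' : s ∉ (L' * D.ptIdeal K θ).1) {x : LaurentSeries K} (hx : x ∈ L'.1) :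
    ∃ μ : K, x - μ • s ∈ (L' * D.ptIdeal K θ).1 := by
  classical
  rw [mem_mul_ptIdeal] at hs'
  push Not at hs'
  obtain ⟨n₀, hn₀, s₄, h4, hne⟩ := hs' hs
  obtain ⟨s₅, h5⟩ := D.exists_ev_eq (D.ev_mem_AR' hx hn₀)
  refine ⟨D.evalPt θ s₅ / D.evalPt θ s₄, (D.mem_mul_ptIdeal θ L').mpr ?_⟩
  set μ := D.evalPt θ s₅ / D.evalPt θ s₄
  have hy : x - μ • s ∈ L'.1 := sub_mem hx ((D.toR L'.1).smul_mem μ hs)
  refine ⟨hy, fun n hn s₁ h1 => ?_⟩
  obtain ⟨s₃, h3⟩ := D.exists_ev_eq (D.ev_mem_AR' hs hn)
  have e : s₁ * s₄ = (s₅ - μ • s₄) * s₃ := D.ev_injective (by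
    rw [map_mul, map_mul, map_sub, ev_smul, h1, h3, h4, h5, ← HahnSeries.C_mul_eq_smul,
      ← HahnSeries.C_mul_eq_smul]
    ring)
  have e2 := congrArg (D.evalPt θ) e
  rw [map_mul, map_mul, map_sub, evalPt_smul, show μ * D.evalPt θ s₄ = D.evalPt θ s₅ from
    div_mul_cancel₀ _ hne, sub_self, zero_mul] at e2
  exact (mul_eq_zero.mp e2).resolve_right hne

/-! ### density and factorisation -/

variable [IsAlgClosed k] [Algebra.FiniteType k D.A]

theorem exists_pt_of_isMaximal (P : Ideal D.A) [P.IsMaximal] :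
    ∃ θ : D.A →ₐ[k] k, RingHom.ker θ = P := by
  let : Field (D.A ⧸ P) := Ideal.Quotient.field P
  have : Module.Finite k (D.A ⧸ P) := finite_of_finite_type_of_isJacobsonRing k (D.A ⧸ P)
  have hbij := IsAlgClosed.algebraMap_bijective_of_isIntegral (k := k) (K := D.A ⧸ P)
  set e := AlgEquiv.ofBijective (Algebra.ofId k (D.A ⧸ P)) hbij
  refine ⟨e.symm.toAlgHom.comp (Ideal.Quotient.mkₐ k P), Ideal.ext fun a => ?_⟩
  rw [RingHom.mem_ker]
  exact (map_eq_zero_iff e.symm.toAlgHom e.symm.injective).trans Ideal.Quotient.eq_zero_iff_mem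

variable [IsDedekindDomain D.A]

/-- the rational points are dense over every field -/
theorem exists_evalPt_ne {K : Type u} [Field K] [Algebra k K] {s : D.Fun K} (hs : s ≠ 0) :
    ∃ θ : D.A →ₐ[k] k, D.evalPt θ s ≠ 0 := by
  classical
  by_contra h
  push Not at h
  let b := Module.Basis.ofVectorSpace k K
  set f := TensorProduct.equivFinsuppOfBasisLeft (N := D.A) b s with hf
  have hsf : s = f.sum fun i a => b i ⊗ₜ a := by
    rw [hf, ← TensorProduct.equivFinsuppOfBasisLeft_symm_apply, LinearEquiv.symm_apply_apply]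
  have hθ : ∀ θ : D.A →ₐ[k] k, ∀ i, θ (f i) = 0 := fun θ => by
    have e : Finsupp.linearCombination k b (f.mapRange θ (map_zero θ)) = 0 := by
      rw [Finsupp.linearCombination_apply, Finsupp.sum_mapRange_index (fun i => zero_smul k (b i))]
      refine Eq.trans ?_ (h θ)
      rw [hsf, map_finsuppSum]
      refine Finsupp.sum_congr fun i _ => ?_
      rw [evalPt_tmul, Algebra.smul_def, mul_comm]
    have := linearIndependent_iff.mp b.linearIndependent _ e
    exact fun i => DFunLike.congr_fun this i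
  have : IsJacobsonRing D.A := isJacobsonRing_of_finiteType (A := k)
  have hf0 : f = 0 := Finsupp.ext fun i => by
    have hmem : f i ∈ Ideal.jacobson (⊥ : Ideal D.A) := Submodule.mem_sInf.mpr fun P hP => by
      have := hP.2
      obtain ⟨θ, rfl⟩ := D.exists_pt_of_isMaximal P
      exact RingHom.mem_ker.mpr (hθ θ i)
    rwa [IsJacobsonRing.out' _ Ideal.isPrime_bot.isRadical, Ideal.mem_bot] at hmem
  exact hs (by rw [hsf, hf0]; simp)

theorem exists_notMem_mul_ptIdeal {K : Type u} [Field K] [Algebra k K] (L' : D.Lattice K)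
    {s : LaurentSeries K} (hs : s ∈ L'.1) (hs0 : s ≠ 0) :
    ∃ θ : D.A →ₐ[k] k, s ∉ (L' * D.ptIdeal K θ).1 := by
  classical
  have h1 : (1 : LaurentSeries K) ∈ (L'⁻¹).1 * L'.1 := by
    rw [← Units.val_mul, inv_mul_cancel, Units.val_one]
    exact Submodule.one_le.mp le_rfl
  have : ∃ n ∈ (L'⁻¹).1, n ≠ 0 := by
    by_contra h
    push Not at h
    rw [(Submodule.eq_bot_iff (L'⁻¹).1).mpr h, Submodule.bot_mul, Submodule.mem_bot] at h1
    exact one_ne_zero h1
  obtain ⟨n, hn, hn0⟩ := this
  obtain ⟨t, ht⟩ := D.exists_ev_eq (D.ev_mem_AR' hs hn)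
  obtain ⟨θ, hθ⟩ := D.exists_evalPt_ne (s := t) fun e => by
    rw [e, map_zero] at ht
    exact mul_ne_zero hs0 hn0 ht.symm
  exact ⟨θ, fun h => hθ (((D.mem_mul_ptIdeal θ L').mp h).2 n hn t ht)⟩

theorem mem_AR_self {x : LaurentSeries k} (hx : x ∈ D.AR k) : x ∈ D.A := by
  refine D.AR_induction (P := fun y => y ∈ D.A) (fun r => C_mem D.A r) (fun a ha => ?_)
    (fun _ _ => add_mem) (fun _ => neg_mem) (fun _ _ => mul_mem) hx
  rwa [show L k a = a from HahnSeries.ext (funext fun n => by simp [coeff_L])]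

/-- lattices over `k` containing `1` are products of points -/
theorem exists_prod_ptLat (L' : D.Lattice k) (h1 : (1 : LaurentSeries k) ∈ L'.1) :
    ∃ s : Multiset (D.A →ₐ[k] k), L' = (s.map (D.ptLat k)).prod := by
  classical
  have hL : ∀ a : LaurentSeries k, L k a = a := fun a =>
    HahnSeries.ext (funext fun n => by simp [coeff_L])
  let I : Ideal D.A :=
    { carrier := {a : D.A | (a : LaurentSeries k) ∈ (L'⁻¹).1}
      add_mem' := fun ha hb => Submodule.add_mem _ ha hb
      zero_mem' := Submodule.zero_mem _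
      smul_mem' := fun d a ha =>
        Submodule.smul_mem _ (⟨(d : LaurentSeries k), by
          rw [← hL (d : LaurentSeries k)]; exact D.L_mem_AR d.2⟩ : D.AR k) ha }
  have hle : ∀ x ∈ (L'⁻¹).1, x ∈ D.A := fun x hx => by
    have h := D.ev_mem_AR' h1 hx
    rw [one_mul] at h
    exact D.mem_AR_self h
  have hI : D.idSub k I = (L'⁻¹).1 := by
    refine le_antisymm (Submodule.span_le.mpr ?_) fun x hx => ?_
    · rintro _ ⟨a, ha, rfl⟩
      show L k _ ∈ _
      rw [hL]
      exact ha
    · have h := D.L_mem_idSub k (I := I) (a := ⟨x, hle x hx⟩) hx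
      rwa [hL] at h
  have hI0 : I ≠ ⊥ := fun h => by
    have h' : (1 : LaurentSeries k) ∈ (L'⁻¹).1 * L'.1 := by
      rw [← Units.val_mul, inv_mul_cancel, Units.val_one]
      exact Submodule.one_le.mp le_rfl
    have h0 : D.idSub k (⊥ : Ideal D.A) = ⊥ := Submodule.span_eq_bot.mpr (by
      rintro _ ⟨a, ha, rfl⟩
      rw [show a = 0 from ha]
      exact map_zero _)
    rw [← hI, h, h0, Submodule.bot_mul, Submodule.mem_bot] at h'
    exact one_ne_zero h'
  have hpt : ∀ P ∈ normalizedFactors I, ∃ θ : D.A →ₐ[k] k, RingHom.ker θ = P := fun P hP => by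
    have hp := prime_of_normalized_factor P hP
    have : P.IsMaximal := (Ideal.isPrime_of_prime hp).isMaximal hp.ne_zero
    exact D.exists_pt_of_isMaximal P
  choose θ hθ using hpt
  set S := (normalizedFactors I).attach.map fun P => θ P.1 P.2
  refine ⟨S, ?_⟩
  have h2 : (S.map (D.ptLat k)).prod * (S.map (D.ptIdeal k)).prod = 1 := by
    rw [← Multiset.prod_map_mul]
    exact Multiset.prod_eq_one fun x hx => by
      obtain ⟨θ', -, rfl⟩ := Multiset.mem_map.mp hx
      exact inv_mul_cancel _
  have h3 : (S.map (D.ptIdeal k)).prod = L'⁻¹ := by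
    refine Units.ext ?_
    rw [← hI]
    show (Units.coeHom _) _ = _
    rw [map_multiset_prod, Multiset.map_map, Multiset.map_map]
    have e : ∀ P ∈ (normalizedFactors I).attach,
        (((Units.coeHom (Submodule (D.AR k) (LaurentSeries k))) ∘ D.ptIdeal k) ∘
          fun P : {x // x ∈ normalizedFactors I} => θ P.1 P.2) P = D.idSub k P.1 := fun P _ => by
      simp only [Function.comp_apply, Units.coeHom_apply, ptIdeal, idLat_val]
      rw [hθ]
    rw [Multiset.map_congr rfl e, Multiset.attach_map_val' (normalizedFactors I) (D.idSub k),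
      ← map_multiset_prod, Ideal.prod_normalizedFactors_eq_self hI0]
  rw [h3, mul_inv_eq_one] at h2
  exact h2.symm

end CellData

end FLTAgent.RelPic

end
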