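import Fermat.Agent.RelPic.RepPoints
import Fermat.Agent.RelPic.FamilyAlg
import Fermat.Agent.RelPic.FamilyChart

/-!
Area S25, parcel G: the morphism from the curve to a representing scheme given by
`point - base point`.
-/

set_option autoImplicit false
set_option linter.unusedSectionVars false
set_option synthInstance.maxHeartbeats 200000
set_option maxHeartbeats 800000

noncomputable section

universe u

open CategoryTheory CategoryTheory.Limits AlgebraicGeometry TopologicalSpace ModularCurve
open AlgebraicGeometry.RelPicard NeronModelInfra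

namespace FLTAgent.RelPic

variable {k : Type u} [Field k] [IsAlgClosed k] {C : Scheme.{u}} {c : C ⟶ Spec (CommRingCat.of k)}
variable [IsIntegral C] [IsProper c] [SmoothOfRelativeDimension 1 c]

/-- an affine open of the curve as an affine point -/
def openChart {O : C.Opens} (hO : IsAffineOpen O) : SchemeHomOver (base (k := k) (Sec c O)) c :=
  ⟨hO.fromSpec, by
    show hO.fromSpec ≫ c = Spec.map (strSec c O)
    rw [IsAffineOpen.fromSpec, Category.assoc, ← toSpecΓ_strSec, ← hO.isoSpec_hom,
      Iso.inv_hom_id_assoc]⟩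

instance {O : C.Opens} (hO : IsAffineOpen O) : IsOpenImmersion (openChart (c := c) hO).1 :=
  hO.isOpenImmersion_fromSpec

theorem range_openChart {O : C.Opens} (hO : IsAffineOpen O) :
    Set.range (openChart (c := c) hO).1 = O :=
  hO.range_fromSpec

theorem openChart_res {O W : C.Opens} (hO : IsAffineOpen O) (hW : IsAffineOpen W) (h : W ≤ O) :
    postComp (openChart (c := c) hO) (baseHom (secRes c h)) = openChart hW :=
  Subtype.ext (IsAffineOpen.map_fromSpec hO hW (homOfLE h).op)

theorem openChart_cancel {O : C.Opens} (hO : IsAffineOpen O) {R : Type u} [CommRing R] [Algebra k R]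
    {φ φ' : Sec c O →ₐ[k] R}
    (h : postComp (openChart hO) (baseHom φ) = postComp (openChart hO) (baseHom φ')) : φ = φ' := by
  have e : (baseHom φ).1 = (baseHom φ').1 :=
    (cancel_mono (openChart (c := c) hO).1).mp (congrArg Subtype.val h)
  exact AlgHom.coe_ringHom_injective
    (congrArg CommRingCat.Hom.hom (Spec.map_injective e) :)

variable {ε : SchemeHomOver (𝟙 (Spec (CommRingCat.of k))) c} {D : CellData k}
variable (ch : Chart c ε D) [Algebra.FiniteType k D.A] [IsDedekindDomain D.A]

open scoped Classical in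
/-- the class of `point - base point` -/
def Chart.ptClass (q : SchemeHomOver (base (k := k) k) c) : D.Class k :=
  if h : q.1 (IsLocalRing.closedPoint k) ∈ ch.U then
    QuotientGroup.mk (D.twist k (-1) * D.ptLat k ((exists_factor (openChart ch.hU) q
      ((range_openChart (c := c) ch.hU).symm ▸ h)).choose.comp ch.secU.symm.toAlgHom))
  else 1

theorem Chart.ptClass_of_notMem (q : SchemeHomOver (base (k := k) k) c)
    (h : q.1 (IsLocalRing.closedPoint k) ∉ ch.U) : ch.ptClass q = 1 :=
  dif_neg h

theorem Chart.ptClass_openChart (θ : Sec c ch.U →ₐ[k] k) :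
    ch.ptClass (postComp (openChart ch.hU) (baseHom θ)) =
      QuotientGroup.mk (D.twist k (-1) * D.ptLat k (θ.comp ch.secU.symm.toAlgHom)) := by
  have h : (postComp (openChart ch.hU) (baseHom θ)).1 (IsLocalRing.closedPoint k) ∈ ch.U :=
    (range_openChart (c := c) ch.hU).le ⟨(baseHom θ).1 (IsLocalRing.closedPoint k), rfl⟩
  rw [Chart.ptClass, dif_pos h]
  congr 4
  exact openChart_cancel ch.hU (exists_factor (openChart (c := c) ch.hU)
    (postComp (openChart ch.hU) (baseHom θ)) ((range_openChart (c := c) ch.hU).symm ▸ h)).choose_spec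

theorem _root_.FLTAgent.RelPic.CellData.classDegZero_twist_ptLat (θ : D.A →ₐ[k] k) :
    D.ClassDegZero k (QuotientGroup.mk (D.twist k (-1) * D.ptLat k θ)) := by
  rw [D.classDegZero_mk, D.isDegZero_iff _ 0, D.euler_twist_mul, ← one_mul (D.ptLat k θ),
    D.euler_mul_ptLat, (D.isDegZero_iff (1 : D.Lattice k) (0 + -1)).mp D.isDegZero_one]
  ring

theorem Chart.classDegZero_ptClass (q : SchemeHomOver (base (k := k) k) c) :
    D.ClassDegZero k (ch.ptClass q) := by
  rw [Chart.ptClass]
  split_ifs with h
  · exact D.classDegZero_twist_ptLat _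
  · rw [← QuotientGroup.mk_one, D.classDegZero_mk]
    exact D.isDegZero_one

variable (r : Rep ch)

/-- a morphism on an affine open with the right values at rational points -/
def Rep.IsCurveHom {O : C.Opens} (hO : IsAffineOpen O)
    (g : SchemeHomOver (base (k := k) (Sec c O)) r.π) : Prop :=
  ∀ φ : Sec c O →ₐ[k] k,
    tcl ch (postComp g (baseHom φ)) r.univ = ch.ptClass (postComp (openChart hO) (baseHom φ))

theorem Rep.exists_of_lattice {O : C.Opens} (hO : IsAffineOpen O) (F : D.Lattice (Sec c O))
    (hF : ∀ φ : Sec c O →ₐ[k] k, (QuotientGroup.mk (D.mapLat φ F) : D.Class k) =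
      ch.ptClass (postComp (openChart hO) (baseHom φ))) :
    ∃ g, r.IsCurveHom ch hO g := by
  obtain ⟨x, hx⟩ := ch.toClass_surjective (R := Sec c O) (QuotientGroup.mk F)
  have : LocallyOfFiniteType (base (k := k) (Sec c O)) := (openChart (c := c) hO).2 ▸ inferInstance
  have key : ∀ φ : Sec c O →ₐ[k] k,
      tcl ch (baseHom φ) x = ch.ptClass (postComp (openChart hO) (baseHom φ)) := fun φ => by
    rw [tcl, ch.toClass_natural, hx, D.mapClass_mk, hF]
  obtain ⟨g, hg⟩ := r.exists_hom x fun q => by
    obtain ⟨φ, rfl⟩ := exists_baseHom q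
    rw [key]
    exact ch.classDegZero_ptClass _
  exact ⟨g, fun φ => by rw [hg, key]⟩

theorem Rep.exists_curveHom_U : ∃ g, r.IsCurveHom ch ch.hU g := by
  obtain ⟨F, hF⟩ := CellData.exists_family_away D
  refine r.exists_of_lattice ch ch.hU (D.mapLat ch.secU.symm.toAlgHom F) fun φ => ?_
  rw [D.mapLat_mapLat, hF, ch.ptClass_openChart]

theorem Rep.exists_curveHom_near : ∃ (O : C.Opens) (hO : IsAffineOpen O),
    x0 c ε ∈ O ∧ ∃ g, r.IsCurveHom ch hO g := by
  obtain ⟨O, hle, hO, hx, F, hF⟩ := ch.exists_family_near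
  refine ⟨O, hO, hx, r.exists_of_lattice ch hO F fun φ => ?_⟩
  set q := postComp (openChart hO) (baseHom φ)
  have hbo : C.basicOpen ((secRes c hle ch.τs : Sec c O) : Γ(C, O)) = O ⊓ ch.U := by
    show C.basicOpen ((C.presheaf.map (homOfLE hle).op).hom ch.τ) = _
    rw [Scheme.basicOpen_res, ch.basic]
    exact le_antisymm (le_inf inf_le_left (inf_le_right.trans inf_le_left))
      (le_inf inf_le_left (le_inf inf_le_right (inf_le_left.trans hle)))
  have hmem : q.1 (IsLocalRing.closedPoint k) ∈ ch.U ↔ φ (secRes c hle ch.τs) ≠ 0 := by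
    have hO' : q.1 (IsLocalRing.closedPoint k) ∈ O :=
      (range_openChart (c := c) hO).le ⟨(baseHom φ).1 (IsLocalRing.closedPoint k), rfl⟩
    have e : q.1 (IsLocalRing.closedPoint k) ∈
        C.basicOpen ((secRes c hle ch.τs : Sec c O) : Γ(C, O)) ↔ φ (secRes c hle ch.τs) ≠ 0 := by
      let x : Spec Γ(C, O) := (baseHom φ).1 (IsLocalRing.closedPoint k)
      refine (Iff.of_eq (congrArg (fun U : (Spec Γ(C, O)).Opens => x ∈ U)
        (hO.fromSpec_preimage_basicOpen
          ((secRes c hle ch.τs : Sec c O) : Γ(C, O))))).trans ?_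
      show ¬ φ (secRes c hle ch.τs) ∈ IsLocalRing.maximalIdeal k ↔ _
      rw [IsLocalRing.maximalIdeal_eq_bot, Ideal.mem_bot]
    rw [hbo] at e
    exact ⟨fun h => e.mp ⟨hO', h⟩, fun h => (e.mpr h).2⟩
  by_cases h0 : φ (secRes c hle ch.τs) = 0
  · rw [(hF φ).1 h0, ch.ptClass_of_notMem q fun h => hmem.mp h h0]
  · have hU := hmem.mpr h0
    have hW : IsAffineOpen (O ⊓ ch.U) := hbo ▸ hO.basicOpen _
    obtain ⟨χ, hχ⟩ := exists_factor (openChart (c := c) hW) q ((range_openChart (c := c) hW).symm ▸
      (⟨(range_openChart (c := c) hO).le ⟨(baseHom φ).1 (IsLocalRing.closedPoint k), rfl⟩, hU⟩ :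
        q.1 (IsLocalRing.closedPoint k) ∈ O ⊓ ch.U))
    have hres : ∀ {W' : C.Opens} (hW' : IsAffineOpen W') (h : O ⊓ ch.U ≤ W'),
        postComp (openChart (c := c) hW') (baseHom (χ.comp (secRes c h))) = q := fun hW' h => by
      rw [← hχ, ← openChart_res hW' hW h]
      exact Subtype.ext (by
        show Spec.map (CommRingCat.ofHom (χ.comp (secRes c h)).toRingHom) ≫ _ =
          Spec.map (CommRingCat.ofHom χ.toRingHom) ≫
            Spec.map (CommRingCat.ofHom (secRes c h).toRingHom) ≫ _
        rw [← Spec.map_comp_assoc, ← CommRingCat.ofHom_comp]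
        rfl)
    rw [(hF φ).2 h0 (O ⊓ ch.U) inf_le_right inf_le_left χ
      (openChart_cancel hO (hres hO inf_le_left)), ← ch.ptClass_openChart,
      hres ch.hU inf_le_right]

variable [LocallyOfFiniteType r.π] [IsSeparated r.π]

theorem Rep.eq_on_overlap {O O' W : C.Opens} (hO : IsAffineOpen O) (hO' : IsAffineOpen O')
    (hW : IsAffineOpen W) (h : W ≤ O) (h' : W ≤ O') {g g'}
    (hg : r.IsCurveHom ch hO g) (hg' : r.IsCurveHom ch hO' g') :
    postComp g (baseHom (secRes c h)) = postComp g' (baseHom (secRes c h')) := by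
  refine Subtype.ext ?_
  by_cases hne : (W : Set C).Nonempty
  swap
  · have : IsEmpty (Spec (CommRingCat.of (Sec c W))) :=
      ⟨fun x => hne ⟨_, (range_openChart (c := c) hW).le ⟨x, rfl⟩⟩⟩
    exact isInitialOfIsEmpty.hom_ext _ _
  have : Nonempty W := hne.to_subtype
  have : IsDomain (Sec c W) := inferInstanceAs (IsDomain Γ(C, W))
  set f := (postComp g (baseHom (secRes c h))).1
  set f' := (postComp g' (baseHom (secRes c h'))).1
  have hf : f ≫ r.π = base (k := k) (Sec c W) := (postComp g (baseHom (secRes c h))).2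
  have hf' : f' ≫ r.π = base (k := k) (Sec c W) := (postComp g' (baseHom (secRes c h'))).2
  have : LocallyOfFiniteType (base (k := k) (Sec c W)) := (openChart (c := c) hW).2 ▸ inferInstance
  have : LocallyOfFiniteType (f ≫ r.π) := hf ▸ inferInstance
  refine ext_of_apply_eq r.π Set.univ isClosed_univ.isLocallyClosed dense_univ (fun x _ hx => ?_)
    (hf.trans hf'.symm)
  obtain ⟨χ, hχ⟩ := exists_baseHom (⟨pointOfClosedPoint (base (k := k) (Sec c W)) x hx,
    (pointOfClosedPoint_comp _ x hx).trans base_self.symm⟩ :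
    SchemeHomOver (base (k := k) k) (base (Sec c W)))
  have hcomp : ∀ {V : C.Opens} (hV : IsAffineOpen V) (hle : W ≤ V),
      postComp (openChart (c := c) hV) (baseHom (χ.comp (secRes c hle))) =
        postComp (openChart hW) (baseHom χ) := fun hV hle => by
    rw [← openChart_res hV hW hle]
    exact Subtype.ext (by
      show Spec.map (CommRingCat.ofHom (χ.comp (secRes c hle)).toRingHom) ≫ _ =
        Spec.map (CommRingCat.ofHom χ.toRingHom) ≫
          Spec.map (CommRingCat.ofHom (secRes c hle).toRingHom) ≫ _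
      rw [← Spec.map_comp_assoc, ← CommRingCat.ofHom_comp]
      rfl)
  have e : postComp g (baseHom (χ.comp (secRes c h))) = postComp g' (baseHom (χ.comp (secRes c h'))) := by
    apply r.ext_tcl
    rw [hg, hg', hcomp hO h, hcomp hO' h']
  have hx' : (baseHom χ).1 (IsLocalRing.closedPoint k) = x := by
    rw [hχ]; exact pointOfClosedPoint_apply _ x hx _
  have e' := congrArg (fun s => s.1 (IsLocalRing.closedPoint k)) e
  rw [← hx']
  exact e'

/-- the morphism from the curve given by `point - base point` -/
theorem Rep.exists_curveHom :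
    ∃ g : SchemeHomOver c r.π, ∀ q : SchemeHomOver (base (k := k) k) c,
      tcl ch (postComp g q) r.univ = ch.ptClass q := by
  obtain ⟨O, hO, hx, gO, hgO⟩ := r.exists_curveHom_near ch
  obtain ⟨gU, hgU⟩ := r.exists_curveHom_U ch
  let P : ULift.{u} Bool → C.Opens := fun a => cond a.down ch.U O
  have hP : ∀ a, IsAffineOpen (P a) := by rintro ⟨_ | _⟩ <;> [exact hO; exact ch.hU]
  have hex : ∀ a, ∃ g, r.IsCurveHom ch (hP a) g := by
    rintro ⟨_ | _⟩ <;> [exact ⟨gO, hgO⟩; exact ⟨gU, hgU⟩]
  choose g hg using hex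
  have hcov : ∀ p : C, ∃ a, p ∈ Set.range (openChart (c := c) (hP a)).1 := fun p => by
    by_cases hp : p ∈ ch.U
    · exact ⟨⟨true⟩, (range_openChart (c := c) _).ge hp⟩
    · have : p = x0 c ε := by
        by_contra hne
        exact hp (show p ∈ (ch.U : Set C) from ch.coe_U ▸ hne)
      exact ⟨⟨false⟩, (range_openChart (c := c) _).ge (this ▸ hx)⟩
  obtain ⟨y, hy⟩ := exists_glue_classes ch (fun a => Spec (CommRingCat.of (Sec c (P a))))
    (fun a => base (k := k) (Sec c (P a))) (fun a => openChart (hP a)) hcov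
    (fun a => RigidifiedLineBundle.classesMap (g a) r.univ) fun a b R _ _ f f' hff => by
      have hW : IsAffineOpen (P a ⊓ P b) := by
        have : C.IsSeparated := ⟨by
          rw [show terminal.from C = c ≫ terminal.from _ from terminal.hom_ext _ _]
          infer_instance⟩
        exact (hP a).inf (hP b)
      have hr : Set.range (f.1 ≫ (openChart (c := c) (hP a)).1) ⊆
          Set.range (openChart (c := c) hW).1 := by
        rw [range_openChart]
        rintro _ ⟨z, rfl⟩
        refine ⟨(range_openChart (c := c) (hP a)).le ⟨f.1 z, rfl⟩, ?_⟩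
        rw [hff]
        exact (range_openChart (c := c) (hP b)).le ⟨f'.1 z, rfl⟩
      let l : SchemeHomOver (base (k := k) R) (base (Sec c (P a ⊓ P b))) :=
        ⟨IsOpenImmersion.lift (openChart (c := c) hW).1 _ hr,
          (congrArg (IsOpenImmersion.lift _ _ hr ≫ ·) (openChart (c := c) hW).2.symm).trans
            ((Category.assoc _ _ _).symm.trans
              ((congrArg (· ≫ c) (IsOpenImmersion.lift_fac _ _ hr)).trans
                ((Category.assoc _ _ _).trans
                  ((congrArg (f.1 ≫ ·) (openChart (c := c) (hP a)).2).trans f.2))))⟩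
      have hfl : ∀ (a' : ULift.{u} Bool) (f₁ : SchemeHomOver (base (k := k) R) (base (Sec c (P a'))))
          (hle : P a ⊓ P b ≤ P a'), f₁.1 ≫ (openChart (c := c) (hP a')).1 =
            f.1 ≫ (openChart (c := c) (hP a)).1 → f₁ = postComp (baseHom (secRes c hle)) l := by
        intro a' f₁ hle e
        refine Subtype.ext ((cancel_mono (openChart (c := c) (hP a')).1).mp ?_)
        rw [e, postComp, Category.assoc,
          show (baseHom (secRes c hle)).1 ≫ (openChart (c := c) (hP a')).1 = (openChart hW).1 from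
            congrArg Subtype.val (openChart_res (hP a') hW hle)]
        exact (IsOpenImmersion.lift_fac _ _ hr).symm
      rw [hfl a f inf_le_left rfl, hfl b f' inf_le_right hff.symm,
        classesMap_classesMap, classesMap_classesMap]
      have e := r.eq_on_overlap ch (hP a) (hP b) hW inf_le_left inf_le_right (hg a) (hg b)
      exact congrArg (RigidifiedLineBundle.classesMap · r.univ) (Subtype.ext
        (show (l.1 ≫ _) ≫ _ = (l.1 ≫ _) ≫ _ from by
          rw [Category.assoc, Category.assoc]
          exact congrArg (l.1 ≫ ·) (congrArg Subtype.val e)))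
  have key : ∀ q : SchemeHomOver (base (k := k) k) c, tcl ch q y = ch.ptClass q := fun q => by
    obtain ⟨a, ha⟩ := hcov (q.1 (IsLocalRing.closedPoint k))
    obtain ⟨φ, rfl⟩ := exists_factor (openChart (c := c) (hP a)) q ha
    rw [← tcl_map, hy a, tcl_map, hg a φ]
  obtain ⟨g', hg'⟩ := r.exists_hom y fun q => by rw [key]; exact ch.classDegZero_ptClass q
  exact ⟨g', fun q => by rw [hg', key]⟩

end FLTAgent.RelPic

end
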