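import Fermat.Agent.RelPic.RepSmooth
import Fermat.Agent.RelPic.EngineFamily

/-!
Area S25, parcel G: the degree of an invertible sheaf on the fibres of a family of curves; it is
locally constant, and constant on a connected base.
-/

set_option autoImplicit false
set_option linter.unusedSectionVars false

noncomputable section

universe u

open CategoryTheory CategoryTheory.Limits AlgebraicGeometry TopologicalSpace ModularCurve
open AlgebraicGeometry.RelPicard NeronModelInfra

namespace FLTAgent.RelPic

/-- an invertible sheaf on a one point scheme is trivial -/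
theorem nonempty_iso_unit_of_subsingleton {Y : Scheme.{u}} [Subsingleton Y] [Nonempty Y]
    {M : Y.Modules} (hM : Scheme.Modules.IsInvertible M) : Nonempty (M ≅ unitM Y) := by
  obtain ⟨U, e, hy, he⟩ := exists_frame hM (Classical.arbitrary Y)
  have hU : U = ⊤ := by
    ext z
    simp only [Opens.coe_top, Set.mem_univ, iff_true]
    rw [Subsingleton.elim z (Classical.arbitrary Y)]
    exact hy
  subst hU
  exact ⟨((oneCocycle Y).isoOfFrames ⟨fun _ => e, fun i j W hi hj => by
    simp only [map_one, one_smul]⟩ fun _ => he).symm ≪≫ oneCocycleIso Y⟩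

variable {k : Type u} [Field k] {C : Scheme.{u}} {c : C ⟶ Spec (CommRingCat.of k)}
variable {ε : SchemeHomOver (𝟙 (Spec (CommRingCat.of k))) c} {D : CellData k}

section Modules

variable {T : Scheme.{u}} {t : T ⟶ Spec (CommRingCat.of k)} (N : (pullback c t).Modules)

/-- pulling back twice -/
def pullPullIso {T' T'' : Scheme.{u}} {t' : T' ⟶ Spec (CommRingCat.of k)}
    {t'' : T'' ⟶ Spec (CommRingCat.of k)} (ψ : SchemeHomOver t'' t') (φ : SchemeHomOver t' t) :
    (Scheme.Modules.pullback (baseChangeSnd c ψ)).obj
        ((Scheme.Modules.pullback (baseChangeSnd c φ)).obj N) ≅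
      (Scheme.Modules.pullback (baseChangeSnd c (overComp ψ φ))).obj N :=
  (Scheme.Modules.pullbackComp _ _).app N ≪≫
    (Scheme.Modules.pullbackCongr (baseChangeSnd_comp c φ ψ)).app N

variable {N} (hN : Scheme.Modules.IsInvertible N) {K : Type u} [Field K] [Algebra k K]

/-- the restriction of an invertible sheaf to the fibre over a field point, rigidified -/
def fieldBundle (s : SchemeHomOver (base (k := k) K) t) :
    RigidifiedLineBundle c ε (base (k := k) K) where
  L := (Scheme.Modules.pullback (baseChangeSnd c s)).obj N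
  isInvertible := hN.pullback _
  rigidified := by
    have : Subsingleton (Spec (CommRingCat.of K)) :=
      inferInstanceAs (Subsingleton (PrimeSpectrum K))
    have : Nonempty (Spec (CommRingCat.of K)) := ⟨IsLocalRing.closedPoint K⟩
    exact nonempty_iso_unit_of_subsingleton ((hN.pullback _).pullback _)

variable (ch : Chart c ε D)

/-- the fibre at a field point has degree zero -/
def DegAt (s : SchemeHomOver (base (k := k) K) t) : Prop :=
  D.ClassDegZero K (ch.toClass (Quotient.mk _ (fieldBundle (ε := ε) hN s)))

theorem degAt_congr {N' : (pullback c t).Modules} (hN' : Scheme.Modules.IsInvertible N')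
    (e : Nonempty (N ≅ N')) (s : SchemeHomOver (base (k := k) K) t) :
    DegAt hN ch s ↔ DegAt hN' ch s := by
  have e' : (Quotient.mk _ (fieldBundle (ε := ε) hN s) :
      RigidifiedLineBundle.Classes c ε (base (k := k) K)) = Quotient.mk _ (fieldBundle hN' s) :=
    Quotient.sound ⟨(Scheme.Modules.pullback _).mapIso e.some⟩
  exact iff_of_eq (congrArg (fun x => D.ClassDegZero K (ch.toClass x)) e')

theorem degAt_pullback {T' : Scheme.{u}} {t' : T' ⟶ Spec (CommRingCat.of k)}
    (φ : SchemeHomOver t' t) (s : SchemeHomOver (base (k := k) K) t') :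
    DegAt (hN.pullback (baseChangeSnd c φ)) ch s ↔ DegAt hN ch (overComp s φ) := by
  have e : (Quotient.mk _ (fieldBundle (ε := ε) (hN.pullback (baseChangeSnd c φ)) s) :
      RigidifiedLineBundle.Classes c ε (base (k := k) K)) =
      Quotient.mk _ (fieldBundle hN (overComp s φ)) := Quotient.sound ⟨pullPullIso N s φ⟩
  exact iff_of_eq (congrArg (fun x => D.ClassDegZero K (ch.toClass x)) e)

theorem degAt_map {K' : Type u} [Field K'] [Algebra k K'] (f : K →ₐ[k] K')
    (s : SchemeHomOver (base (k := k) K) t) :
    DegAt hN ch (overComp (baseHom f) s) ↔ DegAt hN ch s := by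
  have e : (Quotient.mk _ (fieldBundle (ε := ε) hN (overComp (baseHom f) s)) :
      RigidifiedLineBundle.Classes c ε (base (k := k) K')) =
      RigidifiedLineBundle.classesMap (baseHom f) (Quotient.mk _ (fieldBundle (ε := ε) hN s)) :=
    Quotient.sound ⟨(pullPullIso N (baseHom f) s).symm⟩
  exact (iff_of_eq (congrArg (fun x => D.ClassDegZero K' (ch.toClass x)) e)).trans
    ((iff_of_eq (congrArg (D.ClassDegZero K') (ch.toClass_natural f _))).trans
      (D.classDegZero_mapClass f _))

theorem degAt_bundle (M : RigidifiedLineBundle c ε t) (s : SchemeHomOver (base (k := k) K) t) :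
    DegAt M.isInvertible ch s ↔
      D.ClassDegZero K (ch.toClass (RigidifiedLineBundle.classesMap s (Quotient.mk _ M))) := by
  have e : (Quotient.mk _ (fieldBundle (ε := ε) M.isInvertible s) :
      RigidifiedLineBundle.Classes c ε (base (k := k) K)) =
      RigidifiedLineBundle.classesMap s (Quotient.mk _ M) := Quotient.sound ⟨Iso.refl _⟩
  exact iff_of_eq (congrArg (fun x => D.ClassDegZero K (ch.toClass x)) e)

/-- the structure of a field over the ground field at a point -/
@[reducible]
def resAlg (t : T ⟶ Spec (CommRingCat.of k)) (y : T) : Algebra k (T.residueField y) :=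
  (Spec.preimage (T.fromSpecResidueField y ≫ t)).hom.toAlgebra

theorem base_resAlg (t : T ⟶ Spec (CommRingCat.of k)) (y : T) :
    T.fromSpecResidueField y ≫ t =
      letI := resAlg t y; base (k := k) (T.residueField y) :=
  (Spec.map_preimage _).symm

/-- the fibre at a point has degree zero -/
def DegPt (y : T) : Prop :=
  letI := resAlg t y
  DegAt hN ch (⟨T.fromSpecResidueField y, base_resAlg t y⟩ :
    SchemeHomOver (base (k := k) (T.residueField y)) t)

theorem degAt_iff_degPt (s : SchemeHomOver (base (k := k) K) t) :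
    DegAt hN ch s ↔ DegPt hN ch (s.1 (IsLocalRing.closedPoint K)) := by
  set y := s.1 (IsLocalRing.closedPoint K)
  let := resAlg t y
  let φ : T.residueField y ⟶ CommRingCat.of K :=
    T.descResidueField (Scheme.stalkClosedPointTo s.1)
  have hφ : Spec.map φ ≫ T.fromSpecResidueField y = s.1 :=
    T.descResidueField_stalkClosedPointTo_fromSpecResidueField K s.1
  have hc : CommRingCat.ofHom (algebraMap k (T.residueField y)) ≫ φ =
      CommRingCat.ofHom (algebraMap k K) := by
    refine Spec.map_injective ?_
    rw [Spec.map_comp]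
    show Spec.map φ ≫ base (k := k) (T.residueField y) = _
    rw [← base_resAlg t y, ← Category.assoc, hφ]
    exact s.2
  let f : T.residueField y →ₐ[k] K :=
    { φ.hom with commutes' := fun a => congr($hc a) }
  have e : overComp (baseHom f) (⟨T.fromSpecResidueField y, base_resAlg t y⟩ :
      SchemeHomOver (base (k := k) (T.residueField y)) t) = s := Subtype.ext hφ
  conv_lhs => rw [← e]
  exact degAt_map hN ch f _

/-- on an affine piece with a rigidification the degree is locally constant -/
theorem isClopen_degPt_preimage {R : Type u} [CommRing R] [Algebra k R]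
    (ι : SchemeHomOver (base (k := k) R) t)
    (hrig : Nonempty ((Scheme.Modules.pullback (rigSection c (base (k := k) R) ε)).obj
      ((Scheme.Modules.pullback (baseChangeSnd c ι)).obj N) ≅
        SheafOfModules.unit (Spec (CommRingCat.of R)).ringCatSheaf)) :
    IsClopen (ι.1 ⁻¹' {y | DegPt hN ch y}) := by
  let B : RigidifiedLineBundle c ε (base (k := k) R) := ⟨_, hN.pullback _, hrig⟩
  obtain ⟨L, hL⟩ := QuotientGroup.mk_surjective (ch.toClass (Quotient.mk _ B))
  have key : ∀ p : PrimeSpectrum R, DegPt hN ch (ι.1 p) ↔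
      D.IsDegZero p.asIdeal.ResidueField (D.mapLat (resHom p) L) := fun p => by
    let g := resHom (k := k) p
    have hpt : (overComp (baseHom g) ι).1 (IsLocalRing.closedPoint p.asIdeal.ResidueField) =
        ι.1 p := congrArg ι.1 (PrimeSpectrum.ext (by
      show Ideal.comap (algebraMap R p.asIdeal.ResidueField) _ = _
      rw [show (IsLocalRing.closedPoint p.asIdeal.ResidueField).asIdeal = ⊥ from
        IsLocalRing.maximalIdeal_eq_bot, ← RingHom.ker_eq_comap_bot,
        Ideal.ker_algebraMap_residueField]))
    have h := degAt_iff_degPt hN ch (overComp (baseHom g) ι)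
    rw [hpt] at h
    rw [← h, ← degAt_pullback hN ch ι (baseHom g), degAt_bundle ch B (baseHom g)]
    refine (iff_of_eq (congrArg (D.ClassDegZero _) ((ch.toClass_natural g _).trans
      (congrArg (D.mapClass g) hL.symm)))).trans ?_
    rw [CellData.mapClass_mk, D.classDegZero_mk]
  have hset : (ι.1 ⁻¹' {y | DegPt hN ch y} : Set (PrimeSpectrum R)) =
      {p | D.IsDegZero p.asIdeal.ResidueField (D.mapLat (resHom p) L)} := Set.ext key
  exact (congrArg IsClopen hset).mpr (D.isClopen_isDegZero L)

/-- the degree is locally constant -/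
theorem isClopen_degPt : IsClopen {y : T | DegPt hN ch y} := by
  have key : ∀ y : T, ∃ W : Set T, IsOpen W ∧ y ∈ W ∧ IsOpen (W ∩ {y | DegPt hN ch y}) ∧
      IsOpen (W ∩ {y | DegPt hN ch y}ᶜ) := by
    intro y
    obtain ⟨U, hyU, ⟨E⟩⟩ := (hN.pullback (rigSection c t ε)).1 y
    obtain ⟨W, hW, hyW, hWU⟩ := Opens.isBasis_iff_nbhd.mp T.isBasis_affineOpens hyU
    let : Algebra k Γ(T, W) := (Spec.preimage (hW.fromSpec ≫ t)).hom.toAlgebra
    let ι : SchemeHomOver (base (k := k) Γ(T, W)) t := ⟨hW.fromSpec, (Spec.map_preimage _).symm⟩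
    have hle : Set.range ι.1 ⊆ Set.range U.ι := by
      rw [hW.range_fromSpec, Scheme.Opens.range_ι]
      exact hWU
    let j := IsOpenImmersion.lift U.ι ι.1 hle
    have hj : j ≫ U.ι = ι.1 := IsOpenImmersion.lift_fac _ _ _
    have hclopen := isClopen_degPt_preimage hN ch ι
      ⟨(Scheme.Modules.pullbackComp _ _).app N ≪≫
        (Scheme.Modules.pullbackCongr ((rigSection_baseChangeSnd c ε ι).trans
          (congrArg (fun m => m ≫ rigSection c t ε) hj.symm))).app N ≪≫
        ((Scheme.Modules.pullbackComp (j ≫ U.ι) (rigSection c t ε)).app N).symm ≪≫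
        ((Scheme.Modules.pullbackComp j U.ι).app _).symm ≪≫
        (Scheme.Modules.pullback j).mapIso E ≪≫ Scheme.Modules.pullbackUnitIso j⟩
    have : IsOpenImmersion hW.fromSpec := hW.isOpenImmersion_fromSpec
    have himg : ∀ A : Set T, hW.fromSpec '' (hW.fromSpec ⁻¹' A) = (W : Set T) ∩ A := fun A => by
      rw [Set.image_preimage_eq_range_inter, hW.range_fromSpec]
    refine ⟨W, W.2, hyW, ?_, ?_⟩
    · rw [← himg]
      exact hW.fromSpec.isOpenEmbedding.isOpenMap _ hclopen.isOpen
    · rw [← himg]
      exact hW.fromSpec.isOpenEmbedding.isOpenMap _ hclopen.compl.isOpen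
  refine ⟨⟨isOpen_iff_forall_mem_open.mpr fun y hy => ?_⟩,
    isOpen_iff_forall_mem_open.mpr fun y hy => ?_⟩
  · obtain ⟨W, -, hyW, -, h⟩ := key y
    exact ⟨_, Set.inter_subset_right, h, hyW, hy⟩
  · obtain ⟨W, -, hyW, h, -⟩ := key y
    exact ⟨_, Set.inter_subset_right, h, hyW, hy⟩

/-- on a connected base the degree is constant -/
theorem degAt_iff_of_preconnected [PreconnectedSpace T] {K' : Type u} [Field K'] [Algebra k K']
    (s : SchemeHomOver (base (k := k) K) t) (s' : SchemeHomOver (base (k := k) K') t) :
    DegAt hN ch s ↔ DegAt hN ch s' := by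
  rw [degAt_iff_degPt, degAt_iff_degPt]
  rcases isClopen_iff.mp (isClopen_degPt hN ch) with h | h
  · exact iff_of_false (fun hy => h.le hy) (fun hy => h.le hy)
  · exact iff_of_true (h.ge trivial) (h.ge trivial)

end Modules

end FLTAgent.RelPic

end
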