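import Fermat.Agent.RelPic.RepSmooth
import Fermat.Agent.AV.Box

/-!
Area S25, parcel G: a smooth irreducible scheme over an algebraically closed field is geometrically
integral; this applies to the representing scheme.
-/

set_option autoImplicit false
set_option linter.unusedSectionVars false

noncomputable section

universe u

open CategoryTheory CategoryTheory.Limits AlgebraicGeometry TopologicalSpace ModularCurve
open AlgebraicGeometry.RelPicard NeronModelInfra
open scoped TensorProduct

namespace FLTAgent.RelPic

variable {k : Type u} [Field k] [IsAlgClosed k]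

theorem geometricallyIntegral_of_smooth_of_irreducible {X : Scheme.{u}}
    (f : X ⟶ Spec (CommRingCat.of k)) [Smooth f] [IrreducibleSpace X] :
    GeometricallyIntegral f := by
  refine ⟨fun K _ y Z fst snd h => ?_⟩
  let : Algebra k K := (Spec.preimage y).hom.toAlgebra
  have hy : Spec.map (CommRingCat.ofHom (algebraMap k K)) = y := Spec.map_preimage y
  have : IsReduced X := AV.isReduced_of_smooth (f := f)
  have : IsIntegral X := isIntegral_of_irreducibleSpace_of_isReduced _
  let P : Scheme.{u} := pullback f y
  let p : P ⟶ X := pullback.fst f y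
  have : Smooth (pullback.snd f y) := MorphismProperty.of_isPullback (IsPullback.of_hasPullback f y) ‹Smooth f›
  have : IsReduced P := AV.isReduced_of_smooth (f := pullback.snd f y)
  have : Surjective y := ⟨fun z => ⟨IsLocalRing.closedPoint K, Subsingleton.elim _ _⟩⟩
  have hp : Function.Surjective p := Surjective.surj (f := p)
  -- each affine box of the product is irreducible
  have hbox : ∀ U : X.Opens, IsAffineOpen U → (U : Set X).Nonempty →
      IsPreirreducible (p ⁻¹' (U : Set X)) := by
    intro U hU hne
    have : Nonempty U := hne.to_subtype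
    let := (Spec.preimage (hU.fromSpec ≫ f)).hom.toAlgebra
    have hUm : Spec.map (CommRingCat.ofHom (algebraMap k Γ(X, U))) = hU.fromSpec ≫ f :=
      Spec.map_preimage _
    have : Algebra.FiniteType k Γ(X, U) :=
      (HasRingHomProperty.Spec_iff (P := @LocallyOfFiniteType)).mp
        (show LocallyOfFiniteType (Spec.map (CommRingCat.ofHom (algebraMap k Γ(X, U)))) by
          rw [hUm]; infer_instance)
    let R : CommRingCat.{u} := CommRingCat.of (Γ(X, U) ⊗[k] K)
    have : IsDomain R := AV.isDomain_tensor k Γ(X, U) K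
    let j : Spec R ⟶ P := (pullbackSpecIso k Γ(X, U) K).inv ≫
      pullback.map _ _ f y hU.fromSpec (𝟙 _) (𝟙 _) (by rw [hUm, Category.comp_id])
        (by rw [hy, Category.comp_id, Category.id_comp])
    have hj : Set.range j = p ⁻¹' (U : Set X) := by
      show Set.range ((pullbackSpecIso k Γ(X, U) K).inv ≫ _) = _
      rw [Scheme.Hom.comp_base, TopCat.coe_comp, Set.range_comp,
        Set.range_eq_univ.mpr (Surjective.surj (f := (pullbackSpecIso k Γ(X, U) K).inv)),
        Set.image_univ, Scheme.Pullback.range_map, hU.range_fromSpec]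
      rw [Scheme.Hom.id_base, TopCat.coe_id, Set.range_id, Set.preimage_univ, Set.inter_univ]
    rw [← hj, ← Set.image_univ]
    exact (IrreducibleSpace.isIrreducible_univ (Spec R)).2.image j j.continuous.continuousOn
  have hnbhd : ∀ x : X, ∃ U : X.Opens, IsAffineOpen U ∧ x ∈ U := fun x => by
    obtain ⟨U, hU, hx, -⟩ := exists_isAffineOpen_mem_and_subset (Opens.mem_top x)
    exact ⟨U, hU, hx⟩
  obtain ⟨z, hz⟩ := hp (genericPoint X)
  have : Nonempty P := ⟨z⟩
  have hη : ∀ (U : X.Opens) (x : X), x ∈ U → z ∈ p ⁻¹' (U : Set X) := fun U x hx =>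
    show p z ∈ U from hz ▸ ((genericPoint_spec X).mem_open_set_iff U.isOpen).mpr ⟨x, trivial, hx⟩
  have : IrreducibleSpace P := by
    refine { toPreirreducibleSpace := ⟨?_⟩, toNonempty := inferInstance }
    rintro V W hV hW ⟨a, -, haV⟩ ⟨b, -, hbW⟩
    obtain ⟨U, hU, haU⟩ := hnbhd (p a)
    obtain ⟨U', hU', hbU⟩ := hnbhd (p b)
    obtain ⟨a', ha', haV', haU'⟩ := hbox U hU ⟨_, haU⟩ V (p ⁻¹' (U' : Set X)) hV
      (U'.isOpen.preimage p.continuous) ⟨a, haU, haV⟩ ⟨z, hη U _ haU, hη U' _ hbU⟩
    obtain ⟨e, -, he, heW⟩ := hbox U' hU' ⟨_, hbU⟩ V W hV hW ⟨a', haU', haV'⟩ ⟨b, hbU, hbW⟩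
    exact ⟨e, trivial, he, heW⟩
  have : IsIntegral P := isIntegral_of_irreducibleSpace_of_isReduced _
  have : Nonempty Z := ⟨h.isoPullback.inv z⟩
  exact isIntegral_of_isOpenImmersion h.isoPullback.hom

variable {C : Scheme.{u}} {c : C ⟶ Spec (CommRingCat.of k)}
variable {ε : SchemeHomOver (𝟙 (Spec (CommRingCat.of k))) c} {D : CellData k}
variable [Algebra.FiniteType k D.A] [IsDedekindDomain D.A] {ch : Chart c ε D}

/-- an irreducible representing scheme is geometrically integral -/
theorem Rep.geometricallyIntegral (r : Rep ch) [IrreducibleSpace r.J] :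
    GeometricallyIntegral r.π :=
  have := r.smooth
  geometricallyIntegral_of_smooth_of_irreducible r.π

end FLTAgent.RelPic

end
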