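import Fermat.Agent.RelPic.Rep
import Fermat.Agent.RelPic.Bundles
import Fermat.Agent.RelPic.EngineFamily
import Fermat.Agent.RelPic.PointEuler

/-!
Area S25, parcel G: classes read off at points, degree zero is decided at rational points, products
of classes over any base, the addition of a representing scheme.
-/

set_option autoImplicit false
set_option linter.unusedSectionVars false
set_option synthInstance.maxHeartbeats 200000

noncomputable section

universe u

open CategoryTheory CategoryTheory.Limits AlgebraicGeometry TopologicalSpace ModularCurve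
open AlgebraicGeometry.RelPicard NeronModelInfra

namespace FLTAgent.RelPic

variable {k : Type u} [Field k]

/-- a function not nilpotent is nonzero at a rational point -/
theorem exists_point_ne_zero [IsAlgClosed k] {R : Type u} [CommRing R] [Algebra k R]
    [Algebra.FiniteType k R] {r : R} (h : ¬ IsNilpotent r) : ∃ θ : R →ₐ[k] k, θ r ≠ 0 := by
  have : IsJacobsonRing R := isJacobsonRing_of_finiteType (A := k)
  have h' : r ∉ Ideal.jacobson (⊥ : Ideal R) := by
    rwa [← Ideal.radical_eq_jacobson, ← Ideal.zero_eq_bot, ← nilradical, mem_nilradical]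
  rw [Ideal.jacobson, Ideal.mem_sInf] at h'
  push Not at h'
  obtain ⟨m, ⟨-, hm⟩, hr⟩ := h'
  let : Field (R ⧸ m) := Ideal.Quotient.field m
  have : Module.Finite k (R ⧸ m) := finite_of_finite_type_of_isJacobsonRing k (R ⧸ m)
  have hbij := IsAlgClosed.algebraMap_bijective_of_isIntegral (k := k) (K := R ⧸ m)
  set e := AlgEquiv.ofBijective (Algebra.ofId k (R ⧸ m)) hbij
  refine ⟨e.symm.toAlgHom.comp (Ideal.Quotient.mkₐ k m), fun h0 => hr ?_⟩
  exact Ideal.Quotient.eq_zero_iff_mem.mp ((map_eq_zero_iff e.symm.toAlgHom e.symm.injective).mp h0)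

/-- maps of affine bases come from maps of algebras -/
theorem exists_baseHom {R R' : Type u} [CommRing R] [Algebra k R] [CommRing R'] [Algebra k R']
    (s : SchemeHomOver (base (k := k) R') (base R)) : ∃ φ : R →ₐ[k] R', baseHom φ = s := by
  have e : CommRingCat.ofHom (algebraMap k R) ≫ Spec.preimage s.1 =
      CommRingCat.ofHom (algebraMap k R') := by
    apply Spec.map_injective
    rw [Spec.map_comp, Spec.map_preimage]
    exact s.2
  refine ⟨{ toRingHom := (Spec.preimage s.1).hom
            commutes' := fun a => congrArg (fun f => f.hom a) e }, Subtype.ext ?_⟩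
  show Spec.map (CommRingCat.ofHom (Spec.preimage s.1).hom) = s.1
  rw [CommRingCat.ofHom_hom, Spec.map_preimage]

variable {T : Scheme.{u}} {t : T ⟶ Spec (CommRingCat.of k)}

/-- an affine chart contains a point over a field with its image in the range -/
theorem exists_factor {R K : Type u} [CommRing R] [Algebra k R] [Field K] [Algebra k K]
    (ψ : SchemeHomOver (base (k := k) R) t) [IsOpenImmersion ψ.1]
    (s : SchemeHomOver (base (k := k) K) t)
    (h : s.1 (IsLocalRing.closedPoint K) ∈ Set.range ψ.1) :
    ∃ φ : R →ₐ[k] K, postComp ψ (baseHom φ) = s := by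
  have hr : Set.range s.1 ⊆ Set.range ψ.1 := by
    rintro _ ⟨y, rfl⟩
    rwa [Subsingleton.elim (α := PrimeSpectrum K) y (IsLocalRing.closedPoint K)]
  obtain ⟨φ, hφ⟩ := exists_baseHom (⟨IsOpenImmersion.lift ψ.1 s.1 hr,
    (congrArg (IsOpenImmersion.lift ψ.1 s.1 hr ≫ ·) ψ.2.symm).trans
      ((Category.assoc _ _ _).symm.trans
        ((congrArg (· ≫ t) (IsOpenImmersion.lift_fac _ _ hr)).trans s.2))⟩ :
    SchemeHomOver (base (k := k) K) (base R))
  refine ⟨φ, Subtype.ext ?_⟩
  rw [hφ]
  exact IsOpenImmersion.lift_fac _ _ hr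

variable {C : Scheme.{u}} {c : C ⟶ Spec (CommRingCat.of k)}
variable {ε : SchemeHomOver (𝟙 (Spec (CommRingCat.of k))) c} {D : CellData k}
variable (ch : Chart c ε D)

/-- the lattice class of a class along an affine point of the base -/
def tcl {R : Type u} [CommRing R] [Algebra k R] (s : SchemeHomOver (base (k := k) R) t)
    (x : RigidifiedLineBundle.Classes c ε t) : D.Class R :=
  ch.toClass (RigidifiedLineBundle.classesMap s x)

theorem tcl_comp {R R' : Type u} [CommRing R] [Algebra k R] [CommRing R'] [Algebra k R']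
    (s : SchemeHomOver (base (k := k) R) t) (φ : R →ₐ[k] R')
    (x : RigidifiedLineBundle.Classes c ε t) :
    tcl ch (postComp s (baseHom φ)) x = D.mapClass φ (tcl ch s x) := by
  rw [tcl, tcl, ← classesMap_classesMap, ch.toClass_natural]

theorem tcl_map {T' : Scheme.{u}} {t' : T' ⟶ Spec (CommRingCat.of k)} (g : SchemeHomOver t' t)
    {R : Type u} [CommRing R] [Algebra k R] (s : SchemeHomOver (base (k := k) R) t')
    (x : RigidifiedLineBundle.Classes c ε t) :
    tcl ch s (RigidifiedLineBundle.classesMap g x) = tcl ch (postComp g s) x := by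
  rw [tcl, tcl, classesMap_classesMap]

theorem isDegZeroClass_iff (x : RigidifiedLineBundle.Classes c ε t) :
    IsDegZeroClass ch t x ↔ ∀ (K : Type u) [Field K] [Algebra k K]
      (s : SchemeHomOver (base (k := k) K) t), D.ClassDegZero K (tcl ch s x) := Iff.rfl

variable [IsAlgClosed k]

/-- degree zero at rational points is degree zero everywhere -/
theorem isDegZeroClass_of_points [LocallyOfFiniteType t] (x : RigidifiedLineBundle.Classes c ε t)
    (h : ∀ q : SchemeHomOver (base (k := k) k) t, D.ClassDegZero k (tcl ch q x)) :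
    IsDegZeroClass ch t x := by
  intro K _ _ s
  show D.ClassDegZero K (tcl ch s x)
  obtain ⟨R, _, _, ψ, hψ, hs, -⟩ := exists_affineChart t (s.1 (IsLocalRing.closedPoint K)) ⊤ trivial
  have : LocallyOfFiniteType (base (k := k) R) := ψ.2 ▸ inferInstance
  have : Algebra.FiniteType k R :=
    RingHom.finiteType_algebraMap.mp ((HasRingHomProperty.Spec_iff (P := @LocallyOfFiniteType)
      (φ := CommRingCat.ofHom (algebraMap k R))).mp ‹LocallyOfFiniteType (base (k := k) R)›)
  obtain ⟨φ, rfl⟩ := exists_factor ψ s hs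
  obtain ⟨L, hL⟩ := QuotientGroup.mk_surjective (tcl ch ψ x)
  obtain ⟨r, hr, H⟩ := D.exists_isDegZero_iff L φ
  obtain ⟨θ, hθ⟩ := exists_point_ne_zero (k := k) (r := r) fun hn => hr ((hn.map φ).eq_zero)
  rw [tcl_comp, ← hL, D.mapClass_mk, D.classDegZero_mk, ← H k θ hθ]
  have := h (postComp ψ (baseHom θ))
  rwa [tcl_comp, ← hL, D.mapClass_mk, D.classDegZero_mk] at this

/-- products of classes, read at points over fields -/
theorem exists_mul_class (x y : RigidifiedLineBundle.Classes c ε t) :
    ∃ z : RigidifiedLineBundle.Classes c ε t, ∀ (K : Type u) [Field K] [Algebra k K]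
      (s : SchemeHomOver (base (k := k) K) t), tcl ch s z = tcl ch s x * tcl ch s y := by
  choose R iR iA ψ hψ hp using fun p : T => exists_affineChart t p ⊤ trivial
  have hsurj := fun p : T => ch.toClass_surjective (R := R p) (tcl ch (ψ p) x * tcl ch (ψ p) y)
  choose z hz using hsurj
  obtain ⟨w, hw⟩ := exists_glue_classes ch (fun p : T => Spec (CommRingCat.of (R p)))
    (fun p => base (k := k) (R p)) ψ (fun p => ⟨p, (hp p).1⟩) z fun a b S _ _ f g hfg => by
      obtain ⟨φ, rfl⟩ := exists_baseHom f
      obtain ⟨φ', rfl⟩ := exists_baseHom g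
      have e : postComp (ψ a) (baseHom φ) = postComp (ψ b) (baseHom φ') := Subtype.ext hfg
      apply ch.toClass_injective
      rw [ch.toClass_natural, ch.toClass_natural, hz, hz, map_mul, map_mul, ← tcl_comp, ← tcl_comp,
        ← tcl_comp, ← tcl_comp, e]
  refine ⟨w, fun K _ _ s => ?_⟩
  obtain ⟨p, hp'⟩ : ∃ p, p = s.1 (IsLocalRing.closedPoint K) := ⟨_, rfl⟩
  have := hψ p
  obtain ⟨φ, rfl⟩ := exists_factor (ψ p) s (hp' ▸ (hp p).1)
  have e : tcl ch (ψ p) w = tcl ch (ψ p) x * tcl ch (ψ p) y := (congrArg ch.toClass (hw p)).trans (hz p)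
  rw [tcl_comp, tcl_comp, tcl_comp, e, map_mul]

namespace CellData

variable [Algebra.FiniteType k D.A] [IsDedekindDomain D.A]

/-- products of classes of degree zero have degree zero -/
theorem classDegZero_mul {x y : D.Class k} (hx : D.ClassDegZero k x) (hy : D.ClassDegZero k y) :
    D.ClassDegZero k (x * y) := by
  obtain ⟨L, rfl, hL⟩ := hx
  obtain ⟨L', rfl, hL'⟩ := hy
  obtain ⟨u, S, -, rfl⟩ := D.exists_eq_points L' hL'
  rw [← QuotientGroup.mk_mul, D.classDegZero_mk, D.lattice_comm k L, mul_assoc,
    D.isDegZero_ofSeries_mul, D.isDegZero_iff _ 0]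
  rw [D.isDegZero_iff _ 0] at hL
  rw [← hL]
  clear hL'
  induction S using Multiset.induction_on with
  | empty => rw [Multiset.map_zero, Multiset.prod_zero, one_mul]
  | cons a S ih =>
    rw [Multiset.map_cons, Multiset.prod_cons, mul_assoc, mul_assoc, euler_twist_mul,
      mul_comm (D.ptLat k a), euler_mul_ptLat]
    rw [D.euler_eq_add _ 0 (0 + -1), ih]
    ring

end CellData

namespace Rep

variable {ch} [Algebra.FiniteType k D.A] [IsDedekindDomain D.A] (r : Rep ch)

theorem degZero_tcl {R : Type u} [Field R] [Algebra k R] (s : SchemeHomOver (base (k := k) R) r.π) :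
    D.ClassDegZero R (tcl ch s r.univ) :=
  r.isDegZero R s

/-- a point is determined by its class -/
theorem ext_tcl {R : Type u} [CommRing R] [Algebra k R] {s s' : SchemeHomOver (base (k := k) R) r.π}
    (h : tcl ch s r.univ = tcl ch s' r.univ) : s = s' := by
  obtain ⟨g, -, hg⟩ := r.existsUnique (base (k := k) R) (RigidifiedLineBundle.classesMap s r.univ)
    fun K _ _ q => by
      rw [← classesMap_classesMap.{u} s q r.univ |>.symm]
      exact r.isDegZero K (postComp s q)
  exact (hg s rfl).trans (hg s' (ch.toClass_injective h.symm)).symm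

/-- a morphism to the scheme from a class of degree zero at rational points -/
theorem exists_hom {T : Scheme.{u}} {t : T ⟶ Spec (CommRingCat.of k)} [LocallyOfFiniteType t]
    (x : RigidifiedLineBundle.Classes c ε t)
    (h : ∀ q : SchemeHomOver (base (k := k) k) t, D.ClassDegZero k (tcl ch q x)) :
    ∃ g : SchemeHomOver t r.π, ∀ (K : Type u) [Field K] [Algebra k K]
      (q : SchemeHomOver (base (k := k) K) t), tcl ch (postComp g q) r.univ = tcl ch q x := by
  obtain ⟨g, hg, -⟩ := r.existsUnique t x (isDegZeroClass_of_points ch x h)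
  refine ⟨g, fun K _ _ q => ?_⟩
  rw [← tcl_map, hg]

/-- addition -/
theorem exists_add [LocallyOfFiniteType r.π] :
    ∃ a : SchemeHomOver (pullback.fst r.π r.π ≫ r.π) r.π,
      ∀ q : SchemeHomOver (base (k := k) k) (pullback.fst r.π r.π ≫ r.π),
        tcl ch (postComp a q) r.univ =
          tcl ch (postComp ⟨pullback.fst r.π r.π, rfl⟩ q) r.univ *
            tcl ch (postComp ⟨pullback.snd r.π r.π, pullback.condition.symm⟩ q) r.univ := by
  let p₁ : SchemeHomOver (pullback.fst r.π r.π ≫ r.π) r.π := ⟨pullback.fst r.π r.π, rfl⟩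
  let p₂ : SchemeHomOver (pullback.fst r.π r.π ≫ r.π) r.π :=
    ⟨pullback.snd r.π r.π, pullback.condition.symm⟩
  obtain ⟨z, hz⟩ := exists_mul_class ch (RigidifiedLineBundle.classesMap p₁ r.univ)
    (RigidifiedLineBundle.classesMap p₂ r.univ)
  obtain ⟨a, ha⟩ := r.exists_hom z fun q => by
    rw [hz, tcl_map, tcl_map]
    exact D.classDegZero_mul (r.degZero_tcl _) (r.degZero_tcl _)
  refine ⟨a, fun q => ?_⟩
  rw [ha, hz, tcl_map, tcl_map]

end Rep

end FLTAgent.RelPic

end
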