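import Fermat.Agent.RelPic.RepCurve

/-!
Area S25, parcel G: powers of the curve surject to a representing scheme, so it is universally
closed and irreducible.
-/

set_option autoImplicit false
set_option linter.unusedSectionVars false
set_option synthInstance.maxHeartbeats 200000

noncomputable section

universe u

open CategoryTheory CategoryTheory.Limits AlgebraicGeometry TopologicalSpace ModularCurve
open AlgebraicGeometry.RelPicard NeronModelInfra

namespace FLTAgent.RelPic

variable {k : Type u} [Field k] [IsAlgClosed k]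

theorem base_comp {X : Scheme.{u}} (f : Spec (CommRingCat.of k) ⟶ X) : base (k := k) k ≫ f = f := by
  rw [base_self, Category.id_comp]

/-- closed points are rational -/
theorem exists_rationalPoint {T : Scheme.{u}} (t : T ⟶ Spec (CommRingCat.of k))
    [LocallyOfFiniteType t] (x : T) (hx : IsClosed {x}) :
    ∃ q : SchemeHomOver (base (k := k) k) t, q.1 (IsLocalRing.closedPoint k) = x :=
  ⟨⟨pointOfClosedPoint t x hx, (pointOfClosedPoint_comp t x hx).trans base_self.symm⟩,
    pointOfClosedPoint_apply t x hx _⟩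

/-- a closed set with all closed points is everything -/
theorem eq_univ_of_closedPoints {T : Scheme.{u}} (t : T ⟶ Spec (CommRingCat.of k))
    [LocallyOfFiniteType t] {Z : Set T} (hZ : IsClosed Z) (h : ∀ x, IsClosed {x} → x ∈ Z) :
    Z = Set.univ := by
  have : JacobsonSpace T := LocallyOfFiniteType.jacobsonSpace t
  refine Set.eq_univ_of_univ_subset ?_
  rw [← closure_closedPoints]
  exact closure_minimal (fun x hx => h x hx) hZ

/-- over an algebraically closed field a product of irreducible schemes is irreducible -/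
theorem irreducibleSpace_pullback {T T' : Scheme.{u}} (t : T ⟶ Spec (CommRingCat.of k))
    (t' : T' ⟶ Spec (CommRingCat.of k)) [LocallyOfFiniteType t] [LocallyOfFiniteType t']
    [IrreducibleSpace T] [IrreducibleSpace T'] : IrreducibleSpace ↥(pullback t t') := by
  have : JacobsonSpace T := LocallyOfFiniteType.jacobsonSpace t
  have : JacobsonSpace T' := LocallyOfFiniteType.jacobsonSpace t'
  let pt := IsLocalRing.closedPoint k
  let σ : SchemeHomOver (base (k := k) k) t → (T' ⟶ pullback t t') := fun a =>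
    pullback.lift (t' ≫ a.1) (𝟙 T')
      (by rw [Category.assoc, a.2, base_self, Category.comp_id, Category.id_comp])
  let τ : SchemeHomOver (base (k := k) k) t' → (T ⟶ pullback t t') := fun b =>
    pullback.lift (𝟙 T) (t ≫ b.1)
      (by rw [Category.assoc, b.2, base_self, Category.comp_id, Category.id_comp])
  have hστ : ∀ a b, a.1 ≫ τ b = b.1 ≫ σ a := fun a b => by
    apply pullback.hom_ext
    · simp only [τ, σ, Category.assoc, pullback.lift_fst, Category.comp_id]
      rw [← Category.assoc, b.2, base_comp]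
    · simp only [τ, σ, Category.assoc, pullback.lift_snd, Category.comp_id]
      rw [← Category.assoc, a.2, base_comp]
  have hστ' : ∀ a b, τ b (a.1 pt) = σ a (b.1 pt) := fun a b => by
    show (a.1 ≫ τ b) pt = (b.1 ≫ σ a) pt
    rw [hστ]
  have hne : Nonempty ↥(pullback t t') := by
    obtain ⟨x, -, hx⟩ := nonempty_inter_closedPoints (X := T) Set.univ_nonempty
      isClosed_univ.isLocallyClosed
    obtain ⟨a, -⟩ := exists_rationalPoint t x hx
    exact ⟨σ a (IrreducibleSpace.toNonempty.some)⟩
  refine { toPreirreducibleSpace := ⟨?_⟩, toNonempty := hne }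
  rw [isPreirreducible_iff_isClosed_union_isClosed]
  intro Z₁ Z₂ hZ₁ hZ₂ hZ
  let A : Set ↥(pullback t t') → Set T := fun Z => ⋂ b, τ b ⁻¹' Z
  have hA : ∀ Z, IsClosed Z → IsClosed (A Z) := fun Z h =>
    isClosed_iInter fun b => h.preimage (τ b).continuous
  have hcov : A Z₁ ∪ A Z₂ = Set.univ := by
    refine eq_univ_of_closedPoints t ((hA _ hZ₁).union (hA _ hZ₂)) fun x hx => ?_
    obtain ⟨a, rfl⟩ := exists_rationalPoint t x hx
    have h := (IrreducibleSpace.isIrreducible_univ T').image _ (σ a).continuous.continuousOn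
    rcases isPreirreducible_iff_isClosed_union_isClosed.mp h.2 Z₁ Z₂ hZ₁ hZ₂
      ((Set.subset_univ _).trans hZ) with h' | h'
    · exact Or.inl (Set.mem_iInter.mpr fun b => by
        rw [Set.mem_preimage, hστ']; exact h' ⟨_, trivial, rfl⟩)
    · exact Or.inr (Set.mem_iInter.mpr fun b => by
        rw [Set.mem_preimage, hστ']; exact h' ⟨_, trivial, rfl⟩)
  have key : ∀ Z, IsClosed Z → Set.univ ⊆ A Z → Set.univ ⊆ Z := fun Z hZc hAZ => by
    refine (eq_univ_of_closedPoints (pullback.fst t t' ≫ t) hZc fun p hp => ?_).ge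
    obtain ⟨q, rfl⟩ := exists_rationalPoint (pullback.fst t t' ≫ t) p hp
    let a : SchemeHomOver (base (k := k) k) t :=
      ⟨q.1 ≫ pullback.fst t t', (Category.assoc _ _ _).trans q.2⟩
    let b : SchemeHomOver (base (k := k) k) t' :=
      ⟨q.1 ≫ pullback.snd t t', (Category.assoc _ _ _).trans
        ((congrArg (q.1 ≫ ·) pullback.condition.symm).trans q.2)⟩
    have e : q.1 = a.1 ≫ τ b := by
      apply pullback.hom_ext
      · simp only [τ, a, b, Category.assoc, pullback.lift_fst, Category.comp_id]
      · simp only [τ, a, b, Category.assoc, pullback.lift_snd]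
        rw [← Category.assoc (pullback.fst t t'), ← Category.assoc q.1, q.2, base_comp]
    rw [e]
    show τ b (a.1 pt) ∈ Z
    exact Set.mem_iInter.mp (hAZ trivial) b
  rcases isPreirreducible_iff_isClosed_union_isClosed.mp (IrreducibleSpace.isIrreducible_univ T).2
    _ _ (hA _ hZ₁) (hA _ hZ₂) hcov.ge with h | h
  · exact Or.inl (key _ hZ₁ h)
  · exact Or.inr (key _ hZ₂ h)

variable {C : Scheme.{u}} {c : C ⟶ Spec (CommRingCat.of k)}
variable [IsIntegral C] [IsProper c] [SmoothOfRelativeDimension 1 c]
variable {ε : SchemeHomOver (𝟙 (Spec (CommRingCat.of k))) c} {D : CellData k}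
variable {ch : Chart c ε D} [Algebra.FiniteType k D.A] [IsDedekindDomain D.A]
variable (r : Rep ch) [LocallyOfFiniteType r.π] [IsSeparated r.π]

/-- powers of the curve reach all sums of points -/
theorem Rep.exists_pow (n : ℕ) : ∃ (T : Scheme.{u}) (t : T ⟶ Spec (CommRingCat.of k))
    (_ : IsProper t) (_ : IrreducibleSpace T) (Φ : SchemeHomOver t r.π),
    ∀ S : Multiset (D.A →ₐ[k] k), Multiset.card S ≤ n →
      ∃ q : SchemeHomOver (base (k := k) k) t, tcl ch (postComp Φ q) r.univ =
        (S.map fun θ => (QuotientGroup.mk (D.twist k (-1) * D.ptLat k θ) : D.Class k)).prod := by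
  induction n with
  | zero =>
    let one : RigidifiedLineBundle.Classes c ε (base (k := k) k) :=
      Quotient.mk _ (RigidifiedLineBundle.unit (c := c) (ε := ε) (base (k := k) k))
    have key : ∀ q : SchemeHomOver (base (k := k) k) (base k), tcl ch q one = 1 := fun q => by
      obtain ⟨φ, rfl⟩ := exists_baseHom q
      exact (ch.toClass_natural φ one).trans ((congrArg _ ch.toClass_unit).trans (map_one _))
    have : IsProper (base (k := k) k) := by rw [base_self]; infer_instance
    obtain ⟨Φ, hΦ⟩ := r.exists_hom one fun q => by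
      rw [key, ← QuotientGroup.mk_one, D.classDegZero_mk]
      exact D.isDegZero_one
    refine ⟨Spec (CommRingCat.of k), base k, this,
      inferInstanceAs (IrreducibleSpace (PrimeSpectrum k)), Φ,
      fun S hS => ⟨⟨𝟙 _, Category.id_comp _⟩, ?_⟩⟩
    rw [hΦ, key, Multiset.card_eq_zero.mp (Nat.le_zero.mp hS), Multiset.map_zero,
      Multiset.prod_zero]
  | succ n ih =>
    obtain ⟨T, t, _, _, Φ, hΦ⟩ := ih
    obtain ⟨g, hg⟩ := r.exists_curveHom ch
    obtain ⟨a, ha⟩ := r.exists_add
    let m : pullback t c ⟶ pullback r.π r.π :=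
      pullback.lift (pullback.fst t c ≫ Φ.1) (pullback.snd t c ≫ g.1)
        (by rw [Category.assoc, Category.assoc, Φ.2, g.2, pullback.condition])
    let Φ' : SchemeHomOver (pullback.fst t c ≫ t) r.π :=
      ⟨m ≫ a.1, by
        rw [Category.assoc, a.2, ← Category.assoc, pullback.lift_fst, Category.assoc, Φ.2]⟩
    refine ⟨_, pullback.fst t c ≫ t, inferInstance, irreducibleSpace_pullback t c, Φ',
      fun S hS => ?_⟩
    have step : ∀ (S' : Multiset (D.A →ₐ[k] k)), Multiset.card S' ≤ n →
        ∀ b : SchemeHomOver (base (k := k) k) c, ∃ q, tcl ch (postComp Φ' q) r.univ =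
          (S'.map fun θ => (QuotientGroup.mk (D.twist k (-1) * D.ptLat k θ) : D.Class k)).prod *
            ch.ptClass b := fun S' hS' b => by
      obtain ⟨q, hq⟩ := hΦ S' hS'
      let q' : SchemeHomOver (base (k := k) k) (pullback.fst t c ≫ t) :=
        ⟨pullback.lift q.1 b.1 (q.2.trans b.2.symm), by
          rw [← Category.assoc, pullback.lift_fst, q.2]⟩
      have hm : (m ≫ pullback.fst r.π r.π) ≫ r.π = pullback.fst t c ≫ t := by
        rw [pullback.lift_fst, Category.assoc, Φ.2]
      let qm : SchemeHomOver (base (k := k) k) (pullback.fst r.π r.π ≫ r.π) :=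
        ⟨q'.1 ≫ m, by rw [Category.assoc, ← Category.assoc m, hm, q'.2]⟩
      refine ⟨q', ?_⟩
      have e : postComp Φ' q' = postComp a qm :=
        Subtype.ext (Category.assoc _ _ _).symm
      have e1 : postComp (⟨pullback.fst r.π r.π, rfl⟩ :
          SchemeHomOver (pullback.fst r.π r.π ≫ r.π) r.π) qm = postComp Φ q :=
        Subtype.ext (by
          show (pullback.lift q.1 b.1 _ ≫ m) ≫ pullback.fst r.π r.π = q.1 ≫ Φ.1
          rw [Category.assoc, pullback.lift_fst, ← Category.assoc, pullback.lift_fst])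
      have e2 : postComp (⟨pullback.snd r.π r.π, pullback.condition.symm⟩ :
          SchemeHomOver (pullback.fst r.π r.π ≫ r.π) r.π) qm = postComp g b :=
        Subtype.ext (by
          show (pullback.lift q.1 b.1 _ ≫ m) ≫ pullback.snd r.π r.π = b.1 ≫ g.1
          rw [Category.assoc, pullback.lift_snd, ← Category.assoc, pullback.lift_snd])
      rw [e, ha, e1, e2, hq, hg]
    by_cases hn : Multiset.card S ≤ n
    · obtain ⟨q, hq⟩ := step S hn ⟨ε.1, ε.2.trans base_self.symm⟩
      refine ⟨q, hq.trans ?_⟩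
      rw [ch.ptClass_of_notMem _ fun h => ?_, mul_one]
      exact (show x0 c ε ∈ ({x0 c ε}ᶜ : Set C) from ch.coe_U ▸ h) rfl
    · obtain ⟨θ, S', rfl⟩ : ∃ θ S', S = θ ::ₘ S' := by
        obtain ⟨θ, hθ⟩ := Multiset.card_pos_iff_exists_mem.mp (by omega : 0 < Multiset.card S)
        exact ⟨θ, Multiset.exists_cons_of_mem hθ⟩
      rw [Multiset.card_cons] at hS
      obtain ⟨q, hq⟩ := step S' (by omega)
        (postComp (openChart ch.hU) (baseHom (θ.comp ch.secU.toAlgHom)))
      refine ⟨q, hq.trans ?_⟩
      rw [ch.ptClass_openChart, Multiset.map_cons, Multiset.prod_cons, mul_comm,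
        show (θ.comp ch.secU.toAlgHom).comp ch.secU.symm.toAlgHom = θ from
          AlgHom.ext fun x => congrArg θ (ch.secU.apply_symm_apply x)]

/-- a power of the curve surjects to the scheme -/
theorem Rep.exists_surjective : ∃ (T : Scheme.{u}) (t : T ⟶ Spec (CommRingCat.of k))
    (_ : IsProper t) (_ : IrreducibleSpace T) (Φ : SchemeHomOver t r.π),
    Function.Surjective Φ.1 := by
  obtain ⟨T, t, ht, hT, Φ, hΦ⟩ := r.exists_pow D.G.card
  refine ⟨T, t, ht, hT, Φ, Set.range_eq_univ.mp ?_⟩
  have : IsProper (Φ.1 ≫ r.π) := Φ.2.symm ▸ ht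
  have : IsProper Φ.1 := IsProper.of_comp Φ.1 r.π
  refine eq_univ_of_closedPoints r.π Φ.1.isClosedMap.isClosed_range fun y hy => ?_
  obtain ⟨s, rfl⟩ := exists_rationalPoint r.π y hy
  obtain ⟨L, hL, hL'⟩ := r.degZero_tcl s
  obtain ⟨u, S, hS, rfl⟩ := D.exists_eq_points L hL'
  obtain ⟨q, hq⟩ := hΦ S hS
  have e : postComp Φ q = s := by
    refine r.ext_tcl (hq.trans (hL ▸ ?_))
    rw [QuotientGroup.mk_mul,
      show (QuotientGroup.mk (D.ofSeries k u) : D.Class k) = 1 from
        (QuotientGroup.eq_one_iff _).mpr ⟨u, rfl⟩, one_mul,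
      ← QuotientGroup.mk'_apply (D.ofSeries k).range, map_multiset_prod, Multiset.map_map]
    rfl
  exact ⟨q.1 (IsLocalRing.closedPoint k), congrArg (fun x => x.1 (IsLocalRing.closedPoint k)) e⟩

/-- the scheme is proper -/
theorem Rep.isProper : IsProper r.π := by
  obtain ⟨T, t, ht, -, Φ, hΦ⟩ := r.exists_surjective
  have : Surjective Φ.1 := ⟨hΦ⟩
  have : UniversallyClosed (Φ.1 ≫ r.π) := Φ.2.symm ▸ inferInstance
  have : UniversallyClosed r.π := UniversallyClosed.of_comp_surjective Φ.1 r.π
  exact {}

/-- the scheme is irreducible -/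
theorem Rep.irreducibleSpace : IrreducibleSpace r.J := by
  obtain ⟨T, t, -, hT, Φ, hΦ⟩ := r.exists_surjective
  have h := (IrreducibleSpace.isIrreducible_univ T).image _ Φ.1.continuous.continuousOn
  rw [Set.image_univ, hΦ.range_eq] at h
  exact { toPreirreducibleSpace := ⟨h.2⟩, toNonempty := ⟨h.1.some⟩ }

end FLTAgent.RelPic

end
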