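import Fermat.Agent.RelPic.Rep
import Fermat.Agent.RelPic.CellSmooth

/-!
Area S25, parcel G: elementary properties of a scheme representing the classes of degree zero; it is
smooth.
-/

set_option autoImplicit false
set_option linter.unusedSectionVars false

noncomputable section

universe u

open CategoryTheory CategoryTheory.Limits AlgebraicGeometry TopologicalSpace ModularCurve
open AlgebraicGeometry.RelPicard NeronModelInfra

namespace FLTAgent.RelPic

variable {k : Type u} [Field k] {C : Scheme.{u}} {c : C ⟶ Spec (CommRingCat.of k)}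
variable {ε : SchemeHomOver (𝟙 (Spec (CommRingCat.of k))) c} {D : CellData k}

/-- composition of maps of bases -/
def overComp {T T' T'' : Scheme.{u}} {t : T ⟶ Spec (CommRingCat.of k)}
    {t' : T' ⟶ Spec (CommRingCat.of k)} {t'' : T'' ⟶ Spec (CommRingCat.of k)}
    (ψ : SchemeHomOver t'' t') (φ : SchemeHomOver t' t) : SchemeHomOver t'' t :=
  postComp φ ψ

theorem classesMap_comp {T T' T'' : Scheme.{u}} {t : T ⟶ Spec (CommRingCat.of k)}
    {t' : T' ⟶ Spec (CommRingCat.of k)} {t'' : T'' ⟶ Spec (CommRingCat.of k)}
    (ψ : SchemeHomOver t'' t') (φ : SchemeHomOver t' t)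
    (x : RigidifiedLineBundle.Classes c ε t) :
    RigidifiedLineBundle.classesMap ψ (RigidifiedLineBundle.classesMap φ x) =
      RigidifiedLineBundle.classesMap (overComp ψ φ) x := by
  induction x using Quotient.ind with | _ M =>
  exact Quotient.sound ⟨(Scheme.Modules.pullbackComp _ _).app M.L ≪≫
    (Scheme.Modules.pullbackCongr (baseChangeSnd_comp c φ ψ)).app M.L⟩

variable (ch : Chart c ε D)

theorem IsDegZeroClass.classesMap {T T' : Scheme.{u}} {t : T ⟶ Spec (CommRingCat.of k)}
    {t' : T' ⟶ Spec (CommRingCat.of k)} (φ : SchemeHomOver t' t)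
    {x : RigidifiedLineBundle.Classes c ε t} (h : IsDegZeroClass ch t x) :
    IsDegZeroClass ch t' (RigidifiedLineBundle.classesMap φ x) := by
  intro K _ _ s
  rw [classesMap_comp]
  exact h K _

theorem isDegZeroClass_unit [IsAlgClosed k] [Algebra.FiniteType k D.A] [IsDedekindDomain D.A]
    {T : Scheme.{u}} (t : T ⟶ Spec (CommRingCat.of k)) :
    IsDegZeroClass ch t (Quotient.mk _ (RigidifiedLineBundle.unit t)) := by
  intro K _ _ s
  have e : RigidifiedLineBundle.classesMap s (Quotient.mk _
      (RigidifiedLineBundle.unit (c := c) (ε := ε) t)) =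
      Quotient.mk _ (RigidifiedLineBundle.unit (c := c) (ε := ε) (base (k := k) K)) :=
    Quotient.sound ⟨Scheme.Modules.pullbackUnitIso _⟩
  rw [e, ch.toClass_unit]
  exact ⟨1, rfl, D.isDegZero_one⟩

variable {ch} [IsAlgClosed k] [Algebra.FiniteType k D.A] [IsDedekindDomain D.A]

namespace Rep

variable (r : Rep ch)

/-- the point of the scheme of a class of degree zero -/
theorem hom_ext {T : Scheme.{u}} {t : T ⟶ Spec (CommRingCat.of k)} (g g' : SchemeHomOver t r.π)
    (h : RigidifiedLineBundle.classesMap g r.univ = RigidifiedLineBundle.classesMap g' r.univ) :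
    g = g' :=
  (r.existsUnique t _ (r.isDegZero.classesMap ch g')).unique h rfl

/-- the charts as a cover -/
def cellCover : r.J.OpenCover :=
  Scheme.Cover.mkOfCovers {p : D.Lattice k // D.IsDegZero k p} (fun _ => Spec (CommRingCat.of D.Ring))
    (fun p => (r.cell p.1 p.2).1)
    (fun y => by
      obtain ⟨P, hP, x, hx⟩ := r.exists_mem_cell y
      exact ⟨⟨P, hP⟩, x, hx⟩)
    fun p => r.isOpenImmersion_cell p.1 p.2

/-- the representing scheme is smooth -/
theorem smooth : Smooth r.π := by
  have hloc : IsZariskiLocalAtSource @Smooth.{u} :=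
    HasRingHomProperty.instIsZariskiLocalAtSource (P := @Smooth.{u}) (Q := RingHom.Smooth)
  refine hloc.of_openCover r.cellCover fun p => ?_
  show Smooth ((r.cell p.1 p.2).1 ≫ r.π)
  rw [(r.cell p.1 p.2).2, HasRingHomProperty.Spec_iff (P := @Smooth), CommRingCat.hom_ofHom,
    RingHom.smooth_algebraMap]
  infer_instance

theorem locallyOfFiniteType : LocallyOfFiniteType r.π :=
  have := r.smooth
  inferInstance

end Rep

end FLTAgent.RelPic

end
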